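import Mathlib

/-!
# S17, part H (heights): absolute values on `ℚ̄`, `M`-constants, sup norms, minor norms

Definitions only.  Owner of this file: helper257.
-/

set_option autoImplicit false

noncomputable section

namespace Fermat.Agent.S17.H

/-- The algebraic closure of `ℚ` used in the frozen statement. -/
abbrev Qb : Type := AlgebraicClosure ℚ

/-- The places of `ℚ`: `none` is the real place, `some p` the `p`-adic one. -/
abbrev Pl : Type := Option Nat.Primes

/-- One chosen extension to `ℚ̄` of every place of `ℚ`. -/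
structure AbsFam where
  av : Pl → AbsoluteValue Qb ℝ
  nonarch : ∀ p : Nat.Primes, IsNonarchimedean (av (some p))
  av_fin : ∀ (p : Nat.Primes) (x : ℚ), av (some p) (algebraMap ℚ Qb x) = (padicNorm p x : ℝ)
  av_inf : ∀ x : ℚ, av none (algebraMap ℚ Qb x) = |(x : ℝ)|

/-- An `M`-constant: a nonnegative function on the places with finite support. -/
structure MConst where
  c : Pl → ℝ
  nonneg : ∀ v, 0 ≤ c v
  fin : (Function.support c).Finite

/-- The total mass of an `M`-constant. -/
def MConst.tot (γ : MConst) : ℝ := ∑ᶠ v, γ.c v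

/-- Sup norm of a vector at the place `v`. -/
def vnorm (𝔳 : AbsFam) (v : Pl) {ι : Type*} (x : ι → Qb) : ℝ := ⨆ i, 𝔳.av v (x i)

/-- Sup norm of the maximal minors (rows indexed by `ι`) of a matrix at the place `v`. -/
def wnorm (𝔳 : AbsFam) (v : Pl) {ι κ : Type*} [Fintype ι] [DecidableEq ι] (X : Matrix ι κ Qb) : ℝ :=
  ⨆ K : ι → κ, 𝔳.av v (Matrix.det (X.submatrix id K))

/-- `max 1 |a|_v`. -/
def mx (𝔳 : AbsFam) (v : Pl) (a : Qb) : ℝ := max 1 (𝔳.av v a)

/-- Global (projective, logarithmic) height of a vector. -/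
def ht (𝔳 : AbsFam) {ι : Type*} (x : ι → Qb) : ℝ := ∑ᶠ v, Real.log (vnorm 𝔳 v x)

/-- Global height of a matrix: height of the vector of its maximal minors. -/
def wht (𝔳 : AbsFam) {ι κ : Type*} [Fintype ι] [DecidableEq ι] (X : Matrix ι κ Qb) : ℝ :=
  ∑ᶠ v, Real.log (wnorm 𝔳 v X)

/-- the archimedean correction factor: `n` at the real place, `1` at the finite places. -/
def ac (v : Pl) (n : ℕ) : ℝ := match v with
  | none => n
  | some _ => 1

/-- a family of rational vectors as a matrix over `ℚ̄`. -/
def ratMat {ι κ : Type*} (a : ι → κ → ℚ) : Matrix ι κ Qb := fun i k => algebraMap ℚ Qb (a i k)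

/-- a rational vector as a vector over `ℚ̄`. -/
def ratVec {κ : Type*} (a : κ → ℚ) : κ → Qb := fun k => algebraMap ℚ Qb (a k)

/-- the (Schmidt) height of a rational subspace: height of the Plücker vector of a basis. -/
def subHt (𝔳 : AbsFam) {κ : Type*} [Fintype κ] (W : Submodule ℚ (κ → ℚ)) : ℝ :=
  wht 𝔳 (ratMat fun i : Fin (Module.finrank ℚ W) => ((Module.finBasis ℚ W i : W) : κ → ℚ))

/-- add one row to a matrix. -/
def optMat {ι κ : Type*} (X : Matrix ι κ Qb) (x : κ → Qb) : Matrix (Option ι) κ Qb :=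
  fun o => o.elim x X

/-- the linear map `y ↦ s * y` attached to rational structure constants `c`. -/
def mulMap {α κ κ' : Type*} [Fintype α] [Fintype κ] (c : α → κ → κ' → ℚ) (s : α → ℚ) :
    (κ → ℚ) →ₗ[ℚ] (κ' → ℚ) where
  toFun y := fun k' => ∑ a, ∑ k, c a k k' * s a * y k
  map_add' y z := by
    funext k'
    simp [mul_add, Finset.sum_add_distrib]
  map_smul' r y := by
    funext k'
    simp only [Pi.smul_apply, smul_eq_mul, RingHom.id_apply, Finset.mul_sum]
    refine Finset.sum_congr rfl fun a _ => Finset.sum_congr rfl fun k _ => ?_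
    ring

end Fermat.Agent.S17.H
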