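import Fermat.Agent.S17.H.Abs

/-!
# S17, part H: basic API for `AbsFam`, `vnorm`, `wnorm`, `mx`, `ac`, `MConst`, finite supports
(task S17-H-ABS0, helper169)
-/

set_option autoImplicit false

noncomputable section

open scoped Classical

namespace Fermat.Agent.S17.H

variable (𝔳 : AbsFam) (v : Pl)

/-! ### Suprema of finitely many absolute values -/

section sup

theorem bddAbove_range_av {J : Type*} [Finite J] (y : J → Qb) :
    BddAbove (Set.range fun j => 𝔳.av v (y j)) := (Set.finite_range _).bddAbove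

theorem iSup_av_nonneg {J : Type*} (y : J → Qb) : 0 ≤ ⨆ j, 𝔳.av v (y j) :=
  Real.iSup_nonneg fun _ => (𝔳.av v).nonneg _

end sup

/-! ### `vnorm` -/

section vnorm

variable {ι : Type*}

theorem vnorm_def (x : ι → Qb) : vnorm 𝔳 v x = ⨆ i, 𝔳.av v (x i) := rfl

theorem vnorm_nonneg (x : ι → Qb) : 0 ≤ vnorm 𝔳 v x := iSup_av_nonneg 𝔳 v x

theorem le_vnorm [Finite ι] (x : ι → Qb) (i : ι) : 𝔳.av v (x i) ≤ vnorm 𝔳 v x :=
  le_ciSup (bddAbove_range_av 𝔳 v x) i

theorem vnorm_le {x : ι → Qb} {c : ℝ} (hc : 0 ≤ c) (h : ∀ i, 𝔳.av v (x i) ≤ c) :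
    vnorm 𝔳 v x ≤ c := Real.iSup_le h hc

theorem vnorm_le_iff [Finite ι] {x : ι → Qb} {c : ℝ} (hc : 0 ≤ c) :
    vnorm 𝔳 v x ≤ c ↔ ∀ i, 𝔳.av v (x i) ≤ c :=
  ⟨fun h i => (le_vnorm 𝔳 v x i).trans h, vnorm_le 𝔳 v hc⟩

theorem exists_eq_vnorm [Finite ι] [Nonempty ι] (x : ι → Qb) :
    ∃ i, 𝔳.av v (x i) = vnorm 𝔳 v x :=
  exists_eq_ciSup_of_finite (f := fun i => 𝔳.av v (x i))

theorem vnorm_of_isEmpty [IsEmpty ι] (x : ι → Qb) : vnorm 𝔳 v x = 0 := Real.iSup_of_isEmpty _

@[simp] theorem vnorm_zero : vnorm 𝔳 v (0 : ι → Qb) = 0 := by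
  refine le_antisymm (vnorm_le 𝔳 v le_rfl fun i => ?_) (vnorm_nonneg 𝔳 v _)
  simp

theorem vnorm_pos_iff [Finite ι] (x : ι → Qb) : 0 < vnorm 𝔳 v x ↔ x ≠ 0 := by
  constructor
  · rintro h rfl
    simp at h
  · intro h
    obtain ⟨i, hi⟩ := Function.ne_iff.1 h
    exact ((𝔳.av v).pos hi).trans_le (le_vnorm 𝔳 v x i)

theorem vnorm_pos [Finite ι] {x : ι → Qb} (hx : x ≠ 0) : 0 < vnorm 𝔳 v x :=
  (vnorm_pos_iff 𝔳 v x).2 hx

theorem vnorm_eq_zero_iff [Finite ι] (x : ι → Qb) : vnorm 𝔳 v x = 0 ↔ x = 0 := by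
  constructor
  · intro h
    by_contra hx
    exact (vnorm_pos 𝔳 v hx).ne' h
  · rintro rfl
    simp

theorem vnorm_smul (c : Qb) (x : ι → Qb) : vnorm 𝔳 v (c • x) = 𝔳.av v c * vnorm 𝔳 v x := by
  rw [vnorm_def, vnorm_def, Real.mul_iSup_of_nonneg ((𝔳.av v).nonneg c)]
  simp

theorem vnorm_mono [Finite ι] {x y : ι → Qb} (h : ∀ i, 𝔳.av v (x i) ≤ 𝔳.av v (y i)) :
    vnorm 𝔳 v x ≤ vnorm 𝔳 v y :=
  vnorm_le 𝔳 v (vnorm_nonneg 𝔳 v y) fun i => (h i).trans (le_vnorm 𝔳 v y i)

theorem vnorm_neg (x : ι → Qb) : vnorm 𝔳 v (-x) = vnorm 𝔳 v x := by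
  rw [vnorm_def, vnorm_def]
  simp

end vnorm

/-! ### `wnorm` -/

section wnorm

variable {ι κ : Type*} [Fintype ι] [DecidableEq ι]

theorem wnorm_def (X : Matrix ι κ Qb) :
    wnorm 𝔳 v X = ⨆ K : ι → κ, 𝔳.av v (Matrix.det (X.submatrix id K)) := rfl

theorem wnorm_nonneg (X : Matrix ι κ Qb) : 0 ≤ wnorm 𝔳 v X :=
  iSup_av_nonneg 𝔳 v fun K : ι → κ => Matrix.det (X.submatrix id K)

theorem le_wnorm [Finite κ] (X : Matrix ι κ Qb) (K : ι → κ) :
    𝔳.av v (Matrix.det (X.submatrix id K)) ≤ wnorm 𝔳 v X :=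
  le_ciSup (bddAbove_range_av 𝔳 v fun K : ι → κ => Matrix.det (X.submatrix id K)) K

theorem wnorm_le {X : Matrix ι κ Qb} {c : ℝ} (hc : 0 ≤ c)
    (h : ∀ K : ι → κ, 𝔳.av v (Matrix.det (X.submatrix id K)) ≤ c) : wnorm 𝔳 v X ≤ c :=
  Real.iSup_le h hc

theorem exists_eq_wnorm [Finite κ] [Nonempty (ι → κ)] (X : Matrix ι κ Qb) :
    ∃ K : ι → κ, 𝔳.av v (Matrix.det (X.submatrix id K)) = wnorm 𝔳 v X :=
  exists_eq_ciSup_of_finite (f := fun K : ι → κ => 𝔳.av v (Matrix.det (X.submatrix id K)))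

theorem wnorm_of_isEmpty [IsEmpty ι] (X : Matrix ι κ Qb) : wnorm 𝔳 v X = 1 := by
  rw [wnorm_def]
  simp [Matrix.det_isEmpty]

end wnorm

/-! ### `mx` -/

section mx

theorem mx_def (a : Qb) : mx 𝔳 v a = max 1 (𝔳.av v a) := rfl

theorem one_le_mx (a : Qb) : 1 ≤ mx 𝔳 v a := le_max_left _ _

theorem av_le_mx (a : Qb) : 𝔳.av v a ≤ mx 𝔳 v a := le_max_right _ _

theorem mx_pos (a : Qb) : 0 < mx 𝔳 v a := zero_lt_one.trans_le (one_le_mx 𝔳 v a)

theorem mx_ne_zero (a : Qb) : mx 𝔳 v a ≠ 0 := (mx_pos 𝔳 v a).ne'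

theorem log_mx_nonneg (a : Qb) : 0 ≤ Real.log (mx 𝔳 v a) := Real.log_nonneg (one_le_mx 𝔳 v a)

theorem mx_le {a : Qb} {c : ℝ} (h1 : 1 ≤ c) (h : 𝔳.av v a ≤ c) : mx 𝔳 v a ≤ c := max_le h1 h

end mx

/-! ### `ac` and sums -/

section ac

@[simp] theorem ac_none (n : ℕ) : ac none n = n := rfl

@[simp] theorem ac_some (p : Nat.Primes) (n : ℕ) : ac (some p) n = 1 := rfl

theorem ac_nonneg (n : ℕ) : 0 ≤ ac v n := by
  cases v with
  | none => simp
  | some p => simp

theorem one_le_ac {n : ℕ} (hn : 1 ≤ n) : 1 ≤ ac v n := by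
  cases v with
  | none => simpa using hn
  | some p => simp

theorem ac_pos {n : ℕ} (hn : 1 ≤ n) : 0 < ac v n := zero_lt_one.trans_le (one_le_ac v hn)

theorem ac_mono {m n : ℕ} (h : m ≤ n) : ac v m ≤ ac v n := by
  cases v with
  | none => simpa using h
  | some p => simp

theorem ac_mul (m n : ℕ) : ac v (m * n) = ac v m * ac v n := by
  cases v with
  | none => simp
  | some p => simp

theorem log_ac_nonneg (n : ℕ) : 0 ≤ Real.log (ac v n) := by
  cases v with
  | none => simpa using Real.log_natCast_nonneg n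
  | some p => simp

/-- ultrametric inequality for finite sums at a finite place. -/
theorem av_sum_le_of_some (p : Nat.Primes) {α : Type*} (s : Finset α) (f : α → Qb) {c : ℝ}
    (hc : 0 ≤ c) (h : ∀ i ∈ s, 𝔳.av (some p) (f i) ≤ c) : 𝔳.av (some p) (∑ i ∈ s, f i) ≤ c := by
  induction s using Finset.induction_on with
  | empty => simpa using hc
  | insert a s ha ih =>
    rw [Finset.sum_insert ha]
    refine (𝔳.nonarch p _ _).trans (max_le (h a (Finset.mem_insert_self a s)) ?_)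
    exact ih fun i hi => h i (Finset.mem_insert_of_mem hi)

/-- triangle / ultrametric inequality for finite sums. -/
theorem av_sum_le {α : Type*} (s : Finset α) (f : α → Qb) {c : ℝ} (hc : 0 ≤ c)
    (h : ∀ i ∈ s, 𝔳.av v (f i) ≤ c) : 𝔳.av v (∑ i ∈ s, f i) ≤ ac v s.card * c := by
  cases v with
  | none =>
    refine ((𝔳.av none).sum_le s f).trans ?_
    have := Finset.sum_le_card_nsmul s (fun i => 𝔳.av none (f i)) c h
    simpa using this
  | some p => simpa using av_sum_le_of_some 𝔳 p s f hc h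

theorem av_add_le (a b : Qb) : 𝔳.av v (a + b) ≤ ac v 2 * max (𝔳.av v a) (𝔳.av v b) := by
  cases v with
  | none =>
    have h1 := (𝔳.av none).add_le a b
    have h2 := le_max_left (𝔳.av none a) (𝔳.av none b)
    have h3 := le_max_right (𝔳.av none a) (𝔳.av none b)
    simp only [ac_none, Nat.cast_ofNat]
    linarith
  | some p => simpa using 𝔳.nonarch p a b

end ac

/-! ### Integral elements, finiteness of `{v | |x|_v ≠ 1}` -/

section integral

theorem av_some_intCast_le_one (p : Nat.Primes) (a : ℤ) : 𝔳.av (some p) (a : Qb) ≤ 1 := by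
  have h := 𝔳.av_fin p (a : ℚ)
  rw [map_intCast] at h
  rw [h]
  have : Fact (p : ℕ).Prime := ⟨p.2⟩
  exact_mod_cast padicNorm.of_int (p := (p : ℕ)) a

theorem av_some_intCast_eq_one (p : Nat.Primes) {a : ℤ} (h : ¬ ((p : ℕ) : ℤ) ∣ a) :
    𝔳.av (some p) (a : Qb) = 1 := by
  have h1 := 𝔳.av_fin p (a : ℚ)
  rw [map_intCast] at h1
  rw [h1]
  have : Fact (p : ℕ).Prime := ⟨p.2⟩
  have := (padicNorm.int_eq_one_iff (p := (p : ℕ)) a).2 h
  exact_mod_cast this

/-- integral elements have absolute value `≤ 1` at the finite places. -/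
theorem av_some_le_one_of_isIntegral (p : Nat.Primes) {y : Qb} (hy : IsIntegral ℤ y) :
    𝔳.av (some p) y ≤ 1 := by
  obtain ⟨P, hP, hPy⟩ := hy
  by_contra hlt
  push Not at hlt
  set n := P.natDegree with hn
  have hn0 : n ≠ 0 := by
    intro h0
    have : P = 1 := hP.natDegree_eq_zero.1 (hn ▸ h0)
    rw [this] at hPy
    simp at hPy
  rw [Polynomial.eval₂_eq_sum_range, ← hn, Finset.sum_range_succ, hn, hP.coeff_natDegree, ← hn,
    map_one, one_mul] at hPy
  have h1 : y ^ n = - ∑ i ∈ Finset.range n, (algebraMap ℤ Qb) (P.coeff i) * y ^ i :=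
    eq_neg_of_add_eq_zero_right hPy
  have h2 : 𝔳.av (some p) (y ^ n) ≤ 𝔳.av (some p) y ^ (n - 1) := by
    rw [h1, map_neg_eq_map]
    refine av_sum_le_of_some 𝔳 p _ _ (by positivity) fun i hi => ?_
    rw [map_mul, map_pow, eq_intCast]
    have h3 := av_some_intCast_le_one 𝔳 p (P.coeff i)
    have h4 : 𝔳.av (some p) y ^ i ≤ 𝔳.av (some p) y ^ (n - 1) :=
      pow_le_pow_right₀ hlt.le (by have := Finset.mem_range.1 hi; omega)
    calc _ ≤ 1 * 𝔳.av (some p) y ^ i := by gcongr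
      _ ≤ _ := by rwa [one_mul]
  rw [map_pow] at h2
  have h5 : 𝔳.av (some p) y ^ (n - 1) < 𝔳.av (some p) y ^ n :=
    pow_lt_pow_right₀ hlt (by omega)
  exact absurd h2 (not_le.2 h5)

theorem finite_one_lt_av (x : Qb) : {v | 1 < 𝔳.av v x}.Finite := by
  have halg : IsAlgebraic ℤ x :=
    (IsFractionRing.isAlgebraic_iff ℤ ℚ Qb).2 ((AlgebraicClosure.isAlgebraic ℚ).isAlgebraic x)
  obtain ⟨d, hd, hdx⟩ := halg.exists_integral_multiple
  have hfin : {q : Nat.Primes | ((q : ℕ) : ℤ) ∣ d}.Finite := by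
    have h1 : (d.natAbs.primeFactors : Set ℕ).Finite := Finset.finite_toSet _
    refine Set.Finite.of_injOn (f := fun q : Nat.Primes => (q : ℕ)) ?_
      (fun a _ b _ h => Subtype.ext h) h1
    intro q hq
    simp only [Finset.mem_coe, Nat.mem_primeFactors]
    refine ⟨q.2, Int.natCast_dvd.1 hq, by simpa using hd⟩
  refine ((hfin.image some).union (Set.finite_singleton none)).subset ?_
  intro w hw
  cases w with
  | none => exact Or.inr rfl
  | some q =>
    refine Or.inl ⟨q, ?_, rfl⟩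
    by_contra hq
    have h1 := av_some_le_one_of_isIntegral 𝔳 q hdx
    rw [zsmul_eq_mul, map_mul, av_some_intCast_eq_one 𝔳 q hq, one_mul] at h1
    exact absurd hw (not_lt.2 h1)

theorem finite_av_ne_one {x : Qb} (hx : x ≠ 0) : {v | 𝔳.av v x ≠ 1}.Finite := by
  refine ((finite_one_lt_av 𝔳 x).union (finite_one_lt_av 𝔳 x⁻¹)).subset ?_
  intro w hw
  rcases lt_or_gt_of_ne hw with h | h
  · right
    show 1 < 𝔳.av w x⁻¹
    rw [map_inv₀]
    exact (one_lt_inv₀ ((𝔳.av w).pos hx)).2 h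
  · left
    exact h

end integral

/-! ### `MConst` -/

namespace MConst

@[ext] theorem ext {γ γ' : MConst} (h : ∀ v, γ.c v = γ'.c v) : γ = γ' := by
  cases γ; cases γ'
  congr
  exact funext h

instance : Zero MConst := ⟨⟨fun _ => 0, fun _ => le_rfl, by simp⟩⟩

instance : Add MConst :=
  ⟨fun γ γ' => ⟨fun v => γ.c v + γ'.c v, fun v => add_nonneg (γ.nonneg v) (γ'.nonneg v),
    (γ.fin.union γ'.fin).subset (Function.support_add γ.c γ'.c)⟩⟩

instance : SMul ℕ MConst :=
  ⟨fun n γ => ⟨fun v => n • γ.c v, fun v => nsmul_nonneg (γ.nonneg v) n,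
    γ.fin.subset fun v hv h => hv (by simp [h])⟩⟩

instance : Max MConst :=
  ⟨fun γ γ' => ⟨fun v => max (γ.c v) (γ'.c v), fun v => le_max_of_le_left (γ.nonneg v),
    (γ.fin.union γ'.fin).subset fun v hv => by
      by_contra h
      simp only [Set.mem_union, Function.mem_support, not_or, not_not] at h
      exact hv (by simp [h.1, h.2])⟩⟩

@[simp] theorem zero_c : (0 : MConst).c v = 0 := rfl
@[simp] theorem add_c (γ γ' : MConst) : (γ + γ').c v = γ.c v + γ'.c v := rfl
@[simp] theorem nsmul_c (n : ℕ) (γ : MConst) : (n • γ).c v = n * γ.c v := by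
  show n • γ.c v = _
  rw [nsmul_eq_mul]
@[simp] theorem max_c (γ γ' : MConst) : (max γ γ').c v = max (γ.c v) (γ'.c v) := rfl

instance : AddCommMonoid MConst :=
  Function.Injective.addCommMonoid (fun γ : MConst => γ.c) (fun _ _ h => ext fun v => congrFun h v)
    rfl (fun _ _ => rfl) (fun _ _ => rfl)

/-- the underlying function, as an additive map. -/
def cHom : MConst →+ (Pl → ℝ) where
  toFun γ := γ.c
  map_zero' := rfl
  map_add' _ _ := rfl

theorem sum_c {α : Type*} (s : Finset α) (γ : α → MConst) :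
    (∑ a ∈ s, γ a).c v = ∑ a ∈ s, (γ a).c v := by
  have h := map_sum cHom γ s
  have h2 := congrFun h v
  rw [Finset.sum_apply] at h2
  exact h2

theorem le_sum_c {α : Type*} (s : Finset α) (γ : α → MConst) {a : α} (ha : a ∈ s) :
    (γ a).c v ≤ (∑ a ∈ s, γ a).c v := by
  rw [sum_c]
  exact Finset.single_le_sum (f := fun a => (γ a).c v) (fun b _ => (γ b).nonneg v) ha

theorem le_add_left_c (γ γ' : MConst) : γ.c v ≤ (γ + γ').c v := by
  rw [add_c]; linarith [γ'.nonneg v]

theorem le_add_right_c (γ γ' : MConst) : γ'.c v ≤ (γ + γ').c v := by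
  rw [add_c]; linarith [γ.nonneg v]

/-- multiplication of an `M`-constant by a nonnegative real. -/
def rsmul (r : ℝ) (hr : 0 ≤ r) (γ : MConst) : MConst :=
  ⟨fun v => r * γ.c v, fun v => mul_nonneg hr (γ.nonneg v),
    γ.fin.subset fun v hv h => hv (by simp [h])⟩

@[simp] theorem rsmul_c (r : ℝ) (hr : 0 ≤ r) (γ : MConst) : (rsmul r hr γ).c v = r * γ.c v := rfl

/-- the `M`-constant supported at the real place. -/
def arch (c : ℝ) (hc : 0 ≤ c) : MConst :=
  ⟨fun v => v.elim c fun _ => 0, fun v => by cases v <;> simp [hc],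
    (Set.finite_singleton none).subset fun v hv => by
      cases v with
      | none => rfl
      | some p => exact absurd rfl hv⟩

@[simp] theorem arch_none (c : ℝ) (hc : 0 ≤ c) : (arch c hc).c none = c := rfl
@[simp] theorem arch_some (c : ℝ) (hc : 0 ≤ c) (p : Nat.Primes) : (arch c hc).c (some p) = 0 := rfl

/-- the `M`-constant `|f|` attached to a function with finite support. -/
def ofAbs (f : Pl → ℝ) (hf : (Function.support f).Finite) : MConst :=
  ⟨fun v => |f v|, fun v => abs_nonneg _, hf.subset fun v hv h => hv (by simp [h])⟩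

@[simp] theorem ofAbs_c (f : Pl → ℝ) (hf : (Function.support f).Finite) :
    (ofAbs f hf).c v = |f v| := rfl

theorem tot_def (γ : MConst) : γ.tot = ∑ᶠ v, γ.c v := rfl

theorem tot_nonneg (γ : MConst) : 0 ≤ γ.tot := finsum_nonneg γ.nonneg

@[simp] theorem tot_zero : (0 : MConst).tot = 0 := by simp [tot_def]

theorem tot_add (γ γ' : MConst) : (γ + γ').tot = γ.tot + γ'.tot :=
  finsum_add_distrib γ.fin γ'.fin

theorem tot_arch (c : ℝ) (hc : 0 ≤ c) : (arch c hc).tot = c := by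
  rw [tot_def, finsum_eq_single _ none]
  · rfl
  · intro w hw
    cases w with
    | none => exact absurd rfl hw
    | some p => rfl

theorem tot_rsmul (r : ℝ) (hr : 0 ≤ r) (γ : MConst) : (rsmul r hr γ).tot = r * γ.tot :=
  (mul_finsum _ _).symm

theorem c_le_tot (γ : MConst) : γ.c v ≤ γ.tot :=
  single_le_finsum v γ.fin γ.nonneg

theorem one_le_exp_c (γ : MConst) : 1 ≤ Real.exp (γ.c v) := Real.one_le_exp (γ.nonneg v)

end MConst

/-! ### Finite supports -/

section supports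

theorem finite_support_log_av (a : Qb) : (Function.support fun v => Real.log (𝔳.av v a)).Finite := by
  rcases eq_or_ne a 0 with rfl | ha
  · simp
  · refine (finite_av_ne_one 𝔳 ha).subset fun w hw h => hw ?_
    show Real.log (𝔳.av w a) = 0
    rw [h, Real.log_one]

theorem finite_support_log_iSup_av {J : Type*} [Finite J] (y : J → Qb) :
    (Function.support fun v => Real.log (⨆ j, 𝔳.av v (y j))).Finite := by
  have hT : (⋃ j : J, {w | y j ≠ 0 ∧ 𝔳.av w (y j) ≠ 1}).Finite := by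
    refine Set.finite_iUnion fun j => ?_
    by_cases hj : y j = 0
    · simp [hj]
    · exact (finite_av_ne_one 𝔳 hj).subset fun w hw => hw.2
  refine hT.subset fun w hw => ?_
  by_contra hnot
  simp only [Set.mem_iUnion, Set.mem_ofPred_eq, not_exists, not_and, not_not] at hnot
  apply hw
  show Real.log (⨆ j, 𝔳.av w (y j)) = 0
  by_cases hall : ∀ j, y j = 0
  · have : (⨆ j, 𝔳.av w (y j)) = 0 :=
      le_antisymm (Real.iSup_le (fun j => by simp [hall j]) le_rfl) (iSup_av_nonneg 𝔳 w y)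
    rw [this, Real.log_zero]
  · push Not at hall
    obtain ⟨j0, hj0⟩ := hall
    have : (⨆ j, 𝔳.av w (y j)) = 1 := by
      refine le_antisymm (Real.iSup_le (fun j => ?_) zero_le_one) ?_
      · by_cases hj : y j = 0
        · simp [hj]
        · exact (hnot j hj).le
      · rw [← hnot j0 hj0]
        exact le_ciSup (bddAbove_range_av 𝔳 w y) j0
    rw [this, Real.log_one]

theorem finite_support_log_vnorm {ι : Type*} [Finite ι] (x : ι → Qb) :
    (Function.support fun v => Real.log (vnorm 𝔳 v x)).Finite :=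
  finite_support_log_iSup_av 𝔳 x

theorem finite_support_log_wnorm {ι κ : Type*} [Fintype ι] [DecidableEq ι] [Finite κ]
    (X : Matrix ι κ Qb) : (Function.support fun v => Real.log (wnorm 𝔳 v X)).Finite :=
  finite_support_log_iSup_av 𝔳 fun K : ι → κ => Matrix.det (X.submatrix id K)

theorem finite_support_log_mx (a : Qb) : (Function.support fun v => Real.log (mx 𝔳 v a)).Finite := by
  rcases eq_or_ne a 0 with rfl | ha
  · simp [mx_def]
  · refine (finite_av_ne_one 𝔳 ha).subset fun w hw h => hw ?_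
    show Real.log (mx 𝔳 w a) = 0
    rw [mx_def, h, max_self, Real.log_one]

theorem finite_support_log_ac (n : ℕ) : (Function.support fun v => Real.log (ac v n)).Finite :=
  (Set.finite_singleton none).subset fun w hw => by
    cases w with
    | none => rfl
    | some p => exact absurd (by simp) hw

end supports

/-! ### Existence of `M`-constants -/

section exists_mconst

theorem exists_mconst_log_ac (n : ℕ) : ∃ γ : MConst, ∀ v, Real.log (ac v n) ≤ γ.c v :=
  ⟨MConst.arch (Real.log n) (Real.log_natCast_nonneg n), fun v => by cases v <;> simp⟩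

theorem exists_mconst_ac_le (n : ℕ) : ∃ γ : MConst, ∀ v, ac v n ≤ Real.exp (γ.c v) := by
  refine ⟨MConst.arch (Real.log n) (Real.log_natCast_nonneg n), fun v => ?_⟩
  cases v with
  | none =>
    rcases Nat.eq_zero_or_pos n with rfl | hn
    · simp
    · simp only [ac_none, MConst.arch_none]
      rw [Real.exp_log (by exact_mod_cast hn)]
  | some p => simp

theorem exists_mconst_abs_log (S : Finset Qb) :
    ∃ γ : MConst, ∀ v, ∀ x ∈ S, |Real.log (𝔳.av v x)| ≤ γ.c v :=
  ⟨∑ x ∈ S, MConst.ofAbs (fun v => Real.log (𝔳.av v x)) (finite_support_log_av 𝔳 x),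
    fun v _ hx => MConst.le_sum_c v S
      (fun x => MConst.ofAbs (fun v => Real.log (𝔳.av v x)) (finite_support_log_av 𝔳 x)) hx⟩

theorem exists_mconst_av_le (S : Finset Qb) :
    ∃ γ : MConst, ∀ v, ∀ x ∈ S, 𝔳.av v x ≤ Real.exp (γ.c v) := by
  obtain ⟨γ, hγ⟩ := exists_mconst_abs_log 𝔳 S
  refine ⟨γ, fun v x hx => ?_⟩
  rcases eq_or_ne x 0 with rfl | h0
  · simpa using (Real.exp_pos _).le
  · rw [← Real.log_le_iff_le_exp ((𝔳.av v).pos h0)]
    exact (le_abs_self _).trans (hγ v x hx)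

theorem exists_mconst_le_av (S : Finset Qb) :
    ∃ γ : MConst, ∀ v, ∀ x ∈ S, x ≠ 0 → Real.exp (-(γ.c v)) ≤ 𝔳.av v x := by
  obtain ⟨γ, hγ⟩ := exists_mconst_abs_log 𝔳 S
  refine ⟨γ, fun v x hx h0 => ?_⟩
  rw [← Real.le_log_iff_exp_le ((𝔳.av v).pos h0)]
  have := neg_abs_le (Real.log (𝔳.av v x))
  linarith [hγ v x hx]

/-- both bounds at once, for a finite family. -/
theorem exists_mconst_av_family {J : Type*} [Finite J] (y : J → Qb) :
    ∃ γ : MConst, ∀ v j, 𝔳.av v (y j) ≤ Real.exp (γ.c v) ∧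
      (y j ≠ 0 → Real.exp (-(γ.c v)) ≤ 𝔳.av v (y j)) := by
  cases nonempty_fintype J
  obtain ⟨γ, hγ⟩ := exists_mconst_av_le 𝔳 (Finset.univ.image y)
  obtain ⟨γ', hγ'⟩ := exists_mconst_le_av 𝔳 (Finset.univ.image y)
  refine ⟨γ + γ', fun v j => ⟨?_, fun h0 => ?_⟩⟩
  · refine (hγ v (y j) (Finset.mem_image_of_mem y (Finset.mem_univ j))).trans ?_
    exact Real.exp_le_exp.2 (MConst.le_add_left_c v γ γ')
  · refine le_trans ?_ (hγ' v (y j) (Finset.mem_image_of_mem y (Finset.mem_univ j)) h0)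
    exact Real.exp_le_exp.2 (neg_le_neg (MConst.le_add_right_c v γ γ'))

end exists_mconst

/-! ### `finsum` helpers -/

section finsum

theorem finsum_le_of_le_add (f g : Pl → ℝ) (hf : (Function.support f).Finite)
    (hg : (Function.support g).Finite) (γ : MConst) (h : ∀ v, f v ≤ g v + γ.c v) :
    ∑ᶠ v, f v ≤ ∑ᶠ v, g v + γ.tot := by
  rw [MConst.tot_def, ← finsum_add_distrib hg γ.fin]
  exact finsum_le_finsum' hf ((hg.union γ.fin).subset (Function.support_add g γ.c)) h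

theorem abs_finsum_sub_le (f g : Pl → ℝ) (hf : (Function.support f).Finite)
    (hg : (Function.support g).Finite) (γ : MConst) (h : ∀ v, |f v - g v| ≤ γ.c v) :
    |∑ᶠ v, f v - ∑ᶠ v, g v| ≤ γ.tot := by
  rw [abs_le]
  have h1 := finsum_le_of_le_add f g hf hg γ fun v => by
    have := (abs_le.1 (h v)).2; linarith
  have h2 := finsum_le_of_le_add g f hg hf γ fun v => by
    have := (abs_le.1 (h v)).1; linarith
  constructor <;> linarith

end finsum

end Fermat.Agent.S17.H
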