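/-
S17 part H (heights), block ABS: one extension to the algebraic closure of every place of the
rationals.  Owner: helper231 (task 1091).
-/
import Fermat.Agent.S17.H.Abs

set_option autoImplicit false
set_option linter.style.haveILetI false

noncomputable section

namespace Fermat.Agent.S17.H

open scoped Classical

namespace AbsExists

/-- a ring hom from `ℚ̄` to any algebraically closed field of characteristic zero. -/
theorem exists_hom (K : Type) [Field K] [IsAlgClosed K] [CharZero K] : Nonempty (Qb →+* K) := by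
  letI : Algebra ℚ K := DivisionRing.toRatAlgebra
  letI : Algebra ℚ Qb := AlgebraicClosure.instAlgebra ℚ
  haveI : Algebra.IsAlgebraic ℚ Qb := AlgebraicClosure.isAlgebraic ℚ
  exact ⟨(IsAlgClosed.lift (R := ℚ) (S := Qb) (M := K)).toRingHom⟩

/-- the absolute value induced by a ring hom to a normed field -/
def avOf {K : Type} [NormedField K] (f : Qb →+* K) : AbsoluteValue Qb ℝ :=
  (NormedField.toAbsoluteValue K).comp f.injective

theorem avOf_apply {K : Type} [NormedField K] (f : Qb →+* K) (x : Qb) : avOf f x = ‖f x‖ := rfl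

theorem avOf_rat {K : Type} [NormedField K] (f : Qb →+* K) (x : ℚ) :
    avOf f (algebraMap ℚ Qb x) = ‖(x : K)‖ := by
  rw [avOf_apply, eq_ratCast, map_ratCast]

theorem norm_ratCast_padicAlgCl (p : ℕ) [Fact p.Prime] (x : ℚ) :
    ‖(x : PadicAlgCl p)‖ = (padicNorm p x : ℝ) := by
  have h : (x : PadicAlgCl p) = algebraMap ℚ_[p] (PadicAlgCl p) (x : ℚ_[p]) := by
    rw [map_ratCast]
  rw [h]
  have := PadicAlgCl.norm_extends p (x : ℚ_[p])
  rw [this, Padic.eq_padicNorm]

/-- the `p`-adic absolute value on `ℚ̄`. -/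
theorem exists_av_fin (p : Nat.Primes) : ∃ v : AbsoluteValue Qb ℝ, IsNonarchimedean v ∧
    ∀ x : ℚ, v (algebraMap ℚ Qb x) = (padicNorm p x : ℝ) := by
  haveI : Fact (p : ℕ).Prime := ⟨p.2⟩
  obtain ⟨f⟩ := exists_hom (PadicAlgCl (p : ℕ))
  refine ⟨avOf f, fun x y => ?_, fun x => ?_⟩
  · rw [avOf_apply, avOf_apply, avOf_apply, map_add]
    exact PadicAlgCl.isNonarchimedean (p : ℕ) _ _
  · rw [avOf_rat, norm_ratCast_padicAlgCl]

/-- the archimedean absolute value on `ℚ̄`. -/
theorem exists_av_inf : ∃ v : AbsoluteValue Qb ℝ, ∀ x : ℚ, v (algebraMap ℚ Qb x) = |(x : ℝ)| := by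
  obtain ⟨f⟩ := exists_hom ℂ
  refine ⟨avOf f, fun x => ?_⟩
  rw [avOf_rat, Complex.norm_ratCast]

end AbsExists

open AbsExists in
theorem exists_absFam : Nonempty AbsFam := by
  choose w hw1 hw2 using exists_av_fin
  obtain ⟨w0, hw0⟩ := exists_av_inf
  exact ⟨{ av := fun v => v.elim w0 w
           nonarch := hw1
           av_fin := hw2
           av_inf := hw0 }⟩

end Fermat.Agent.S17.H
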