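import Fermat.Agent.S17.H.Curve

/-!
# S17, part H: numerical semigroup facts for the pole orders `ρ`

`ρ i = i + g` for `i ≥ g`, `dim V_n = n + 1 - g` for `n ≥ 2 g - 1`, Selmer's formula for the Apéry
set with respect to `d = ρ 1`.
-/

set_option autoImplicit false

noncomputable section

open scoped Classical

namespace Fermat.Agent.S17.H

namespace Semigroup

/-! ### Abstract numerical semigroups, enumerated by a strictly increasing function -/

variable {ρ : ℕ → ℕ} {g : ℕ}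

theorem add_sub_le (hmono : StrictMono ρ) {i j : ℕ} (hij : i ≤ j) : ρ i + (j - i) ≤ ρ j := by
  induction j, hij using Nat.le_induction with
  | base => simp
  | succ j hij ih =>
    have := hmono (show j < j + 1 by omega)
    omega

theorem le_add (hmono : StrictMono ρ) (hlarge : ∃ i₀, ∀ i, i₀ ≤ i → ρ i = i + g) (i : ℕ) :
    ρ i ≤ i + g := by
  obtain ⟨i₀, h⟩ := hlarge
  have h1 := add_sub_le hmono (le_max_left i i₀)
  have h2 := h (max i i₀) (le_max_right i i₀)
  have h3 := le_max_left i i₀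
  omega

theorem eq_add_of_ge (hmono : StrictMono ρ) (hlarge : ∃ i₀, ∀ i, i₀ ≤ i → ρ i = i + g)
    (hadd : ∀ i j, ∃ k, ρ k = ρ i + ρ j) {i : ℕ} (hi : g ≤ i) : ρ i = i + g := by
  have hex : ∃ i, ρ i = i + g := by
    obtain ⟨i₀, h⟩ := hlarge
    exact ⟨i₀, h i₀ le_rfl⟩
  set i1 := Nat.find hex with hi1
  have hρ1 : ρ i1 = i1 + g := Nat.find_spec hex
  have key : i1 ≤ g := by
    rcases Nat.eq_zero_or_pos i1 with h0 | hpos
    · omega
    obtain ⟨i', hi'⟩ : ∃ i', i1 = i' + 1 := ⟨i1 - 1, by omega⟩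
    have hne : ρ i' ≠ i' + g := Nat.find_min hex (by omega)
    have hle := le_add hmono hlarge i'
    have hlt : ρ i' < i' + g := lt_of_le_of_ne hle hne
    set F := i' + g with hF
    have hbelow : ∀ i, i < i1 → ρ i < F := by
      intro i hi
      have : ρ i ≤ ρ i' := hmono.monotone (by omega)
      omega
    have hFnot : ∀ k, ρ k ≠ F := by
      intro k hk
      have h1 : i' < k := hmono.lt_iff_lt.1 (by omega)
      have h2 : k < i1 := hmono.lt_iff_lt.1 (by omega)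
      omega
    let Hs : Finset ℕ := (Finset.range i1).image ρ
    let T : Finset ℕ := (Finset.range i1).image (fun i => F - ρ i)
    have hcH : Hs.card = i1 := by
      rw [Finset.card_image_of_injective _ hmono.injective, Finset.card_range]
    have hcT : T.card = i1 := by
      rw [Finset.card_image_of_injOn, Finset.card_range]
      intro a ha b hb hab
      have ha' := hbelow a (Finset.mem_range.1 ha)
      have hb' := hbelow b (Finset.mem_range.1 hb)
      apply hmono.injective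
      simp only at hab
      omega
    have hdisj : Disjoint Hs T := by
      rw [Finset.disjoint_left]
      intro x hx hx'
      obtain ⟨a, ha, rfl⟩ := Finset.mem_image.1 hx
      obtain ⟨b, hb, hab⟩ := Finset.mem_image.1 hx'
      have hb' := hbelow b (Finset.mem_range.1 hb)
      obtain ⟨k, hk⟩ := hadd a b
      exact hFnot k (by omega)
    have hsub : Hs ∪ T ⊆ Finset.range (F + 1) := by
      intro x hx
      rw [Finset.mem_range]
      rcases Finset.mem_union.1 hx with hx | hx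
      · obtain ⟨a, ha, rfl⟩ := Finset.mem_image.1 hx
        have := hbelow a (Finset.mem_range.1 ha)
        omega
      · obtain ⟨b, hb, rfl⟩ := Finset.mem_image.1 hx
        omega
    have hcard := Finset.card_le_card hsub
    rw [Finset.card_union_of_disjoint hdisj, hcH, hcT, Finset.card_range] at hcard
    omega
  have h1 := add_sub_le hmono (key.trans hi)
  have h2 := le_add hmono hlarge i
  omega

/-- membership in the semigroup. -/
def InH (ρ : ℕ → ℕ) (x : ℕ) : Prop := ∃ i, ρ i = x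

theorem card_filter_lt (hmono : StrictMono ρ) (i : ℕ) :
    ((Finset.range (ρ i)).filter (InH ρ)).card = i := by
  have : (Finset.range (ρ i)).filter (InH ρ) = (Finset.range i).image ρ := by
    ext x
    simp only [Finset.mem_filter, Finset.mem_range, Finset.mem_image, InH]
    constructor
    · rintro ⟨hx, k, rfl⟩
      exact ⟨k, hmono.lt_iff_lt.1 hx, rfl⟩
    · rintro ⟨k, hk, rfl⟩
      exact ⟨hmono hk, k, rfl⟩
  rw [this, Finset.card_image_of_injective _ hmono.injective, Finset.card_range]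

/-- index of the least element of the semigroup in the class `j` modulo `d`. -/
def apIdx (ρ : ℕ → ℕ) (d j : ℕ) : ℕ := sInf {i | ρ i % d = j}

theorem apIdx_spec (hmono : StrictMono ρ) (hlarge : ∃ i₀, ∀ i, i₀ ≤ i → ρ i = i + g)
    (hadd : ∀ i j, ∃ k, ρ k = ρ i + ρ j) {d j : ℕ} (hj : j < d) :
    ρ (apIdx ρ d j) % d = j := by
  have hd : 0 < d := by omega
  have hne : {i | ρ i % d = j}.Nonempty := by
    refine ⟨j + 2 * g * d - g, ?_⟩
    have h1 : 2 * g ≤ 2 * g * d := Nat.le_mul_of_pos_right _ hd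
    have h2 : ρ (j + 2 * g * d - g) = j + 2 * g * d - g + g :=
      eq_add_of_ge hmono hlarge hadd (by omega)
    have h3 : j + 2 * g * d - g + g = j + 2 * g * d := by omega
    show ρ (j + 2 * g * d - g) % d = j
    rw [h2, h3, Nat.add_mul_mod_self_right, Nat.mod_eq_of_lt hj]
  exact Nat.sInf_mem hne

theorem apIdx_le {d j i : ℕ} (h : ρ i % d = j) : apIdx ρ d j ≤ i := Nat.sInf_le h

theorem inH_add_mul (hadd : ∀ i j, ∃ k, ρ k = ρ i + ρ j) {x : ℕ} (hx : InH ρ x) (t : ℕ) :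
    InH ρ (x + ρ 1 * t) := by
  induction t with
  | zero => simpa using hx
  | succ t ih =>
    obtain ⟨i, hi⟩ := ih
    obtain ⟨k, hk⟩ := hadd i 1
    exact ⟨k, by rw [hk, hi]; ring⟩

theorem inH_iff (hmono : StrictMono ρ) (hlarge : ∃ i₀, ∀ i, i₀ ≤ i → ρ i = i + g)
    (hadd : ∀ i j, ∃ k, ρ k = ρ i + ρ j) {j k : ℕ} (hj : j < ρ 1) :
    InH ρ (ρ 1 * k + j) ↔ ρ (apIdx ρ (ρ 1) j) / ρ 1 ≤ k := by
  have hd : 0 < ρ 1 := by omega
  have hspec := apIdx_spec hmono hlarge hadd hj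
  have hdm := Nat.div_add_mod (ρ (apIdx ρ (ρ 1) j)) (ρ 1)
  rw [hspec] at hdm
  constructor
  · rintro ⟨i, hi⟩
    have h1 : ρ i % ρ 1 = j := by
      rw [hi, Nat.mul_add_mod, Nat.mod_eq_of_lt hj]
    have h2 : ρ (apIdx ρ (ρ 1) j) ≤ ρ i := hmono.monotone (apIdx_le h1)
    have h3 : ρ 1 * (ρ (apIdx ρ (ρ 1) j) / ρ 1) ≤ ρ 1 * k := by omega
    exact Nat.le_of_mul_le_mul_left h3 hd
  · intro h
    obtain ⟨t, rfl⟩ := Nat.exists_eq_add_of_le h
    have := inH_add_mul hadd (x := ρ (apIdx ρ (ρ 1) j)) ⟨_, rfl⟩ t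
    have e : ρ 1 * (ρ (apIdx ρ (ρ 1) j) / ρ 1 + t) + j = ρ (apIdx ρ (ρ 1) j) + ρ 1 * t := by
      rw [mul_add]; omega
    rwa [e]

theorem count_add_sum_min (hmono : StrictMono ρ) (hlarge : ∃ i₀, ∀ i, i₀ ≤ i → ρ i = i + g)
    (hadd : ∀ i j, ∃ k, ρ k = ρ i + ρ j) (m : ℕ) :
    (∑ x ∈ Finset.range (ρ 1 * m), if InH ρ x then 1 else 0) +
      ∑ j ∈ Finset.range (ρ 1), min (ρ (apIdx ρ (ρ 1) j) / ρ 1) m = ρ 1 * m := by
  induction m with
  | zero => simp
  | succ m ih =>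
    have e : ρ 1 * (m + 1) = ρ 1 * m + ρ 1 := by ring
    rw [e, Finset.sum_range_add]
    have key : (∑ j ∈ Finset.range (ρ 1), if InH ρ (ρ 1 * m + j) then 1 else 0) +
        ∑ j ∈ Finset.range (ρ 1), min (ρ (apIdx ρ (ρ 1) j) / ρ 1) (m + 1) =
        (∑ j ∈ Finset.range (ρ 1), min (ρ (apIdx ρ (ρ 1) j) / ρ 1) m) + ρ 1 := by
      have h1 : (∑ j ∈ Finset.range (ρ 1), min (ρ (apIdx ρ (ρ 1) j) / ρ 1) m) + ρ 1 =
          ∑ j ∈ Finset.range (ρ 1), (min (ρ (apIdx ρ (ρ 1) j) / ρ 1) m + 1) := by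
        rw [Finset.sum_add_distrib]; simp
      rw [h1, ← Finset.sum_add_distrib]
      refine Finset.sum_congr rfl fun j hj => ?_
      have hj' := Finset.mem_range.1 hj
      by_cases hq : ρ (apIdx ρ (ρ 1) j) / ρ 1 ≤ m
      · rw [if_pos ((inH_iff hmono hlarge hadd hj').2 hq)]
        omega
      · rw [if_neg (fun h => hq ((inH_iff hmono hlarge hadd hj').1 h))]
        omega
    omega

theorem sum_div_eq (hmono : StrictMono ρ) (h0 : ρ 0 = 0)
    (hlarge : ∃ i₀, ∀ i, i₀ ≤ i → ρ i = i + g) (hadd : ∀ i j, ∃ k, ρ k = ρ i + ρ j) :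
    ∑ j ∈ Finset.range (ρ 1), ρ (apIdx ρ (ρ 1) j) / ρ 1 = g := by
  have hd : 0 < ρ 1 := by
    have := hmono (show 0 < 1 by omega)
    omega
  set Q := ∑ j ∈ Finset.range (ρ 1), ρ (apIdx ρ (ρ 1) j) / ρ 1 with hQ
  set m := 2 * g + Q with hm
  have h := count_add_sum_min hmono hlarge hadd m
  have hmin : ∑ j ∈ Finset.range (ρ 1), min (ρ (apIdx ρ (ρ 1) j) / ρ 1) m = Q := by
    refine Finset.sum_congr rfl fun j hj => ?_
    have : ρ (apIdx ρ (ρ 1) j) / ρ 1 ≤ Q :=
      Finset.single_le_sum (f := fun j => ρ (apIdx ρ (ρ 1) j) / ρ 1) (fun _ _ => Nat.zero_le _) hj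
    omega
  have hbig : m ≤ ρ 1 * m := Nat.le_mul_of_pos_left _ hd
  have hρ : ρ (ρ 1 * m - g) = ρ 1 * m := by
    rw [eq_add_of_ge hmono hlarge hadd (by omega)]
    omega
  have hcnt : (∑ x ∈ Finset.range (ρ 1 * m), if InH ρ x then 1 else 0) = ρ 1 * m - g := by
    rw [← Finset.card_filter]
    have := card_filter_lt hmono (ρ 1 * m - g)
    rwa [hρ] at this
  rw [hcnt, hmin] at h
  omega

theorem two_mul_sum (hmono : StrictMono ρ) (h0 : ρ 0 = 0)
    (hlarge : ∃ i₀, ∀ i, i₀ ≤ i → ρ i = i + g) (hadd : ∀ i j, ∃ k, ρ k = ρ i + ρ j) :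
    2 * ∑ j ∈ Finset.range (ρ 1), ρ (apIdx ρ (ρ 1) j) = 2 * ρ 1 * g + ρ 1 * (ρ 1 - 1) := by
  have h1 : ∑ j ∈ Finset.range (ρ 1), ρ (apIdx ρ (ρ 1) j) =
      ρ 1 * (∑ j ∈ Finset.range (ρ 1), ρ (apIdx ρ (ρ 1) j) / ρ 1) + ∑ j ∈ Finset.range (ρ 1), j := by
    rw [Finset.mul_sum, ← Finset.sum_add_distrib]
    refine Finset.sum_congr rfl fun j hj => ?_
    have hspec := apIdx_spec hmono hlarge hadd (Finset.mem_range.1 hj)
    have hdm := Nat.div_add_mod (ρ (apIdx ρ (ρ 1) j)) (ρ 1)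
    rw [hspec] at hdm
    exact hdm.symm
  rw [h1, sum_div_eq hmono h0 hlarge hadd, mul_add, ← Finset.sum_range_id_mul_two]
  ring

end Semigroup

/-! ### The statements for a `WCurve` -/

variable {A : Type} [CommRing A] [Algebra Qb A] (C : WCurve A)

theorem Semigroup.hadd (i j : ℕ) : ∃ k, C.ρ k = C.ρ i + C.ρ j := by
  obtain ⟨k, _, hk, _⟩ := C.mul_b i j
  exact ⟨k, hk⟩

theorem rho_of_ge {i : ℕ} (hi : C.g ≤ i) : C.ρ i = i + C.g :=
  Semigroup.eq_add_of_ge C.ρ_strictMono C.ρ_large (Semigroup.hadd C) hi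

theorem rho_le_add (i : ℕ) : C.ρ i ≤ i + C.g := Semigroup.le_add C.ρ_strictMono C.ρ_large i

theorem dim_add_g {n : ℕ} (hn : 2 * C.g ≤ n + 1) : C.dim n + C.g = n + 1 := by
  have : (Finset.range (n + 1)).filter (fun i => C.ρ i ≤ n) = Finset.range (n + 1 - C.g) := by
    ext i
    simp only [Finset.mem_filter, Finset.mem_range]
    rcases le_or_gt C.g i with hi | hi
    · rw [rho_of_ge C hi]; omega
    · have h1 : C.ρ i < C.ρ C.g := C.ρ_strictMono hi
      rw [rho_of_ge C le_rfl] at h1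
      omega
  rw [WCurve.dim, this, Finset.card_range]
  omega

/-- index of the smallest element of the semigroup in the residue class `j` modulo `d`. -/
def ap (j : Fin C.d) : ℕ := sInf {i | C.ρ i % C.d = j}

theorem ap_spec (j : Fin C.d) : C.ρ (ap C j) % C.d = j :=
  Semigroup.apIdx_spec C.ρ_strictMono C.ρ_large (Semigroup.hadd C) j.2

/-- Selmer's formula. -/
theorem sum_rho_ap : 2 * ∑ j, C.ρ (ap C j) = 2 * C.d * C.g + C.d * (C.d - 1) := by
  have h := Semigroup.two_mul_sum C.ρ_strictMono C.ρ_zero C.ρ_large (Semigroup.hadd C)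
  rw [Finset.sum_range] at h
  exact h

/-- `ρ (ap j)` is the least element of its class. -/
theorem rho_ap_le {i : ℕ} {j : Fin C.d} (h : C.ρ i % C.d = j) : C.ρ (ap C j) ≤ C.ρ i :=
  C.ρ_strictMono.monotone (Nat.sInf_le h)

theorem dvd_rho_sub_rho_ap {i : ℕ} {j : Fin C.d} (h : C.ρ i % C.d = j) :
    C.d ∣ C.ρ i - C.ρ (ap C j) :=
  (Nat.modEq_iff_dvd' (rho_ap_le C h)).1 (by rw [Nat.ModEq, ap_spec, h])

theorem semigroup_d_pos : 0 < C.d := by
  have := C.ρ_strictMono (show 0 < 1 by omega)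
  rw [C.ρ_zero] at this
  exact this

/-- every element of the semigroup is `ρ (ap j) + k d`. -/
theorem exists_rho_eq_rho_ap_add (i : ℕ) :
    ∃ (j : Fin C.d) (k : ℕ), C.ρ i = C.ρ (ap C j) + k * C.d := by
  let j : Fin C.d := ⟨C.ρ i % C.d, Nat.mod_lt _ (semigroup_d_pos C)⟩
  have hj : C.ρ i % C.d = j := rfl
  obtain ⟨k, hk⟩ := dvd_rho_sub_rho_ap C hj
  refine ⟨j, k, ?_⟩
  have := rho_ap_le C hj
  rw [mul_comm k]
  omega

/-- conversely every `ρ (ap j) + k d` is in the semigroup. -/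
theorem exists_rho_eq_add (j : Fin C.d) (k : ℕ) : ∃ i, C.ρ i = C.ρ (ap C j) + k * C.d := by
  have := Semigroup.inH_add_mul (Semigroup.hadd C) (x := C.ρ (ap C j)) ⟨_, rfl⟩ k
  obtain ⟨i, hi⟩ := this
  exact ⟨i, by rw [hi, mul_comm]; rfl⟩

/-- uniqueness of the representation. -/
theorem rho_ap_add_inj {j j' : Fin C.d} {k k' : ℕ}
    (h : C.ρ (ap C j) + k * C.d = C.ρ (ap C j') + k' * C.d) : j = j' ∧ k = k' := by
  have h1 : (C.ρ (ap C j) + k * C.d) % C.d = j := by
    rw [Nat.add_mul_mod_self_right, ap_spec]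
  have h2 : (C.ρ (ap C j') + k' * C.d) % C.d = j' := by
    rw [Nat.add_mul_mod_self_right, ap_spec]
  have hj : j = j' := Fin.ext (by rw [← h1, h, h2])
  subst hj
  refine ⟨rfl, ?_⟩
  have h3 : k * C.d = k' * C.d := by omega
  exact Nat.eq_of_mul_eq_mul_right (semigroup_d_pos C) h3

end Fermat.Agent.S17.H
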