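import Fermat.Agent.S17.H.Weight
import Fermat.Agent.S17.H.Semigroup

/-!
# S17, part H, block AP: `A` is free over `ℚ̄[t]` on the Apéry basis

`y_j = b (ap j)`, `j : Fin d`.  Every `f : A` is uniquely `∑ p_j(t) y_j`; the weight of such a sum is the maximum of the
weights `d deg p_j + ρ (ap j)`.  Definitions `mulMat`, `Nm`.  (helper111)
-/

set_option autoImplicit false

noncomputable section

open scoped Classical

namespace Fermat.Agent.S17.H

open Polynomial

variable {A : Type} [CommRing A] [Algebra Qb A] (C : WCurve A)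

/-! ## weights, from the definition -/

theorem apery_le_wt {f : A} {i : ℕ} (h : C.b.repr f i ≠ 0) : C.ρ i ≤ C.wt f :=
  Finset.le_sup (f := C.ρ) (Finsupp.mem_support_iff.mpr h)

theorem apery_exists_top {f : A} (hf : f ≠ 0) : ∃ i, C.b.repr f i ≠ 0 ∧ C.ρ i = C.wt f := by
  have hne : (C.b.repr f).support.Nonempty := by
    rw [Finsupp.support_nonempty_iff]
    simpa using hf
  obtain ⟨i, hi, h⟩ := Finset.exists_mem_eq_sup _ hne C.ρ
  exact ⟨i, Finsupp.mem_support_iff.mp hi, h.symm⟩

theorem apery_wt_zero : C.wt (0 : A) = 0 := by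
  simp [WCurve.wt]

theorem apery_wt_smul {c : Qb} (hc : c ≠ 0) (f : A) : C.wt (c • f) = C.wt f := by
  unfold WCurve.wt
  rw [map_smul, Finsupp.support_smul_eq hc]

theorem apery_wt_sum_le {ι : Type*} (s : Finset ι) (T : ι → A) (n : ℕ)
    (h : ∀ j ∈ s, C.wt (T j) ≤ n) : C.wt (∑ j ∈ s, T j) ≤ n := by
  rw [← mem_V_iff]
  exact Submodule.sum_mem _ fun j hj => (mem_V_iff C n _).mpr (h j hj)

/-- a sum with a strictly dominant term does not cancel. -/
theorem apery_dominant {ι : Type*} (s : Finset ι) (T : ι → A) {j₀ : ι} (hj₀ : j₀ ∈ s)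
    (h0 : T j₀ ≠ 0) (h : ∀ j ∈ s, j ≠ j₀ → T j = 0 ∨ C.wt (T j) < C.wt (T j₀)) :
    ∃ i, C.ρ i = C.wt (T j₀) ∧ C.b.repr (∑ j ∈ s, T j) i ≠ 0 := by
  obtain ⟨i, hi, hρ⟩ := apery_exists_top C h0
  refine ⟨i, hρ, ?_⟩
  rw [map_sum, Finsupp.finsetSum_apply, Finset.sum_eq_single_of_mem j₀ hj₀]
  · exact hi
  · intro j hj hne
    rcases h j hj hne with h1 | h1
    · rw [h1]
      simp
    · by_contra h2
      have := apery_le_wt C h2
      omega

theorem apery_t_ne_zero : C.t ≠ 0 := C.b.ne_zero 1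

theorem apery_wt_t : C.wt C.t = C.d := wt_b C 1

theorem apery_wt_one : C.wt (1 : A) = 0 := by
  rw [← C.b_zero, wt_b, C.ρ_zero]

include C in
theorem apery_mul_ne_zero {f h : A} (hf : f ≠ 0) (hh : h ≠ 0) : f * h ≠ 0 := by
  intro h0
  have h1 := lc_mul C f h
  have h2 : C.lc (0 : A) = 0 := by simp [WCurve.lc]
  rw [h0, h2] at h1
  exact mul_ne_zero (lc_ne_zero C hf) (lc_ne_zero C hh) h1.symm

include C in
theorem apery_isDomain : IsDomain A := by
  have : Nontrivial A := ⟨⟨C.t, 0, apery_t_ne_zero C⟩⟩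
  have : NoZeroDivisors A := ⟨fun {a b} hab => by
    by_contra hcon
    rw [not_or] at hcon
    exact apery_mul_ne_zero C hcon.1 hcon.2 hab⟩
  exact NoZeroDivisors.to_isDomain A

theorem apery_t_pow_ne_zero (k : ℕ) : C.t ^ k ≠ 0 := by
  have := apery_isDomain C
  exact pow_ne_zero k (apery_t_ne_zero C)

theorem apery_wt_t_pow (k : ℕ) : C.wt (C.t ^ k) = C.d * k := by
  induction k with
  | zero => rw [pow_zero, apery_wt_one, mul_zero]
  | succ n ih =>
    rw [pow_succ, wt_mul C (apery_t_pow_ne_zero C n) (apery_t_ne_zero C), ih, apery_wt_t]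
    ring

/-- nonvanishing and weight of `p(t)`. -/
theorem apery_aeval_top {p : Qb[X]} (hp : p ≠ 0) :
    ∃ i, C.ρ i = C.d * p.natDegree ∧ C.b.repr (aeval C.t p) i ≠ 0 := by
  have hd := d_pos C
  have hlc : p.coeff p.natDegree ≠ 0 := by
    rw [coeff_natDegree]
    exact leadingCoeff_ne_zero.mpr hp
  have h := apery_dominant C (Finset.range (p.natDegree + 1)) (fun k => p.coeff k • C.t ^ k)
    (j₀ := p.natDegree) (Finset.mem_range.mpr (Nat.lt_succ_self _))
    (smul_ne_zero hlc (apery_t_pow_ne_zero C _)) (by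
      intro k hk hne
      by_cases hc : p.coeff k = 0
      · left
        simp only [hc, zero_smul]
      · right
        rw [apery_wt_smul C hc, apery_wt_smul C hlc, apery_wt_t_pow, apery_wt_t_pow]
        have : k < p.natDegree := lt_of_le_of_ne (Nat.lt_succ_iff.mp (Finset.mem_range.mp hk)) hne
        exact Nat.mul_lt_mul_of_pos_left this hd)
  rw [apery_wt_smul C hlc, apery_wt_t_pow, ← aeval_eq_sum_range] at h
  exact h

theorem apery_aeval_ne_zero {p : Qb[X]} (hp : p ≠ 0) : aeval C.t p ≠ 0 := by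
  obtain ⟨i, -, hi⟩ := apery_aeval_top C hp
  intro h
  rw [h] at hi
  simp at hi

theorem apery_wt_aeval (p : Qb[X]) : C.wt (aeval C.t p) = C.d * p.natDegree := by
  by_cases hp : p = 0
  · subst hp
    simp [apery_wt_zero]
  · apply le_antisymm
    · rw [aeval_eq_sum_range]
      apply apery_wt_sum_le
      intro k hk
      by_cases hc : p.coeff k = 0
      · simp [hc, apery_wt_zero]
      · rw [apery_wt_smul C hc, apery_wt_t_pow]
        exact Nat.mul_le_mul_left _ (Nat.lt_succ_iff.mp (Finset.mem_range.mp hk))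
    · obtain ⟨i, h1, h2⟩ := apery_aeval_top C hp
      rw [← h1]
      exact apery_le_wt C h2

theorem transcendental_t : Transcendental Qb C.t := by
  rw [transcendental_iff]
  intro p hp
  by_contra h
  exact apery_aeval_ne_zero C h hp

/-! ## the Apéry terms -/

theorem apery_b_ne_zero (i : ℕ) : C.b i ≠ 0 := C.b.ne_zero i

theorem apery_term_ne_zero {p : Qb[X]} (hp : p ≠ 0) (i : ℕ) : aeval C.t p * C.b i ≠ 0 := by
  exact apery_mul_ne_zero C (apery_aeval_ne_zero C hp) (apery_b_ne_zero C i)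

/-- `wt (p(t) b_i) = d deg p + ρ i`. -/
theorem wt_aeval_mul_b {p : Qb[X]} (hp : p ≠ 0) (i : ℕ) :
    C.wt (aeval C.t p * C.b i) = C.d * p.natDegree + C.ρ i := by
  rw [wt_mul C (apery_aeval_ne_zero C hp) (apery_b_ne_zero C i), apery_wt_aeval, wt_b]

/-- the key non-cancellation statement. -/
theorem apery_sum_top (p : Fin C.d → Qb[X]) (j : Fin C.d) (hj : p j ≠ 0) :
    ∃ i, C.d * (p j).natDegree + C.ρ (ap C j) ≤ C.ρ i ∧
      C.b.repr (∑ j, aeval C.t (p j) * C.b (ap C j)) i ≠ 0 := by
  set s : Finset (Fin C.d) := Finset.univ.filter fun j => p j ≠ 0 with hs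
  have hne : s.Nonempty := ⟨j, by simp [hs, hj]⟩
  obtain ⟨j₀, hj₀, hmax⟩ := Finset.exists_max_image s
    (fun j => C.d * (p j).natDegree + C.ρ (ap C j)) hne
  have hj₀' : p j₀ ≠ 0 := by simpa [hs] using hj₀
  obtain ⟨i, h1, h2⟩ := apery_dominant C Finset.univ (fun j => aeval C.t (p j) * C.b (ap C j))
    (Finset.mem_univ j₀) (apery_term_ne_zero C hj₀' _) (by
      intro k _ hne
      by_cases hk : p k = 0
      · left
        simp only [hk, map_zero, zero_mul]
      · right
        rw [wt_aeval_mul_b C hk, wt_aeval_mul_b C hj₀']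
        have hle := hmax k (by simp [hs, hk])
        refine lt_of_le_of_ne hle ?_
        intro heq
        apply hne
        have h3 := congrArg (· % C.d) heq
        simp only [Nat.mul_add_mod, ap_spec] at h3
        exact Fin.ext h3)
  refine ⟨i, ?_, h2⟩
  rw [h1, wt_aeval_mul_b C hj₀']
  exact hmax j (by simp [hs, hj])

theorem wt_apery (p : Fin C.d → Qb[X]) (j : Fin C.d) (hj : p j ≠ 0) :
    C.d * (p j).natDegree + C.ρ (ap C j) ≤ C.wt (∑ j, aeval C.t (p j) * C.b (ap C j)) := by
  obtain ⟨i, h1, h2⟩ := apery_sum_top C p j hj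
  exact h1.trans (apery_le_wt C h2)

theorem apery_eq_zero_of_sum_eq_zero (p : Fin C.d → Qb[X])
    (h : ∑ j, aeval C.t (p j) * C.b (ap C j) = 0) : p = 0 := by
  funext j
  by_contra hj
  obtain ⟨i, -, h2⟩ := apery_sum_top C p j hj
  rw [h] at h2
  simp at h2

theorem apery_unique (p q : Fin C.d → Qb[X])
    (h : ∑ j, aeval C.t (p j) * C.b (ap C j) = ∑ j, aeval C.t (q j) * C.b (ap C j)) : p = q := by
  have h1 : p - q = 0 := by
    apply apery_eq_zero_of_sum_eq_zero C
    simp only [Pi.sub_apply, map_sub, sub_mul, Finset.sum_sub_distrib, h, sub_self]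
  exact sub_eq_zero.mp h1

/-! ## existence -/

/-- `f = ∑ p_j(t) y_j` with the coefficients of the `p_j` in the image of `φ`. -/
def AperyRep {k : Type} [Field k] (φ : k →+* Qb) (f : A) : Prop :=
  ∃ p : Fin C.d → k[X], f = ∑ j, aeval C.t ((p j).map φ) * C.b (ap C j)

section Rep

variable {C} {k : Type} [Field k] {φ : k →+* Qb}

theorem AperyRep.zero : AperyRep C φ (0 : A) := ⟨0, by simp⟩

theorem AperyRep.add {f h : A} (hf : AperyRep C φ f) (hh : AperyRep C φ h) :
    AperyRep C φ (f + h) := by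
  obtain ⟨p, rfl⟩ := hf
  obtain ⟨q, rfl⟩ := hh
  exact ⟨p + q, by simp only [Pi.add_apply, Polynomial.map_add, map_add, add_mul,
    Finset.sum_add_distrib]⟩

theorem AperyRep.smul {f : A} (hf : AperyRep C φ f) (c : k) : AperyRep C φ (φ c • f) := by
  obtain ⟨p, rfl⟩ := hf
  refine ⟨fun j => Polynomial.C c * p j, ?_⟩
  rw [Finset.smul_sum]
  refine Finset.sum_congr rfl fun j _ => ?_
  rw [Polynomial.map_mul, Polynomial.map_C, map_mul, aeval_C, mul_assoc, ← Algebra.smul_def]

theorem AperyRep.neg {f : A} (hf : AperyRep C φ f) : AperyRep C φ (-f) := by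
  have := hf.smul (-1)
  simpa using this

theorem AperyRep.sub {f h : A} (hf : AperyRep C φ f) (hh : AperyRep C φ h) :
    AperyRep C φ (f - h) := by
  rw [sub_eq_add_neg]
  exact hf.add hh.neg

theorem AperyRep.sum {ι : Type*} (s : Finset ι) (T : ι → A) (h : ∀ l ∈ s, AperyRep C φ (T l)) :
    AperyRep C φ (∑ l ∈ s, T l) := by
  induction s using Finset.induction_on with
  | empty => simpa using AperyRep.zero
  | insert a s ha ih =>
    rw [Finset.sum_insert ha]
    exact (h a (Finset.mem_insert_self a s)).add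
      (ih fun l hl => h l (Finset.mem_insert_of_mem hl))

theorem aperyRep_term (n : ℕ) (j : Fin C.d) : AperyRep C φ (C.t ^ n * C.b (ap C j)) := by
  refine ⟨Pi.single j (X ^ n), ?_⟩
  rw [Finset.sum_eq_single j]
  · simp
  · intro l _ hl
    simp [Pi.single_eq_of_ne hl]
  · intro h
    exact absurd (Finset.mem_univ j) h

end Rep

theorem apery_isRat_b (i : ℕ) : C.IsRat (C.b i) := by
  intro l
  rw [C.b.repr_self, Finsupp.single_apply]
  split_ifs
  · exact ⟨1, map_one _⟩
  · exact ⟨0, map_zero _⟩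

theorem apery_isRat_one : C.IsRat (1 : A) := by
  rw [← C.b_zero]
  exact apery_isRat_b C 0

theorem apery_isRat_t_pow (n : ℕ) : C.IsRat (C.t ^ n) := by
  induction n with
  | zero => rw [pow_zero]; exact apery_isRat_one C
  | succ n ih => rw [pow_succ]; exact isRat_mul C ih (apery_isRat_b C 1)

/-- expansion of an element of bounded weight in the basis `b`. -/
theorem apery_eq_sum_range {f : A} {i : ℕ} (h : C.wt f ≤ C.ρ i) :
    f = ∑ l ∈ Finset.range (i + 1), C.b.repr f l • C.b l := by
  conv_lhs => rw [← C.b.linearCombination_repr f]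
  rw [Finsupp.linearCombination_apply]
  refine Finsupp.sum_of_support_subset _ ?_ _ (by simp)
  intro l hl
  rw [Finset.mem_range, Nat.lt_succ_iff]
  have h1 := apery_le_wt C (Finsupp.mem_support_iff.mp hl)
  exact C.ρ_strictMono.le_iff_le.mp (h1.trans h)

/-- minimality of the Apéry index. -/
theorem apery_ap_le {i : ℕ} {j : Fin C.d} (h : C.ρ i % C.d = j) : ap C j ≤ i := Nat.sInf_le h

/-- every element of the semigroup is `ρ (ap j) + d n`. -/
theorem apery_exists_rho_eq (i : ℕ) : ∃ (j : Fin C.d) (n : ℕ), C.ρ i = C.d * n + C.ρ (ap C j) := by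
  have hd := d_pos C
  refine ⟨⟨C.ρ i % C.d, Nat.mod_lt _ hd⟩, (C.ρ i - C.ρ (ap C ⟨C.ρ i % C.d, Nat.mod_lt _ hd⟩)) / C.d,
    ?_⟩
  set j : Fin C.d := ⟨C.ρ i % C.d, Nat.mod_lt _ hd⟩ with hj
  have h1 : C.ρ (ap C j) ≤ C.ρ i := rho_ap_le C rfl
  have h2 : C.ρ (ap C j) % C.d = C.ρ i % C.d := ap_spec C j
  have h3 : C.d ∣ C.ρ i - C.ρ (ap C j) := (Nat.modEq_iff_dvd' h1).mp h2
  rw [Nat.mul_div_cancel' h3]
  omega

theorem aperyRep_b (i : ℕ) : AperyRep C (algebraMap ℚ Qb) (C.b i) := by
  induction i using Nat.strong_induction_on with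
  | _ i ih =>
    obtain ⟨j, n, hn⟩ := apery_exists_rho_eq C i
    set f : A := C.t ^ n * C.b (ap C j) with hf
    have hf0 : f ≠ 0 := apery_mul_ne_zero C (apery_t_pow_ne_zero C n) (apery_b_ne_zero C _)
    have hwt : C.wt f = C.ρ i := by
      rw [hf, wt_mul C (apery_t_pow_ne_zero C n) (apery_b_ne_zero C _), apery_wt_t_pow, wt_b, hn]
    have hrat : C.IsRat f := isRat_mul C (apery_isRat_t_pow C n) (apery_isRat_b C _)
    have hc : C.b.repr f i ≠ 0 := by
      obtain ⟨i', h1, h2⟩ := apery_exists_top C hf0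
      rw [hwt] at h2
      rwa [C.ρ_strictMono.injective h2] at h1
    choose q hq using hrat
    have hq0 : q i ≠ 0 := by
      intro h0
      apply hc
      rw [← hq i, h0, map_zero]
    have hsum := apery_eq_sum_range C hwt.le
    rw [Finset.sum_range_succ] at hsum
    have hb : C.b i = algebraMap ℚ Qb (q i)⁻¹ •
        (f - ∑ l ∈ Finset.range i, algebraMap ℚ Qb (q l) • C.b l) := by
      have h1 : f - ∑ l ∈ Finset.range i, algebraMap ℚ Qb (q l) • C.b l
          = algebraMap ℚ Qb (q i) • C.b i := by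
        simp only [hq]
        rw [sub_eq_iff_eq_add, add_comm]
        exact hsum
      rw [h1, smul_smul, ← map_mul, inv_mul_cancel₀ hq0, map_one, one_smul]
    rw [hb]
    exact ((aperyRep_term n j).sub (AperyRep.sum _ _ fun l hl =>
      (ih l (Finset.mem_range.mp hl)).smul (q l))).smul _

theorem aperyRep_of_isRat {f : A} (hf : C.IsRat f) : AperyRep C (algebraMap ℚ Qb) f := by
  choose q hq using hf
  rw [← C.b.linearCombination_repr f, Finsupp.linearCombination_apply, Finsupp.sum]
  refine AperyRep.sum _ _ fun l _ => ?_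
  rw [← hq l]
  exact (aperyRep_b C l).smul (q l)

theorem aperyRep_id (f : A) : AperyRep C (RingHom.id Qb) f := by
  rw [← C.b.linearCombination_repr f, Finsupp.linearCombination_apply, Finsupp.sum]
  refine AperyRep.sum _ _ fun l _ => ?_
  have h1 : AperyRep C (RingHom.id Qb) (C.b l) := by
    obtain ⟨p, hp⟩ := aperyRep_b C l
    exact ⟨fun j => (p j).map (algebraMap ℚ Qb), by simpa only [Polynomial.map_id] using hp⟩
  exact h1.smul (C.b.repr f l)

/-- every element is uniquely `∑ p_j(t) y_j`, and the weight is the maximum of the weights. -/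
theorem exists_unique_apery (f : A) : ∃! p : Fin C.d → Qb[X],
    f = ∑ j, aeval C.t (p j) * C.b (ap C j) := by
  obtain ⟨p, hp⟩ := aperyRep_id C f
  simp only [Polynomial.map_id] at hp
  exact ⟨p, hp, fun q hq => apery_unique C q p (hq.symm.trans hp)⟩

/-- the matrix of multiplication by `f` in the Apéry basis. -/
def mulMat (f : A) : Matrix (Fin C.d) (Fin C.d) Qb[X] :=
  fun i j => (exists_unique_apery C (f * C.b (ap C j))).choose i

/-- the norm `A → ℚ̄[T]`. -/
def Nm (f : A) : Qb[X] := (mulMat C f).det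

/-! ## coordinates in the Apéry basis -/

/-- the coordinates `p_j` of `f = ∑ p_j(t) y_j`. -/
def aperyCoeff (f : A) : Fin C.d → Qb[X] := (exists_unique_apery C f).choose

theorem aperyCoeff_spec (f : A) :
    f = ∑ j, aeval C.t (aperyCoeff C f j) * C.b (ap C j) :=
  (exists_unique_apery C f).choose_spec.1

theorem aperyCoeff_eq {f : A} {p : Fin C.d → Qb[X]}
    (h : f = ∑ j, aeval C.t (p j) * C.b (ap C j)) : aperyCoeff C f = p :=
  ((exists_unique_apery C f).choose_spec.2 p h).symm

theorem aperyCoeff_sum (p : Fin C.d → Qb[X]) :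
    aperyCoeff C (∑ j, aeval C.t (p j) * C.b (ap C j)) = p := aperyCoeff_eq C rfl

theorem mulMat_apply (f : A) (i j : Fin C.d) :
    mulMat C f i j = aperyCoeff C (f * C.b (ap C j)) i := rfl

theorem aperyCoeff_zero : aperyCoeff C (0 : A) = 0 := aperyCoeff_eq C (by simp)

theorem aperyCoeff_add (f h : A) : aperyCoeff C (f + h) = aperyCoeff C f + aperyCoeff C h := by
  apply aperyCoeff_eq
  simp only [Pi.add_apply, map_add, add_mul, Finset.sum_add_distrib]
  rw [← aperyCoeff_spec, ← aperyCoeff_spec]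

theorem aperyCoeff_aeval_mul (q : Qb[X]) (f : A) :
    aperyCoeff C (aeval C.t q * f) = fun j => q * aperyCoeff C f j := by
  apply aperyCoeff_eq
  simp only [map_mul, mul_assoc]
  rw [← Finset.mul_sum, ← aperyCoeff_spec]

theorem aperyCoeff_smul (c : Qb) (f : A) :
    aperyCoeff C (c • f) = fun j => Polynomial.C c * aperyCoeff C f j := by
  rw [← aperyCoeff_aeval_mul, aeval_C, ← Algebra.smul_def]

theorem aperyCoeff_neg (f : A) : aperyCoeff C (-f) = -aperyCoeff C f := by
  apply aperyCoeff_eq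
  simp only [Pi.neg_apply, map_neg, neg_mul, Finset.sum_neg_distrib]
  rw [← aperyCoeff_spec]

theorem aperyCoeff_sub (f h : A) : aperyCoeff C (f - h) = aperyCoeff C f - aperyCoeff C h := by
  rw [sub_eq_add_neg, aperyCoeff_add, aperyCoeff_neg, sub_eq_add_neg]

theorem aperyCoeff_finset_sum {ι : Type*} (s : Finset ι) (T : ι → A) :
    aperyCoeff C (∑ l ∈ s, T l) = ∑ l ∈ s, aperyCoeff C (T l) := by
  induction s using Finset.induction_on with
  | empty => simpa using aperyCoeff_zero C
  | insert a s ha ih => rw [Finset.sum_insert ha, Finset.sum_insert ha, aperyCoeff_add, ih]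

theorem aperyCoeff_b_ap (j : Fin C.d) : aperyCoeff C (C.b (ap C j)) = Pi.single j 1 := by
  apply aperyCoeff_eq
  rw [Finset.sum_eq_single j]
  · simp
  · intro l _ hl
    simp [Pi.single_eq_of_ne hl]
  · intro h
    exact absurd (Finset.mem_univ j) h

theorem aperyCoeff_aeval_mul_b_ap (q : Qb[X]) (j : Fin C.d) :
    aperyCoeff C (aeval C.t q * C.b (ap C j)) = Pi.single j q := by
  rw [aperyCoeff_aeval_mul, aperyCoeff_b_ap]
  funext l
  by_cases h : l = j
  · subst h
    simp
  · simp [Pi.single_eq_of_ne h]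

theorem aperyCoeff_eq_zero_iff (f : A) : aperyCoeff C f = 0 ↔ f = 0 := by
  constructor
  · intro h
    rw [aperyCoeff_spec C f, h]
    simp
  · rintro rfl
    exact aperyCoeff_zero C

/-- degree bound. -/
theorem natDegree_aperyCoeff_le_wt (f : A) (j : Fin C.d) (hj : aperyCoeff C f j ≠ 0) :
    C.d * (aperyCoeff C f j).natDegree + C.ρ (ap C j) ≤ C.wt f := by
  have := wt_apery C (aperyCoeff C f) j hj
  rwa [← aperyCoeff_spec] at this

theorem natDegree_aperyCoeff_le {f : A} {n : ℕ} (hf : f ∈ C.V n) (j : Fin C.d)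
    (hj : aperyCoeff C f j ≠ 0) :
    C.d * (aperyCoeff C f j).natDegree + C.ρ (ap C j) ≤ n :=
  (natDegree_aperyCoeff_le_wt C f j hj).trans ((mem_V_iff C n f).mp hf)

/-- upper bound for the weight of `∑ p_j(t) y_j`. -/
theorem wt_apery_le (p : Fin C.d → Qb[X]) (n : ℕ)
    (h : ∀ j, p j ≠ 0 → C.d * (p j).natDegree + C.ρ (ap C j) ≤ n) :
    C.wt (∑ j, aeval C.t (p j) * C.b (ap C j)) ≤ n := by
  apply apery_wt_sum_le
  intro j _
  by_cases hj : p j = 0
  · simp [hj, apery_wt_zero]
  · rw [wt_aeval_mul_b C hj]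
    exact h j hj

/-- the weight of `∑ p_j(t) y_j` is the maximum of the weights of the terms. -/
theorem wt_apery_eq (p : Fin C.d → Qb[X]) :
    C.wt (∑ j, aeval C.t (p j) * C.b (ap C j)) =
      (Finset.univ.filter fun j => p j ≠ 0).sup fun j => C.d * (p j).natDegree + C.ρ (ap C j) := by
  apply le_antisymm
  · apply wt_apery_le
    intro j hj
    exact Finset.le_sup (f := fun j => C.d * (p j).natDegree + C.ρ (ap C j)) (by simp [hj])
  · apply Finset.sup_le
    intro j hj
    exact wt_apery C p j (by simpa using hj)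

/-- rationality. -/
theorem aperyCoeff_isRat {f : A} (hf : C.IsRat f) :
    ∃ q : Fin C.d → ℚ[X], ∀ j, aperyCoeff C f j = (q j).map (algebraMap ℚ Qb) := by
  obtain ⟨q, hq⟩ := aperyRep_of_isRat C hf
  exact ⟨q, fun j => congrFun (aperyCoeff_eq C hq) j⟩

/-! ## the multiplication matrices -/

theorem mul_b_ap_eq (f : A) (j : Fin C.d) :
    f * C.b (ap C j) = ∑ i, aeval C.t (mulMat C f i j) * C.b (ap C i) :=
  aperyCoeff_spec C (f * C.b (ap C j))

theorem mulMat_eq_of {f : A} {M : Matrix (Fin C.d) (Fin C.d) Qb[X]}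
    (h : ∀ j, f * C.b (ap C j) = ∑ i, aeval C.t (M i j) * C.b (ap C i)) : mulMat C f = M := by
  ext i j : 2
  rw [mulMat_apply, aperyCoeff_eq C (h j)]

theorem mulMat_zero : mulMat C (0 : A) = 0 := mulMat_eq_of C (by simp)

theorem mulMat_add (f h : A) : mulMat C (f + h) = mulMat C f + mulMat C h := by
  ext i j : 2
  rw [Matrix.add_apply, mulMat_apply, mulMat_apply, mulMat_apply, add_mul, aperyCoeff_add,
    Pi.add_apply]

theorem mulMat_neg (f : A) : mulMat C (-f) = -mulMat C f := by
  ext i j : 2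
  rw [Matrix.neg_apply, mulMat_apply, mulMat_apply, neg_mul, aperyCoeff_neg, Pi.neg_apply]

theorem mulMat_sub (f h : A) : mulMat C (f - h) = mulMat C f - mulMat C h := by
  rw [sub_eq_add_neg, mulMat_add, mulMat_neg, sub_eq_add_neg]

theorem mulMat_aeval_mul (q : Qb[X]) (f : A) : mulMat C (aeval C.t q * f) = q • mulMat C f := by
  ext i j : 2
  rw [Matrix.smul_apply, mulMat_apply, mulMat_apply, mul_assoc, aperyCoeff_aeval_mul, smul_eq_mul]

theorem mulMat_one : mulMat C (1 : A) = 1 := by
  ext i j : 2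
  rw [mulMat_apply, one_mul, aperyCoeff_b_ap, Matrix.one_apply, Pi.single_apply]

theorem mulMat_aeval (q : Qb[X]) : mulMat C (aeval C.t q) = Matrix.scalar (Fin C.d) q := by
  have := mulMat_aeval_mul C q 1
  rw [mul_one, mulMat_one] at this
  rw [this, Matrix.smul_one_eq_diagonal]
  rfl

theorem mulMat_smul (c : Qb) (f : A) : mulMat C (c • f) = Polynomial.C c • mulMat C f := by
  rw [← mulMat_aeval_mul, aeval_C, ← Algebra.smul_def]

theorem mulMat_mul (f h : A) : mulMat C (f * h) = mulMat C f * mulMat C h := by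
  apply mulMat_eq_of
  intro j
  rw [mul_assoc, mul_b_ap_eq C h j, Finset.mul_sum]
  have h1 : ∀ k, f * (aeval C.t (mulMat C h k j) * C.b (ap C k))
      = ∑ i, aeval C.t (mulMat C f i k * mulMat C h k j) * C.b (ap C i) := by
    intro k
    rw [mul_left_comm, mul_b_ap_eq C f k, Finset.mul_sum]
    refine Finset.sum_congr rfl fun i _ => ?_
    rw [map_mul]
    ring
  simp only [h1]
  rw [Finset.sum_comm]
  refine Finset.sum_congr rfl fun i _ => ?_
  rw [Matrix.mul_apply, map_sum, Finset.sum_mul]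

/-- `mulMat` as a ring homomorphism. -/
def mulMatHom : A →+* Matrix (Fin C.d) (Fin C.d) Qb[X] where
  toFun := mulMat C
  map_one' := mulMat_one C
  map_mul' := mulMat_mul C
  map_zero' := mulMat_zero C
  map_add' := mulMat_add C

theorem mulMatHom_apply (f : A) : mulMatHom C f = mulMat C f := rfl

theorem mulMat_pow (f : A) (n : ℕ) : mulMat C (f ^ n) = mulMat C f ^ n :=
  map_pow (mulMatHom C) f n

theorem mulMat_finset_sum {ι : Type*} (s : Finset ι) (T : ι → A) :
    mulMat C (∑ l ∈ s, T l) = ∑ l ∈ s, mulMat C (T l) := map_sum (mulMatHom C) T s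

theorem mulMat_injective : Function.Injective (mulMat C) := by
  intro f h hfh
  have hd := d_pos C
  have h1 := mul_b_ap_eq C f ⟨0, hd⟩
  rw [hfh, ← mul_b_ap_eq C h ⟨0, hd⟩] at h1
  have := apery_isDomain C
  exact mul_right_cancel₀ (apery_b_ne_zero C _) h1

/-- degree bound for the entries of `mulMat f`. -/
theorem natDegree_mulMat_le {f : A} (hf : f ≠ 0) (i j : Fin C.d) (hij : mulMat C f i j ≠ 0) :
    C.d * (mulMat C f i j).natDegree + C.ρ (ap C i) ≤ C.wt f + C.ρ (ap C j) := by
  have := natDegree_aperyCoeff_le_wt C (f * C.b (ap C j)) i hij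
  rwa [wt_mul C hf (apery_b_ne_zero C _), wt_b] at this

theorem mulMat_isRat {f : A} (hf : C.IsRat f) :
    ∃ M : Matrix (Fin C.d) (Fin C.d) ℚ[X], mulMat C f = M.map (Polynomial.map (algebraMap ℚ Qb)) := by
  have h := fun j => aperyCoeff_isRat C (isRat_mul C hf (apery_isRat_b C (ap C j)))
  choose q hq using h
  refine ⟨Matrix.of fun i j => q j i, ?_⟩
  ext i j : 2
  rw [mulMat_apply, hq j i, Matrix.map_apply, Matrix.of_apply]

/-! ## packaging: `A` is a free `ℚ̄[T]`-algebra of rank `d` -/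

/-- `A` as an algebra over `ℚ̄[T]` through `T ↦ t` (not an instance: use `letI := polyAlgebra C`). -/
@[reducible] def polyAlgebra : Algebra Qb[X] A := (aeval C.t : Qb[X] →ₐ[Qb] A).toRingHom.toAlgebra

theorem polyAlgebra_algebraMap (q : Qb[X]) :
    letI := polyAlgebra C
    algebraMap Qb[X] A q = aeval C.t q := rfl

theorem polyAlgebra_smul_def (q : Qb[X]) (f : A) :
    letI := polyAlgebra C
    q • f = aeval C.t q * f := rfl

theorem polyAlgebra_isScalarTower :
    letI := polyAlgebra C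
    IsScalarTower Qb Qb[X] A :=
  let _ := polyAlgebra C
  IsScalarTower.of_algebraMap_eq fun c => (aeval_C (A := A) C.t c).symm

/-- the coordinates as a `ℚ̄[T]`-linear equivalence. -/
def aperyEquiv :
    letI := polyAlgebra C
    A ≃ₗ[Qb[X]] (Fin C.d → Qb[X]) :=
  letI := polyAlgebra C
  { toFun := aperyCoeff C
    map_add' := aperyCoeff_add C
    map_smul' := fun q f => aperyCoeff_aeval_mul C q f
    invFun := fun p => ∑ j, aeval C.t (p j) * C.b (ap C j)
    left_inv := fun f => (aperyCoeff_spec C f).symm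
    right_inv := fun p => aperyCoeff_sum C p }

/-- the Apéry basis of `A` over `ℚ̄[T]`. -/
def aperyBasis :
    letI := polyAlgebra C
    Module.Basis (Fin C.d) Qb[X] A :=
  letI := polyAlgebra C
  Module.Basis.ofEquivFun (aperyEquiv C)

theorem aperyBasis_repr (f : A) (j : Fin C.d) :
    letI := polyAlgebra C
    (aperyBasis C).repr f j = aperyCoeff C f j := rfl

theorem aperyBasis_apply (j : Fin C.d) :
    letI := polyAlgebra C
    aperyBasis C j = C.b (ap C j) := by
  let _ := polyAlgebra C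
  have h : aperyBasis C j = (aperyEquiv C).symm (Pi.single j 1) := by
    unfold aperyBasis
    rw [Module.Basis.coe_ofEquivFun]
  rw [h, LinearEquiv.symm_apply_eq]
  exact (aperyCoeff_b_ap C j).symm

theorem mulMat_eq_leftMulMatrix (f : A) :
    letI := polyAlgebra C
    mulMat C f = Algebra.leftMulMatrix (aperyBasis C) f := by
  let _ := polyAlgebra C
  ext i j : 2
  rw [Algebra.leftMulMatrix_eq_repr_mul, aperyBasis_apply, aperyBasis_repr, mulMat_apply]

theorem Nm_eq_norm (f : A) :
    letI := polyAlgebra C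
    Nm C f = Algebra.norm Qb[X] f := by
  let _ := polyAlgebra C
  rw [Algebra.norm_eq_matrix_det (aperyBasis C), ← mulMat_eq_leftMulMatrix]
  rfl

theorem polyAlgebra_free :
    letI := polyAlgebra C
    Module.Free Qb[X] A :=
  let _ := polyAlgebra C
  Module.Free.of_basis (aperyBasis C)

theorem polyAlgebra_finite :
    letI := polyAlgebra C
    Module.Finite Qb[X] A :=
  let _ := polyAlgebra C
  Module.Finite.of_basis (aperyBasis C)

theorem polyAlgebra_finrank :
    letI := polyAlgebra C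
    Module.finrank Qb[X] A = C.d := by
  let _ := polyAlgebra C
  rw [Module.finrank_eq_card_basis (aperyBasis C), Fintype.card_fin]

end Fermat.Agent.S17.H
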