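import Fermat.Agent.S17.H.NullHom
import Fermat.Agent.S17.H.AbsBasic

/-!
# S17/H, block X1, node BH2: families of polynomials of bidegree `≤ (D,D)` without common zero
on `ℙ¹ × ℙ¹`, in coefficient-matrix form

Owner of this file: helper126.
-/

set_option autoImplicit false

noncomputable section

open scoped Classical

namespace Fermat.Agent.S17.H

open MvPolynomial

variable (𝔳 : AbsFam)

/-- evaluation of a coefficient matrix. -/
def ev2 {D : ℕ} (g : Fin (D + 1) → Fin (D + 1) → Qb) (α β : Qb) : Qb :=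
  ∑ i, ∑ j, g i j * α ^ (i : ℕ) * β ^ (j : ℕ)

namespace BiProj

/-- the bihomogenised evaluation. -/
def hev {D : ℕ} (g : Fin (D + 1) → Fin (D + 1) → Qb) (x y : Fin 2 → Qb) : Qb :=
  ∑ i, ∑ j, g i j * (x 0 ^ (i : ℕ) * x 1 ^ (D - (i : ℕ))) * (y 0 ^ (j : ℕ) * y 1 ^ (D - (j : ℕ)))

/-- the bihomogenised polynomial. -/
def Gh {D : ℕ} (g : Fin (D + 1) → Fin (D + 1) → Qb) : MvPolynomial (Fin 2 ⊕ Fin 2) Qb :=
  ∑ i, ∑ j, C (g i j) * (X (Sum.inl 0) ^ (i : ℕ) * X (Sum.inl 1) ^ (D - (i : ℕ))) *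
    (X (Sum.inr 0) ^ (j : ℕ) * X (Sum.inr 1) ^ (D - (j : ℕ)))

theorem eval_Gh {D : ℕ} (g : Fin (D + 1) → Fin (D + 1) → Qb) (x y : Fin 2 → Qb) :
    eval (Sum.elim x y) (Gh g) = hev g x y := by
  simp [Gh, hev]

theorem hev_smul {D : ℕ} (g : Fin (D + 1) → Fin (D + 1) → Qb) (s u : Qb) (x y : Fin 2 → Qb) :
    hev g (s • x) (u • y) = s ^ D * u ^ D * hev g x y := by
  unfold hev
  rw [Finset.mul_sum]
  refine Finset.sum_congr rfl fun i _ => ?_
  rw [Finset.mul_sum]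
  refine Finset.sum_congr rfl fun j _ => ?_
  have hi : D = (i : ℕ) + (D - (i : ℕ)) := by have := i.2; omega
  have hj : D = (j : ℕ) + (D - (j : ℕ)) := by have := j.2; omega
  have h1 : s ^ D = s ^ (i : ℕ) * s ^ (D - (i : ℕ)) := by rw [← pow_add, ← hi]
  have h2 : u ^ D = u ^ (j : ℕ) * u ^ (D - (j : ℕ)) := by rw [← pow_add, ← hj]
  rw [h1, h2]
  simp only [Pi.smul_apply, smul_eq_mul, mul_pow]
  ring

theorem sum_mul_zero_pow {D : ℕ} (f : Fin (D + 1) → Qb) :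
    ∑ i, f i * (0 : Qb) ^ (D - (i : ℕ)) = f (Fin.last D) := by
  rw [Finset.sum_eq_single (Fin.last D)]
  · simp
  · intro i _ hi
    have h : (i : ℕ) ≠ D := fun h => hi (Fin.ext (by simpa using h))
    have h' := i.2
    rw [zero_pow (by omega), mul_zero]
  · simp

theorem hev_11 {D : ℕ} (g : Fin (D + 1) → Fin (D + 1) → Qb) (α β : Qb) :
    hev g ![α, 1] ![β, 1] = ev2 g α β := by
  simp [hev, ev2]

theorem hev_01 {D : ℕ} (g : Fin (D + 1) → Fin (D + 1) → Qb) (β : Qb) :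
    hev g ![1, 0] ![β, 1] = ∑ j, g (Fin.last D) j * β ^ (j : ℕ) := by
  have : hev g ![1, 0] ![β, 1] =
      ∑ i, (∑ j, g i j * β ^ (j : ℕ)) * (0 : Qb) ^ (D - (i : ℕ)) := by
    unfold hev
    refine Finset.sum_congr rfl fun i _ => ?_
    rw [Finset.sum_mul]
    refine Finset.sum_congr rfl fun j _ => ?_
    simp
    ring
  rw [this, sum_mul_zero_pow]

theorem hev_10 {D : ℕ} (g : Fin (D + 1) → Fin (D + 1) → Qb) (α : Qb) :
    hev g ![α, 1] ![1, 0] = ∑ i, g i (Fin.last D) * α ^ (i : ℕ) := by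
  unfold hev
  refine Finset.sum_congr rfl fun i _ => ?_
  have : ∀ j : Fin (D + 1), g i j * ((![α, 1] : Fin 2 → Qb) 0 ^ (i : ℕ) *
      (![α, 1] : Fin 2 → Qb) 1 ^ (D - (i : ℕ))) * ((![1, 0] : Fin 2 → Qb) 0 ^ (j : ℕ) *
      (![1, 0] : Fin 2 → Qb) 1 ^ (D - (j : ℕ))) =
      (g i j * α ^ (i : ℕ)) * (0 : Qb) ^ (D - (j : ℕ)) := by
    intro j
    simp
  rw [Finset.sum_congr rfl fun j _ => this j, sum_mul_zero_pow fun j => g i j * α ^ (i : ℕ)]

theorem hev_00 {D : ℕ} (g : Fin (D + 1) → Fin (D + 1) → Qb) :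
    hev g ![1, 0] ![1, 0] = g (Fin.last D) (Fin.last D) := by
  have : hev g ![1, 0] ![1, 0] =
      ∑ i, (∑ j, g i j * (0 : Qb) ^ (D - (j : ℕ))) * (0 : Qb) ^ (D - (i : ℕ)) := by
    unfold hev
    refine Finset.sum_congr rfl fun i _ => ?_
    rw [Finset.sum_mul]
    refine Finset.sum_congr rfl fun j _ => ?_
    simp
    ring
  rw [this, sum_mul_zero_pow, sum_mul_zero_pow]

theorem eq_smul_of_ne (x : Fin 2 → Qb) (h : x 1 ≠ 0) : x = x 1 • ![x 0 / x 1, 1] := by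
  funext i
  fin_cases i
  · simp [mul_div_cancel₀ _ h]
  · simp

theorem eq_smul_of_eq (x : Fin 2 → Qb) (h : x 1 = 0) : x = x 0 • ![1, 0] := by
  funext i
  fin_cases i
  · simp
  · simpa using h

theorem ne_of_eq {x : Fin 2 → Qb} (hx : x ≠ 0) (h : x 1 = 0) : x 0 ≠ 0 := by
  intro h0
  apply hx
  funext i
  fin_cases i
  · simpa using h0
  · simpa using h

theorem vnorm_eq_mx (v : Pl) (α : Qb) : vnorm 𝔳 v ![α, 1] = mx 𝔳 v α := by
  apply le_antisymm
  · refine vnorm_le 𝔳 v (mx_pos 𝔳 v α).le fun i => ?_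
    fin_cases i
    · simpa using av_le_mx 𝔳 v α
    · simpa using one_le_mx 𝔳 v α
  · refine mx_le 𝔳 v ?_ ?_
    · simpa using le_vnorm 𝔳 v ![α, 1] 1
    · simpa using le_vnorm 𝔳 v ![α, 1] 0

theorem vec_ne_zero (α : Qb) : (![α, 1] : Fin 2 → Qb) ≠ 0 := fun h => by
  simpa using congrFun h 1

end BiProj

open BiProj in
theorem biproj_lower (D : ℕ) {ι : Type} (g : ι → Fin (D + 1) → Fin (D + 1) → Qb)
    (h1 : ∀ α β, ∃ k, ev2 (g k) α β ≠ 0)
    (h2 : ∀ β, ∃ k, ∑ j, g k (Fin.last D) j * β ^ (j : ℕ) ≠ 0)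
    (h3 : ∀ α, ∃ k, ∑ i, g k i (Fin.last D) * α ^ (i : ℕ) ≠ 0)
    (h4 : ∃ k, g k (Fin.last D) (Fin.last D) ≠ 0) :
    ∃ (S : Finset ι) (γ : MConst), ∀ (v : Pl) (α β : Qb), ∃ k ∈ S,
      (mx 𝔳 v α * mx 𝔳 v β) ^ D ≤ Real.exp (γ.c v) * 𝔳.av v (ev2 (g k) α β) := by
  obtain ⟨S, γ, h⟩ := bihom_lower 𝔳 (fun k => Gh (g k)) D D
    (fun k s u x y => by rw [eval_Gh, eval_Gh, hev_smul])
    (fun x y hx hy => by
      simp only [eval_Gh]
      by_cases hx1 : x 1 = 0 <;> by_cases hy1 : y 1 = 0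
      · obtain ⟨k, hk⟩ := h4
        refine ⟨k, ?_⟩
        rw [eq_smul_of_eq x hx1, eq_smul_of_eq y hy1, hev_smul, hev_00]
        exact mul_ne_zero (mul_ne_zero (pow_ne_zero _ (ne_of_eq hx hx1))
          (pow_ne_zero _ (ne_of_eq hy hy1))) hk
      · obtain ⟨k, hk⟩ := h2 (y 0 / y 1)
        refine ⟨k, ?_⟩
        rw [eq_smul_of_eq x hx1, eq_smul_of_ne y hy1, hev_smul, hev_01]
        exact mul_ne_zero (mul_ne_zero (pow_ne_zero _ (ne_of_eq hx hx1))
          (pow_ne_zero _ hy1)) hk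
      · obtain ⟨k, hk⟩ := h3 (x 0 / x 1)
        refine ⟨k, ?_⟩
        rw [eq_smul_of_ne x hx1, eq_smul_of_eq y hy1, hev_smul, hev_10]
        exact mul_ne_zero (mul_ne_zero (pow_ne_zero _ hx1)
          (pow_ne_zero _ (ne_of_eq hy hy1))) hk
      · obtain ⟨k, hk⟩ := h1 (x 0 / x 1) (y 0 / y 1)
        refine ⟨k, ?_⟩
        rw [eq_smul_of_ne x hx1, eq_smul_of_ne y hy1, hev_smul, hev_11]
        exact mul_ne_zero (mul_ne_zero (pow_ne_zero _ hx1) (pow_ne_zero _ hy1)) hk)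
  refine ⟨S, γ, fun v α β => ?_⟩
  obtain ⟨k, hkS, hk⟩ := h v ![α, 1] ![β, 1] (vec_ne_zero α) (vec_ne_zero β)
  refine ⟨k, hkS, ?_⟩
  rw [eval_Gh, hev_11, vnorm_eq_mx, vnorm_eq_mx, ← mul_pow] at hk
  exact hk

namespace BiProj

theorem coeff_eq_of_eval_eq (N : ℕ) (a b : ℕ → Qb)
    (h : ∀ x : Qb, ∑ j ∈ Finset.range N, a j * x ^ j = ∑ j ∈ Finset.range N, b j * x ^ j) :
    ∀ j < N, a j = b j := by
  intro j hj
  have hP : (∑ j ∈ Finset.range N, Polynomial.C (a j) * Polynomial.X ^ j : Polynomial Qb) =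
      ∑ j ∈ Finset.range N, Polynomial.C (b j) * Polynomial.X ^ j := by
    apply Polynomial.funext
    intro x
    simpa [Polynomial.eval_finsetSum] using h x
  have := congrArg (fun P => Polynomial.coeff P j) hP
  simpa [Polynomial.finsetSum_coeff, Polynomial.coeff_C_mul_X_pow, hj] using this

theorem sum_range_ext (t : ℕ → Qb) {a N : ℕ} (haN : a ≤ N) (h : ∀ j, a ≤ j → t j = 0) :
    ∑ j ∈ Finset.range a, t j = ∑ j ∈ Finset.range N, t j := by
  apply Finset.sum_subset (Finset.range_subset_range.2 haN)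
  intro j _ hj
  exact h j (by simpa using hj)

end BiProj

open BiProj in
/-- a polynomial function of two variables which is symmetric off the diagonal has a symmetric
coefficient matrix; in particular the degrees in the two variables agree. -/
theorem exists_ev2_of_symm (D D' : ℕ) (g' : Fin (D + 1) → Fin (D' + 1) → Qb)
    (hs : ∀ α β : Qb, α ≠ β →
      ∑ i, ∑ j, g' i j * α ^ (i : ℕ) * β ^ (j : ℕ) = ∑ i, ∑ j, g' i j * β ^ (i : ℕ) * α ^ (j : ℕ)) :
    ∃ g : Fin (D + 1) → Fin (D + 1) → Qb, (∀ i j, g i j = g j i) ∧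
      ∀ α β : Qb, ev2 g α β = ∑ i, ∑ j, g' i j * α ^ (i : ℕ) * β ^ (j : ℕ) := by
  -- the coefficients, extended by zero
  set c : ℕ → ℕ → Qb := fun i j =>
    if h : i < D + 1 ∧ j < D' + 1 then g' ⟨i, h.1⟩ ⟨j, h.2⟩ else 0 with hc
  have hcg : ∀ (i : Fin (D + 1)) (j : Fin (D' + 1)), g' i j = c i j := by
    intro i j
    simp only [hc]
    rw [dif_pos ⟨i.2, j.2⟩]
  have hc1 : ∀ i j, D + 1 ≤ i → c i j = 0 := by
    intro i j h
    simp only [hc]
    rw [dif_neg (by omega)]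
  have hc2 : ∀ i j, D' + 1 ≤ j → c i j = 0 := by
    intro i j h
    simp only [hc]
    rw [dif_neg (by omega)]
  set N := max (D + 1) (D' + 1) with hN
  have hDN : D + 1 ≤ N := le_max_left _ _
  have hDN' : D' + 1 ≤ N := le_max_right _ _
  have hF : ∀ α β : Qb, ∑ i, ∑ j, g' i j * α ^ (i : ℕ) * β ^ (j : ℕ) =
      ∑ i ∈ Finset.range N, ∑ j ∈ Finset.range N, c i j * α ^ i * β ^ j := by
    intro α β
    rw [← sum_range_ext (fun i => ∑ j ∈ Finset.range N, c i j * α ^ i * β ^ j) hDN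
      (fun i hi => Finset.sum_eq_zero fun j _ => by rw [hc1 i j hi]; ring),
      ← Fin.sum_univ_eq_sum_range (fun i => ∑ j ∈ Finset.range N, c i j * α ^ i * β ^ j)]
    refine Finset.sum_congr rfl fun i _ => ?_
    rw [← sum_range_ext (fun j => c i j * α ^ (i : ℕ) * β ^ j) hDN'
      (fun j hj => by rw [hc2 i j hj]; ring),
      ← Fin.sum_univ_eq_sum_range (fun j => c i j * α ^ (i : ℕ) * β ^ j)]
    exact Finset.sum_congr rfl fun j _ => by rw [hcg]
  have hs' : ∀ α β : Qb, ∑ i ∈ Finset.range N, ∑ j ∈ Finset.range N, c i j * α ^ i * β ^ j =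
      ∑ i ∈ Finset.range N, ∑ j ∈ Finset.range N, c i j * β ^ i * α ^ j := by
    intro α β
    by_cases h : α = β
    · rw [h]
    · rw [← hF, ← hF, hs α β h]
  have hsym0 : ∀ m < N, ∀ n < N, c m n = c n m := by
    intro m hm n hn
    refine coeff_eq_of_eval_eq N (fun i => c i n) (fun j => c n j) (fun α => ?_) m hm
    refine coeff_eq_of_eval_eq N (fun j => ∑ i ∈ Finset.range N, c i j * α ^ i)
      (fun i => ∑ j ∈ Finset.range N, c i j * α ^ j) (fun β => ?_) n hn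
    have := hs' α β
    rw [Finset.sum_comm] at this
    simp only [Finset.sum_mul]
    rw [this]
    refine Finset.sum_congr rfl fun i _ => Finset.sum_congr rfl fun j _ => ?_
    ring
  have hsym : ∀ m n, c m n = c n m := by
    intro m n
    by_cases hm : m < N
    · by_cases hn : n < N
      · exact hsym0 m hm n hn
      · rw [hc2 m n (by omega), hc1 n m (by omega)]
    · rw [hc1 m n (by omega), hc2 n m (by omega)]
  refine ⟨fun i j => c i j, fun i j => hsym _ _, fun α β => ?_⟩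
  rw [hF]
  unfold ev2
  rw [← sum_range_ext (fun i => ∑ j ∈ Finset.range N, c i j * α ^ i * β ^ j) hDN
    (fun i hi => Finset.sum_eq_zero fun j _ => by rw [hc1 i j hi]; ring),
    ← Fin.sum_univ_eq_sum_range (fun i => ∑ j ∈ Finset.range N, c i j * α ^ i * β ^ j)]
  refine Finset.sum_congr rfl fun i _ => ?_
  rw [← sum_range_ext (fun j => c i j * α ^ (i : ℕ) * β ^ j) hDN
    (fun j hj => by rw [hsym, hc1 j i hj]; ring),
    ← Fin.sum_univ_eq_sum_range (fun j => c i j * α ^ (i : ℕ) * β ^ j)]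

end Fermat.Agent.S17.H
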