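import Fermat.Agent.S17.H.AbsBasic

/-!
# S17, part H: the affine chart lemmas (task S17-H-NULL1, helper275)

* `chart_upper`: a polynomial over `ℚ̄` is bounded on the unit polydisc of every place by an
  `M`-constant.
* `chart_lower`: polynomials without a common zero are not simultaneously small on the unit
  polydisc (weak Nullstellensatz + `chart_upper`).
-/

set_option autoImplicit false

noncomputable section

open scoped Classical

namespace Fermat.Agent.S17.H

open MvPolynomial

variable (𝔳 : AbsFam)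

namespace Null

/-- integers have absolute value `≤ 1` at the finite places. -/
theorem av_intCast_le_one (p : Nat.Primes) (n : ℤ) : 𝔳.av (some p) (n : Qb) ≤ 1 := by
  have h := 𝔳.av_fin p (n : ℚ)
  have h2 : algebraMap ℚ Qb (n : ℚ) = (n : Qb) := by simp
  rw [h2] at h
  rw [h]
  have : Fact (p : ℕ).Prime := ⟨p.2⟩
  exact_mod_cast padicNorm.of_int (p := (p : ℕ)) n

/-- algebraic integers have absolute value `≤ 1` at the finite places. -/
theorem av_le_one_of_isIntegral (p : Nat.Primes) {y : Qb} (hy : IsIntegral ℤ y) :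
    𝔳.av (some p) y ≤ 1 := by
  obtain ⟨P, hP, hy⟩ := hy
  by_contra hlt
  rw [not_le] at hlt
  set n := P.natDegree with hn
  have hsum : y ^ n = -∑ i ∈ Finset.range n, ((P.coeff i : ℤ) : Qb) * y ^ i := by
    have h1 := hP.as_sum
    rw [h1] at hy
    simp only [Polynomial.eval₂_add, Polynomial.eval₂_pow, Polynomial.eval₂_X,
      Polynomial.eval₂_finsetSum, Polynomial.eval₂_mul, Polynomial.eval₂_C] at hy
    have h2 : ∀ i, (algebraMap ℤ Qb) (P.coeff i) = ((P.coeff i : ℤ) : Qb) := fun i => by simp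
    simp only [h2] at hy
    exact eq_neg_of_add_eq_zero_left hy
  have hpos : 0 < 𝔳.av (some p) y := zero_lt_one.trans hlt
  rcases Nat.eq_zero_or_pos n with h0 | h0
  · rw [h0] at hsum
    simp at hsum
  · have hb : 𝔳.av (some p) (∑ i ∈ Finset.range n, ((P.coeff i : ℤ) : Qb) * y ^ i)
        ≤ 𝔳.av (some p) y ^ (n - 1) := by
      refine av_sum_le_of_some 𝔳 p _ _ (pow_nonneg hpos.le _) fun i hi => ?_
      rw [map_mul, map_pow]
      have h1 := av_intCast_le_one 𝔳 p (P.coeff i)
      have h2 : 𝔳.av (some p) y ^ i ≤ 𝔳.av (some p) y ^ (n - 1) :=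
        pow_le_pow_right₀ hlt.le (by have := Finset.mem_range.1 hi; omega)
      calc 𝔳.av (some p) ((P.coeff i : ℤ) : Qb) * 𝔳.av (some p) y ^ i
          ≤ 1 * 𝔳.av (some p) y ^ (n - 1) :=
            mul_le_mul h1 h2 (pow_nonneg hpos.le _) zero_le_one
        _ = _ := one_mul _
    have hc : 𝔳.av (some p) y ^ n ≤ 𝔳.av (some p) y ^ (n - 1) := by
      rw [← map_pow, hsum, map_neg_eq_map]
      exact hb
    have hd : 𝔳.av (some p) y ^ (n - 1) < 𝔳.av (some p) y ^ n :=
      pow_lt_pow_right₀ hlt (by omega)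
    exact absurd hc (not_le.2 hd)

/-- an algebraic number has absolute value `≤ 1` at almost all places. -/
theorem finite_one_lt_av (x : Qb) : {v | 1 < 𝔳.av v x}.Finite := by
  have hx : IsAlgebraic ℤ x := by
    have hal : Algebra.IsAlgebraic ℚ Qb := AlgebraicClosure.isAlgebraic ℚ
    have : IsAlgebraic ℚ x := hal.isAlgebraic x
    exact (IsFractionRing.isAlgebraic_iff ℤ ℚ Qb).2 this
  obtain ⟨d, hd0, hd⟩ := hx.exists_integral_multiple
  have hfin : {p : Nat.Primes | (p : ℕ) ∣ d.natAbs}.Finite := by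
    have h1 : (d.natAbs.divisors : Set ℕ).Finite := Finset.finite_toSet _
    refine Set.Finite.of_injOn (f := fun p : Nat.Primes => (p : ℕ)) (t := (d.natAbs.divisors : Set ℕ))
      ?_ (fun a _ b _ hab => Subtype.ext hab) h1
    intro p hp
    simp only [Finset.mem_coe, Nat.mem_divisors]
    exact ⟨hp, by simpa using hd0⟩
  refine ((hfin.image some).union (Set.finite_singleton none)).subset ?_
  intro v hv
  cases v with
  | none => exact Or.inr rfl
  | some p =>
    left
    refine ⟨p, ?_, rfl⟩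
    by_contra hp
    have : Fact (p : ℕ).Prime := ⟨p.2⟩
    have h1 : 𝔳.av (some p) (d : Qb) = 1 := by
      have h := 𝔳.av_fin p (d : ℚ)
      have h2 : algebraMap ℚ Qb (d : ℚ) = (d : Qb) := by simp
      rw [h2] at h
      rw [h]
      have : padicNorm p (d : ℚ) = 1 := by
        rw [padicNorm.int_eq_one_iff]
        intro hdvd
        exact hp (Int.natCast_dvd.1 hdvd)
      rw [this]; simp
    have h3 := av_le_one_of_isIntegral 𝔳 p hd
    rw [zsmul_eq_mul, map_mul, h1, one_mul] at h3
    exact absurd hv (not_lt.2 h3)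

/-- a nonzero algebraic number has absolute value `1` at almost all places. -/
theorem finite_av_ne_one_aux {x : Qb} (hx : x ≠ 0) : {v | 𝔳.av v x ≠ 1}.Finite := by
  refine ((finite_one_lt_av 𝔳 x).union (finite_one_lt_av 𝔳 x⁻¹)).subset fun v hv => ?_
  rcases lt_or_gt_of_ne hv with h | h
  · right
    show 1 < 𝔳.av v x⁻¹
    rw [map_inv₀]
    exact (one_lt_inv₀ ((𝔳.av v).pos hx)).2 h
  · exact Or.inl h

theorem support_log_mx_finite (a : Qb) :
    (Function.support fun v => Real.log (mx 𝔳 v a)).Finite := by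
  refine (finite_one_lt_av 𝔳 a).subset fun v hv => ?_
  by_contra h
  have h1 : 𝔳.av v a ≤ 1 := not_lt.1 h
  apply hv
  show Real.log (mx 𝔳 v a) = 0
  rw [mx_def, max_eq_left h1, Real.log_one]

theorem support_log_ac_finite (n : ℕ) : (Function.support fun v => Real.log (ac v n)).Finite := by
  refine (Set.finite_singleton (none : Pl)).subset fun v hv => ?_
  cases v with
  | none => rfl
  | some p => exact absurd (by simp) hv

/-- `log (ac v n)` as an `M`-constant. -/
def cAc (n : ℕ) : MConst where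
  c v := Real.log (ac v n)
  nonneg v := log_ac_nonneg v n
  fin := support_log_ac_finite n

/-- `log⁺ |a|_v` as an `M`-constant. -/
def cMx (a : Qb) : MConst where
  c v := Real.log (mx 𝔳 v a)
  nonneg v := log_mx_nonneg 𝔳 v a
  fin := support_log_mx_finite 𝔳 a

/-- sum of two `M`-constants. -/
def cAdd (γ δ : MConst) : MConst where
  c v := γ.c v + δ.c v
  nonneg v := add_nonneg (γ.nonneg v) (δ.nonneg v)
  fin := (γ.fin.union δ.fin).subset (Function.support_add _ _)

/-- finite sum of `M`-constants. -/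
def cSum {α : Type*} (s : Finset α) (γ : α → MConst) : MConst where
  c v := ∑ i ∈ s, (γ i).c v
  nonneg v := Finset.sum_nonneg fun i _ => (γ i).nonneg v
  fin := by
    refine (s.finite_toSet.biUnion fun i _ => (γ i).fin).subset fun v hv => ?_
    by_contra h
    apply hv
    refine Finset.sum_eq_zero fun i hi => ?_
    by_contra h2
    exact h (Set.mem_biUnion (Finset.mem_coe.2 hi) h2)

theorem le_cSum {α : Type*} (s : Finset α) (γ : α → MConst) (v : Pl) {i : α} (hi : i ∈ s) :
    (γ i).c v ≤ (cSum s γ).c v :=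
  Finset.single_le_sum (f := fun i => (γ i).c v) (fun j _ => (γ j).nonneg v) hi

end Null

open Null

theorem chart_upper {σ : Type} [Fintype σ] (G : MvPolynomial σ Qb) :
    ∃ γ : MConst, ∀ (v : Pl) (x : σ → Qb), (∀ j, 𝔳.av v (x j) ≤ 1) →
      𝔳.av v (eval x G) ≤ Real.exp (γ.c v) := by
  refine ⟨cAdd (cAc (G.support.card + 1)) (cSum G.support fun m => cMx 𝔳 (coeff m G)), ?_⟩
  intro v x hx
  have hac : 0 < ac v (G.support.card + 1) := ac_pos v (Nat.succ_le_succ (Nat.zero_le _))
  show _ ≤ Real.exp (Real.log (ac v (G.support.card + 1)) +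
    (cSum G.support fun m => cMx 𝔳 (coeff m G)).c v)
  rw [Real.exp_add, Real.exp_log hac, eval_eq']
  have hterm : ∀ m ∈ G.support, 𝔳.av v (coeff m G * ∏ i, x i ^ m i) ≤
      Real.exp ((cSum G.support fun m => cMx 𝔳 (coeff m G)).c v) := by
    intro m hm
    rw [map_mul, map_prod]
    have h1 : ∏ i, 𝔳.av v (x i ^ m i) ≤ 1 := by
      refine Finset.prod_le_one (fun i _ => (𝔳.av v).nonneg _) fun i _ => ?_
      rw [map_pow]
      exact pow_le_one₀ ((𝔳.av v).nonneg _) (hx i)
    have h2 : 𝔳.av v (coeff m G) ≤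
        Real.exp ((cSum G.support fun m => cMx 𝔳 (coeff m G)).c v) := by
      refine (av_le_mx 𝔳 v _).trans ?_
      have h3 := le_cSum G.support (fun m => cMx 𝔳 (coeff m G)) v hm
      have h4 : mx 𝔳 v (coeff m G) = Real.exp ((cMx 𝔳 (coeff m G)).c v) :=
        (Real.exp_log (mx_pos 𝔳 v _)).symm
      rw [h4]
      exact Real.exp_le_exp.2 h3
    calc 𝔳.av v (coeff m G) * ∏ i, 𝔳.av v (x i ^ m i)
        ≤ Real.exp ((cSum G.support fun m => cMx 𝔳 (coeff m G)).c v) * 1 :=
          mul_le_mul h2 h1 (Finset.prod_nonneg fun i _ => (𝔳.av v).nonneg _) (Real.exp_pos _).le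
      _ = _ := mul_one _
  refine (av_sum_le 𝔳 v G.support _ (Real.exp_pos _).le hterm).trans ?_
  exact mul_le_mul_of_nonneg_right (ac_mono v (Nat.le_succ _)) (Real.exp_pos _).le

theorem chart_lower {σ ι : Type} [Fintype σ] (G : ι → MvPolynomial σ Qb)
    (h : ∀ x : σ → Qb, ∃ i, eval x (G i) ≠ 0) :
    ∃ (S : Finset ι) (γ : MConst), ∀ (v : Pl) (x : σ → Qb), (∀ j, 𝔳.av v (x j) ≤ 1) →
      ∃ i ∈ S, Real.exp (-(γ.c v)) ≤ 𝔳.av v (eval x (G i)) := by
  -- weak Nullstellensatz
  have htop : Ideal.span (Set.range G) = ⊤ := by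
    have h1 : zeroLocus Qb (Ideal.span (Set.range G)) = ∅ := by
      ext x
      simp only [Set.mem_empty_iff_false, iff_false, mem_zeroLocus_iff, not_forall]
      obtain ⟨i, hi⟩ := h x
      refine ⟨G i, Ideal.subset_span ⟨i, rfl⟩, ?_⟩
      rw [aeval_eq_eval]
      exact hi
    have h2 := vanishingIdeal_zeroLocus_eq_radical (K := Qb) (Ideal.span (Set.range G))
    rw [h1, vanishingIdeal_empty] at h2
    exact Ideal.radical_eq_top.1 h2.symm
  have hone : (1 : MvPolynomial σ Qb) ∈ Ideal.span (Set.range G) := by rw [htop]; trivial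
  obtain ⟨c, hc⟩ := Finsupp.mem_ideal_span_range_iff_exists_finsupp.1 hone
  choose γ hγ using fun i => chart_upper 𝔳 (c i)
  refine ⟨c.support, cAdd (cAc c.support.card) (cSum c.support γ), ?_⟩
  intro v x hx
  have hne : c.support.Nonempty := by
    by_contra hemp
    rw [Finset.not_nonempty_iff_eq_empty] at hemp
    rw [Finsupp.sum, hemp, Finset.sum_empty] at hc
    exact zero_ne_one hc
  obtain ⟨i₀, hi₀, hmax⟩ := Finset.exists_max_image c.support
    (fun i => 𝔳.av v (eval x (G i))) hne
  refine ⟨i₀, hi₀, ?_⟩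
  have hcard : 1 ≤ c.support.card := Finset.card_pos.2 hne
  have hac : 0 < ac v c.support.card := ac_pos v hcard
  have hev : (1 : Qb) = ∑ i ∈ c.support, eval x (c i) * eval x (G i) := by
    have := congrArg (eval x) hc
    rw [Finsupp.sum, map_sum, map_one] at this
    rw [← this]
    exact Finset.sum_congr rfl fun i _ => (map_mul _ _ _)
  have hterm : ∀ i ∈ c.support, 𝔳.av v (eval x (c i) * eval x (G i)) ≤
      Real.exp ((cSum c.support γ).c v) * 𝔳.av v (eval x (G i₀)) := by
    intro i hi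
    rw [map_mul]
    refine mul_le_mul ?_ (hmax i hi) ((𝔳.av v).nonneg _) (Real.exp_pos _).le
    exact (hγ i v x hx).trans (Real.exp_le_exp.2 (le_cSum c.support γ v hi))
  have hmain := av_sum_le 𝔳 v c.support _
    (mul_nonneg (Real.exp_pos _).le ((𝔳.av v).nonneg _)) hterm
  rw [← hev, map_one] at hmain
  show Real.exp (-(Real.log (ac v c.support.card) + (cSum c.support γ).c v)) ≤ _
  rw [Real.exp_neg, Real.exp_add, Real.exp_log hac]
  rw [inv_le_iff_one_le_mul₀ (mul_pos hac (Real.exp_pos _))]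
  calc (1 : ℝ) ≤ ac v c.support.card *
        (Real.exp ((cSum c.support γ).c v) * 𝔳.av v (eval x (G i₀))) := hmain
    _ = _ := by ring

end Fermat.Agent.S17.H
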