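import Fermat.Agent.S17.H.NullHom
import Fermat.Agent.S17.H.Null

/-!
# S17, part H: bilinear maps without zero divisors are quasi-multiplicative at all places
Owner: helper288.
-/

set_option autoImplicit false

noncomputable section

open scoped Classical

namespace Fermat.Agent.S17.H

open MvPolynomial

namespace Bilin

variable (𝔳 : AbsFam)

theorem vnorm_nonneg' (v : Pl) {ι : Type*} (x : ι → Qb) : 0 ≤ vnorm 𝔳 v x :=
  Real.iSup_nonneg fun _ => (𝔳.av v).nonneg _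

theorem le_vnorm' (v : Pl) {ι : Type*} [Finite ι] (x : ι → Qb) (i : ι) :
    𝔳.av v (x i) ≤ vnorm 𝔳 v x :=
  le_ciSup (f := fun i => 𝔳.av v (x i)) (Set.finite_range _).bddAbove i

theorem vnorm_zero' (v : Pl) {ι : Type*} : vnorm 𝔳 v (0 : ι → Qb) = 0 := by
  simp [vnorm]

/-- the sum of a finite family of `M`-constants -/
def sumConst {κ : Type*} [Fintype κ] (γ : κ → MConst) : MConst where
  c v := ∑ k, (γ k).c v
  nonneg v := Finset.sum_nonneg fun k _ => (γ k).nonneg v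
  fin := (Set.finite_iUnion fun k => (γ k).fin).subset (by
    intro v hv
    rw [Function.mem_support] at hv
    obtain ⟨k, -, hk⟩ := Finset.exists_ne_zero_of_sum_ne_zero hv
    exact Set.mem_iUnion.mpr ⟨k, hk⟩)

theorem le_sumConst {κ : Type*} [Fintype κ] (γ : κ → MConst) (k : κ) (v : Pl) :
    (γ k).c v ≤ (sumConst γ).c v :=
  Finset.single_le_sum (f := fun k => (γ k).c v) (fun k _ => (γ k).nonneg v) (Finset.mem_univ k)

variable {α β κ : Type} [Fintype α] [Fintype β] [Fintype κ]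

/-- the polynomial giving the `k`-th coordinate of a bilinear map -/
def poly (B : (α → Qb) →ₗ[Qb] (β → Qb) →ₗ[Qb] (κ → Qb)) (k : κ) : MvPolynomial (α ⊕ β) Qb :=
  ∑ a, ∑ b, C (B (fun j => if a = j then 1 else 0) (fun j => if b = j then 1 else 0) k) *
    X (Sum.inl a) * X (Sum.inr b)

theorem eval_poly (B : (α → Qb) →ₗ[Qb] (β → Qb) →ₗ[Qb] (κ → Qb)) (k : κ) (x : α → Qb)
    (y : β → Qb) : eval (Sum.elim x y) (poly B k) = B x y k := by
  rw [LinearMap.pi_apply_eq_sum_univ B x]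
  simp only [poly, map_sum, map_mul, eval_C, eval_X, Sum.elim_inl, Sum.elim_inr,
    LinearMap.sum_apply, LinearMap.smul_apply, Finset.sum_apply, Pi.smul_apply, smul_eq_mul]
  refine Finset.sum_congr rfl fun a _ => ?_
  rw [LinearMap.pi_apply_eq_sum_univ (B fun j => if a = j then 1 else 0) y]
  simp only [Finset.sum_apply, Pi.smul_apply, smul_eq_mul, Finset.mul_sum]
  refine Finset.sum_congr rfl fun b _ => ?_
  ring

theorem eval_poly_smul (B : (α → Qb) →ₗ[Qb] (β → Qb) →ₗ[Qb] (κ → Qb)) (k : κ) (s u : Qb)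
    (x : α → Qb) (y : β → Qb) :
    eval (Sum.elim (s • x) (u • y)) (poly B k) =
      s ^ 1 * u ^ 1 * eval (Sum.elim x y) (poly B k) := by
  rw [eval_poly, eval_poly, map_smul, map_smul, LinearMap.smul_apply, Pi.smul_apply,
    Pi.smul_apply, smul_eq_mul, smul_eq_mul, pow_one, pow_one]
  ring

end Bilin

variable (𝔳 : AbsFam)

/-- bilinear maps without zero divisors. -/
theorem bilin_lower {α β κ : Type} [Fintype α] [Fintype β] [Fintype κ]
    (B : (α → Qb) →ₗ[Qb] (β → Qb) →ₗ[Qb] (κ → Qb))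
    (h : ∀ x y, B x y = 0 → x = 0 ∨ y = 0) :
    ∃ γ : MConst, ∀ (v : Pl) (x : α → Qb) (y : β → Qb),
      vnorm 𝔳 v x * vnorm 𝔳 v y ≤ Real.exp (γ.c v) * vnorm 𝔳 v (B x y) := by
  obtain ⟨S, γ, hγ⟩ := NullHom.bihom_lower_of (𝔳 := 𝔳) (fun G h => chart_lower 𝔳 G h)
    (Bilin.poly B) 1 1 (Bilin.eval_poly_smul B) (by
    intro x y hx hy
    have hne : B x y ≠ 0 := fun h0 => (h x y h0).elim hx hy
    obtain ⟨k, hk⟩ := Function.ne_iff.mp hne
    exact ⟨k, by rw [Bilin.eval_poly]; exact hk⟩)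
  refine ⟨γ, fun v x y => ?_⟩
  have hR : 0 ≤ Real.exp (γ.c v) * vnorm 𝔳 v (B x y) :=
    mul_nonneg (Real.exp_pos _).le (Bilin.vnorm_nonneg' 𝔳 v _)
  rcases eq_or_ne x 0 with rfl | hx
  · rw [Bilin.vnorm_zero', zero_mul]; exact hR
  rcases eq_or_ne y 0 with rfl | hy
  · rw [Bilin.vnorm_zero', mul_zero]; exact hR
  obtain ⟨k, -, hk⟩ := hγ v x y hx hy
  rw [pow_one, pow_one, Bilin.eval_poly] at hk
  exact hk.trans (mul_le_mul_of_nonneg_left (Bilin.le_vnorm' 𝔳 v (B x y) k) (Real.exp_pos _).le)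

theorem bilin_upper {α β κ : Type} [Fintype α] [Fintype β] [Fintype κ]
    (B : (α → Qb) →ₗ[Qb] (β → Qb) →ₗ[Qb] (κ → Qb)) :
    ∃ γ : MConst, ∀ (v : Pl) (x : α → Qb) (y : β → Qb),
      vnorm 𝔳 v (B x y) ≤ Real.exp (γ.c v) * (vnorm 𝔳 v x * vnorm 𝔳 v y) := by
  have hk : ∀ k : κ, ∃ γ : MConst, ∀ (v : Pl) (x : α → Qb) (y : β → Qb), x ≠ 0 → y ≠ 0 →
      𝔳.av v (eval (Sum.elim x y) (Bilin.poly B k)) ≤
        Real.exp (γ.c v) * (vnorm 𝔳 v x ^ 1 * vnorm 𝔳 v y ^ 1) := fun k =>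
    NullHom.bihom_upper_of (𝔳 := 𝔳) (fun G => chart_upper 𝔳 G) (Bilin.poly B k) 1 1 (Bilin.eval_poly_smul B k)
  choose γ hγ using hk
  refine ⟨Bilin.sumConst γ, fun v x y => ?_⟩
  have hxy : 0 ≤ vnorm 𝔳 v x * vnorm 𝔳 v y :=
    mul_nonneg (Bilin.vnorm_nonneg' 𝔳 v _) (Bilin.vnorm_nonneg' 𝔳 v _)
  have hR : 0 ≤ Real.exp ((Bilin.sumConst γ).c v) * (vnorm 𝔳 v x * vnorm 𝔳 v y) :=
    mul_nonneg (Real.exp_pos _).le hxy
  rcases eq_or_ne x 0 with rfl | hx
  · rw [map_zero, LinearMap.zero_apply, Bilin.vnorm_zero']; exact hR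
  rcases eq_or_ne y 0 with rfl | hy
  · rw [map_zero, Bilin.vnorm_zero']; exact hR
  refine Real.iSup_le (fun k => ?_) hR
  have h1 := hγ k v x y hx hy
  rw [pow_one, pow_one, Bilin.eval_poly] at h1
  exact h1.trans (mul_le_mul_of_nonneg_right
    (Real.exp_le_exp.mpr (Bilin.le_sumConst γ k v)) hxy)

end Fermat.Agent.S17.H
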