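import Fermat.Agent.S17.H.Apery

/-!
# S17, part H, block NP1: basic properties of the norm `Nm : A → ℚ̄[T]`

`Nm_mul`, `Nm_aeval`, `natDegree_Nm`, `leadingCoeff_Nm`, `Nm_isRat`, `dvd_aeval_Nm`, and the
polynomial version `coeff_Nm_of_mem_V`.  Auxiliary lemmas live in the namespace `NB`.
-/

set_option autoImplicit false

noncomputable section

open scoped Classical

namespace Fermat.Agent.S17.H

open Polynomial

variable {A : Type} [CommRing A] [Algebra Qb A] (C : WCurve A)

namespace NB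

/-! ## top index, weight, leading coefficient -/

/-- the top index of the support of `f` in the basis `b`. -/
def top (f : A) : ℕ := (C.b.repr f).support.sup id

theorem wt_eq (f : A) : C.wt f = C.ρ (top C f) := by
  unfold WCurve.wt top
  have := Finset.apply_sup_eq_sup_comp_of_linearOrder (s := (C.b.repr f).support) (f := id) C.ρ
    C.ρ_strictMono.monotone C.ρ_zero
  simpa using this.symm

theorem lc_eq (f : A) : C.lc f = C.b.repr f (top C f) := rfl

theorem repr_eq_zero_of_top_lt {f : A} {l : ℕ} (h : top C f < l) : C.b.repr f l = 0 := by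
  by_contra hne
  have h1 : l ∈ (C.b.repr f).support := Finsupp.mem_support_iff.mpr hne
  have h2 := Finset.le_sup (f := id) h1
  exact absurd h (not_lt.mpr h2)

theorem sub_eq_zero_or_wt_lt {f h : A} (hw : C.wt f = C.wt h) (hl : C.lc f = C.lc h) :
    f - h = 0 ∨ C.wt (f - h) < C.wt f := by
  by_cases h0 : f - h = 0
  · exact Or.inl h0
  right
  have htop : top C f = top C h := by
    rw [wt_eq, wt_eq] at hw
    exact C.ρ_strictMono.injective hw
  have hne : C.b.repr (f - h) (top C (f - h)) ≠ 0 := lc_ne_zero C h0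
  rw [wt_eq, wt_eq]
  apply C.ρ_strictMono
  by_contra hlt
  rw [not_lt] at hlt
  apply hne
  rw [map_sub, Finsupp.sub_apply]
  rcases hlt.eq_or_lt with he | hlt
  · rw [← he]
    have : C.b.repr f (top C f) = C.b.repr h (top C h) := hl
    rw [this, htop, sub_self]
  · rw [repr_eq_zero_of_top_lt C hlt, repr_eq_zero_of_top_lt C (htop ▸ hlt), sub_self]

theorem top_b (i : ℕ) : top C (C.b i) = i := by
  unfold top
  rw [C.b.repr_self, Finsupp.support_single _ one_ne_zero]
  simp

theorem lc_b (i : ℕ) : C.lc (C.b i) = 1 := by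
  rw [lc_eq, top_b, C.b.repr_self]
  simp

theorem repr_algebraMap (c : Qb) : C.b.repr (algebraMap Qb A c) = Finsupp.single 0 c := by
  rw [Algebra.algebraMap_eq_smul_one, ← C.b_zero, map_smul, C.b.repr_self]
  simp

theorem top_algebraMap (c : Qb) : top C (algebraMap Qb A c) = 0 := by
  unfold top
  rw [repr_algebraMap]
  apply Nat.eq_zero_of_le_zero
  apply Finset.sup_le
  intro l hl
  have := Finsupp.support_single_subset hl
  simp at this
  simp [this]

theorem lc_algebraMap (c : Qb) : C.lc (algebraMap Qb A c) = c := by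
  rw [lc_eq, top_algebraMap, repr_algebraMap]
  simp

theorem wt_algebraMap (c : Qb) : C.wt (algebraMap Qb A c) = 0 := by
  rw [wt_eq, top_algebraMap, C.ρ_zero]

theorem wt_t : C.wt C.t = C.d := wt_b C 1

theorem lc_t : C.lc C.t = 1 := lc_b C 1

theorem t_ne_zero : C.t ≠ 0 := C.b.ne_zero 1

theorem lc_zero : C.lc (0 : A) = 0 := by
  rw [lc_eq, map_zero]
  simp

include C in
/-- `A` is a domain (from multiplicativity of the leading coefficient). -/
theorem isDomain' : IsDomain A := by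
  have : Nontrivial A := ⟨⟨C.t, 0, t_ne_zero C⟩⟩
  have : NoZeroDivisors A := by
    refine ⟨fun {a b} hab => ?_⟩
    by_contra hcon
    rw [not_or] at hcon
    have h1 := mul_ne_zero (lc_ne_zero C hcon.1) (lc_ne_zero C hcon.2)
    rw [← lc_mul, hab, lc_zero] at h1
    exact h1 rfl
  exact NoZeroDivisors.to_isDomain A

theorem lc_t_pow (k : ℕ) : C.lc (C.t ^ k) = 1 := by
  induction k with
  | zero => rw [pow_zero, ← C.b_zero, lc_b]
  | succ k ih => rw [pow_succ, lc_mul, ih, lc_t, one_mul]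

theorem wt_t_pow (k : ℕ) : C.wt (C.t ^ k) = C.d * k := by
  have := isDomain' C
  induction k with
  | zero => rw [pow_zero, ← C.b_zero, wt_b, C.ρ_zero, mul_zero]
  | succ k ih =>
    rw [pow_succ, wt_mul C (pow_ne_zero _ (t_ne_zero C)) (t_ne_zero C), ih, wt_t]
    ring

/-- the monomial `c t^k y_i`. -/
theorem aeval_monomial (c : Qb) (k : ℕ) :
    aeval C.t (Polynomial.C c * X ^ k : Qb[X]) = algebraMap Qb A c * C.t ^ k := by
  simp

theorem wt_mono {c : Qb} (hc : c ≠ 0) (k i : ℕ) :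
    C.wt (aeval C.t (Polynomial.C c * X ^ k : Qb[X]) * C.b i) = C.d * k + C.ρ i := by
  have := isDomain' C
  have h1 : algebraMap Qb A c ≠ 0 := by
    intro h
    apply hc
    rw [← lc_algebraMap C c, h, lc_eq, map_zero]
    simp
  have h2 : C.t ^ k ≠ 0 := pow_ne_zero _ (t_ne_zero C)
  rw [aeval_monomial, wt_mul C (mul_ne_zero h1 h2) (C.b.ne_zero i), wt_mul C h1 h2,
    wt_algebraMap, wt_t_pow, wt_b, zero_add]

theorem lc_mono (c : Qb) (k i : ℕ) :
    C.lc (aeval C.t (Polynomial.C c * X ^ k : Qb[X]) * C.b i) = c := by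
  rw [aeval_monomial, lc_mul, lc_mul, lc_algebraMap, lc_t_pow, lc_b, mul_one, mul_one]

/-! ## Apéry coordinates -/

theorem apery_unique {p q : Fin C.d → Qb[X]}
    (h : ∑ j, aeval C.t (p j) * C.b (ap C j) = ∑ j, aeval C.t (q j) * C.b (ap C j)) : p = q :=
  (exists_unique_apery C (∑ j, aeval C.t (p j) * C.b (ap C j))).unique rfl h

theorem mulMat_spec (f : A) (j : Fin C.d) :
    f * C.b (ap C j) = ∑ i, aeval C.t (mulMat C f i j) * C.b (ap C i) :=
  (exists_unique_apery C (f * C.b (ap C j))).choose_spec.1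

theorem mulMat_eq_of {f : A} {M : Matrix (Fin C.d) (Fin C.d) Qb[X]}
    (h : ∀ j, f * C.b (ap C j) = ∑ i, aeval C.t (M i j) * C.b (ap C i)) : mulMat C f = M := by
  ext1 i j
  have := apery_unique C (p := fun i => mulMat C f i j) (q := fun i => M i j)
    ((mulMat_spec C f j).symm.trans (h j))
  exact congrFun this i

theorem mulMat_mul' (f h : A) : mulMat C (f * h) = mulMat C f * mulMat C h := by
  apply mulMat_eq_of
  intro j
  rw [mul_assoc, mulMat_spec C h j, Finset.mul_sum]
  have h1 : ∀ k, f * (aeval C.t (mulMat C h k j) * C.b (ap C k)) =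
      ∑ i, aeval C.t (mulMat C f i k * mulMat C h k j) * C.b (ap C i) := by
    intro k
    rw [mul_left_comm, mulMat_spec C f k, Finset.mul_sum]
    refine Finset.sum_congr rfl fun i _ => ?_
    rw [map_mul]
    ring
  rw [Finset.sum_congr rfl fun k _ => h1 k, Finset.sum_comm]
  refine Finset.sum_congr rfl fun i _ => ?_
  rw [Matrix.mul_apply, map_sum, Finset.sum_mul]

theorem mulMat_aeval' (p : Qb[X]) :
    mulMat C (aeval C.t p) = Matrix.diagonal fun _ => p := by
  apply mulMat_eq_of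
  intro j
  rw [Finset.sum_eq_single j]
  · rw [Matrix.diagonal_apply_eq]
  · intro i _ hij
    rw [Matrix.diagonal_apply_ne _ hij, map_zero, zero_mul]
  · intro h
    exact absurd (Finset.mem_univ j) h

end NB

/-! ## Multiplicativity, norms of polynomials in `t` -/

theorem Nm_mul (f h : A) : Nm C (f * h) = Nm C f * Nm C h := by
  unfold Nm
  rw [NB.mulMat_mul', Matrix.det_mul]

theorem Nm_aeval (p : Qb[X]) : Nm C (aeval C.t p) = p ^ C.d := by
  unfold Nm
  rw [NB.mulMat_aeval', Matrix.det_diagonal]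
  simp

/-- `f` divides its norm. -/
theorem dvd_aeval_Nm (f : A) : f ∣ aeval C.t (Nm C f) := by
  -- `det M (t) * y_j = f * (∑_k adj(Mᵀ)_{jk}(t) y_k)`
  set M := mulMat C f with hM
  have key : ∀ j, aeval C.t (Nm C f) * C.b (ap C j) =
      f * ∑ k, aeval C.t (M.adjugate k j) * C.b (ap C k) := by
    intro j
    have h1 : ∀ k, f * (aeval C.t (M.adjugate k j) * C.b (ap C k)) =
        ∑ i, aeval C.t (M i k * M.adjugate k j) * C.b (ap C i) := by
      intro k
      rw [mul_left_comm, NB.mulMat_spec C f k, Finset.mul_sum]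
      refine Finset.sum_congr rfl fun i _ => ?_
      rw [map_mul]
      ring
    rw [Finset.mul_sum, Finset.sum_congr rfl fun k _ => h1 k, Finset.sum_comm]
    have h2 : ∀ i, ∑ k, aeval C.t (M i k * M.adjugate k j) * C.b (ap C i) =
        aeval C.t ((M.det • (1 : Matrix (Fin C.d) (Fin C.d) Qb[X])) i j) * C.b (ap C i) := by
      intro i
      rw [← Matrix.mul_adjugate, Matrix.mul_apply, map_sum, Finset.sum_mul]
    rw [Finset.sum_congr rfl fun i _ => h2 i, Finset.sum_eq_single j]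
    · rw [Matrix.smul_apply, Matrix.one_apply_eq, smul_eq_mul, mul_one]
      rfl
    · intro i _ hij
      rw [Matrix.smul_apply, Matrix.one_apply_ne hij, smul_zero, map_zero, zero_mul]
    · intro h
      exact absurd (Finset.mem_univ j) h
  obtain ⟨p, hp, -⟩ := exists_unique_apery C (1 : A)
  have : aeval C.t (Nm C f) = ∑ j, aeval C.t (p j) * (aeval C.t (Nm C f) * C.b (ap C j)) := by
    conv_lhs => rw [← mul_one (aeval C.t (Nm C f)), hp, Finset.mul_sum]
    refine Finset.sum_congr rfl fun j _ => ?_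
    ring
  rw [this]
  refine Finset.dvd_sum fun j _ => ?_
  rw [key j]
  exact Dvd.dvd.mul_left (Dvd.intro _ rfl) _

namespace NB

/-! ## A determinant with weighted degree bounds -/

theorem det_weight {n : Type} [Fintype n] [DecidableEq n] (M : Matrix n n Qb[X]) (d w : ℕ)
    (hd : 0 < d) (hcard : Fintype.card n = d) (μ : n → ℕ) (π : Equiv.Perm n) (c : Qb)
    (hle : ∀ i j, M i j ≠ 0 → d * (M i j).natDegree + μ i ≤ w + μ j)
    (hne : ∀ i j, M i j ≠ 0 → d * (M i j).natDegree + μ i = w + μ j → i = π j)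
    (hπ : ∀ j, M (π j) j ≠ 0 ∧ d * (M (π j) j).natDegree + μ (π j) = w + μ j ∧
      (M (π j) j).leadingCoeff = c) :
    M.det.natDegree ≤ w ∧ M.det.coeff w = ((Equiv.Perm.sign π : ℤ) : Qb) * c ^ d := by
  have hsumμ : ∀ σ : Equiv.Perm n, ∑ i, μ (σ i) = ∑ i, μ i := fun σ => Equiv.sum_comp σ μ
  have hsumw : ∑ i : n, (w + μ i) = d * w + ∑ i, μ i := by
    rw [Finset.sum_add_distrib, Finset.sum_const, Finset.card_univ, hcard, smul_eq_mul]
  -- (a)
  have ha : ∀ σ : Equiv.Perm n, (∏ i, M (σ i) i).natDegree ≤ w := by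
    intro σ
    by_cases h0 : ∃ i, M (σ i) i = 0
    · obtain ⟨i, hi⟩ := h0
      rw [Finset.prod_eq_zero (f := fun i => M (σ i) i) (Finset.mem_univ i) hi, natDegree_zero]
      exact Nat.zero_le _
    · push Not at h0
      refine (natDegree_prod_le _ _).trans ?_
      have h1 : ∑ i, (d * (M (σ i) i).natDegree + μ (σ i)) ≤ ∑ i, (w + μ i) :=
        Finset.sum_le_sum fun i _ => hle _ _ (h0 i)
      rw [Finset.sum_add_distrib, hsumμ, hsumw, ← Finset.mul_sum] at h1
      exact Nat.le_of_mul_le_mul_left (Nat.le_of_add_le_add_right h1) hd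
  -- (b)
  have hb : ∀ σ : Equiv.Perm n, σ ≠ π → (∏ i, M (σ i) i).coeff w = 0 := by
    intro σ hσ
    by_cases h0 : ∃ i, M (σ i) i = 0
    · obtain ⟨i, hi⟩ := h0
      rw [Finset.prod_eq_zero (f := fun i => M (σ i) i) (Finset.mem_univ i) hi, coeff_zero]
    · push Not at h0
      apply coeff_eq_zero_of_natDegree_lt
      refine (natDegree_prod_le _ _).trans_lt ?_
      obtain ⟨i₀, hi₀⟩ : ∃ i, σ i ≠ π i := by
        by_contra hcon
        push Not at hcon
        exact hσ (Equiv.ext hcon)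
      have h1 : ∑ i, (d * (M (σ i) i).natDegree + μ (σ i)) < ∑ i, (w + μ i) := by
        refine Finset.sum_lt_sum (fun i _ => hle _ _ (h0 i)) ⟨i₀, Finset.mem_univ _, ?_⟩
        exact lt_of_le_of_ne (hle _ _ (h0 i₀)) fun he => hi₀ (hne _ _ (h0 i₀) he)
      rw [Finset.sum_add_distrib, hsumμ, hsumw, ← Finset.mul_sum] at h1
      exact Nat.lt_of_mul_lt_mul_left (Nat.lt_of_add_lt_add_right h1)
  -- (c)
  have hc : (∏ i, M (π i) i).coeff w = c ^ d := by
    have h1 : (∏ i, M (π i) i).natDegree = w := by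
      rw [natDegree_prod _ _ fun i _ => (hπ i).1]
      have h2 : ∑ i, (d * (M (π i) i).natDegree + μ (π i)) = ∑ i, (w + μ i) :=
        Finset.sum_congr rfl fun i _ => (hπ i).2.1
      rw [Finset.sum_add_distrib, hsumμ, hsumw, ← Finset.mul_sum] at h2
      exact Nat.eq_of_mul_eq_mul_left hd (Nat.add_right_cancel h2)
    have h3 : (∏ i, M (π i) i).leadingCoeff = c ^ d := by
      rw [leadingCoeff_prod, Finset.prod_congr rfl fun i _ => (hπ i).2.2, Finset.prod_const,
        Finset.card_univ, hcard]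
    rw [← h3, leadingCoeff, h1]
  have hcast : ∀ σ : Equiv.Perm n, (((Equiv.Perm.sign σ : ℤ) : Qb[X])) =
      Polynomial.C (((Equiv.Perm.sign σ : ℤ) : Qb)) := fun σ => (map_intCast _ _).symm
  rw [Matrix.det_apply']
  constructor
  · refine natDegree_sum_le_of_forall_le _ _ fun σ _ => ?_
    rw [hcast]
    exact (natDegree_C_mul_le _ _).trans (ha σ)
  · rw [finsetSum_coeff, Finset.sum_eq_single π]
    · rw [hcast, coeff_C_mul, hc]
    · intro σ _ hσ
      rw [hcast, coeff_C_mul, hb σ hσ, mul_zero]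
    · intro h
      exact absurd (Finset.mem_univ π) h

/-! ## The top Apéry coordinate -/

/-- minimality of `ap`. -/
theorem rho_ap_le {i : ℕ} {j : Fin C.d} (h : C.ρ i % C.d = j) : C.ρ (ap C j) ≤ C.ρ i :=
  C.ρ_strictMono.monotone (Nat.sInf_le h)

theorem key_coord {f : A} (hf : f ≠ 0) (p : Fin C.d → Qb[X])
    (hp : f = ∑ j, aeval C.t (p j) * C.b (ap C j)) (i : Fin C.d) (k : ℕ)
    (hk : C.wt f = C.d * k + C.ρ (ap C i)) :
    (p i).natDegree = k ∧ (p i).leadingCoeff = C.lc f := by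
  obtain ⟨c, hc⟩ : ∃ c, c = C.lc f := ⟨_, rfl⟩
  have hc0 : c ≠ 0 := hc ▸ lc_ne_zero C hf
  rw [← hc]
  obtain ⟨m, hm⟩ : ∃ m : Qb[X], m = Polynomial.C c * X ^ k := ⟨_, rfl⟩
  obtain ⟨q, hq⟩ : ∃ q : Fin C.d → Qb[X],
      q = fun j => p j - Pi.single (M := fun _ => Qb[X]) i m j := ⟨_, rfl⟩
  have hsub : f - aeval C.t m * C.b (ap C i) = ∑ j, aeval C.t (q j) * C.b (ap C j) := by
    have h1 : aeval C.t m * C.b (ap C i) =
        ∑ j, aeval C.t (Pi.single (M := fun _ => Qb[X]) i m j) * C.b (ap C j) := by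
      rw [Finset.sum_eq_single i]
      · rw [Pi.single_eq_same]
      · intro j _ hj
        rw [Pi.single_eq_of_ne hj, map_zero, zero_mul]
      · intro h
        exact absurd (Finset.mem_univ i) h
    rw [h1, hq]
    conv_lhs => rw [hp]
    rw [← Finset.sum_sub_distrib]
    refine Finset.sum_congr rfl fun j _ => ?_
    rw [map_sub, sub_mul]
  have hdeg : (q i).degree < k := by
    by_cases hqi : q i = 0
    · rw [hqi, degree_zero]
      exact WithBot.bot_lt_coe _
    rcases sub_eq_zero_or_wt_lt C (f := f) (h := aeval C.t m * C.b (ap C i))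
      (by rw [hm, wt_mono C hc0, hk]) (by rw [hm, lc_mono, hc]) with h0 | hlt
    · exfalso
      apply hqi
      have : q = 0 := apery_unique C (by rw [← hsub, h0]; simp)
      rw [this]
      rfl
    · have h2 := wt_apery C q i hqi
      rw [← hsub] at h2
      have h3 : C.d * (q i).natDegree < C.d * k := by omega
      have h4 : (q i).natDegree < k := lt_of_mul_lt_mul_left h3 (Nat.zero_le _)
      exact (natDegree_lt_iff_degree_lt hqi).mp h4
  have hpi : p i = m + q i := by
    rw [hq]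
    simp
  have hdm : (q i).degree < m.degree := by
    rw [hm, degree_C_mul_X_pow k hc0]
    exact hdeg
  rw [hpi]
  constructor
  · rw [natDegree_add_eq_left_of_degree_lt hdm, hm, natDegree_C_mul_X_pow k c hc0]
  · rw [leadingCoeff_add_of_degree_lt' hdm, hm, leadingCoeff_C_mul_X_pow]

/-! ## The shift permutation -/

/-- `j ↦ (w + j) mod d`. -/
def shiftFun (w : ℕ) (j : Fin C.d) : Fin C.d := ⟨(w + j) % C.d, Nat.mod_lt _ (d_pos C)⟩

theorem shiftFun_injective (w : ℕ) : Function.Injective (shiftFun C w) := by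
  intro j j' h
  have h1 : (w + j) % C.d = (w + j') % C.d := congrArg Fin.val h
  have h2 : (j : ℕ) ≡ j' [MOD C.d] := Nat.ModEq.add_left_cancel' w h1
  exact Fin.ext (Nat.ModEq.eq_of_lt_of_lt h2 j.2 j'.2)

/-- the shift by `w` as a permutation of the residue classes. -/
def shift (w : ℕ) : Equiv.Perm (Fin C.d) :=
  Equiv.ofBijective (shiftFun C w) (Finite.injective_iff_bijective.mp (shiftFun_injective C w))

theorem shift_val (w : ℕ) (j : Fin C.d) : ((shift C w j : Fin C.d) : ℕ) = (w + j) % C.d := rfl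

theorem shift_val' (w : ℕ) (j : Fin C.d) :
    ((shift C w j : Fin C.d) : ℕ) = (w + C.ρ (ap C j)) % C.d := by
  rw [shift_val, Nat.add_mod w (C.ρ (ap C j)), ap_spec, Nat.add_mod w j, Nat.mod_eq_of_lt j.2]

theorem Nm_top {f : A} (hf : f ≠ 0) :
    (Nm C f).natDegree ≤ C.wt f ∧
      (Nm C f).coeff (C.wt f) = ((Equiv.Perm.sign (shift C (C.wt f)) : ℤ) : Qb) * C.lc f ^ C.d := by
  have := isDomain' C
  have hfy : ∀ j, f * C.b (ap C j) ≠ 0 := fun j => mul_ne_zero hf (C.b.ne_zero _)
  have hwt : ∀ j, C.wt (f * C.b (ap C j)) = C.wt f + C.ρ (ap C j) := fun j => by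
    rw [wt_mul C hf (C.b.ne_zero _), wt_b]
  have hlc : ∀ j, C.lc (f * C.b (ap C j)) = C.lc f := fun j => by
    rw [lc_mul, lc_b, mul_one]
  have hle : ∀ i j, mulMat C f i j ≠ 0 →
      C.d * (mulMat C f i j).natDegree + C.ρ (ap C i) ≤ C.wt f + C.ρ (ap C j) := by
    intro i j hij
    have := wt_apery C (fun i => mulMat C f i j) i hij
    rwa [← mulMat_spec, hwt] at this
  refine det_weight (mulMat C f) C.d (C.wt f) (d_pos C) (Fintype.card_fin _)
    (fun j => C.ρ (ap C j)) (shift C (C.wt f)) (C.lc f) hle ?_ ?_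
  · intro i j _ he
    apply Fin.ext
    rw [shift_val', ← he, Nat.mul_add_mod, ap_spec]
  · intro j
    -- `w + μ_j` is in the semigroup, in the class `π j`
    have h1 : C.ρ (top C (f * C.b (ap C j))) % C.d = (shift C (C.wt f) j : Fin C.d) := by
      rw [← wt_eq, hwt, shift_val']
    have h2 := rho_ap_le C h1
    rw [← wt_eq, hwt] at h2
    have h3 : C.ρ (ap C (shift C (C.wt f) j)) % C.d = (C.wt f + C.ρ (ap C j)) % C.d := by
      rw [ap_spec, shift_val']
    obtain ⟨k, hk⟩ : ∃ k, C.wt f + C.ρ (ap C j) = C.d * k + C.ρ (ap C (shift C (C.wt f) j)) := by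
      obtain ⟨k, hk⟩ := (Nat.modEq_iff_dvd' h2).mp h3
      exact ⟨k, by omega⟩
    have h4 := key_coord C (hfy j) (fun i => mulMat C f i j) (mulMat_spec C f j)
      (shift C (C.wt f) j) k (by rw [hwt, hk])
    refine ⟨?_, ?_, ?_⟩
    · intro h0
      have h5 := h4.2
      simp only [h0, leadingCoeff_zero, hlc] at h5
      exact lc_ne_zero C hf h5.symm
    · rw [h4.1, hk]
    · rw [h4.2, hlc]

end NB


/-! ## Degree and leading coefficient -/

theorem natDegree_Nm {f : A} (hf : f ≠ 0) : (Nm C f).natDegree = C.wt f := by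
  obtain ⟨h1, h2⟩ := NB.Nm_top C hf
  apply natDegree_eq_of_le_of_coeff_ne_zero h1
  rw [h2]
  exact mul_ne_zero (Int.cast_ne_zero.mpr (Units.ne_zero _)) (pow_ne_zero _ (lc_ne_zero C hf))

/-- the leading coefficient of the norm, with the exact sign (which only depends on `wt f`). -/
theorem leadingCoeff_Nm_sign {f : A} (hf : f ≠ 0) : (Nm C f).leadingCoeff =
    ((Equiv.Perm.sign (NB.shift C (C.wt f)) : ℤ) : Qb) * C.lc f ^ C.d := by
  rw [leadingCoeff, natDegree_Nm C hf, (NB.Nm_top C hf).2]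

theorem leadingCoeff_Nm {f : A} (hf : f ≠ 0) :
    (Nm C f).leadingCoeff = C.lc f ^ C.d ∨ (Nm C f).leadingCoeff = - C.lc f ^ C.d := by
  rw [leadingCoeff_Nm_sign C hf]
  rcases Int.units_eq_one_or (Equiv.Perm.sign (NB.shift C (C.wt f))) with h | h <;> rw [h] <;> simp

namespace NB

theorem Nm_zero : Nm C (0 : A) = 0 := by
  have := Nm_aeval C 0
  rwa [map_zero, zero_pow (d_pos C).ne'] at this

theorem Nm_one : Nm C (1 : A) = 1 := by
  have := Nm_aeval C 1
  rwa [map_one, one_pow] at this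

theorem Nm_algebraMap (c : Qb) : Nm C (algebraMap Qb A c) = Polynomial.C (c ^ C.d) := by
  have := Nm_aeval C (Polynomial.C c)
  rwa [aeval_C, ← map_pow] at this

theorem Nm_smul (c : Qb) (f : A) : Nm C (c • f) = Polynomial.C (c ^ C.d) * Nm C f := by
  rw [Algebra.smul_def, Nm_mul, Nm_algebraMap]

theorem Nm_ne_zero {f : A} (hf : f ≠ 0) : Nm C f ≠ 0 := by
  intro h
  have h1 := leadingCoeff_Nm_sign C hf
  rw [h, leadingCoeff_zero] at h1
  exact mul_ne_zero (Int.cast_ne_zero.mpr (Units.ne_zero _)) (pow_ne_zero _ (lc_ne_zero C hf))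
    h1.symm

theorem natDegree_Nm_le {n : ℕ} {f : A} (hf : f ∈ C.V n) : (Nm C f).natDegree ≤ n := by
  by_cases h0 : f = 0
  · rw [h0, Nm_zero, natDegree_zero]
    exact Nat.zero_le _
  · rw [natDegree_Nm C h0]
    exact (mem_V_iff C n f).mp hf

end NB

/-- polynomial version, with the exact sign: on `V n`, `n = ρ k`, the coefficient of `T^n` in
`Nm f` is `± (k-th coordinate of f)^d`, the sign depending only on `n`. -/
theorem coeff_Nm_of_mem_V_sign {n k : ℕ} (hk : C.ρ k = n) {f : A} (hf : f ∈ C.V n) :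
    (Nm C f).coeff n = ((Equiv.Perm.sign (NB.shift C n) : ℤ) : Qb) * (C.b.repr f k) ^ C.d := by
  by_cases h0 : f = 0
  · rw [h0, NB.Nm_zero, coeff_zero, map_zero, Finsupp.zero_apply, zero_pow (d_pos C).ne', mul_zero]
  have hw : C.wt f ≤ n := (mem_V_iff C n f).mp hf
  rcases hw.eq_or_lt with he | hlt
  · have htop : NB.top C f = k := by
      rw [NB.wt_eq, ← hk] at he
      exact C.ρ_strictMono.injective he
    have h1 := (NB.Nm_top C h0).2
    rw [he, NB.lc_eq, htop] at h1
    exact h1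
  · have htop : NB.top C f < k := by
      rw [NB.wt_eq, ← hk] at hlt
      exact C.ρ_strictMono.lt_iff_lt.mp hlt
    rw [NB.repr_eq_zero_of_top_lt C htop, zero_pow (d_pos C).ne', mul_zero]
    apply coeff_eq_zero_of_natDegree_lt
    rwa [natDegree_Nm C h0]

theorem coeff_Nm_of_mem_V {n k : ℕ} (hk : C.ρ k = n) {f : A} (hf : f ∈ C.V n) :
    (Nm C f).coeff n = (C.b.repr f k) ^ C.d ∨ (Nm C f).coeff n = - (C.b.repr f k) ^ C.d := by
  rw [coeff_Nm_of_mem_V_sign C hk hf]
  rcases Int.units_eq_one_or (Equiv.Perm.sign (NB.shift C n)) with h | h <;> rw [h] <;> simp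

/-! ## Rationality -/

namespace NB

theorem isRat_b (i : ℕ) : C.IsRat (C.b i) := by
  intro l
  rw [C.b.repr_self]
  by_cases h : i = l
  · exact ⟨1, by rw [h, map_one, Finsupp.single_eq_same]⟩
  · exact ⟨0, by rw [map_zero, Finsupp.single_eq_of_ne (Ne.symm h)]⟩

theorem isRat_algebraMap (q : ℚ) : C.IsRat (algebraMap Qb A (algebraMap ℚ Qb q)) := by
  intro l
  rw [repr_algebraMap]
  by_cases h : 0 = l
  · exact ⟨q, by rw [← h, Finsupp.single_eq_same]⟩
  · exact ⟨0, by rw [map_zero, Finsupp.single_eq_of_ne (Ne.symm h)]⟩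

theorem isRat_sub {f h : A} (hf : C.IsRat f) (hh : C.IsRat h) : C.IsRat (f - h) := by
  intro l
  obtain ⟨a, ha⟩ := hf l
  obtain ⟨b, hb⟩ := hh l
  exact ⟨a - b, by rw [map_sub, map_sub, Finsupp.sub_apply, ha, hb]⟩

theorem isRat_t_pow (k : ℕ) : C.IsRat (C.t ^ k) := by
  induction k with
  | zero => rw [pow_zero, ← C.b_zero]; exact isRat_b C 0
  | succ k ih => rw [pow_succ]; exact isRat_mul C ih (isRat_b C 1)

theorem isRat_mono (q : ℚ) (k i : ℕ) :
    C.IsRat (aeval C.t (Polynomial.C (algebraMap ℚ Qb q) * X ^ k : Qb[X]) * C.b i) := by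
  rw [aeval_monomial]
  exact isRat_mul C (isRat_mul C (isRat_algebraMap C q) (isRat_t_pow C k)) (isRat_b C i)

/-- the Apéry coordinates of a rational function are rational. -/
theorem exists_rat_apery (f : A) (hf : C.IsRat f) : ∃ p : Fin C.d → ℚ[X],
    f = ∑ j, aeval C.t ((p j).map (algebraMap ℚ Qb)) * C.b (ap C j) := by
  induction hn : C.wt f using Nat.strong_induction_on generalizing f with
  | _ n ih =>
    by_cases h0 : f = 0
    · exact ⟨0, by simp [h0]⟩
    obtain ⟨j, hj⟩ : ∃ j : Fin C.d, C.ρ (top C f) % C.d = j :=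
      ⟨⟨C.ρ (top C f) % C.d, Nat.mod_lt _ (d_pos C)⟩, rfl⟩
    have h2 := rho_ap_le C hj
    obtain ⟨k, hk⟩ : ∃ k, C.wt f = C.d * k + C.ρ (ap C j) := by
      have h3 : C.ρ (ap C j) % C.d = C.ρ (top C f) % C.d := by rw [ap_spec, hj]
      obtain ⟨k, hk⟩ := (Nat.modEq_iff_dvd' h2).mp h3
      exact ⟨k, by rw [wt_eq]; omega⟩
    obtain ⟨q, hq⟩ := hf (top C f)
    have hq' : algebraMap ℚ Qb q = C.lc f := hq
    have hq0 : algebraMap ℚ Qb q ≠ 0 := hq' ▸ lc_ne_zero C h0
    obtain ⟨h, hh⟩ : ∃ h : A,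
      h = aeval C.t (Polynomial.C (algebraMap ℚ Qb q) * X ^ k : Qb[X]) * C.b (ap C j) := ⟨_, rfl⟩
    have hrat : C.IsRat (f - h) := isRat_sub C hf (hh ▸ isRat_mono C q k _)
    obtain ⟨p', hp'⟩ : ∃ p : Fin C.d → ℚ[X],
        f - h = ∑ j, aeval C.t ((p j).map (algebraMap ℚ Qb)) * C.b (ap C j) := by
      rcases sub_eq_zero_or_wt_lt C (f := f) (h := h)
        (by rw [hh, wt_mono C hq0, hk]) (by rw [hh, lc_mono, hq']) with hz | hlt
      · exact ⟨0, by simp [hz]⟩
      · exact ih _ (hn ▸ hlt) _ hrat rfl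
    refine ⟨fun i => p' i + Pi.single (M := fun _ => ℚ[X]) j (Polynomial.C q * X ^ k) i, ?_⟩
    have h1 : h = ∑ i, aeval C.t ((Pi.single (M := fun _ => ℚ[X]) j
        (Polynomial.C q * X ^ k) i).map (algebraMap ℚ Qb)) * C.b (ap C i) := by
      rw [Finset.sum_eq_single j]
      · rw [Pi.single_eq_same, hh]
        simp
      · intro i _ hi
        rw [Pi.single_eq_of_ne hi, Polynomial.map_zero, map_zero, zero_mul]
      · intro hcon
        exact absurd (Finset.mem_univ j) hcon
    calc f = (f - h) + h := by ring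
      _ = _ := by
        rw [hp']
        conv_lhs => rw [h1]
        rw [← Finset.sum_add_distrib]
        refine Finset.sum_congr rfl fun i _ => ?_
        rw [Polynomial.map_add, map_add, add_mul]

theorem mulMat_isRat {f : A} (hf : C.IsRat f) : ∃ P : Matrix (Fin C.d) (Fin C.d) ℚ[X],
    mulMat C f = (Polynomial.mapRingHom (algebraMap ℚ Qb)).mapMatrix P := by
  choose p hp using fun j => exists_rat_apery C (f * C.b (ap C j)) (isRat_mul C hf (isRat_b C _))
  exact ⟨fun i j => p j i, mulMat_eq_of C fun j => hp j⟩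

end NB

theorem Nm_isRat {f : A} (hf : C.IsRat f) : ∃ p : ℚ[X], Nm C f = p.map (algebraMap ℚ Qb) := by
  obtain ⟨P, hP⟩ := NB.mulMat_isRat C hf
  refine ⟨P.det, ?_⟩
  unfold Nm
  rw [hP, ← RingHom.map_det]
  rfl

end Fermat.Agent.S17.H
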