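import Fermat.Agent.S17.H.NormQuotOf
import Fermat.Agent.S17.H.Apery

/-!
# S17, part H, block NP3: `Nm_mul_chi_of_equiv`, `exists_residual`

Owner of this file: helper247.  (`chi` is defined in `NormQuotOf`.)
-/

set_option autoImplicit false

noncomputable section

open scoped Classical

namespace Fermat.Agent.S17.H

open Polynomial

variable {A : Type} [CommRing A] [Algebra Qb A] (C : WCurve A)

theorem normQuot_Nm_ne_zero {f : A} (hf : f ≠ 0) : Nm C f ≠ 0 :=
  det_mulMatOf_ne_zero C (exists_unique_apery C) hf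

/-- linear equivalence and norms. -/
theorem Nm_mul_chi_of_equiv (E E' : Finset (Pt A)) {s s' : A} (hs : s ≠ 0) (hs' : s' ≠ 0)
    (h : Ideal.span {s'} * idealOf E = Ideal.span {s} * idealOf E') :
    ∃ c : Qb, c ≠ 0 ∧ Nm C s' * chi C E = Polynomial.C c * (Nm C s * chi C E') :=
  Nm_mul_chi_of_equiv_of C (exists_unique_apery C) E E' h

/-- the residual polynomial of `f ∈ I(X)`. -/
theorem exists_residual (X : Finset (Pt A)) {f : A} (hf : f ≠ 0) (hX : f ∈ idealOf X) :
    ∃ R : Qb[X], R.Monic ∧ Nm C f = Polynomial.C (Nm C f).leadingCoeff * (chi C X * R) ∧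
      ∀ z ∈ idealOf X, f ∣ aeval C.t R * z :=
  exists_residual_of C (exists_unique_apery C) X hf hX

end Fermat.Agent.S17.H
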