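import Fermat.Agent.S17.H.Curve

/-!
# S17, part H, block SG1: weights on a `WCurve`

`wt`, `lc` are multiplicative, `A` is a domain, the spaces `V n`, rationality, coordinates.
-/

set_option autoImplicit false

noncomputable section

open scoped Classical

namespace Fermat.Agent.S17.H

variable {A : Type} [CommRing A] [Algebra Qb A] (C : WCurve A)

/-- coordinates of an element of `V_n`. -/
def crd (n : ℕ) (f : A) : Fin (C.dim n) → Qb := fun i => C.b.repr f i

namespace Weight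

/-- the top index of the support -/
def top (f : A) : ℕ := (C.b.repr f).support.sup id

/-- the span of the `b l`, `l < k` -/
def Lt (k : ℕ) : Submodule Qb A := Submodule.span Qb (C.b '' Set.Iio k)

variable {C}

theorem mem_Lt_iff {k : ℕ} {f : A} : f ∈ Lt C k ↔ ∀ i, k ≤ i → C.b.repr f i = 0 := by
  unfold Lt
  rw [Module.Basis.mem_span_image]
  constructor
  · intro h i hi
    by_contra hne
    have h1 : i ∈ Set.Iio k := h (Finsupp.mem_support_iff.2 hne)
    exact absurd h1 (not_lt.2 hi)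
  · intro h i hi
    by_contra hlt
    exact (Finsupp.mem_support_iff.1 hi) (h i (not_lt.1 hlt))

theorem b_mem_Lt {l k : ℕ} (h : l < k) : C.b l ∈ Lt C k := Submodule.subset_span ⟨l, h, rfl⟩

theorem Lt_mono {k k' : ℕ} (h : k ≤ k') : Lt C k ≤ Lt C k' :=
  Submodule.span_mono (Set.image_mono (Set.Iio_subset_Iio h))

variable (C)

/-- the index of the leading term of `b i * b j` -/
def kap (i j : ℕ) : ℕ := (C.mul_b i j).choose

variable {C}

theorem rho_kap (i j : ℕ) : C.ρ (kap C i j) = C.ρ i + C.ρ j :=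
  (C.mul_b i j).choose_spec.choose_spec.1

theorem b_mul_b_sub_mem (i j : ℕ) : C.b i * C.b j - C.b (kap C i j) ∈ Lt C (kap C i j) := by
  have h : C.b i * C.b j = C.b (kap C i j) + ∑ l ∈ Finset.range (kap C i j),
      algebraMap ℚ Qb ((C.mul_b i j).choose_spec.choose l) • C.b l :=
    (C.mul_b i j).choose_spec.choose_spec.2
  rw [h, add_sub_cancel_left]
  exact Submodule.sum_mem _ fun l hl =>
    Submodule.smul_mem _ _ (b_mem_Lt (Finset.mem_range.1 hl))

theorem b_mul_b_mem (i j : ℕ) : C.b i * C.b j ∈ Lt C (kap C i j + 1) := by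
  have h := Submodule.add_mem _ (Lt_mono (Nat.le_succ _) (b_mul_b_sub_mem (C := C) i j))
    (b_mem_Lt (C := C) (Nat.lt_succ_self (kap C i j)))
  rwa [sub_add_cancel] at h

theorem kap_lt_left {i' i j' j : ℕ} (hi : i' < i) (hj : j' ≤ j) : kap C i' j' < kap C i j := by
  apply C.ρ_strictMono.lt_iff_lt.1
  rw [rho_kap, rho_kap]
  have h1 := C.ρ_strictMono hi
  have h2 := C.ρ_strictMono.monotone hj
  omega

theorem kap_lt_right {i' i j' j : ℕ} (hi : i' ≤ i) (hj : j' < j) : kap C i' j' < kap C i j := by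
  apply C.ρ_strictMono.lt_iff_lt.1
  rw [rho_kap, rho_kap]
  have h1 := C.ρ_strictMono hj
  have h2 := C.ρ_strictMono.monotone hi
  omega

theorem Lt_mul_le_left (i j : ℕ) : Lt C i * Lt C (j + 1) ≤ Lt C (kap C i j) := by
  unfold Lt
  rw [Submodule.span_mul_span, Submodule.span_le]
  rintro _ ⟨_, ⟨i', hi', rfl⟩, _, ⟨j', hj', rfl⟩, rfl⟩
  exact Lt_mono (kap_lt_left hi' (Nat.lt_succ_iff.1 hj')) (b_mul_b_mem i' j')

theorem Lt_mul_le_right (i j : ℕ) : Lt C (i + 1) * Lt C j ≤ Lt C (kap C i j) := by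
  unfold Lt
  rw [Submodule.span_mul_span, Submodule.span_le]
  rintro _ ⟨_, ⟨i', hi', rfl⟩, _, ⟨j', hj', rfl⟩, rfl⟩
  exact Lt_mono (kap_lt_right (Nat.lt_succ_iff.1 hi') hj') (b_mul_b_mem i' j')

theorem sub_smul_mem {i : ℕ} {f : A} (hf : f ∈ Lt C (i + 1)) :
    f - C.b.repr f i • C.b i ∈ Lt C i := by
  rw [mem_Lt_iff] at hf ⊢
  intro l hl
  rw [map_sub, map_smul, Module.Basis.repr_self, Finsupp.sub_apply, Finsupp.smul_apply,
    Finsupp.single_apply]
  rcases hl.eq_or_lt with rfl | hl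
  · simp
  · rw [if_neg hl.ne, hf l hl]
    simp

theorem mul_sub_mem {i j : ℕ} {f h : A} (hf : f ∈ Lt C (i + 1)) (hh : h ∈ Lt C (j + 1)) :
    f * h - (C.b.repr f i * C.b.repr h j) • C.b (kap C i j) ∈ Lt C (kap C i j) := by
  have e : f * h - (C.b.repr f i * C.b.repr h j) • C.b (kap C i j) =
      (C.b.repr f i * C.b.repr h j) • (C.b i * C.b j - C.b (kap C i j)) +
        (f - C.b.repr f i • C.b i) * h +
        (C.b.repr f i • C.b i) * (h - C.b.repr h j • C.b j) := by
    simp only [Algebra.smul_def, map_mul]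
    ring
  rw [e]
  refine Submodule.add_mem _ (Submodule.add_mem _ (Submodule.smul_mem _ _ (b_mul_b_sub_mem i j))
    (Lt_mul_le_left i j (Submodule.mul_mem_mul (sub_smul_mem hf) hh)))
    (Lt_mul_le_right i j (Submodule.mul_mem_mul
      (Submodule.smul_mem _ _ (b_mem_Lt (Nat.lt_succ_self i))) (sub_smul_mem hh)))

theorem mul_mem_Lt {i j : ℕ} {f h : A} (hf : f ∈ Lt C (i + 1)) (hh : h ∈ Lt C (j + 1)) :
    f * h ∈ Lt C (kap C i j + 1) := by
  have h1 := Submodule.add_mem _ (Lt_mono (Nat.le_succ _) (mul_sub_mem hf hh))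
    (Submodule.smul_mem _ (C.b.repr f i * C.b.repr h j)
      (b_mem_Lt (C := C) (Nat.lt_succ_self (kap C i j))))
  rwa [sub_add_cancel] at h1

theorem repr_mul {i j : ℕ} {f h : A} (hf : f ∈ Lt C (i + 1)) (hh : h ∈ Lt C (j + 1)) :
    C.b.repr (f * h) (kap C i j) = C.b.repr f i * C.b.repr h j := by
  have h1 := mem_Lt_iff.1 (mul_sub_mem hf hh) _ le_rfl
  rw [map_sub, map_smul, Module.Basis.repr_self, Finsupp.sub_apply, Finsupp.smul_apply,
    Finsupp.single_eq_same, smul_eq_mul, mul_one, sub_eq_zero] at h1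
  exact h1

theorem mem_Lt_top_succ (f : A) : f ∈ Lt C (top C f + 1) := by
  rw [mem_Lt_iff]
  intro i hi
  by_contra hne
  have h1 : i ≤ top C f := Finset.le_sup (f := id) (Finsupp.mem_support_iff.2 hne)
  omega

theorem repr_top_ne_zero {f : A} (hf : f ≠ 0) : C.b.repr f (top C f) ≠ 0 := by
  have hne : (C.b.repr f).support.Nonempty := by
    rw [Finsupp.support_nonempty_iff]
    exact (LinearEquiv.map_ne_zero_iff _).2 hf
  obtain ⟨i, hi, h⟩ := Finset.exists_mem_eq_sup _ hne id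
  have h' : top C f = i := h
  rw [h']
  exact Finsupp.mem_support_iff.1 hi

theorem top_eq_of {k : ℕ} {f : A} (hf : f ∈ Lt C (k + 1)) (hk : C.b.repr f k ≠ 0) :
    top C f = k := by
  apply le_antisymm
  · refine Finset.sup_le fun i hi => ?_
    by_contra hlt
    exact (Finsupp.mem_support_iff.1 hi) (mem_Lt_iff.1 hf i (by simp only [id] at hlt; omega))
  · exact Finset.le_sup (f := id) (Finsupp.mem_support_iff.2 hk)

theorem wt_eq_rho_top (f : A) : C.wt f = C.ρ (top C f) := by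
  unfold WCurve.wt top
  exact (Finset.apply_sup_eq_sup_comp_of_linearOrder C.ρ C.ρ_strictMono.monotone
    (by simpa using C.ρ_zero)).symm

theorem lc_eq (f : A) : C.lc f = C.b.repr f (top C f) := rfl

theorem top_mul {f h : A} (hf : f ≠ 0) (hh : h ≠ 0) :
    top C (f * h) = kap C (top C f) (top C h) :=
  top_eq_of (mul_mem_Lt (mem_Lt_top_succ f) (mem_Lt_top_succ h)) (by
    rw [repr_mul (mem_Lt_top_succ f) (mem_Lt_top_succ h)]
    exact mul_ne_zero (repr_top_ne_zero hf) (repr_top_ne_zero hh))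

end Weight

open Weight

theorem d_pos : 0 < C.d := by
  have h := C.ρ_strictMono (Nat.zero_lt_one)
  rw [C.ρ_zero] at h
  exact h

theorem mem_V_iff (n : ℕ) (f : A) : f ∈ C.V n ↔ C.wt f ≤ n := by
  unfold WCurve.V WCurve.wt
  rw [Module.Basis.mem_span_image, Finset.sup_le_iff]
  rfl

theorem wt_b (i : ℕ) : C.wt (C.b i) = C.ρ i := by
  unfold WCurve.wt
  rw [Module.Basis.repr_self, Finsupp.support_single _ one_ne_zero, Finset.sup_singleton]

theorem lc_ne_zero {f : A} (hf : f ≠ 0) : C.lc f ≠ 0 := repr_top_ne_zero hf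

include C in
theorem mul_ne_zero' {f h : A} (hf : f ≠ 0) (hh : h ≠ 0) : f * h ≠ 0 := by
  intro h0
  have h1 := repr_mul (C := C) (mem_Lt_top_succ f) (mem_Lt_top_succ h)
  rw [h0, map_zero, Finsupp.zero_apply] at h1
  exact mul_ne_zero (repr_top_ne_zero hf) (repr_top_ne_zero hh) h1.symm

theorem wt_mul {f h : A} (hf : f ≠ 0) (hh : h ≠ 0) : C.wt (f * h) = C.wt f + C.wt h := by
  rw [wt_eq_rho_top, wt_eq_rho_top, wt_eq_rho_top, top_mul hf hh, rho_kap]

theorem lc_zero : C.lc 0 = 0 := by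
  unfold WCurve.lc
  simp

theorem lc_mul (f h : A) : C.lc (f * h) = C.lc f * C.lc h := by
  by_cases hf : f = 0
  · rw [hf, zero_mul, lc_zero, zero_mul]
  by_cases hh : h = 0
  · rw [hh, mul_zero, lc_zero, mul_zero]
  rw [lc_eq, lc_eq, lc_eq, top_mul hf hh, repr_mul (mem_Lt_top_succ f) (mem_Lt_top_succ h)]

include C in
theorem isDomain : IsDomain A := by
  have : Nontrivial A := ⟨⟨C.b 0, 0, C.b.ne_zero 0⟩⟩
  have : NoZeroDivisors A := ⟨fun {a b} h => by
    by_contra hne
    rw [not_or] at hne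
    exact mul_ne_zero' C hne.1 hne.2 h⟩
  exact NoZeroDivisors.to_isDomain A

theorem wt_add_le (f h : A) : C.wt (f + h) ≤ max (C.wt f) (C.wt h) := by
  rw [← mem_V_iff]
  exact Submodule.add_mem _ ((mem_V_iff C _ _).2 (le_max_left _ _))
    ((mem_V_iff C _ _).2 (le_max_right _ _))

/-! ### rationality -/

theorem isRat_zero : C.IsRat 0 := fun i => ⟨0, by simp⟩

theorem isRat_b (i : ℕ) : C.IsRat (C.b i) := fun l => by
  rw [Module.Basis.repr_self, Finsupp.single_apply]
  split_ifs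
  · exact ⟨1, map_one _⟩
  · exact ⟨0, map_zero _⟩

theorem isRat_one : C.IsRat 1 := C.b_zero ▸ isRat_b C 0

theorem isRat_t : C.IsRat C.t := isRat_b C 1

theorem isRat_add {f h : A} (hf : C.IsRat f) (hh : C.IsRat h) : C.IsRat (f + h) := fun i => by
  obtain ⟨a, ha⟩ := hf i
  obtain ⟨c, hc⟩ := hh i
  exact ⟨a + c, by rw [map_add, ha, hc, map_add, Finsupp.add_apply]⟩

theorem isRat_smul_rat (q : ℚ) {f : A} (hf : C.IsRat f) : C.IsRat (algebraMap ℚ Qb q • f) :=
  fun i => by
    obtain ⟨a, ha⟩ := hf i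
    exact ⟨q * a, by rw [map_mul, ha, map_smul, Finsupp.smul_apply, smul_eq_mul]⟩

theorem isRat_neg {f : A} (hf : C.IsRat f) : C.IsRat (-f) := fun i => by
  obtain ⟨a, ha⟩ := hf i
  exact ⟨-a, by rw [map_neg, ha, map_neg, Finsupp.neg_apply]⟩

theorem isRat_sub {f h : A} (hf : C.IsRat f) (hh : C.IsRat h) : C.IsRat (f - h) := by
  rw [sub_eq_add_neg]
  exact isRat_add C hf (isRat_neg C hh)

theorem isRat_sum {ι : Type*} (s : Finset ι) (f : ι → A) (h : ∀ i ∈ s, C.IsRat (f i)) :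
    C.IsRat (∑ i ∈ s, f i) :=
  Finset.sum_induction f C.IsRat (fun _ _ => isRat_add C) (isRat_zero C) h

theorem isRat_b_mul_b (i j : ℕ) : C.IsRat (C.b i * C.b j) := by
  obtain ⟨k, c, -, h⟩ := C.mul_b i j
  rw [h]
  exact isRat_add C (isRat_b C k) (isRat_sum C _ _ fun l _ => isRat_smul_rat C _ (isRat_b C l))

theorem eq_sum_repr (f : A) : f = ∑ i ∈ (C.b.repr f).support, C.b.repr f i • C.b i := by
  conv_lhs => rw [← C.b.linearCombination_repr f]
  rw [Finsupp.linearCombination_apply]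
  rfl

theorem isRat_mul {f h : A} (hf : C.IsRat f) (hh : C.IsRat h) : C.IsRat (f * h) := by
  rw [eq_sum_repr C f, eq_sum_repr C h, Finset.sum_mul_sum]
  refine isRat_sum C _ _ fun i _ => isRat_sum C _ _ fun j _ => ?_
  obtain ⟨a, ha⟩ := hf i
  obtain ⟨c, hc⟩ := hh j
  rw [smul_mul_smul_comm, ← ha, ← hc, ← map_mul]
  exact isRat_smul_rat C _ (isRat_b_mul_b C i j)

theorem isRat_pow {f : A} (hf : C.IsRat f) (n : ℕ) : C.IsRat (f ^ n) := by
  induction n with
  | zero => rw [pow_zero]; exact isRat_one C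
  | succ n ih => rw [pow_succ]; exact isRat_mul C ih hf

/-! ### the spaces `V n` -/

theorem V_mono {a b : ℕ} (h : a ≤ b) : C.V a ≤ C.V b := fun _ hf =>
  (mem_V_iff C _ _).2 (((mem_V_iff C _ _).1 hf).trans h)

theorem b_mem_V_iff (i n : ℕ) : C.b i ∈ C.V n ↔ C.ρ i ≤ n := by rw [mem_V_iff, wt_b]

theorem wt_zero : C.wt 0 = 0 := by
  unfold WCurve.wt
  simp

theorem wt_one : C.wt 1 = 0 := by rw [← C.b_zero, wt_b, C.ρ_zero]

theorem one_mem_V (n : ℕ) : (1 : A) ∈ C.V n := by
  rw [mem_V_iff, wt_one]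
  exact Nat.zero_le n

theorem wt_t : C.wt C.t = C.d := wt_b C 1

theorem t_mem_V : C.t ∈ C.V C.d := (mem_V_iff C _ _).2 (wt_t C).le

theorem t_ne_zero : C.t ≠ 0 := by
  have : Nontrivial A := (isDomain C).toNontrivial
  exact C.b.ne_zero 1

theorem wt_mul_le (f h : A) : C.wt (f * h) ≤ C.wt f + C.wt h := by
  by_cases hf : f = 0
  · rw [hf, zero_mul, wt_zero]; exact Nat.zero_le _
  by_cases hh : h = 0
  · rw [hh, mul_zero, wt_zero]; exact Nat.zero_le _
  exact (wt_mul C hf hh).le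

theorem mul_mem_V {a b : ℕ} {f h : A} (hf : f ∈ C.V a) (hh : h ∈ C.V b) : f * h ∈ C.V (a + b) :=
  (mem_V_iff C _ _).2 ((wt_mul_le C f h).trans
    (Nat.add_le_add ((mem_V_iff C _ _).1 hf) ((mem_V_iff C _ _).1 hh)))

theorem wt_pow (f : A) (n : ℕ) : C.wt (f ^ n) = n * C.wt f := by
  have := isDomain C
  by_cases hf : f = 0
  · subst hf
    cases n with
    | zero => rw [pow_zero, wt_one, zero_mul]
    | succ n => rw [zero_pow (Nat.succ_ne_zero n), wt_zero, mul_zero]
  induction n with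
  | zero => rw [pow_zero, wt_one, zero_mul]
  | succ n ih => rw [pow_succ, wt_mul C (pow_ne_zero n hf) hf, ih]; ring

theorem pow_mem_V {a : ℕ} {f : A} (hf : f ∈ C.V a) (n : ℕ) : f ^ n ∈ C.V (n * a) := by
  rw [mem_V_iff, wt_pow]
  exact Nat.mul_le_mul_left n ((mem_V_iff C _ _).1 hf)

theorem wt_smul {c : Qb} (hc : c ≠ 0) (f : A) : C.wt (c • f) = C.wt f := by
  unfold WCurve.wt
  rw [map_smul, Finsupp.support_smul_eq hc]

theorem lc_smul (c : Qb) (f : A) : C.lc (c • f) = c * C.lc f := by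
  by_cases hc : c = 0
  · rw [hc, zero_smul, lc_zero, zero_mul]
  unfold WCurve.lc
  rw [map_smul, Finsupp.support_smul_eq hc, Finsupp.smul_apply, smul_eq_mul]

theorem lc_b (i : ℕ) : C.lc (C.b i) = 1 := by
  unfold WCurve.lc
  rw [Module.Basis.repr_self, Finsupp.support_single _ one_ne_zero, Finset.sup_singleton]
  simp

theorem lc_one : C.lc 1 = 1 := by rw [← C.b_zero, lc_b]

theorem lc_t : C.lc C.t = 1 := lc_b C 1

/-! ### dimension and coordinates -/

theorem le_rho (i : ℕ) : i ≤ C.ρ i := C.ρ_strictMono.le_apply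

theorem lt_dim_iff (i n : ℕ) : i < C.dim n ↔ C.ρ i ≤ n := by
  unfold WCurve.dim
  set S := (Finset.range (n + 1)).filter fun i => C.ρ i ≤ n with hS
  have hmem : ∀ l, l ∈ S ↔ C.ρ l ≤ n := fun l => by
    rw [hS, Finset.mem_filter, Finset.mem_range]
    exact ⟨fun h => h.2, fun h => ⟨Nat.lt_succ_of_le ((le_rho C l).trans h), h⟩⟩
  constructor
  · intro h
    by_contra hn
    have hsub : S ⊆ Finset.range i := fun l hl => by
      rw [Finset.mem_range]
      by_contra hle
      exact hn ((C.ρ_strictMono.monotone (not_lt.1 hle)).trans ((hmem l).1 hl))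
    have := Finset.card_le_card hsub
    rw [Finset.card_range] at this
    omega
  · intro h
    have hsub : Finset.range (i + 1) ⊆ S := fun l hl => by
      rw [hmem]
      exact (C.ρ_strictMono.monotone (Nat.lt_succ_iff.1 (Finset.mem_range.1 hl))).trans h
    have := Finset.card_le_card hsub
    rw [Finset.card_range] at this
    omega

theorem b_mem_V_of_lt_dim {i n : ℕ} (h : i < C.dim n) : C.b i ∈ C.V n :=
  (b_mem_V_iff C i n).2 ((lt_dim_iff C i n).1 h)

theorem repr_eq_zero_of_mem_V {n : ℕ} {f : A} (hf : f ∈ C.V n) {i : ℕ} (hi : C.dim n ≤ i) :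
    C.b.repr f i = 0 := by
  by_contra hne
  have h1 : C.ρ i ≤ C.wt f := Finset.le_sup (f := C.ρ) (Finsupp.mem_support_iff.2 hne)
  have h2 := (lt_dim_iff C i n).2 (h1.trans ((mem_V_iff C _ _).1 hf))
  omega

theorem crd_apply (n : ℕ) (f : A) (i : Fin (C.dim n)) : crd C n f i = C.b.repr f i := rfl

theorem eq_sum_crd {n : ℕ} {f : A} (hf : f ∈ C.V n) :
    f = ∑ i : Fin (C.dim n), crd C n f i • C.b i := by
  have h1 : ∑ i : Fin (C.dim n), crd C n f i • C.b i =
      ∑ i ∈ Finset.range (C.dim n), C.b.repr f i • C.b i :=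
    (Finset.sum_range fun i => C.b.repr f i • C.b i).symm
  rw [h1]
  conv_lhs => rw [eq_sum_repr C f]
  refine Finset.sum_subset (fun i hi => ?_) fun i _ hi => ?_
  · rw [Finset.mem_range]
    by_contra hle
    exact (Finsupp.mem_support_iff.1 hi) (repr_eq_zero_of_mem_V C hf (not_lt.1 hle))
  · rw [Finsupp.notMem_support_iff.1 hi, zero_smul]

theorem sum_smul_b_mem_V (n : ℕ) (x : Fin (C.dim n) → Qb) :
    ∑ i : Fin (C.dim n), x i • C.b i ∈ C.V n :=
  Submodule.sum_mem _ fun i _ => Submodule.smul_mem _ _ (b_mem_V_of_lt_dim C i.2)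

theorem crd_sum_smul_b (n : ℕ) (x : Fin (C.dim n) → Qb) :
    crd C n (∑ i : Fin (C.dim n), x i • C.b i) = x := by
  funext j
  rw [crd_apply, map_sum, Finsupp.finsetSum_apply]
  simp only [map_smul, Module.Basis.repr_self, Finsupp.smul_apply, Finsupp.single_apply,
    smul_eq_mul, mul_ite, mul_one, mul_zero, Fin.val_inj]
  simp

theorem crd_add (n : ℕ) (f h : A) : crd C n (f + h) = crd C n f + crd C n h := by
  funext i
  simp [crd_apply]

theorem crd_smul (n : ℕ) (c : Qb) (f : A) : crd C n (c • f) = c • crd C n f := by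
  funext i
  simp [crd_apply]

theorem crd_eq_zero_iff {n : ℕ} {f : A} (hf : f ∈ C.V n) : crd C n f = 0 ↔ f = 0 := by
  constructor
  · intro h
    rw [eq_sum_crd C hf, h]
    simp
  · rintro rfl
    funext i
    simp [crd_apply]

end Fermat.Agent.S17.H
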