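import Mathlib
import Fermat.Agent.S17.H.Abs

/-!
# S17, part H, node LA3a: rational solutions of a Galois stable linear system

First half of `subHt_dual`: if the rows of `X : Matrix ε κ ℚ̄` are linearly independent and are
permuted by `Gal(ℚ̄/ℚ)`, then the space `W` of rational solutions has dimension
`card κ - card ε`, and it spans the full solution space over `ℚ̄`.

Owner: helper211 (task 1098).  The descent argument (minimal support) follows
`Fermat/Agent/S27/H/Rationality.lean` (helper87), copied here to keep the closure of S17 small.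
-/

set_option autoImplicit false

noncomputable section

namespace Fermat.Agent.S17.H

open scoped Classical

/-! ### Galois descent for subspaces of `K'^ι` -/

section Descent

variable {K K' : Type*} [Field K] [Field K'] [Algebra K K']

/-- size of the support -/
def dsupp {ι : Type*} [Fintype ι] (w : ι → K') : ℕ := (Finset.univ.filter fun j => w j ≠ 0).card

theorem dsupp_lt {ι : Type*} [Fintype ι] {w u : ι → K'} (h : ∀ j, w j = 0 → u j = 0) {i : ι}
    (hw : w i ≠ 0) (hu : u i = 0) : dsupp u < dsupp w := by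
  unfold dsupp
  apply Finset.card_lt_card
  rw [Finset.ssubset_iff_of_subset]
  · exact ⟨i, by simpa using hw, by simpa using hu⟩
  · intro j hj
    simp only [Finset.mem_filter, Finset.mem_univ, true_and] at hj ⊢
    exact fun h0 => hj (h j h0)

theorem exists_rational_of_mem_stable {ι : Type*} [Fintype ι]
    (hfix : ∀ x : K', (∀ σ : K' ≃ₐ[K] K', σ x = x) → x ∈ Set.range (algebraMap K K'))
    (W : Submodule K' (ι → K'))
    (hW : ∀ (σ : K' ≃ₐ[K] K') (w : ι → K'), w ∈ W → (fun i => σ (w i)) ∈ W)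
    (w : ι → K') (hw : w ∈ W) (hw0 : w ≠ 0) :
    ∃ u ∈ W, ∃ i, u i = 1 ∧ w i ≠ 0 ∧ (∀ j, w j = 0 → u j = 0) ∧
      ∀ j, u j ∈ Set.range (algebraMap K K') := by
  let S : Set (ι → K') := {u | u ∈ W ∧ u ≠ 0 ∧ ∀ j, w j = 0 → u j = 0}
  have hS : S.Nonempty := ⟨w, hw, hw0, fun _ h => h⟩
  let u₀ := Function.argminOn dsupp S hS
  have hu₀ : u₀ ∈ S := Function.argminOn_mem dsupp S hS
  have hmin : ∀ u ∈ S, dsupp u₀ ≤ dsupp u := fun u hu => Function.argminOn_le dsupp S hu
  obtain ⟨i, hi⟩ : ∃ i, u₀ i ≠ 0 := by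
    by_contra hcon
    push Not at hcon
    exact hu₀.2.1 (funext hcon)
  let u : ι → K' := (u₀ i)⁻¹ • u₀
  have hui : u i = 1 := by simp [u, hi]
  have huW : u ∈ W := W.smul_mem _ hu₀.1
  have hu0 : ∀ j, u₀ j = 0 → u j = 0 := fun j hj => by simp [u, hj]
  refine ⟨u, huW, i, hui, fun h => hi (hu₀.2.2 i h), fun j hj => hu0 j (hu₀.2.2 j hj), ?_⟩
  intro j
  apply hfix
  intro σ
  by_contra hne
  let d : ι → K' := (fun k => σ (u k)) - u
  have hdW : d ∈ W := W.sub_mem (hW σ u huW) huW
  have hd0 : ∀ k, u₀ k = 0 → d k = 0 := fun k hk => by simp [d, hu0 k hk]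
  have hdi : d i = 0 := by simp [d, hui]
  have hdne : d ≠ 0 := fun h => hne (by
    have := congrFun h j
    simpa [d, sub_eq_zero] using this)
  have hdS : d ∈ S := ⟨hdW, hdne, fun k hk => hd0 k (hu₀.2.2 k hk)⟩
  exact absurd (hmin d hdS) (not_le.mpr (dsupp_lt hd0 hi hdi))

/-- **Rationality of stable subspaces.** -/
theorem mem_span_rational_of_stable {ι : Type*} [Fintype ι]
    (hfix : ∀ x : K', (∀ σ : K' ≃ₐ[K] K', σ x = x) → x ∈ Set.range (algebraMap K K'))
    (W : Submodule K' (ι → K'))
    (hW : ∀ (σ : K' ≃ₐ[K] K') (w : ι → K'), w ∈ W → (fun i => σ (w i)) ∈ W)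
    (w : ι → K') (hw : w ∈ W) :
    w ∈ Submodule.span K' {u | u ∈ W ∧ ∀ j, u j ∈ Set.range (algebraMap K K')} := by
  induction hn : dsupp w using Nat.strong_induction_on generalizing w with
  | _ n ih =>
    by_cases hw0 : w = 0
    · rw [hw0]; exact zero_mem _
    obtain ⟨u, huW, i, hui, hwi, hsupp, hrat⟩ := exists_rational_of_mem_stable hfix W hW w hw hw0
    have hw' : w - w i • u ∈ W := W.sub_mem hw (W.smul_mem _ huW)
    have hlt : dsupp (w - w i • u) < n := by
      rw [← hn]
      apply dsupp_lt (i := i) _ hwi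
      · simp [hui]
      · intro j hj
        simp [hj, hsupp j hj]
    have h1 := ih _ hlt (w - w i • u) hw' rfl
    have h2 : w i • u ∈ Submodule.span K' {u | u ∈ W ∧ ∀ j, u j ∈ Set.range (algebraMap K K')} :=
      Submodule.smul_mem _ _ (Submodule.subset_span ⟨huW, hrat⟩)
    have := add_mem h1 h2
    rwa [sub_add_cancel] at this

end Descent

/-! ### rational vectors -/

theorem isGalois_rat_Qb : IsGalois ℚ Qb := by
  have h : (DivisionRing.toRatAlgebra : Algebra ℚ (AlgebraicClosure ℚ)) =
      AlgebraicClosure.instAlgebra ℚ := Subsingleton.elim _ _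
  have : IsAlgClosure ℚ (AlgebraicClosure ℚ) := by
    rw [h]
    infer_instance
  infer_instance

theorem mem_range_algebraMap_of_fixed (x : Qb) (h : ∀ σ : Qb ≃ₐ[ℚ] Qb, σ x = x) :
    x ∈ Set.range (algebraMap ℚ Qb) := by
  have := isGalois_rat_Qb
  exact (InfiniteGalois.mem_range_algebraMap_iff_fixed x).mpr h

/-- `ratVec` as a `ℚ`-linear map. -/
def ratVecₗ (κ : Type*) : (κ → ℚ) →ₗ[ℚ] (κ → Qb) where
  toFun := ratVec
  map_add' a b := by funext k; simp [ratVec]
  map_smul' r a := by
    funext k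
    simp [ratVec, Algebra.smul_def]

@[simp] theorem ratVecₗ_apply {κ : Type*} (a : κ → ℚ) : ratVecₗ κ a = ratVec a := rfl

/-- rational vectors which are independent over `ℚ` stay independent over `ℚ̄`. -/
theorem linearIndependent_ratVec {ι κ : Type*} {a : ι → κ → ℚ} (h : LinearIndependent ℚ a) :
    LinearIndependent Qb (fun i => ratVec (a i)) := by
  rw [linearIndependent_iff'] at h ⊢
  intro s l hl i hi
  rw [← Module.forall_dual_apply_eq_zero_iff ℚ]
  intro φ
  refine h s (fun j => φ (l j)) ?_ i hi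
  funext k
  have h1 := congrFun hl k
  simp only [Finset.sum_apply, Pi.smul_apply, smul_eq_mul, ratVec, Pi.zero_apply] at h1 ⊢
  have h2 := congrArg φ h1
  rw [map_zero, map_sum] at h2
  rw [← h2]
  refine Finset.sum_congr rfl fun j _ => ?_
  rw [mul_comm (l j), ← Algebra.smul_def, map_smul, smul_eq_mul, mul_comm]

theorem span_ratVec_image_eq_span_range {ι κ : Type*} (W : Submodule ℚ (κ → ℚ))
    (b : Module.Basis ι ℚ W) :
    Submodule.span Qb (ratVec '' (W : Set (κ → ℚ))) =
      Submodule.span Qb (Set.range fun i => ratVec ((b i : W) : κ → ℚ)) := by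
  apply le_antisymm
  · rw [Submodule.span_le]
    rintro _ ⟨c, hc, rfl⟩
    have h1 : (⟨c, hc⟩ : W) ∈ Submodule.span ℚ (Set.range b) := by
      rw [b.span_eq]; trivial
    -- induction on the span
    have key : ∀ w : W, w ∈ Submodule.span ℚ (Set.range b) → ratVec (w : κ → ℚ) ∈
        Submodule.span Qb (Set.range fun i => ratVec ((b i : W) : κ → ℚ)) := by
      intro w hw
      induction hw using Submodule.span_induction with
      | mem x hx =>
        obtain ⟨i, rfl⟩ := hx
        exact Submodule.subset_span ⟨i, rfl⟩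
      | zero =>
        have : ratVec (((0 : W) : κ → ℚ)) = 0 := (ratVecₗ κ).map_zero
        rw [this]; exact zero_mem _
      | add x y _ _ hx hy =>
        have : ratVec ((x + y : W) : κ → ℚ) = ratVec (x : κ → ℚ) + ratVec (y : κ → ℚ) :=
          (ratVecₗ κ).map_add _ _
        rw [this]; exact add_mem hx hy
      | smul r x _ hx =>
        have : ratVec ((r • x : W) : κ → ℚ) = (algebraMap ℚ Qb r) • ratVec (x : κ → ℚ) := by
          funext k
          simp [ratVec]
        rw [this]; exact Submodule.smul_mem _ _ hx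
    exact key ⟨c, hc⟩ h1
  · rw [Submodule.span_le]
    rintro _ ⟨i, rfl⟩
    exact Submodule.subset_span ⟨_, (b i).2, rfl⟩

/-- extension of scalars does not change the dimension. -/
theorem finrank_span_ratVec {κ : Type*} [Finite κ] (W : Submodule ℚ (κ → ℚ)) :
    Module.finrank Qb (Submodule.span Qb (ratVec '' (W : Set (κ → ℚ)))) = Module.finrank ℚ W := by
  have b := Module.finBasis ℚ W
  rw [span_ratVec_image_eq_span_range W b]
  have hli : LinearIndependent ℚ (fun i => ((b i : W) : κ → ℚ)) :=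
    b.linearIndependent.map' W.subtype (Submodule.ker_subtype W)
  rw [finrank_span_eq_card (linearIndependent_ratVec hli), Fintype.card_fin]

/-! ### the solution space -/

/-- the space of solutions over `ℚ̄` of the linear system with matrix `X`. -/
def solSpace {ε κ : Type*} [Fintype κ] (X : Matrix ε κ Qb) : Submodule Qb (κ → Qb) where
  carrier := {c | ∀ i, ∑ k, X i k * c k = 0}
  add_mem' := by
    intro a b ha hb i
    simp only [Pi.add_apply, mul_add, Finset.sum_add_distrib, ha i, hb i, add_zero]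
  zero_mem' := by intro i; simp
  smul_mem' := by
    intro r a ha i
    have : ∑ k, X i k * (r • a) k = r * ∑ k, X i k * a k := by
      rw [Finset.mul_sum]
      exact Finset.sum_congr rfl fun k _ => by simp only [Pi.smul_apply, smul_eq_mul]; ring
    rw [this, ha i, mul_zero]

theorem mem_solSpace {ε κ : Type*} [Fintype κ] {X : Matrix ε κ Qb} {c : κ → Qb} :
    c ∈ solSpace X ↔ ∀ i, ∑ k, X i k * c k = 0 := Iff.rfl

theorem solSpace_eq_ker {ε κ : Type*} [Fintype κ] (X : Matrix ε κ Qb) :
    solSpace X = LinearMap.ker X.mulVecLin := by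
  ext c
  rw [mem_solSpace, LinearMap.mem_ker, Matrix.mulVecLin_apply]
  constructor
  · intro h
    funext i
    exact h i
  · intro h i
    exact congrFun h i

/-- rank-nullity. -/
theorem finrank_solSpace {ε κ : Type*} [Fintype ε] [Fintype κ] (X : Matrix ε κ Qb)
    (hind : LinearIndependent Qb (fun i => X i)) :
    Module.finrank Qb (solSpace X) + Fintype.card ε = Fintype.card κ := by
  have h1 := LinearMap.finrank_range_add_finrank_ker X.mulVecLin
  have h2 : Module.finrank Qb (LinearMap.range X.mulVecLin) = Fintype.card ε :=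
    LinearIndependent.rank_matrix hind
  rw [solSpace_eq_ker]
  rw [h2, Module.finrank_pi] at h1
  omega

/-- the solution space of a Galois stable system is Galois stable. -/
theorem solSpace_stable {ε κ : Type*} [Fintype κ] (X : Matrix ε κ Qb)
    (hgal : ∀ σ : Qb ≃ₐ[ℚ] Qb, ∃ π : Equiv.Perm ε, ∀ i k, σ (X i k) = X (π i) k)
    (σ : Qb ≃ₐ[ℚ] Qb) (c : κ → Qb) (hc : c ∈ solSpace X) : (fun k => σ (c k)) ∈ solSpace X := by
  obtain ⟨π, hπ⟩ := hgal σ
  intro i
  have h1 := congrArg σ (hc (π.symm i))
  rw [map_zero, map_sum] at h1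
  rw [← h1]
  refine Finset.sum_congr rfl fun k _ => ?_
  rw [map_mul, hπ, Equiv.apply_symm_apply]

/-- **Descent**: the rational solutions span the solution space. -/
theorem span_ratVec_eq_solSpace {ε κ : Type*} [Fintype κ] (X : Matrix ε κ Qb)
    (hgal : ∀ σ : Qb ≃ₐ[ℚ] Qb, ∃ π : Equiv.Perm ε, ∀ i k, σ (X i k) = X (π i) k)
    (W : Submodule ℚ (κ → ℚ)) (hW : ∀ c, c ∈ W ↔ ∀ i, ∑ k, X i k * algebraMap ℚ Qb (c k) = 0) :
    Submodule.span Qb (ratVec '' (W : Set (κ → ℚ))) = solSpace X := by
  apply le_antisymm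
  · rw [Submodule.span_le]
    rintro _ ⟨c, hc, rfl⟩
    exact (hW c).mp hc
  · intro c hc
    have h1 := mem_span_rational_of_stable (K := ℚ) mem_range_algebraMap_of_fixed (solSpace X)
      (solSpace_stable X hgal) c hc
    refine Submodule.span_mono ?_ h1
    rintro u ⟨hu, hrat⟩
    choose a ha using hrat
    have hua : ratVec a = u := funext ha
    refine ⟨a, (hW a).mpr fun i => ?_, hua⟩
    have := hu i
    rw [← hua] at this
    exact this

/-- first half of `subHt_dual`. -/
theorem finrank_add_card_of_galois {ε κ : Type*} [Fintype ε] [Fintype κ] (X : Matrix ε κ Qb)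
    (hgal : ∀ σ : Qb ≃ₐ[ℚ] Qb, ∃ π : Equiv.Perm ε, ∀ i k, σ (X i k) = X (π i) k)
    (hind : LinearIndependent Qb (fun i => X i))
    (W : Submodule ℚ (κ → ℚ)) (hW : ∀ c, c ∈ W ↔ ∀ i, ∑ k, X i k * algebraMap ℚ Qb (c k) = 0) :
    Module.finrank ℚ W + Fintype.card ε = Fintype.card κ := by
  rw [← finrank_span_ratVec W, span_ratVec_eq_solSpace X hgal W hW]
  exact finrank_solSpace X hind

end Fermat.Agent.S17.H
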