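import Fermat.Agent.S17.H.Abs

/-!
# S17, part H (heights): the product formula

Product formula for `ℚ`, for algebraic numbers one of whose powers is rational, and for Galois
stable finite sets of algebraic numbers.
-/

set_option autoImplicit false

noncomputable section

open scoped Classical

namespace Fermat.Agent.S17.H

variable (𝔳 : AbsFam)

/-- The element `x` satisfies the product formula (with finite support). -/
def PF (x : Qb) : Prop :=
  Function.HasFiniteSupport (fun v => Real.log (𝔳.av v x)) ∧ ∑ᶠ v, Real.log (𝔳.av v x) = 0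

variable {𝔳}

theorem PF.one : PF 𝔳 1 := by
  have h : (fun v => Real.log (𝔳.av v 1)) = fun _ => (0 : ℝ) := by
    funext v
    simp
  refine ⟨?_, ?_⟩
  · rw [h]
    simp [Function.HasFiniteSupport]
  · simp

theorem PF.mul {x y : Qb} (hx0 : x ≠ 0) (hy0 : y ≠ 0) (hx : PF 𝔳 x) (hy : PF 𝔳 y) :
    PF 𝔳 (x * y) := by
  have h : (fun v => Real.log (𝔳.av v (x * y))) =
      (fun v => Real.log (𝔳.av v x)) + fun v => Real.log (𝔳.av v y) := by
    funext v
    rw [Pi.add_apply, map_mul, Real.log_mul ((𝔳.av v).ne_zero hx0) ((𝔳.av v).ne_zero hy0)]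
  refine ⟨?_, ?_⟩
  · rw [h]
    exact hx.1.add hy.1
  · have h2 := finsum_add_distrib hx.1 hy.1
    rw [hx.2, hy.2, add_zero] at h2
    rw [← h2]
    exact finsum_congr fun v => congrFun h v

theorem PF.inv {x : Qb} (hx : PF 𝔳 x) : PF 𝔳 x⁻¹ := by
  have h : (fun v => Real.log (𝔳.av v x⁻¹)) = -fun v => Real.log (𝔳.av v x) := by
    funext v
    rw [Pi.neg_apply, map_inv₀, Real.log_inv]
  refine ⟨?_, ?_⟩
  · rw [h]
    exact hx.1.neg
  · have h2 := finsum_neg_distrib fun v => Real.log (𝔳.av v x)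
    rw [hx.2, neg_zero] at h2
    rw [← h2]
    exact finsum_congr fun v => congrFun h v

theorem PF.neg {x : Qb} (hx : PF 𝔳 x) : PF 𝔳 (-x) := by
  unfold PF at hx ⊢
  simpa using hx

theorem PF.prime (P : Nat.Primes) : PF 𝔳 ((P : ℕ) : Qb) := by
  have hcast : ((P : ℕ) : Qb) = algebraMap ℚ Qb ((P : ℕ) : ℚ) := by simp
  have hsupp : Function.support (fun v => Real.log (𝔳.av v ((P : ℕ) : Qb))) ⊆
      (({none, some P} : Finset Pl) : Set Pl) := by
    intro v hv
    rw [Function.mem_support] at hv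
    rcases v with _ | q
    · simp
    · by_cases hq : q = P
      · simp [hq]
      · exfalso
        apply hv
        have : Fact (q : ℕ).Prime := ⟨q.2⟩
        have : Fact (P : ℕ).Prime := ⟨P.2⟩
        rw [hcast, 𝔳.av_fin, padicNorm.padicNorm_of_prime_of_ne
          (fun h => hq (Subtype.ext h))]
        simp
  refine ⟨(Finset.finite_toSet _).subset hsupp, ?_⟩
  rw [finsum_eq_sum_of_support_subset _ hsupp, Finset.sum_pair (by simp)]
  rw [hcast, 𝔳.av_fin, 𝔳.av_inf, padicNorm.padicNorm_p P.2.one_lt]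
  push_cast
  rw [Real.log_inv, abs_of_nonneg (Nat.cast_nonneg _), add_neg_cancel]

theorem PF.natCast (n : ℕ) (hn : n ≠ 0) : PF 𝔳 (n : Qb) := by
  induction n using induction_on_primes with
  | zero => exact absurd rfl hn
  | one => simpa using PF.one
  | prime_mul p a hp ih =>
    have ha : a ≠ 0 := fun h => hn (by rw [h, mul_zero])
    rw [Nat.cast_mul]
    exact PF.mul (Nat.cast_ne_zero.2 hp.ne_zero) (Nat.cast_ne_zero.2 ha) (PF.prime ⟨p, hp⟩) (ih ha)

theorem PF.intCast (n : ℤ) (hn : n ≠ 0) : PF 𝔳 (n : Qb) := by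
  have h := PF.natCast (𝔳 := 𝔳) n.natAbs (Int.natAbs_ne_zero.2 hn)
  rcases Int.natAbs_eq n with h1 | h1
  · rw [h1]
    simpa using h
  · rw [h1]
    simpa using h.neg

theorem PF.rat {x : ℚ} (hx : x ≠ 0) : PF 𝔳 (algebraMap ℚ Qb x) := by
  have h1 : algebraMap ℚ Qb x = (x.num : Qb) * ((x.den : Qb))⁻¹ := by
    conv_lhs => rw [← Rat.num_div_den x]
    rw [map_div₀, div_eq_mul_inv]
    simp
  rw [h1]
  exact PF.mul (Int.cast_ne_zero.2 (Rat.num_ne_zero.2 hx))
    (inv_ne_zero (Nat.cast_ne_zero.2 x.den_ne_zero))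
    (PF.intCast _ (Rat.num_ne_zero.2 hx)) (PF.natCast _ x.den_ne_zero).inv

variable (𝔳)

/-- product formula for `ℚ`. -/
theorem sum_log_av_rat {x : ℚ} (hx : x ≠ 0) : ∑ᶠ v, Real.log (𝔳.av v (algebraMap ℚ Qb x)) = 0 :=
  (PF.rat hx).2

/-- product formula for an algebraic number one of whose powers is rational. -/
theorem sum_log_av_of_pow_rat {θ : Qb} (hθ : θ ≠ 0) (k : ℕ) (hk : 0 < k)
    (h : θ ^ k ∈ Set.range (algebraMap ℚ Qb)) : ∑ᶠ v, Real.log (𝔳.av v θ) = 0 := by
  obtain ⟨r, hr⟩ := h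
  have hr0 : r ≠ 0 := by
    rintro rfl
    rw [map_zero] at hr
    exact pow_ne_zero k hθ hr.symm
  have h1 := sum_log_av_rat 𝔳 hr0
  have h2 : ∀ v, Real.log (𝔳.av v (algebraMap ℚ Qb r)) = (k : ℝ) • Real.log (𝔳.av v θ) := by
    intro v
    rw [hr, map_pow, Real.log_pow, smul_eq_mul]
  rw [finsum_congr h2, ← smul_finsum, smul_eq_mul] at h1
  rcases mul_eq_zero.1 h1 with h3 | h3
  · exact absurd h3 (Nat.cast_ne_zero.2 hk.ne')
  · exact h3

/-- product formula for Galois stable finite sets. -/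
theorem sum_log_av_galStable (S : Finset Qb) (hS : ∀ σ : Qb ≃ₐ[ℚ] Qb, ∀ x ∈ S, σ x ∈ S)
    (h0 : (0 : Qb) ∉ S) : ∑ᶠ v, ∑ x ∈ S, Real.log (𝔳.av v x) = 0 := by
  have hne : ∀ x ∈ S, x ≠ 0 := fun x hx h => h0 (h ▸ hx)
  have hcl : IsAlgClosure ℚ Qb := by
    have h : (DivisionRing.toRatAlgebra : Algebra ℚ (AlgebraicClosure ℚ)) =
        AlgebraicClosure.instAlgebra ℚ := Subsingleton.elim _ _
    rw [h]
    infer_instance
  have : IsGalois ℚ Qb := inferInstance
  have hfix : ∀ σ : Qb ≃ₐ[ℚ] Qb, σ (∏ x ∈ S, x) = ∏ x ∈ S, x := by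
    intro σ
    rw [map_prod]
    have himg : S.image σ = S := by
      apply Finset.eq_of_subset_of_card_le
      · intro y hy
        obtain ⟨x, hx, rfl⟩ := Finset.mem_image.1 hy
        exact hS σ x hx
      · rw [Finset.card_image_of_injective _ σ.injective]
    conv_rhs => rw [← himg]
    rw [Finset.prod_image (fun x _ y _ h => σ.injective h)]
  obtain ⟨r, hr⟩ := (InfiniteGalois.mem_range_algebraMap_iff_fixed (k := ℚ) (∏ x ∈ S, x)).2 hfix
  have hr0 : r ≠ 0 := by
    rintro rfl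
    rw [map_zero] at hr
    exact Finset.prod_ne_zero_iff.2 hne hr.symm
  rw [← sum_log_av_rat 𝔳 hr0]
  refine finsum_congr fun v => ?_
  rw [hr, map_prod, Real.log_prod (fun x hx => (𝔳.av v).ne_zero (hne x hx))]

end Fermat.Agent.S17.H
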