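import Fermat.Agent.S17.H.DualAux
import Fermat.Agent.S17.H.DualDescent
import Fermat.Agent.S17.H.AbsBasic
import Fermat.Agent.S17.H.ProdFormula

/-!
# S17/H, node LA3c: duality `H(W) = H(W^⊥)` for Galois stable systems.   Owner: helper274.
-/

set_option autoImplicit false

noncomputable section

open scoped Classical

namespace Fermat.Agent.S17.H

variable (𝔳 : AbsFam)

/-- duality `H(W) = H(W^⊥)` for the space of rational solutions of a Galois stable system. -/
theorem subHt_dual {ε κ : Type} [Fintype ε] [Fintype κ] (X : Matrix ε κ Qb)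
    (hgal : ∀ σ : Qb ≃ₐ[ℚ] Qb, ∃ π : Equiv.Perm ε, ∀ i k, σ (X i k) = X (π i) k)
    (hind : LinearIndependent Qb (fun i => X i))
    (W : Submodule ℚ (κ → ℚ)) (hW : ∀ c, c ∈ W ↔ ∀ i, ∑ k, X i k * algebraMap ℚ Qb (c k) = 0) :
    Module.finrank ℚ W + Fintype.card ε = Fintype.card κ ∧ subHt 𝔳 W = wht 𝔳 X := by
  have hcard := finrank_add_card_of_galois X hgal hind W hW
  exact ⟨hcard, subHt_dual_aux 𝔳 (fun x hx => finite_av_ne_one 𝔳 hx)
    (fun θ hθ h => sum_log_av_of_pow_rat 𝔳 hθ 2 two_pos h) X hgal hind W hW hcard⟩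

end Fermat.Agent.S17.H
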