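import Fermat.Agent.S17.H.Abs

/-!
# S17/H, node LA3c (core): `H(W) = H(W^⊥)` from the complementary minors

Owner: helper274.  The inputs coming from other nodes (finiteness of `{v | |x|_v ≠ 1}`, the product
formula for square roots of rationals, the proportionality of complementary minors) are explicit
hypotheses here.
-/

set_option autoImplicit false

noncomputable section

namespace Fermat.Agent.S17.H

open Matrix

/-! ### linear algebra -/

section LA

variable {F : Type*} [Field F] {ω κ ε : Type*} [Fintype ω] [Fintype κ] [Fintype ε]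

/-- A matrix over a field with independent rows has a right inverse. -/
theorem dual_exists_right_inverse [DecidableEq ω] [DecidableEq κ] (A : Matrix ω κ F)
    (hA : LinearIndependent F (fun i => A i)) : ∃ B : Matrix κ ω F, A * B = 1 := by
  rw [← Matrix.mulVec_surjective_iff_exists_right_inverse]
  have hr : A.rank = Fintype.card ω := LinearIndependent.rank_matrix (M := A) hA
  have htop : LinearMap.range A.mulVecLin = ⊤ := by
    apply Submodule.eq_top_of_finrank_eq
    rw [Module.finrank_fintype_fun_eq_card]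
    exact hr
  intro y
  have : y ∈ LinearMap.range A.mulVecLin := htop ▸ Submodule.mem_top
  obtain ⟨x, hx⟩ := this
  exact ⟨x, hx⟩

/-- A matrix with a right inverse has independent rows. -/
theorem dual_linearIndependent_of_right_inverse [DecidableEq ω] (A : Matrix ω κ F)
    (B : Matrix κ ω F) (h : A * B = 1) : LinearIndependent F (fun i => A i) := by
  have hinj : Function.Injective A.vecMul := by
    intro v w hvw
    have hvw' : v ᵥ* A = w ᵥ* A := hvw
    have h1 : (v ᵥ* A) ᵥ* B = (w ᵥ* A) ᵥ* B := by rw [hvw']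
    rwa [Matrix.vecMul_vecMul, Matrix.vecMul_vecMul, h, Matrix.vecMul_one,
      Matrix.vecMul_one] at h1
  exact Matrix.vecMul_injective_iff.mp hinj

/-- expansion of `det (A * B)` along the columns of `A`. -/
theorem dual_det_mul_eq_sum [DecidableEq ω] (A : Matrix ω κ F) (B : Matrix κ ω F) :
    (A * B).det = ∑ p : ω → κ, (A.submatrix id p).det * ∏ i, B (p i) i := by
  classical
  calc (A * B).det
      = ∑ p : ω → κ, ∑ σ : Equiv.Perm ω,
          ((Equiv.Perm.sign σ : ℤ) : F) * ∏ i, A (σ i) (p i) * B (p i) i := by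
        simp only [Matrix.det_apply', Matrix.mul_apply, Finset.prod_univ_sum, Finset.mul_sum,
          Fintype.piFinset_univ]
        rw [Finset.sum_comm]
    _ = ∑ p : ω → κ, (A.submatrix id p).det * ∏ i, B (p i) i := by
        refine Finset.sum_congr rfl fun p _ => ?_
        rw [Matrix.det_apply', Finset.sum_mul]
        refine Finset.sum_congr rfl fun σ _ => ?_
        rw [Finset.prod_mul_distrib]
        simp [mul_assoc]

/-- A matrix with independent rows has a nonzero maximal minor. -/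
theorem dual_exists_minor_ne_zero [DecidableEq ω] (A : Matrix ω κ F)
    (hA : LinearIndependent F (fun i => A i)) : ∃ p : ω → κ, (A.submatrix id p).det ≠ 0 := by
  classical
  obtain ⟨B, hB⟩ := dual_exists_right_inverse A hA
  by_contra hcon
  push Not at hcon
  have h1 := dual_det_mul_eq_sum A B
  rw [hB, Matrix.det_one, Finset.sum_eq_zero fun p _ => by rw [hcon p, zero_mul]] at h1
  exact one_ne_zero h1

theorem dual_injective_of_minor_ne_zero [DecidableEq ω] (A : Matrix ω κ F) (p : ω → κ)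
    (hp : (A.submatrix id p).det ≠ 0) : Function.Injective p := by
  intro i j hij
  by_contra hne
  exact hp (Matrix.det_zero_of_column_eq hne fun k => by simp [hij])

/-- an injective map `ω → κ` is the first half of a decomposition `κ ≃ ω ⊕ ε`. -/
theorem dual_exists_equiv (p : ω → κ) (hp : Function.Injective p)
    (hcard : Fintype.card ω + Fintype.card ε = Fintype.card κ) :
    ∃ e : κ ≃ ω ⊕ ε, ∀ j, e.symm (Sum.inl j) = p j := by
  classical
  have h1 : Fintype.card ((Set.range p)ᶜ : Set κ) = Fintype.card ε := by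
    rw [Fintype.card_compl_set, Set.card_range_of_injective hp]
    omega
  let e2 : ε ≃ ((Set.range p)ᶜ : Set κ) := Fintype.equivOfCardEq h1.symm
  let e1 : ω ≃ Set.range p := Equiv.ofInjective p hp
  refine ⟨((Equiv.sumCongr e1 e2).trans (Equiv.Set.sumCompl (Set.range p))).symm, fun j => ?_⟩
  simp [e1]

end LA

/-! ### rational matrices -/

theorem ratMat_eq_map {ι κ : Type*} (a : ι → κ → ℚ) :
    ratMat a = (Matrix.of a).map (algebraMap ℚ Qb) := rfl

theorem dual_linearIndependent_ratMat {ω κ : Type*} [Fintype ω] [Fintype κ] (a : ω → κ → ℚ)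
    (ha : LinearIndependent ℚ a) : LinearIndependent Qb (fun i => ratMat a i) := by
  classical
  obtain ⟨B, hB⟩ := dual_exists_right_inverse (Matrix.of a) ha
  refine dual_linearIndependent_of_right_inverse (ratMat a) (B.map (algebraMap ℚ Qb)) ?_
  rw [ratMat_eq_map, ← Matrix.map_mul, hB]
  exact Matrix.map_one _ (map_zero _) (map_one _)

theorem dual_det_ratMat_mem_range {ω κ : Type*} [Fintype ω] [DecidableEq ω] (a : ω → κ → ℚ)
    (p : ω → κ) : ((ratMat a).submatrix id p).det ∈ Set.range (algebraMap ℚ Qb) := by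
  refine ⟨((Matrix.of a).submatrix id p).det, ?_⟩
  rw [RingHom.map_det]
  rfl

/-! ### Galois action on a minor of a Galois stable system -/

theorem dual_isGalois_rat : IsGalois ℚ Qb := by
  have h : (DivisionRing.toRatAlgebra : Algebra ℚ (AlgebraicClosure ℚ)) =
      AlgebraicClosure.instAlgebra ℚ := Subsingleton.elim _ _
  have h1 : IsAlgClosure ℚ (AlgebraicClosure ℚ) := by
    rw [h]
    infer_instance
  infer_instance

theorem dual_sq_minor_mem_range {ε κ : Type*} [Fintype ε] [DecidableEq ε] (X : Matrix ε κ Qb)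
    (hgal : ∀ σ : Qb ≃ₐ[ℚ] Qb, ∃ π : Equiv.Perm ε, ∀ i k, σ (X i k) = X (π i) k) (p : ε → κ) :
    ((X.submatrix id p).det) ^ 2 ∈ Set.range (algebraMap ℚ Qb) := by
  have := dual_isGalois_rat
  rw [InfiniteGalois.mem_range_algebraMap_iff_fixed]
  intro σ
  obtain ⟨π, hπ⟩ := hgal σ
  have h1 : σ ((X.submatrix id p).det) = ((X.submatrix id p).submatrix π id).det := by
    rw [AlgEquiv.map_det]
    congr 1
    ext i j
    exact hπ i (p j)
  rw [map_pow, h1, Matrix.det_permute, mul_pow]
  have h2 : (((Equiv.Perm.sign π : ℤˣ) : ℤ) : Qb) ^ 2 = 1 := by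
    rcases Int.units_eq_one_or (Equiv.Perm.sign π) with h | h <;> simp [h]
  rw [h2, one_mul]

/-! ### local norms -/

section Norm

variable (𝔳 : AbsFam)

theorem dual_le_wnorm (v : Pl) {ι κ : Type*} [Fintype ι] [DecidableEq ι] [Finite κ]
    (X : Matrix ι κ Qb) (K : ι → κ) : 𝔳.av v ((X.submatrix id K).det) ≤ wnorm 𝔳 v X :=
  le_ciSup (f := fun K : ι → κ => 𝔳.av v ((X.submatrix id K).det))
    (Set.finite_range _).bddAbove K

theorem dual_wnorm_pos (v : Pl) {ι κ : Type*} [Fintype ι] [DecidableEq ι] [Finite κ]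
    (X : Matrix ι κ Qb) (K : ι → κ) (hK : (X.submatrix id K).det ≠ 0) : 0 < wnorm 𝔳 v X :=
  lt_of_lt_of_le ((𝔳.av v).pos hK) (dual_le_wnorm 𝔳 v X K)

theorem dual_finite_support_log_wnorm (hfin : ∀ x : Qb, x ≠ 0 → {v | 𝔳.av v x ≠ 1}.Finite)
    {ι κ : Type*} [Fintype ι] [DecidableEq ι] [Finite κ] (X : Matrix ι κ Qb) (K₀ : ι → κ)
    (hK₀ : (X.submatrix id K₀).det ≠ 0) :
    (Function.support fun v => Real.log (wnorm 𝔳 v X)).Finite := by
  have hT : (⋃ K : {K : ι → κ // (X.submatrix id K).det ≠ 0},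
      {v | 𝔳.av v ((X.submatrix id K.1).det) ≠ 1}).Finite :=
    Set.finite_iUnion fun K => hfin _ K.2
  refine hT.subset fun v hv => ?_
  by_contra hvT
  apply hv
  simp only [Set.mem_iUnion, Set.mem_ofPred_eq, not_exists, not_not, Subtype.forall] at hvT
  have h1 : wnorm 𝔳 v X = 1 := by
    apply le_antisymm
    · have : Nonempty (ι → κ) := ⟨K₀⟩
      refine ciSup_le fun K => ?_
      by_cases hK : (X.submatrix id K).det = 0
      · rw [hK, map_zero]; exact zero_le_one
      · exact (hvT K hK).le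
    · rw [← hvT K₀ hK₀]
      exact dual_le_wnorm 𝔳 v X K₀
  show Real.log (wnorm 𝔳 v X) = 0
  rw [h1, Real.log_one]

theorem dual_finite_support_log_av (hfin : ∀ x : Qb, x ≠ 0 → {v | 𝔳.av v x ≠ 1}.Finite)
    {x : Qb} (hx : x ≠ 0) : (Function.support fun v => Real.log (𝔳.av v x)).Finite := by
  refine (hfin x hx).subset fun v hv h1 => hv ?_
  show Real.log (𝔳.av v x) = 0
  rw [h1, Real.log_one]

end Norm

/-! ### the core statement -/

theorem wht_eq_of_compl_minors (𝔳 : AbsFam)
    (hfin : ∀ x : Qb, x ≠ 0 → {v | 𝔳.av v x ≠ 1}.Finite)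
    (hprod : ∀ θ : Qb, θ ≠ 0 → θ ^ 2 ∈ Set.range (algebraMap ℚ Qb) →
      ∑ᶠ v, Real.log (𝔳.av v θ) = 0)
    {ω ε κ : Type*} [Fintype ω] [Fintype ε] [Fintype κ] [DecidableEq ω] [DecidableEq ε]
    (a : ω → κ → ℚ) (ha : LinearIndependent ℚ a) (X : Matrix ε κ Qb)
    (hgal : ∀ σ : Qb ≃ₐ[ℚ] Qb, ∃ π : Equiv.Perm ε, ∀ i k, σ (X i k) = X (π i) k)
    (hcard : Fintype.card ω + Fintype.card ε = Fintype.card κ)
    (lam : Qb) (hlam : lam ≠ 0) (hw : ∀ v, wnorm 𝔳 v (ratMat a) = 𝔳.av v lam * wnorm 𝔳 v X)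
    (hdet : ∀ e : κ ≃ ω ⊕ ε,
      Matrix.det (fun i j => ratMat a i (e.symm (Sum.inl j))) =
          lam * Matrix.det (fun i j => X i (e.symm (Sum.inr j))) ∨
        Matrix.det (fun i j => ratMat a i (e.symm (Sum.inl j))) =
          -(lam * Matrix.det (fun i j => X i (e.symm (Sum.inr j))))) :
    wht 𝔳 (ratMat a) = wht 𝔳 X := by
  -- a nonzero minor of `A`
  obtain ⟨p, hp⟩ := dual_exists_minor_ne_zero (ratMat a) (dual_linearIndependent_ratMat a ha)
  obtain ⟨e, he⟩ := dual_exists_equiv (ε := ε) p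
    (dual_injective_of_minor_ne_zero _ p hp) hcard
  set q : ε → κ := fun j => e.symm (Sum.inr j) with hq
  have hA : Matrix.det (fun i j => ratMat a i (e.symm (Sum.inl j))) =
      ((ratMat a).submatrix id p).det := by
    congr 1
    ext i j
    simp [he]
  have hX : Matrix.det (fun i j => X i (e.symm (Sum.inr j))) = (X.submatrix id q).det := rfl
  set mA := ((ratMat a).submatrix id p).det with hmA
  set δ := (X.submatrix id q).det with hδ
  have hsq : mA ^ 2 = lam ^ 2 * δ ^ 2 := by
    rcases hdet e with h | h <;> rw [hA, hX] at h <;> rw [h] <;> ring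
  have hδ0 : δ ≠ 0 := by
    intro h0
    rw [h0] at hsq
    exact hp (pow_eq_zero_iff (two_ne_zero)|>.mp (by rw [hsq]; ring))
  -- `lam ^ 2` is rational
  have hlam2 : lam ^ 2 ∈ Set.range (algebraMap ℚ Qb) := by
    obtain ⟨r, hr⟩ := dual_det_ratMat_mem_range a p
    obtain ⟨s, hs⟩ := dual_sq_minor_mem_range X hgal q
    refine ⟨r ^ 2 / s, ?_⟩
    rw [map_div₀, map_pow, hr, hs, ← hmA, ← hδ, hsq, mul_div_assoc,
      div_self (pow_ne_zero 2 hδ0), mul_one]
  have hsum := hprod lam hlam hlam2
  -- conclusion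
  have h1 : ∀ v, Real.log (wnorm 𝔳 v (ratMat a)) =
      Real.log (𝔳.av v lam) + Real.log (wnorm 𝔳 v X) := by
    intro v
    rw [hw v, Real.log_mul ((𝔳.av v).ne_zero hlam) (dual_wnorm_pos 𝔳 v X q hδ0).ne']
  unfold wht
  simp_rw [h1]
  rw [finsum_add_distrib (dual_finite_support_log_av 𝔳 hfin hlam)
    (dual_finite_support_log_wnorm 𝔳 hfin X q hδ0), hsum, zero_add]

end Fermat.Agent.S17.H
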