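import Fermat.Agent.S17.H.Weight
import Fermat.Agent.S17.H.Semigroup
import Fermat.Agent.S17.H.DualCore

/-!
# S17/H, node SG3: ideals of finite codimension are complemented by `V_n`; evaluations at distinct
points are independent; `w2 > 0`; finite fibres.
-/

set_option autoImplicit false

noncomputable section

open scoped Classical

namespace Fermat.Agent.S17.H

variable (𝔳 : AbsFam) {A : Type} [CommRing A] [Algebra Qb A] (C : WCurve A)

namespace Indep

/-- the top term of a nonzero function -/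
theorem exists_top {f : A} (hf : f ≠ 0) :
    ∃ k, C.b.repr f k ≠ 0 ∧ C.wt f = C.ρ k ∧ ∀ l, k < l → C.b.repr f l = 0 := by
  have hs : (C.b.repr f).support.Nonempty := by
    rw [Finsupp.support_nonempty_iff]
    intro h
    exact hf (C.b.repr.map_eq_zero_iff.1 h)
  obtain ⟨k, hk, hk'⟩ := Finset.exists_mem_eq_sup _ hs C.ρ
  refine ⟨k, Finsupp.mem_support_iff.1 hk, hk', fun l hl => ?_⟩
  by_contra hne
  have h1 : C.ρ l ≤ (C.b.repr f).support.sup C.ρ := Finset.le_sup (Finsupp.mem_support_iff.2 hne)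
  rw [hk'] at h1
  exact absurd (C.ρ_strictMono hl) (not_lt.2 h1)

theorem wt_lt_of_repr {f : A} {k : ℕ} (hk : 0 < C.ρ k) (h : ∀ l, k ≤ l → C.b.repr f l = 0) :
    C.wt f < C.ρ k := by
  unfold WCurve.wt
  rw [Finset.sup_lt_iff (by simpa using hk)]
  intro l hl
  apply C.ρ_strictMono
  by_contra hge
  exact (Finsupp.mem_support_iff.1 hl) (h l (not_lt.1 hge))

/-- descending induction on the weight -/
theorem sup_eq_top_of_exists (I : Ideal A) (n : ℕ)
    (H : ∀ k, n < C.ρ k → ∃ u ∈ I, u ≠ 0 ∧ C.wt u = C.ρ k) :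
    C.V n ⊔ I.restrictScalars Qb = ⊤ := by
  rw [eq_top_iff]
  intro f _
  induction hw : C.wt f using Nat.strong_induction_on generalizing f with
  | _ h ih =>
    by_cases hle : h ≤ n
    · exact Submodule.mem_sup_left ((mem_V_iff C n f).2 (hw ▸ hle))
    · have hf : f ≠ 0 := by
        rintro rfl
        rw [wt_zero] at hw
        omega
      obtain ⟨k, hk0, hkw, hkt⟩ := exists_top C hf
      obtain ⟨u, huI, hu0, huw⟩ := H k (by omega)
      obtain ⟨k', hk'0, hk'w, hk't⟩ := exists_top C hu0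
      have hkk : k' = k := C.ρ_strictMono.injective (by rw [← hk'w, huw])
      subst hkk
      set c := C.b.repr f k' / C.b.repr u k' with hc
      have hlt : C.wt (f - c • u) < C.ρ k' := by
        refine wt_lt_of_repr C (by omega) fun l hl => ?_
        rw [map_sub, map_smul, Finsupp.sub_apply, Finsupp.smul_apply, smul_eq_mul]
        rcases hl.eq_or_lt with rfl | hl
        · rw [hc, div_mul_cancel₀ _ hk'0, sub_self]
        · rw [hkt l hl, hk't l hl, mul_zero, sub_self]
      have h1 := ih (C.wt (f - c • u)) (by omega) (f := f - c • u) trivial rfl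
      have h2 : f = (f - c • u) + c • u := by abel
      rw [h2]
      exact add_mem h1 (Submodule.mem_sup_right
        (Submodule.smul_mem _ c ((Submodule.restrictScalars_mem Qb I u).2 huI)))

/-- counting: many decompositions `h = ρ j + ρ i` -/
theorem card_decomp {h : ℕ} (hh : 2 * C.g ≤ h + 1) :
    h + 1 ≤ ((Finset.range (h + 1)).filter fun i => ∃ j, C.ρ j + C.ρ i = h).card + 2 * C.g := by
  set J := (Finset.range (h + 1)).filter fun i => C.ρ i ≤ h with hJ
  have hJc : J.card + C.g = h + 1 := dim_add_g C hh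
  set T1 := J.image C.ρ with hT1
  have c1 : T1.card = J.card := Finset.card_image_of_injective _ C.ρ_strictMono.injective
  have s1 : ∀ a ∈ T1, a ≤ h := by
    intro a ha
    obtain ⟨i, hi, rfl⟩ := Finset.mem_image.1 ha
    exact (Finset.mem_filter.1 hi).2
  set T2 := T1.image (fun a => h - a) with hT2
  have c2 : T2.card = T1.card := by
    apply Finset.card_image_of_injOn
    intro a ha a' ha' haa
    have := s1 a ha
    have := s1 a' ha'
    simp only at haa
    omega
  have hU : (T1 ∪ T2).card ≤ h + 1 := by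
    have : T1 ∪ T2 ⊆ Finset.range (h + 1) := by
      intro a ha
      rw [Finset.mem_range]
      rcases Finset.mem_union.1 ha with ha | ha
      · have := s1 a ha; omega
      · obtain ⟨a', _, rfl⟩ := Finset.mem_image.1 ha
        omega
    simpa using Finset.card_le_card this
  have hI := Finset.card_union_add_card_inter T1 T2
  have hK : (T1 ∩ T2).card ≤
      ((Finset.range (h + 1)).filter fun i => ∃ j, C.ρ j + C.ρ i = h).card := by
    refine le_trans (Finset.card_le_card ?_) (Finset.card_image_le (f := C.ρ))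
    intro a ha
    obtain ⟨ha1, ha2⟩ := Finset.mem_inter.1 ha
    obtain ⟨i, hi, rfl⟩ := Finset.mem_image.1 ha1
    obtain ⟨a', ha', hai⟩ := Finset.mem_image.1 ha2
    obtain ⟨j, hj, rfl⟩ := Finset.mem_image.1 ha'
    refine Finset.mem_image.2 ⟨i, Finset.mem_filter.2 ⟨(Finset.mem_filter.1 hi).1, j, ?_⟩, rfl⟩
    have := (Finset.mem_filter.1 hj).2
    omega
  omega

/-- an ideal of codimension `e` contains functions of every weight `≥ e + 2g` -/
theorem exists_mem_wt_eq (I : Ideal A) (e : ℕ) [Module.Finite Qb (A ⧸ I)]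
    (he : Module.finrank Qb (A ⧸ I) = e) {h : ℕ} (hh : e + 2 * C.g ≤ h) :
    ∃ u ∈ I, u ≠ 0 ∧ C.wt u = h := by
  set K := (Finset.range (h + 1)).filter fun i => ∃ j, C.ρ j + C.ρ i = h with hK
  have hcard : e < K.card := by
    have := card_decomp C (h := h) (by omega)
    rw [← hK] at this
    omega
  have hnot : ¬ LinearIndependent Qb (fun i : K => Ideal.Quotient.mkₐ Qb I (C.b i)) := by
    intro hli
    have := hli.fintype_card_le_finrank
    rw [he, Fintype.card_coe] at this
    omega
  obtain ⟨c, hc, i₀, hi₀⟩ := Fintype.not_linearIndependent_iff.1 hnot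
  set w : A := ∑ i : K, c i • C.b i with hw
  have hwI : w ∈ I := by
    rw [← Ideal.Quotient.eq_zero_iff_mem, ← Ideal.Quotient.mkₐ_eq_mk Qb, hw, map_sum, ← hc]
    exact Finset.sum_congr rfl fun i _ => map_smul _ _ _
  have hrepr : ∀ l, C.b.repr w l = ∑ i : K, c i * (if (i : ℕ) = l then 1 else 0) := by
    intro l
    rw [hw, map_sum, Finsupp.finsetSum_apply]
    refine Finset.sum_congr rfl fun i _ => ?_
    rw [map_smul, Finsupp.smul_apply, Module.Basis.repr_self, Finsupp.single_apply, smul_eq_mul]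
  have hw0 : w ≠ 0 := by
    intro h0
    have h1 := hrepr i₀
    rw [h0, map_zero, Finsupp.zero_apply, Finset.sum_eq_single i₀] at h1
    · simp at h1
      exact hi₀ h1.symm
    · intro i _ hi
      rw [if_neg (fun h => hi (Subtype.ext h)), mul_zero]
    · intro h; exact absurd (Finset.mem_univ _) h
  obtain ⟨k, hk0, hkw, -⟩ := exists_top C hw0
  have hkK : k ∈ K := by
    by_contra hk
    apply hk0
    rw [hrepr]
    refine Finset.sum_eq_zero fun i _ => ?_
    rw [if_neg (fun h : (i : ℕ) = k => hk (h ▸ i.2)), mul_zero]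
  obtain ⟨j, hj⟩ := (Finset.mem_filter.1 hkK).2
  refine ⟨C.b j * w, I.mul_mem_left _ hwI, ?_, ?_⟩
  · intro h0
    have h1 := wt_mul C (C.b.ne_zero j) hw0
    rw [h0, wt_zero, wt_b, hkw] at h1
    have hj0 : j = 0 := by
      have := le_rho C j; omega
    rw [hj0, C.b_zero, one_mul] at h0
    exact hw0 h0
  · rw [wt_mul C (C.b.ne_zero j) hw0, wt_b, hkw, hj]

/-- evaluations at points killing `I` are independent on `V_n` if `V_n + I = A` -/
theorem linearIndependent_evMat_of_sup (E : Finset (Pt A)) (n : ℕ) (I : Ideal A)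
    (hI : ∀ P ∈ E, ∀ f ∈ I, P f = 0) (htop : C.V n ⊔ I.restrictScalars Qb = ⊤) :
    LinearIndependent Qb (fun P : E => C.evMat n E P) := by
  rw [Fintype.linearIndependent_iff]
  intro c hc
  set L : A →ₗ[Qb] Qb := ∑ P : E, c P • (P.1 : A →ₐ[Qb] Qb).toLinearMap with hL
  have hLa : ∀ f, L f = ∑ P : E, c P * P.1 f := by
    intro f
    rw [hL, LinearMap.sum_apply]
    rfl
  have hV : ∀ f ∈ C.V n, L f = 0 := by
    intro f hf
    have hle : C.V n ≤ LinearMap.ker L := by
      rw [WCurve.V, Submodule.span_le]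
      rintro _ ⟨i, hi, rfl⟩
      have hi' : i < C.dim n := (lt_dim_iff C i n).2 hi
      have h1 := congrFun hc ⟨i, hi'⟩
      rw [Finset.sum_apply] at h1
      rw [SetLike.mem_coe, LinearMap.mem_ker, hLa]
      exact h1
    exact hle hf
  have hL0 : L = 0 := by
    ext f
    have hf : f ∈ C.V n ⊔ I.restrictScalars Qb := htop ▸ Submodule.mem_top
    obtain ⟨a, ha, b, hb, rfl⟩ := Submodule.mem_sup.1 hf
    rw [map_add, hV a ha, hLa b, zero_add, LinearMap.zero_apply]
    refine Finset.sum_eq_zero fun P _ => ?_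
    rw [hI P.1 P.2 b hb, mul_zero]
  have hind := (linearIndependent_algHom_toLinearMap Qb A Qb).comp (Subtype.val : E → Pt A)
    Subtype.val_injective
  exact Fintype.linearIndependent_iff.1 hind c hL0

theorem mem_idealOf {E : Finset (Pt A)} {f : A} : f ∈ idealOf E ↔ ∀ P ∈ E, P f = 0 := by
  simp [idealOf, Submodule.mem_iInf, RingHom.mem_ker]

/-- `A ⧸ I(E)` embeds in `ℚ̄^E` -/
theorem finite_quot_idealOf (E : Finset (Pt A)) :
    Module.Finite Qb (A ⧸ idealOf E) ∧ Module.finrank Qb (A ⧸ idealOf E) ≤ E.card := by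
  let φ : A →ₐ[Qb] (E → Qb) := AlgHom.pi fun P : E => P.1
  have h0 : ∀ a ∈ idealOf E, φ a = 0 := by
    intro a ha
    funext P
    exact mem_idealOf.1 ha P.1 P.2
  let ψ : (A ⧸ idealOf E) →ₐ[Qb] (E → Qb) := Ideal.Quotient.liftₐ (idealOf E) φ h0
  have hinj : Function.Injective ψ := by
    refine RingHom.lift_injective_of_ker_le_ideal (idealOf E) (f := (φ : A →+* (E → Qb))) h0 ?_
    intro a ha
    rw [mem_idealOf]
    intro P hP
    exact congrFun (RingHom.mem_ker.1 ha) ⟨P, hP⟩
  have hfin : Module.Finite Qb (A ⧸ idealOf E) := Module.Finite.of_injective ψ.toLinearMap hinj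
  refine ⟨hfin, ?_⟩
  have := LinearMap.finrank_le_finrank_of_injective (f := ψ.toLinearMap) hinj
  simpa using this

theorem repr_t_sub (α : Qb) (l : ℕ) : C.b.repr (C.t - algebraMap Qb A α) l =
    (if 1 = l then 1 else 0) - α * (if 0 = l then 1 else 0) := by
  rw [Algebra.algebraMap_eq_smul_one, ← C.b_zero, WCurve.t, map_sub, map_smul,
    Module.Basis.repr_self, Module.Basis.repr_self, Finsupp.sub_apply, Finsupp.smul_apply,
    Finsupp.single_apply, Finsupp.single_apply, smul_eq_mul]

theorem t_sub_ne_zero (α : Qb) : C.t - algebraMap Qb A α ≠ 0 := by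
  intro h
  have h1 := repr_t_sub C α 1
  rw [h] at h1
  simp at h1

theorem wt_t_sub (α : Qb) : C.wt (C.t - algebraMap Qb A α) = C.d := by
  obtain ⟨k, hk0, hkw, hkt⟩ := exists_top C (t_sub_ne_zero C α)
  have h1 : ¬ k < 1 := by
    intro hk
    have := hkt 1 hk
    rw [repr_t_sub] at this
    simp at this
  have h2 : k ≤ 1 := by
    by_contra hk
    apply hk0
    rw [repr_t_sub, if_neg (by omega), if_neg (by omega)]
    simp
  have h3 : k = 1 := by omega
  rw [hkw, h3]
  rfl

theorem V_sup_span_t_sub (α : Qb) {n : ℕ} (hn : 2 * C.g + C.d ≤ n + 1) :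
    C.V n ⊔ (Ideal.span {C.t - algebraMap Qb A α}).restrictScalars Qb = ⊤ := by
  apply sup_eq_top_of_exists
  intro k hk
  have hj : C.ρ (C.ρ k - C.d - C.g) = C.ρ k - C.d := by
    rw [rho_of_ge C (by omega)]
    omega
  have hw : C.wt ((C.t - algebraMap Qb A α) * C.b (C.ρ k - C.d - C.g)) = C.ρ k := by
    rw [wt_mul C (t_sub_ne_zero C α) (C.b.ne_zero _), wt_t_sub, wt_b, hj]
    omega
  refine ⟨_, Ideal.mul_mem_right _ _ (Ideal.mem_span_singleton_self _), ?_, hw⟩
  intro h0
  rw [h0, wt_zero] at hw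
  omega

end Indep

open Indep

/-- an ideal of codimension `e` is complemented by `V_n` as soon as `n ≥ e + 2g - 1`. -/
theorem V_sup_ideal_eq_top (I : Ideal A) (e : ℕ) [Module.Finite Qb (A ⧸ I)]
    (he : Module.finrank Qb (A ⧸ I) = e) {n : ℕ} (hn : e + 2 * C.g ≤ n + 1) :
    C.V n ⊔ I.restrictScalars Qb = ⊤ :=
  sup_eq_top_of_exists C I n fun _ hk => exists_mem_wt_eq C I e he (by omega)

/-- evaluations at distinct points are independent on `V_n`, `n ≥ e + 2g - 1`. -/
theorem linearIndependent_evMat (E : Finset (Pt A)) {n : ℕ} (hn : E.card + 2 * C.g ≤ n + 1) :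
    LinearIndependent Qb (fun P : E => C.evMat n E P) := by
  obtain ⟨hfin, hle⟩ := finite_quot_idealOf E
  exact linearIndependent_evMat_of_sup C E n (idealOf E) (fun P hP f hf => mem_idealOf.1 hf P hP)
    (V_sup_ideal_eq_top C (idealOf E) _ rfl (by omega))

theorem wnorm_evMat_pos (v : Pl) (E : Finset (Pt A)) {n : ℕ} (hn : E.card + 2 * C.g ≤ n + 1) :
    0 < wnorm 𝔳 v (C.evMat n E) := by
  obtain ⟨p, hp⟩ := dual_exists_minor_ne_zero (C.evMat n E) (linearIndependent_evMat C E hn)
  exact dual_wnorm_pos 𝔳 v _ p hp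

theorem w2_pos (v : Pl) {m : ℕ} (hm : 2 * C.g + 1 ≤ m) {P Q : Pt A} (h : P ≠ Q) :
    0 < C.w2 𝔳 m v P Q := by
  have h0 : 0 < C.dim m := (lt_dim_iff C 0 m).2 (by rw [C.ρ_zero]; omega)
  obtain ⟨l, hl⟩ : ∃ l : Fin (C.dim m), P (C.b l) ≠ Q (C.b l) := by
    by_contra hcon
    push Not at hcon
    have hli := linearIndependent_evMat C ({P, Q} : Finset (Pt A)) (n := m) (by
      rw [Finset.card_pair h]; omega)
    have hPQ : (⟨P, by simp⟩ : ({P, Q} : Finset (Pt A))) = ⟨Q, by simp⟩ :=
      hli.injective (funext fun i => hcon i)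
    exact h (congrArg Subtype.val hPQ)
  have hb : BddAbove (Set.range fun kl : Fin (C.dim m) × Fin (C.dim m) =>
      𝔳.av v (P (C.b kl.1) * Q (C.b kl.2) - P (C.b kl.2) * Q (C.b kl.1))) :=
    (Set.finite_range _).bddAbove
  refine lt_of_lt_of_le ?_ (le_ciSup hb (⟨0, h0⟩, l))
  apply (𝔳.av v).pos
  simp only
  rw [C.b_zero, map_one, map_one, one_mul, mul_one]
  exact sub_ne_zero.2 (Ne.symm hl)

/-- points are determined by their coordinates; fibres of `t` are finite. -/
theorem fib_finite (α : Qb) : (C.fib α).Finite := by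
  by_contra hinf
  have hinf' : (C.fib α).Infinite := hinf
  obtain ⟨E, hE, hcard⟩ := hinf'.exists_subset_card_eq (C.dim (2 * C.g + C.d) + 1)
  have hli := linearIndependent_evMat_of_sup C E (2 * C.g + C.d)
    (Ideal.span {C.t - algebraMap Qb A α}) (by
      intro P hP f hf
      obtain ⟨a, rfl⟩ := Ideal.mem_span_singleton'.1 hf
      have hPt : P C.t = α := hE hP
      rw [map_mul, map_sub, hPt, AlgHom.commutes]
      simp) (V_sup_span_t_sub C α (by omega))
  have h1 := hli.fintype_card_le_finrank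
  rw [Fintype.card_coe, hcard, Module.finrank_fintype_fun_eq_card, Fintype.card_fin] at h1
  omega

end Fermat.Agent.S17.H
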