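import Fermat.Agent.S17.H.AbsBasic
import Fermat.Agent.S17.H.ProdFormula

/-!
# S17, part H, node LA2: the height of a rational subspace does not depend on the basis
Owner: helper181.
-/

set_option autoImplicit false

noncomputable section

open scoped Classical

namespace Fermat.Agent.S17.H

variable (𝔳 : AbsFam)

section Local

variable {ι ι' κ : Type*} [Fintype ι] [DecidableEq ι] [Fintype ι'] [DecidableEq ι']

theorem wnorm_mul_left (v : Pl) (U : Matrix ι ι Qb) (X : Matrix ι κ Qb) :
    wnorm 𝔳 v (U * X) = 𝔳.av v U.det * wnorm 𝔳 v X := by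
  unfold wnorm
  rw [Real.mul_iSup_of_nonneg ((𝔳.av v).nonneg _)]
  refine iSup_congr fun K => ?_
  have : (U * X).submatrix id K = U * X.submatrix id K := by
    ext i j
    simp [Matrix.mul_apply]
  rw [this, Matrix.det_mul, map_mul]

theorem wnorm_submatrix_equiv (v : Pl) (e : ι' ≃ ι) (X : Matrix ι κ Qb) :
    wnorm 𝔳 v (X.submatrix e id) = wnorm 𝔳 v X := by
  unfold wnorm
  rw [← (e.arrowCongr (Equiv.refl κ)).iSup_comp]
  refine iSup_congr fun K => ?_
  congr 1
  rw [← Matrix.det_submatrix_equiv_self e (X.submatrix id _)]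
  congr 1
  ext i j
  simp [Equiv.arrowCongr]

end Local

section Global

variable {ι ι' κ : Type*} [Fintype ι] [DecidableEq ι] [Fintype ι'] [DecidableEq ι']

/-- If the local norms differ by the absolute values of a nonzero rational number, the global
heights agree. -/
theorem finsum_log_eq_of_mul {f g : Pl → ℝ} {d : ℚ} (hd : d ≠ 0)
    (h : ∀ v, f v = 𝔳.av v (algebraMap ℚ Qb d) * g v)
    (hg : (∀ v, g v = 0) ∨ ∀ v, g v ≠ 0) :
    ∑ᶠ v, Real.log (f v) = ∑ᶠ v, Real.log (g v) := by
  have hd' : ∀ v, 𝔳.av v (algebraMap ℚ Qb d) ≠ 0 := fun v =>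
    (𝔳.av v).ne_zero_iff.mpr ((map_ne_zero _).mpr hd)
  rcases hg with hg | hg
  · refine finsum_congr fun v => ?_
    rw [h v, hg v, mul_zero]
  · have hlog : ∀ v, Real.log (f v) =
        Real.log (𝔳.av v (algebraMap ℚ Qb d)) + Real.log (g v) := fun v => by
      rw [h v, Real.log_mul (hd' v) (hg v)]
    have hsupp : (Function.support fun v => Real.log (𝔳.av v (algebraMap ℚ Qb d))).Finite := by
      refine (finite_av_ne_one 𝔳 ((map_ne_zero (algebraMap ℚ Qb)).mpr hd)).subset fun v hv => ?_
      intro h1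
      apply hv
      simp only [h1, Real.log_one]
    by_cases hfin : (Function.support fun v => Real.log (g v)).Finite
    · rw [finsum_congr hlog, finsum_add_distrib hsupp hfin, sum_log_av_rat 𝔳 hd, zero_add]
    · rw [finsum_of_infinite_support hfin, finsum_of_infinite_support]
      intro hfin'
      apply hfin
      refine (hfin'.union hsupp).subset fun v hv => ?_
      by_contra hcon
      simp only [Set.mem_union, Function.mem_support, not_or, not_not] at hcon
      apply hv
      have := hlog v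
      rw [hcon.1, hcon.2, zero_add] at this
      exact this.symm

theorem wnorm_eq_zero_or_ne_zero [Finite κ] (X : Matrix ι κ Qb) :
    (∀ v, wnorm 𝔳 v X = 0) ∨ ∀ v, wnorm 𝔳 v X ≠ 0 := by
  by_cases h : ∀ K : ι → κ, Matrix.det (X.submatrix id K) = 0
  · left
    intro v
    unfold wnorm
    simp [h]
  · right
    push Not at h
    obtain ⟨K, hK⟩ := h
    intro v
    have h1 : 0 < 𝔳.av v (Matrix.det (X.submatrix id K)) := (𝔳.av v).pos hK
    have h2 : 𝔳.av v (Matrix.det (X.submatrix id K)) ≤ wnorm 𝔳 v X :=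
      le_ciSup (f := fun K : ι → κ => 𝔳.av v (Matrix.det (X.submatrix id K)))
        (Set.finite_range _).bddAbove K
    exact (lt_of_lt_of_le h1 h2).ne'

/-- `GL(ℚ)`-invariance of the height of a matrix. -/
theorem wht_ratMat_mul_left [Finite κ] (U : Matrix ι ι ℚ) (hU : U.det ≠ 0) (X : Matrix ι κ Qb) :
    wht 𝔳 (U.map (algebraMap ℚ Qb) * X) = wht 𝔳 X := by
  unfold wht
  refine finsum_log_eq_of_mul 𝔳 hU (fun v => ?_) (wnorm_eq_zero_or_ne_zero 𝔳 X)
  rw [wnorm_mul_left, ← RingHom.mapMatrix_apply, ← RingHom.map_det]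

theorem wht_submatrix_equiv (e : ι' ≃ ι) (X : Matrix ι κ Qb) :
    wht 𝔳 (X.submatrix e id) = wht 𝔳 X := by
  unfold wht
  exact finsum_congr fun v => by rw [wnorm_submatrix_equiv]

/-- The height of the matrix of a basis of `W` does not depend on the basis. -/
theorem wht_ratMat_basis_eq [Finite κ] (W : Submodule ℚ (κ → ℚ)) (a : Module.Basis ι ℚ W)
    (b : Module.Basis ι' ℚ W) :
    wht 𝔳 (ratMat fun i => ((a i : W) : κ → ℚ)) = wht 𝔳 (ratMat fun i => ((b i : W) : κ → ℚ)) := by
  set e : ι ≃ ι' := a.indexEquiv b with he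
  set b' : Module.Basis ι ℚ W := b.reindex e.symm with hb'
  have h1 : (ratMat fun i => ((b' i : W) : κ → ℚ)) =
      (ratMat fun i => ((b i : W) : κ → ℚ)).submatrix e id := by
    ext i k
    simp [ratMat, hb']
  have h2 : (ratMat fun i => ((a i : W) : κ → ℚ)) =
      ((b'.toMatrix a).transpose.map (algebraMap ℚ Qb)) * ratMat fun i => ((b' i : W) : κ → ℚ) := by
    ext i k
    have hs := b'.sum_toMatrix_smul_self a i
    have hs' : ((a i : W) : κ → ℚ) k = ∑ j, b'.toMatrix a j i * ((b' j : W) : κ → ℚ) k := by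
      have := congrArg (fun w : W => (w : κ → ℚ) k) hs
      simp only [Submodule.coe_sum, Finset.sum_apply, Submodule.coe_smul, Pi.smul_apply,
        smul_eq_mul] at this
      exact this.symm
    simp only [ratMat, Matrix.mul_apply, Matrix.map_apply, Matrix.transpose_apply]
    rw [hs', map_sum]
    simp
  have hdet : (b'.toMatrix a).transpose.det ≠ 0 := by
    rw [Matrix.det_transpose]
    have := b'.toMatrix_mul_toMatrix_flip a
    exact Matrix.det_ne_zero_of_right_inverse this
  rw [h2, wht_ratMat_mul_left 𝔳 _ hdet, h1, wht_submatrix_equiv]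

end Global

theorem subHt_eq_of_basis {ι κ : Type} [Fintype ι] [Fintype κ] (W : Submodule ℚ (κ → ℚ))
    (a : Module.Basis ι ℚ W) : subHt 𝔳 W = wht 𝔳 (ratMat fun i => ((a i : W) : κ → ℚ)) := by
  unfold subHt
  exact wht_ratMat_basis_eq 𝔳 W (Module.finBasis ℚ W) a

theorem subHt_bot {κ : Type} [Fintype κ] : subHt 𝔳 (⊥ : Submodule ℚ (κ → ℚ)) = 0 := by
  rw [subHt_eq_of_basis 𝔳 ⊥ (Module.Basis.empty (ι := Empty) _)]
  unfold wht
  simp [wnorm_of_isEmpty]

/-- The maximal minors of the identity matrix are `0` or `±1`. -/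
theorem av_det_one_submatrix_le {κ : Type*} [Fintype κ] [DecidableEq κ] (v : Pl) (K : κ → κ) :
    𝔳.av v (Matrix.det ((1 : Matrix κ κ Qb).submatrix id K)) ≤ 1 := by
  by_cases hK : Function.Injective K
  · have hb : Function.Bijective K := Finite.injective_iff_bijective.mp hK
    set σ : Equiv.Perm κ := Equiv.ofBijective K hb with hσ
    have : (1 : Matrix κ κ Qb).submatrix id K = ((1 : Matrix κ κ Qb).submatrix σ id).transpose := by
      ext i j
      simp [Matrix.one_apply, hσ, eq_comm]
    rw [this, Matrix.det_transpose, Matrix.det_permute, Matrix.det_one, mul_one]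
    rcases Int.units_eq_one_or (Equiv.Perm.sign σ) with h | h <;> simp [h]
  · rw [Function.Injective] at hK
    push Not at hK
    obtain ⟨i, j, hij, hne⟩ := hK
    rw [Matrix.det_zero_of_column_eq hne (fun k => by rw [Matrix.submatrix_apply, Matrix.submatrix_apply, hij]), map_zero]
    exact zero_le_one

theorem subHt_top {κ : Type} [Fintype κ] : subHt 𝔳 (⊤ : Submodule ℚ (κ → ℚ)) = 0 := by
  rw [subHt_eq_of_basis 𝔳 ⊤ ((Pi.basisFun ℚ κ).map (LinearEquiv.ofTop ⊤ rfl).symm)]
  have hX : (ratMat fun i => ((((Pi.basisFun ℚ κ).map (LinearEquiv.ofTop ⊤ rfl).symm) i :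
      (⊤ : Submodule ℚ (κ → ℚ))) : κ → ℚ)) = (1 : Matrix κ κ Qb) := by
    ext i k
    simp [ratMat, Matrix.one_apply, Pi.single_apply, eq_comm]
  rw [hX]
  unfold wht
  have h1 : ∀ v, wnorm 𝔳 v (1 : Matrix κ κ Qb) = 1 := fun v => by
    apply le_antisymm
    · exact wnorm_le 𝔳 v zero_le_one fun K => av_det_one_submatrix_le 𝔳 v K
    · have := le_wnorm 𝔳 v (1 : Matrix κ κ Qb) id
      simpa using this
  simp [h1]

end Fermat.Agent.S17.H
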