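import Fermat.Agent.S17.H.Abs

/-!
# S17, part H, task S17-H-LA1 (helper289): local linear algebra of maximal minors

`wnorm_reindex`, `wnorm_optMat_upper`, `wnorm_optMat_lower`, `wnorm_contraction`.
-/

set_option autoImplicit false

noncomputable section

open scoped Classical

namespace Fermat.Agent.S17.H

namespace Wnorm

/-! ### determinants indexed by `Option ι` -/

section Det

variable {R : Type*} [CommRing R] {ι : Type*} [Fintype ι] [DecidableEq ι]

/-- block triangular determinant for matrices indexed by `Option ι`. -/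
theorem det_option_of_row_zero [DecidableEq (Option ι)] (B : Matrix (Option ι) (Option ι) R)
    (h : ∀ j, B none (some j) = 0) :
    B.det = B none none * (Matrix.of fun i j => B (some i) (some j)).det := by
  let e : ι ⊕ PUnit.{1} ≃ Option ι := (Equiv.optionEquivSumPUnit ι).symm
  rw [← Matrix.det_submatrix_equiv_self e B, ← Matrix.fromBlocks_toBlocks (B.submatrix e e)]
  have h21 : (B.submatrix e e).toBlocks₂₁ = 0 := by
    ext a j
    exact h j
  rw [h21, Matrix.det_fromBlocks_zero₂₁, mul_comm]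
  congr 1
  rw [Matrix.det_unique]
  rfl

end Det

variable (𝔳 : AbsFam)

/-! ### sums -/

theorem ac_nonneg (v : Pl) (n : ℕ) : 0 ≤ ac v n := by
  cases v with
  | none => exact Nat.cast_nonneg n
  | some p => exact zero_le_one

theorem av_sum_le (v : Pl) {α : Type*} (s : Finset α) (f : α → Qb) (B : ℝ) (hB : 0 ≤ B)
    (h : ∀ a ∈ s, 𝔳.av v (f a) ≤ B) : 𝔳.av v (∑ a ∈ s, f a) ≤ ac v s.card * B := by
  cases v with
  | none =>
    calc 𝔳.av none (∑ a ∈ s, f a) ≤ ∑ a ∈ s, 𝔳.av none (f a) := (𝔳.av none).sum_le s f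
      _ ≤ s.card • B := Finset.sum_le_card_nsmul s _ B h
      _ = ac none s.card * B := by rw [nsmul_eq_mul]; rfl
  | some p =>
    have h1 : ac (some p) s.card * B = B := one_mul B
    rw [h1]
    clear h1
    induction s using Finset.induction_on with
    | empty => simpa using hB
    | insert a s ha ih =>
      rw [Finset.sum_insert ha]
      refine le_trans (𝔳.nonarch p _ _) (max_le (h a (Finset.mem_insert_self a s)) ?_)
      exact ih fun b hb => h b (Finset.mem_insert_of_mem hb)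

theorem av_units_int (v : Pl) (u : ℤˣ) : 𝔳.av v (((u : ℤ) : Qb)) = 1 := by
  rcases Int.units_eq_one_or u with rfl | rfl
  · simp
  · simp

/-! ### sup norms -/

theorem le_vnorm (v : Pl) {κ : Type*} [Finite κ] (x : κ → Qb) (k : κ) :
    𝔳.av v (x k) ≤ vnorm 𝔳 v x :=
  le_ciSup (f := fun k => 𝔳.av v (x k)) (Finite.bddAbove_range _) k

theorem vnorm_nonneg (v : Pl) {κ : Type*} (x : κ → Qb) : 0 ≤ vnorm 𝔳 v x :=
  Real.iSup_nonneg fun _ => (𝔳.av v).nonneg _

theorem le_wnorm (v : Pl) {ι κ : Type*} [Fintype ι] [DecidableEq ι] [Finite κ]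
    (X : Matrix ι κ Qb) (K : ι → κ) :
    𝔳.av v (Matrix.det (X.submatrix id K)) ≤ wnorm 𝔳 v X :=
  le_ciSup (f := fun K : ι → κ => 𝔳.av v (Matrix.det (X.submatrix id K)))
    (Finite.bddAbove_range _) K

theorem wnorm_nonneg (v : Pl) {ι κ : Type*} [Fintype ι] [DecidableEq ι] (X : Matrix ι κ Qb) :
    0 ≤ wnorm 𝔳 v X :=
  Real.iSup_nonneg fun _ => (𝔳.av v).nonneg _

/-! ### row operations -/

/-- the maximal minors of `optMat X x` do not change if a combination of the rows of `X` is
subtracted from `x`. -/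
theorem det_optMat_sub {ι κ : Type*} [Fintype ι] [DecidableEq (Option ι)]
    (X : Matrix ι κ Qb) (x : κ → Qb) (l : ι → Qb) (K : Option ι → κ) :
    Matrix.det ((optMat X (x - ∑ i, l i • X i)).submatrix id K) =
      Matrix.det ((optMat X x).submatrix id K) := by
  have h := Matrix.det_updateRow_sum ((optMat X x).submatrix id K) none
    (fun o => o.elim 1 (fun i => - l i))
  simp only [Option.elim_none, one_smul] at h
  rw [← h]
  congr 1
  ext o j
  cases o with
  | none =>
    rw [Matrix.updateRow_self, Fintype.sum_option]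
    simp only [Matrix.submatrix_apply, id_eq, optMat, Option.elim_none, Option.elim_some,
      Pi.sub_apply, Finset.sum_apply, Pi.smul_apply, smul_eq_mul, Pi.add_apply, one_smul]
    rw [sub_eq_add_neg, ← Finset.sum_neg_distrib]
    congr 1
    refine Finset.sum_congr rfl fun i _ => ?_
    simp
  | some i =>
    rw [Matrix.updateRow_ne (by simp)]
    rfl

/-- a cofactor of `optMat X x` along the new row is, up to sign, a maximal minor of `X`. -/
theorem av_det_updateRow_le (v : Pl) {ι κ : Type*} [Fintype ι] [DecidableEq ι]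
    [DecidableEq (Option ι)] [Finite κ] (X : Matrix ι κ Qb) (x : κ → Qb) (K : Option ι → κ)
    (o : Option ι) :
    𝔳.av v (Matrix.det (((optMat X x).submatrix id K).updateRow none (Pi.single o 1))) ≤
      wnorm 𝔳 v X := by
  set B := ((optMat X x).submatrix id K).updateRow none (Pi.single o (1 : Qb)) with hB
  let σ : Equiv.Perm (Option ι) := Equiv.swap none o
  have h1 := Matrix.det_permute' σ B
  have hσ : σ none = o := Equiv.swap_apply_left none o
  have h2 : (B.submatrix id σ).det =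
      Matrix.det (X.submatrix id (fun j => K (σ (some j)))) := by
    rw [det_option_of_row_zero (B.submatrix id σ)]
    · have h3 : (B.submatrix id σ) none none = 1 := by
        simp [hB, hσ]
      rw [h3, one_mul]
      congr 1
      ext i j
      simp [hB, optMat]
    · intro j
      have hne : σ (some j) ≠ o := by
        rw [← hσ]
        exact fun h => by simpa using σ.injective h
      simp [hB, hne]
  have h4 : 𝔳.av v B.det = 𝔳.av v (B.submatrix id σ).det := by
    rw [h1, map_mul, av_units_int, one_mul]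
  rw [h4, h2]
  exact le_wnorm 𝔳 v X _

end Wnorm

open Wnorm

variable (𝔳 : AbsFam)

/-- key local lemma: one can clear the coordinates of a maximal minor. -/
theorem wnorm_optMat_lower (v : Pl) {ι κ : Type} [Fintype ι] [Fintype κ]
    (X : Matrix ι κ Qb) (x : κ → Qb) :
    ∃ l : ι → Qb, wnorm 𝔳 v X * vnorm 𝔳 v (x - ∑ i, l i • X i) ≤ wnorm 𝔳 v (optMat X x) := by
  by_cases h0 : wnorm 𝔳 v X = 0
  · exact ⟨0, by rw [h0, zero_mul]; exact wnorm_nonneg 𝔳 v _⟩
  have hne : Nonempty (ι → κ) := by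
    by_contra hemp
    rw [not_nonempty_iff] at hemp
    exact h0 (Real.iSup_of_isEmpty _)
  obtain ⟨K0, hK0⟩ := exists_eq_ciSup_of_finite
    (f := fun K : ι → κ => 𝔳.av v (Matrix.det (X.submatrix id K)))
  have hK0' : 𝔳.av v (Matrix.det (X.submatrix id K0)) = wnorm 𝔳 v X := hK0
  set M : Matrix ι ι Qb := X.submatrix id K0 with hM
  have hdet : M.det ≠ 0 := by
    intro h
    rw [h, map_zero] at hK0'
    exact h0 hK0'.symm
  have hunit : IsUnit M.det := isUnit_iff_ne_zero.mpr hdet
  let l : ι → Qb := Matrix.vecMul (x ∘ K0) M⁻¹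
  have hl : Matrix.vecMul l M = x ∘ K0 := by
    rw [Matrix.vecMul_vecMul, Matrix.nonsing_inv_mul M hunit, Matrix.vecMul_one]
  refine ⟨l, ?_⟩
  set x' : κ → Qb := x - ∑ i, l i • X i with hx'
  have hx'0 : ∀ j, x' (K0 j) = 0 := by
    intro j
    have h1 := congrFun hl j
    simp only [Matrix.vecMul, dotProduct, Function.comp_apply, hM, Matrix.submatrix_apply,
      id_eq] at h1
    simp only [hx', Pi.sub_apply, Finset.sum_apply, Pi.smul_apply, smul_eq_mul]
    rw [h1, sub_self]
  rcases isEmpty_or_nonempty κ with hκ | hκ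
  · have : vnorm 𝔳 v x' = 0 := Real.iSup_of_isEmpty _
    rw [this, mul_zero]
    exact wnorm_nonneg 𝔳 v _
  obtain ⟨k, hk⟩ := exists_eq_ciSup_of_finite (f := fun k : κ => 𝔳.av v (x' k))
  have hk' : 𝔳.av v (x' k) = vnorm 𝔳 v x' := hk
  let K : Option ι → κ := fun o => o.elim k K0
  have h2 : Matrix.det ((optMat X x').submatrix id K) = x' k * M.det := by
    rw [det_option_of_row_zero]
    · rfl
    · intro j
      exact hx'0 j
  have h3 := le_wnorm 𝔳 v (optMat X x) K
  rw [← det_optMat_sub X x l K, h2, map_mul, hk', hK0', mul_comm] at h3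
  exact h3

theorem wnorm_optMat_upper (v : Pl) {ι κ : Type} [Fintype ι] [Fintype κ]
    (X : Matrix ι κ Qb) (x : κ → Qb) (l : ι → Qb) :
    wnorm 𝔳 v (optMat X x) ≤
      ac v (Fintype.card ι + 1) * (wnorm 𝔳 v X * vnorm 𝔳 v (x - ∑ i, l i • X i)) := by
  set x' : κ → Qb := x - ∑ i, l i • X i with hx'
  have hnn : 0 ≤ wnorm 𝔳 v X * vnorm 𝔳 v x' :=
    mul_nonneg (wnorm_nonneg 𝔳 v X) (vnorm_nonneg 𝔳 v x')
  refine Real.iSup_le (fun K => ?_) (mul_nonneg (ac_nonneg v _) hnn)
  rw [← det_optMat_sub X x l K, Matrix.det_eq_sum_mul_adjugate_row _ none]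
  have hcard : (Finset.univ : Finset (Option ι)).card = Fintype.card ι + 1 := by
    rw [Finset.card_univ, Fintype.card_option]
  rw [← hcard]
  refine av_sum_le 𝔳 v _ _ _ hnn fun o _ => ?_
  rw [map_mul, Matrix.adjugate_apply, mul_comm]
  refine mul_le_mul (av_det_updateRow_le 𝔳 v X x' K o) ?_ ((𝔳.av v).nonneg _)
    (wnorm_nonneg 𝔳 v X)
  exact le_vnorm 𝔳 v x' (K o)

/-- contraction lemma. -/
theorem wnorm_contraction (v : Pl) {ι κ : Type} [Fintype ι] [Fintype κ]
    (X : Matrix ι κ Qb) (x f : κ → Qb) (hf : ∀ i, ∑ k, f k * X i k = 0) :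
    𝔳.av v (∑ k, f k * x k) * wnorm 𝔳 v X ≤
      ac v (Fintype.card κ) * (vnorm 𝔳 v f * wnorm 𝔳 v (optMat X x)) := by
  obtain ⟨l, hl⟩ := wnorm_optMat_lower 𝔳 v X x
  set x' : κ → Qb := x - ∑ i, l i • X i with hx'
  have h1 : ∑ k, f k * x k = ∑ k, f k * x' k := by
    have h2 : ∑ k, f k * (∑ i, l i • X i) k = 0 := by
      simp only [Finset.sum_apply, Pi.smul_apply, smul_eq_mul, Finset.mul_sum]
      rw [Finset.sum_comm]
      refine Finset.sum_eq_zero fun i _ => ?_
      have h3 : ∑ k, f k * (l i * X i k) = l i * ∑ k, f k * X i k := by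
        rw [Finset.mul_sum]
        exact Finset.sum_congr rfl fun k _ => by ring
      rw [h3, hf i, mul_zero]
    simp only [hx', Pi.sub_apply, mul_sub, Finset.sum_sub_distrib]
    rw [h2, sub_zero]
  have h4 : 𝔳.av v (∑ k, f k * x' k) ≤
      ac v (Fintype.card κ) * (vnorm 𝔳 v f * vnorm 𝔳 v x') := by
    rw [← Finset.card_univ]
    refine av_sum_le 𝔳 v _ _ _ (mul_nonneg (vnorm_nonneg 𝔳 v f) (vnorm_nonneg 𝔳 v x'))
      fun k _ => ?_
    rw [map_mul]
    exact mul_le_mul (le_vnorm 𝔳 v f k) (le_vnorm 𝔳 v x' k) ((𝔳.av v).nonneg _)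
      (vnorm_nonneg 𝔳 v f)
  rw [h1]
  calc 𝔳.av v (∑ k, f k * x' k) * wnorm 𝔳 v X
      ≤ ac v (Fintype.card κ) * (vnorm 𝔳 v f * vnorm 𝔳 v x') * wnorm 𝔳 v X :=
        mul_le_mul_of_nonneg_right h4 (wnorm_nonneg 𝔳 v X)
    _ = ac v (Fintype.card κ) * (vnorm 𝔳 v f * (wnorm 𝔳 v X * vnorm 𝔳 v x')) := by ring
    _ ≤ ac v (Fintype.card κ) * (vnorm 𝔳 v f * wnorm 𝔳 v (optMat X x)) :=
        mul_le_mul_of_nonneg_left (mul_le_mul_of_nonneg_left hl (vnorm_nonneg 𝔳 v f))
          (ac_nonneg v _)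

theorem wnorm_reindex (v : Pl) {ι ι' κ : Type} [Fintype ι] [Fintype ι'] [Fintype κ]
    (e : ι' ≃ ι) (X : Matrix ι κ Qb) : wnorm 𝔳 v (X.submatrix e id) = wnorm 𝔳 v X := by
  refine Equiv.iSup_congr (Equiv.arrowCongr e (Equiv.refl κ)) fun K' => ?_
  congr 1
  rw [← Matrix.det_submatrix_equiv_self e]
  congr 1
  ext i j
  simp [Equiv.arrowCongr]

end Fermat.Agent.S17.H
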