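import Mathlib
import Fermat.Agent.S17.H.Abs
import Fermat.Agent.S17.Tools.MinorsRank
import Fermat.Agent.S17.H.AbsBasic
import Fermat.Agent.S17.H.Wnorm
import Fermat.Agent.S17.H.Bilin
import Fermat.Agent.S17.H.SubHt

/-!
# S17, part H, node LA4 = (P1): multiplication by `s` changes the height of a subspace by
`dim * h(s) + O(1)`
-/

set_option autoImplicit false

noncomputable section

open scoped Classical

namespace Fermat.Agent.S17.H

variable (𝔳 : AbsFam)

/-! ### basic facts -/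

private theorem shm_vnorm_nonneg (v : Pl) {ι : Type} (x : ι → Qb) : 0 ≤ vnorm 𝔳 v x :=
  Real.iSup_nonneg fun _ => (𝔳.av v).nonneg _

private theorem shm_wnorm_nonneg (v : Pl) {ι κ : Type} [Fintype ι] [DecidableEq ι]
    (X : Matrix ι κ Qb) : 0 ≤ wnorm 𝔳 v X :=
  Real.iSup_nonneg fun _ => (𝔳.av v).nonneg _

private theorem shm_ac_nonneg (v : Pl) (n : ℕ) : 0 ≤ ac v n := by
  cases v with
  | none => exact Nat.cast_nonneg n
  | some p => exact zero_le_one

private theorem shm_ac_pos (v : Pl) {n : ℕ} (hn : 0 < n) : 0 < ac v n := by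
  cases v with
  | none => exact Nat.cast_pos.2 hn
  | some p => exact zero_lt_one

private theorem shm_ac_mul (v : Pl) (m n : ℕ) : ac v m * ac v n = ac v (m * n) := by
  cases v with
  | none => exact (Nat.cast_mul m n).symm
  | some p => exact one_mul 1

private theorem shm_ac_mono (v : Pl) {m n : ℕ} (h : m ≤ n) : ac v m ≤ ac v n := by
  cases v with
  | none => exact Nat.cast_le.2 h
  | some p => exact le_rfl

private theorem shm_ac_some (p : Nat.Primes) (n : ℕ) : ac (some p) n = 1 := rfl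

/-- the sup of finitely many absolute values is `0` or `1` at almost all places -/
private theorem shm_finite_support_log_iSup {J : Type} [Finite J] (z : J → Qb) :
    (Function.support fun v => Real.log (⨆ j, 𝔳.av v (z j))).Finite := by
  have hF : (⋃ j : {j // z j ≠ 0}, {v | 𝔳.av v (z j) ≠ 1}).Finite :=
    Set.finite_iUnion fun j => finite_av_ne_one 𝔳 j.2
  refine hF.subset fun v hv => ?_
  by_contra hcon
  apply hv
  simp only [Set.mem_iUnion, not_exists, Set.mem_ofPred_eq, not_not] at hcon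
  by_cases h0 : ∀ j, z j = 0
  · have : (⨆ j, 𝔳.av v (z j)) = 0 := by simp [h0]
    simp only [this, Real.log_zero]
  · push Not at h0
    obtain ⟨j0, hj0⟩ := h0
    have : (⨆ j, 𝔳.av v (z j)) = 1 := by
      have : Nonempty J := ⟨j0⟩
      apply le_antisymm
      · refine ciSup_le fun j => ?_
        by_cases hj : z j = 0
        · simp [hj]
        · exact (hcon ⟨j, hj⟩).le
      · rw [← hcon ⟨j0, hj0⟩]
        exact le_ciSup (Set.finite_range fun j => 𝔳.av v (z j)).bddAbove j0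
    simp only [this, Real.log_one]

private theorem shm_finite_support_vnorm {ι : Type} [Finite ι] (x : ι → Qb) :
    (Function.support fun v => Real.log (vnorm 𝔳 v x)).Finite :=
  shm_finite_support_log_iSup 𝔳 x

private theorem shm_finite_support_wnorm {ι κ : Type} [Fintype ι] [DecidableEq ι] [Finite κ]
    (X : Matrix ι κ Qb) : (Function.support fun v => Real.log (wnorm 𝔳 v X)).Finite :=
  shm_finite_support_log_iSup 𝔳 fun K : ι → κ => Matrix.det (X.submatrix id K)

private theorem shm_vnorm_pos (v : Pl) {ι : Type} [Finite ι] {x : ι → Qb} (hx : x ≠ 0) :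
    0 < vnorm 𝔳 v x := by
  obtain ⟨i, hi⟩ : ∃ i, x i ≠ 0 := by
    by_contra hcon
    push Not at hcon
    exact hx (funext hcon)
  exact lt_of_lt_of_le ((𝔳.av v).pos hi)
    (le_ciSup (Set.finite_range fun i => 𝔳.av v (x i)).bddAbove i)

private theorem shm_wnorm_pos (v : Pl) {ι κ : Type} [Fintype ι] [DecidableEq ι] [Finite κ]
    (X : Matrix ι κ Qb) (K : ι → κ) (hK : Matrix.det (X.submatrix id K) ≠ 0) :
    0 < wnorm 𝔳 v X :=
  lt_of_lt_of_le ((𝔳.av v).pos hK)
    (le_ciSup (Set.finite_range fun K : ι → κ =>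
      𝔳.av v (Matrix.det (X.submatrix id K))).bddAbove K)

/-! ### instance-generic versions of the lemmas on `wnorm` -/

private theorem shm_reindex (v : Pl) {ι ι' κ : Type} [Fintype ι] [DecidableEq ι] [Fintype ι']
    [DecidableEq ι'] (e : ι' ≃ ι) (X : Matrix ι κ Qb) :
    wnorm 𝔳 v (X.submatrix e id) = wnorm 𝔳 v X := by
  unfold wnorm
  refine Equiv.iSup_congr (Equiv.arrowCongr e (Equiv.refl κ)) fun K => ?_
  congr 1
  have : (X.submatrix e id).submatrix id K =
      (X.submatrix id (Equiv.arrowCongr e (Equiv.refl κ) K)).submatrix e e := by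
    ext i j
    simp [Equiv.arrowCongr]
  rw [this, Matrix.det_submatrix_equiv_self]

private theorem shm_optMat_lower (v : Pl) {ι κ : Type} [Fintype ι] [DecidableEq ι]
    [DecidableEq (Option ι)] [Fintype κ] (X : Matrix ι κ Qb) (x : κ → Qb) :
    ∃ l : ι → Qb, wnorm 𝔳 v X * vnorm 𝔳 v (x - ∑ i, l i • X i) ≤ wnorm 𝔳 v (optMat X x) := by
  convert wnorm_optMat_lower 𝔳 v X x

private theorem shm_optMat_upper (v : Pl) {ι κ : Type} [Fintype ι] [DecidableEq ι]
    [DecidableEq (Option ι)] [Fintype κ] (X : Matrix ι κ Qb) (x : κ → Qb) (l : ι → Qb) :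
    wnorm 𝔳 v (optMat X x) ≤
      ac v (Fintype.card ι + 1) * (wnorm 𝔳 v X * vnorm 𝔳 v (x - ∑ i, l i • X i)) := by
  convert wnorm_optMat_upper 𝔳 v X x l

/-! ### the local lemma -/

private theorem shm_wnorm_zero_rows (v : Pl) {κ : Type} (Y : Matrix (Fin 0) κ Qb) :
    wnorm 𝔳 v Y = 1 := by
  unfold wnorm
  simp

private theorem shm_submatrix_succ {κ : Type} {w : ℕ} (Y : Matrix (Fin (w + 1)) κ Qb) :
    Y.submatrix (finSuccEquiv w).symm id = optMat (fun i : Fin w => Y i.succ) (Y 0) := by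
  funext o
  cases o with
  | none => rfl
  | some i => rfl

private theorem shm_wnorm_succ (v : Pl) {κ : Type} {w : ℕ} (Y : Matrix (Fin (w + 1)) κ Qb) :
    wnorm 𝔳 v Y = wnorm 𝔳 v (optMat (fun i : Fin w => Y i.succ) (Y 0)) := by
  rw [← shm_submatrix_succ, shm_reindex]

/-- apply a linear map to the rows of a matrix -/
private def shmRows {ι κ κ' : Type} (T : (κ → Qb) →ₗ[Qb] (κ' → Qb)) (Y : Matrix ι κ Qb) :
    Matrix ι κ' Qb := fun i => T (Y i)

/-- the rows but the first -/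
private def shmTail {κ : Type} {w : ℕ} (Y : Matrix (Fin (w + 1)) κ Qb) : Matrix (Fin w) κ Qb :=
  fun i => Y i.succ

private theorem shm_local (v : Pl) {κ κ' : Type} [Fintype κ] [Fintype κ']
    (T : (κ → Qb) →ₗ[Qb] (κ' → Qb)) (τ τ' : ℝ) (hτ : 0 ≤ τ) (hτ' : 0 ≤ τ')
    (hl : ∀ x, τ * vnorm 𝔳 v x ≤ vnorm 𝔳 v (T x))
    (hu : ∀ x, vnorm 𝔳 v (T x) ≤ τ' * vnorm 𝔳 v x) :
    ∀ (w : ℕ) (Y : Matrix (Fin w) κ Qb),
      τ ^ w * wnorm 𝔳 v Y ≤ ac v w.factorial * wnorm 𝔳 v (shmRows T Y) ∧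
      wnorm 𝔳 v (shmRows T Y) ≤ ac v w.factorial * τ' ^ w * wnorm 𝔳 v Y := by
  intro w
  induction w with
  | zero =>
    intro Y
    rw [shm_wnorm_zero_rows, shm_wnorm_zero_rows]
    have h1 : ac v (Nat.factorial 0) = 1 := by
      cases v with
      | none => simp [ac]
      | some p => rfl
    rw [h1]
    simp
  | succ w ih =>
    intro Y
    obtain ⟨X, hX⟩ : ∃ X : Matrix (Fin w) κ Qb, X = shmTail Y := ⟨_, rfl⟩
    obtain ⟨x, hx⟩ : ∃ x : κ → Qb, x = Y 0 := ⟨_, rfl⟩
    have hY : wnorm 𝔳 v Y = wnorm 𝔳 v (optMat X x) := by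
      rw [hX, hx]
      exact shm_wnorm_succ 𝔳 v Y
    have hTY : wnorm 𝔳 v (shmRows T Y) = wnorm 𝔳 v (optMat (shmRows T X) (T x)) := by
      rw [hX, hx]
      exact shm_wnorm_succ 𝔳 v (shmRows T Y)
    have hT : ∀ l : Fin w → Qb,
        T x - ∑ i, l i • (shmRows T X) i = T (x - ∑ i, l i • X i) := by
      intro l
      rw [map_sub, map_sum]
      simp only [map_smul]
      rfl
    have hac : ac v (w + 1) * ac v w.factorial = ac v (w + 1).factorial := by
      rw [shm_ac_mul, Nat.factorial_succ]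
    obtain ⟨ihl, ihu⟩ := ih X
    rw [hY, hTY, ← hac]
    have hcard : Fintype.card (Fin w) + 1 = w + 1 := by simp
    constructor
    · obtain ⟨l, hl1⟩ := shm_optMat_lower 𝔳 v (shmRows T X) (T x)
      have hu1 := shm_optMat_upper 𝔳 v X x l
      rw [hT l] at hl1
      rw [hcard] at hu1
      obtain ⟨x', hx'⟩ : ∃ x' : κ → Qb, x' = x - ∑ i, l i • X i := ⟨_, rfl⟩
      rw [← hx'] at hl1 hu1
      have h1 := hl x'
      calc τ ^ (w + 1) * wnorm 𝔳 v (optMat X x)
          ≤ τ ^ (w + 1) * (ac v (w + 1) * (wnorm 𝔳 v X * vnorm 𝔳 v x')) :=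
            mul_le_mul_of_nonneg_left hu1 (pow_nonneg hτ _)
        _ = ac v (w + 1) * ((τ ^ w * wnorm 𝔳 v X) * (τ * vnorm 𝔳 v x')) := by ring
        _ ≤ ac v (w + 1) *
              ((ac v w.factorial * wnorm 𝔳 v (shmRows T X)) * vnorm 𝔳 v (T x')) := by
            refine mul_le_mul_of_nonneg_left ?_ (shm_ac_nonneg v _)
            exact mul_le_mul ihl h1 (mul_nonneg hτ (shm_vnorm_nonneg 𝔳 v _))
              (mul_nonneg (shm_ac_nonneg v _) (shm_wnorm_nonneg 𝔳 v _))
        _ = ac v (w + 1) * ac v w.factorial *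
              (wnorm 𝔳 v (shmRows T X) * vnorm 𝔳 v (T x')) := by ring
        _ ≤ ac v (w + 1) * ac v w.factorial * wnorm 𝔳 v (optMat (shmRows T X) (T x)) :=
            mul_le_mul_of_nonneg_left hl1
              (mul_nonneg (shm_ac_nonneg v _) (shm_ac_nonneg v _))
    · obtain ⟨l, hl1⟩ := shm_optMat_lower 𝔳 v X x
      have hu1 := shm_optMat_upper 𝔳 v (shmRows T X) (T x) l
      rw [hT l, hcard] at hu1
      obtain ⟨x', hx'⟩ : ∃ x' : κ → Qb, x' = x - ∑ i, l i • X i := ⟨_, rfl⟩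
      rw [← hx'] at hl1 hu1
      have h1 := hu x'
      calc wnorm 𝔳 v (optMat (shmRows T X) (T x))
          ≤ ac v (w + 1) * (wnorm 𝔳 v (shmRows T X) * vnorm 𝔳 v (T x')) := hu1
        _ ≤ ac v (w + 1) * ((ac v w.factorial * τ' ^ w * wnorm 𝔳 v X) * (τ' * vnorm 𝔳 v x')) := by
            refine mul_le_mul_of_nonneg_left ?_ (shm_ac_nonneg v _)
            exact mul_le_mul ihu h1 (shm_vnorm_nonneg 𝔳 v _)
              (mul_nonneg (mul_nonneg (shm_ac_nonneg v _) (pow_nonneg hτ' _))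
                (shm_wnorm_nonneg 𝔳 v _))
        _ = ac v (w + 1) * ac v w.factorial * τ' ^ (w + 1) *
              (wnorm 𝔳 v X * vnorm 𝔳 v x') := by ring
        _ ≤ ac v (w + 1) * ac v w.factorial * τ' ^ (w + 1) * wnorm 𝔳 v (optMat X x) :=
            mul_le_mul_of_nonneg_left hl1
              (mul_nonneg (mul_nonneg (shm_ac_nonneg v _) (shm_ac_nonneg v _))
                (pow_nonneg hτ' _))

/-! ### the bilinear map attached to the structure constants -/

private def shmB {α κ κ' : Type} [Fintype α] [Fintype κ] (c : α → κ → κ' → ℚ) :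
    (α → Qb) →ₗ[Qb] (κ → Qb) →ₗ[Qb] (κ' → Qb) :=
  LinearMap.mk₂ Qb (fun x y k' => ∑ a, ∑ k, algebraMap ℚ Qb (c a k k') * x a * y k)
    (fun x x' y => by
      funext k'
      simp [mul_add, add_mul, Finset.sum_add_distrib])
    (fun r x y => by
      funext k'
      simp only [Pi.smul_apply, smul_eq_mul, Finset.mul_sum]
      refine Finset.sum_congr rfl fun a _ => Finset.sum_congr rfl fun k _ => ?_
      ring)
    (fun x y y' => by
      funext k'
      simp [mul_add, Finset.sum_add_distrib])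
    (fun r x y => by
      funext k'
      simp only [Pi.smul_apply, smul_eq_mul, Finset.mul_sum]
      refine Finset.sum_congr rfl fun a _ => Finset.sum_congr rfl fun k _ => ?_
      ring)

private theorem shmB_apply {α κ κ' : Type} [Fintype α] [Fintype κ] (c : α → κ → κ' → ℚ)
    (x : α → Qb) (y : κ → Qb) (k' : κ') :
    shmB c x y k' = ∑ a, ∑ k, algebraMap ℚ Qb (c a k k') * x a * y k := rfl

private theorem shm_ratVec_mulMap {α κ κ' : Type} [Fintype α] [Fintype κ] (c : α → κ → κ' → ℚ)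
    (s : α → ℚ) (y : κ → ℚ) : ratVec (mulMap c s y) = shmB c (ratVec s) (ratVec y) := by
  funext k'
  rw [shmB_apply]
  simp [ratVec, mulMap, map_sum, map_mul]

private theorem shm_ratVec_eq_zero {κ : Type} {a : κ → ℚ} (h : ratVec a = 0) : a = 0 := by
  funext k
  have := congrFun h k
  simpa [ratVec] using this

private theorem shm_mulMap_injective {α κ κ' : Type} [Fintype α] [Fintype κ]
    (c : α → κ → κ' → ℚ)
    (hnzd : ∀ (x : α → Qb) (y : κ → Qb),
      (∀ k', ∑ a, ∑ k, algebraMap ℚ Qb (c a k k') * x a * y k = 0) → x = 0 ∨ y = 0)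
    {s : α → ℚ} (hs : s ≠ 0) : Function.Injective (mulMap c s) := by
  rw [← LinearMap.ker_eq_bot, LinearMap.ker_eq_bot']
  intro y hy
  have h1 : shmB c (ratVec s) (ratVec y) = 0 := by
    rw [← shm_ratVec_mulMap, hy]
    funext k'
    simp [ratVec]
  rcases hnzd _ _ (fun k' => congrFun h1 k') with h | h
  · exact absurd (shm_ratVec_eq_zero h) hs
  · exact shm_ratVec_eq_zero h

/-- a rational matrix with independent rows has a nonzero maximal minor -/
private theorem shm_exists_minor {κ : Type} [Fintype κ] {w : ℕ} (a : Fin w → κ → ℚ)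
    (ha : LinearIndependent ℚ a) :
    ∃ K : Fin w → κ, Matrix.det ((ratMat a).submatrix id K) ≠ 0 := by
  let e : κ ≃ Fin (Fintype.card κ) := Fintype.equivFin κ
  let A : Matrix (Fin w) (Fin (Fintype.card κ)) ℚ := Matrix.of fun i j => a i (e.symm j)
  have hA : LinearIndependent ℚ A.row := by
    have h1 : A.row = (LinearMap.funLeft ℚ ℚ e.symm) ∘ a := by
      funext i j
      rfl
    rw [h1]
    refine ha.map' _ (LinearMap.ker_eq_bot.2 ?_)
    exact LinearMap.funLeft_injective_of_surjective ℚ ℚ _ e.symm.surjective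
  have h2 := (Fermat.Agent.S17.minors_ne_zero_iff A).2 hA
  obtain ⟨S, hS⟩ : ∃ S, Fermat.Agent.S17.minors A S ≠ 0 := by
    by_contra hcon
    push Not at hcon
    exact h2 (funext hcon)
  refine ⟨fun i => e.symm (S i), ?_⟩
  have h3 : (ratMat a).submatrix id (fun i => e.symm (S i)) =
      (algebraMap ℚ Qb).mapMatrix (A.submatrix id S) := by
    ext i j
    rfl
  rw [h3, ← RingHom.map_det]
  exact (map_ne_zero _).2 hS

/-! ### the local estimate in logarithmic form -/

private theorem shm_log_local (v : Pl) {κ κ' : Type} [Fintype κ] [Fintype κ']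
    (T : (κ → Qb) →ₗ[Qb] (κ' → Qb)) (g g' ν : ℝ) (hg : 0 ≤ g) (hg' : 0 ≤ g') (hν : 0 < ν)
    (hl : ∀ x, ν * vnorm 𝔳 v x ≤ Real.exp g * vnorm 𝔳 v (T x))
    (hu : ∀ x, vnorm 𝔳 v (T x) ≤ Real.exp g' * (ν * vnorm 𝔳 v x))
    (n w : ℕ) (hwn : w ≤ n) (Y : Matrix (Fin w) κ Qb) (hY : 0 < wnorm 𝔳 v Y) :
    |Real.log (wnorm 𝔳 v (shmRows T Y)) - Real.log (wnorm 𝔳 v Y) - w * Real.log ν| ≤
      n * (g + g') + Real.log (ac v n.factorial) := by
  have hτ : 0 < Real.exp (-g) * ν := mul_pos (Real.exp_pos _) hν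
  have hτ' : 0 < Real.exp g' * ν := mul_pos (Real.exp_pos _) hν
  obtain ⟨hL, hU⟩ := shm_local 𝔳 v T (Real.exp (-g) * ν) (Real.exp g' * ν) hτ.le hτ'.le
    (fun x => by
      have h1 := mul_le_mul_of_nonneg_left (hl x) (Real.exp_pos (-g)).le
      rw [← mul_assoc, ← mul_assoc, ← Real.exp_add, neg_add_cancel, Real.exp_zero, one_mul] at h1
      exact h1)
    (fun x => by rw [mul_assoc]; exact hu x) w Y
  have hacw : 0 < ac v w.factorial := shm_ac_pos v (Nat.factorial_pos w)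
  have hTY : 0 < wnorm 𝔳 v (shmRows T Y) := by
    have h1 : 0 < ac v w.factorial * wnorm 𝔳 v (shmRows T Y) :=
      lt_of_lt_of_le (mul_pos (pow_pos hτ w) hY) hL
    exact (pos_iff_pos_of_mul_pos h1).1 hacw
  have hlogac : Real.log (ac v w.factorial) ≤ Real.log (ac v n.factorial) :=
    Real.log_le_log hacw (shm_ac_mono v (Nat.factorial_le hwn))
  have hL' := Real.log_le_log (mul_pos (pow_pos hτ w) hY) hL
  have hU' := Real.log_le_log hTY hU
  rw [Real.log_mul (pow_pos hτ w).ne' hY.ne', Real.log_mul hacw.ne' hTY.ne', Real.log_pow,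
    Real.log_mul (Real.exp_pos _).ne' hν.ne', Real.log_exp] at hL'
  rw [Real.log_mul (mul_pos hacw (pow_pos hτ' w)).ne' hY.ne',
    Real.log_mul hacw.ne' (pow_pos hτ' w).ne', Real.log_pow,
    Real.log_mul (Real.exp_pos _).ne' hν.ne', Real.log_exp] at hU'
  have hwn' : (w : ℝ) ≤ n := Nat.cast_le.2 hwn
  have h1 : (w : ℝ) * g ≤ n * g := mul_le_mul_of_nonneg_right hwn' hg
  have h2 : (w : ℝ) * g' ≤ n * g' := mul_le_mul_of_nonneg_right hwn' hg'
  have h3 : 0 ≤ (n : ℝ) * g := mul_nonneg (Nat.cast_nonneg n) hg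
  have h4 : 0 ≤ (n : ℝ) * g' := mul_nonneg (Nat.cast_nonneg n) hg'
  rw [abs_le]
  constructor <;> nlinarith

/-! ### the theorem -/

/-- (P1), abstract form. -/
theorem subHt_map {α κ κ' : Type} [Fintype α] [Fintype κ] [Fintype κ'] (c : α → κ → κ' → ℚ)
    (hnzd : ∀ (x : α → Qb) (y : κ → Qb),
      (∀ k', ∑ a, ∑ k, algebraMap ℚ Qb (c a k k') * x a * y k = 0) → x = 0 ∨ y = 0) :
    ∃ Cst : ℝ, ∀ s : α → ℚ, s ≠ 0 → ∀ W : Submodule ℚ (κ → ℚ),
      |subHt 𝔳 (W.map (mulMap c s)) - subHt 𝔳 W - Module.finrank ℚ W * ht 𝔳 (ratVec s)| ≤ Cst := by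
  obtain ⟨γ, hγ⟩ := bilin_lower 𝔳 (shmB c) (fun x y h => hnzd x y fun k' => congrFun h k')
  obtain ⟨γ', hγ'⟩ := bilin_upper 𝔳 (shmB c)
  obtain ⟨n, hn⟩ : ∃ n : ℕ, n = Fintype.card κ := ⟨_, rfl⟩
  obtain ⟨b, hb⟩ : ∃ b : Pl → ℝ,
      b = fun v => n * (γ.c v + γ'.c v) + Real.log (ac v n.factorial) := ⟨_, rfl⟩
  have hbfin : (Function.support b).Finite := by
    refine ((γ.fin.union γ'.fin).union (Set.finite_singleton none)).subset fun v hv => ?_
    by_contra hcon
    simp only [Set.mem_union, Function.mem_support, Set.mem_singleton_iff, not_or, not_not]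
      at hcon
    obtain ⟨⟨h1, h2⟩, h3⟩ := hcon
    apply hv
    obtain ⟨p, rfl⟩ := Option.ne_none_iff_exists'.1 h3
    rw [hb]
    simp only [h1, h2, shm_ac_some, Real.log_one, add_zero, mul_zero]
  refine ⟨∑ᶠ v, b v, fun s hs W => ?_⟩
  have hinj := shm_mulMap_injective c hnzd hs
  obtain ⟨w, hw⟩ : ∃ w : ℕ, w = Module.finrank ℚ W := ⟨_, rfl⟩
  have hwn : w ≤ n := by
    rw [hw, hn, ← Module.finrank_fintype_fun_eq_card ℚ]
    exact Submodule.finrank_le W
  obtain ⟨a, -⟩ : ∃ a : Module.Basis (Fin w) ℚ W, True :=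
    ⟨(Module.finBasis ℚ W).reindex (finCongr hw.symm), trivial⟩
  obtain ⟨Y, hYdef⟩ : ∃ Y : Matrix (Fin w) κ Qb,
      Y = ratMat fun i => ((a i : W) : κ → ℚ) := ⟨_, rfl⟩
  obtain ⟨T, hT⟩ : ∃ T : (κ → Qb) →ₗ[Qb] (κ' → Qb), T = shmB c (ratVec s) := ⟨_, rfl⟩
  have h1 : subHt 𝔳 W = wht 𝔳 Y := by
    rw [hYdef]
    convert subHt_eq_of_basis 𝔳 W a
  have h2 : subHt 𝔳 (W.map (mulMap c s)) = wht 𝔳 (shmRows T Y) := by
    have h3 : shmRows T Y = ratMat fun i =>
        (((a.map (Submodule.equivMapOfInjective _ hinj W)) i : W.map (mulMap c s)) : κ' → ℚ) := by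
      funext i
      change T (Y i) = ratVec (mulMap c s ((a i : W) : κ → ℚ))
      rw [shm_ratVec_mulMap, hT, hYdef]
      rfl
    rw [h3]
    convert subHt_eq_of_basis 𝔳 (W.map (mulMap c s))
      (a.map (Submodule.equivMapOfInjective _ hinj W))
  have hs' : ratVec s ≠ 0 := fun h => hs (shm_ratVec_eq_zero h)
  have hYpos : ∀ v, 0 < wnorm 𝔳 v Y := by
    intro v
    have hli : LinearIndependent ℚ fun i => ((a i : W) : κ → ℚ) :=
      a.linearIndependent.map' W.subtype (Submodule.ker_subtype W)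
    obtain ⟨K, hK⟩ := shm_exists_minor _ hli
    rw [hYdef]
    exact shm_wnorm_pos 𝔳 v _ K hK
  have hloc : ∀ v, |Real.log (wnorm 𝔳 v (shmRows T Y)) - Real.log (wnorm 𝔳 v Y) -
      w * Real.log (vnorm 𝔳 v (ratVec s))| ≤ b v := by
    intro v
    rw [hb]
    refine shm_log_local 𝔳 v T (γ.c v) (γ'.c v) _ (γ.nonneg v) (γ'.nonneg v)
      (shm_vnorm_pos 𝔳 v hs') (fun x => ?_) (fun x => ?_) n w hwn Y (hYpos v)
    · rw [hT]
      exact hγ v (ratVec s) x
    · rw [hT]
      exact hγ' v (ratVec s) x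
  -- a common finite support
  have hf1 := shm_finite_support_wnorm 𝔳 (shmRows T Y)
  have hf2 := shm_finite_support_wnorm 𝔳 Y
  have hf3 := shm_finite_support_vnorm 𝔳 (ratVec s)
  obtain ⟨F, hF⟩ : ∃ F : Finset Pl, ∀ v, v ∈ F ↔
      v ∈ ((Function.support fun v => Real.log (wnorm 𝔳 v (shmRows T Y))) ∪
        (Function.support fun v => Real.log (wnorm 𝔳 v Y)) ∪
        (Function.support fun v => Real.log (vnorm 𝔳 v (ratVec s))) ∪ Function.support b) :=
    ⟨(((hf1.union hf2).union hf3).union hbfin).toFinset, fun v => Set.Finite.mem_toFinset _⟩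
  have e1 : wht 𝔳 (shmRows T Y) = ∑ v ∈ F, Real.log (wnorm 𝔳 v (shmRows T Y)) :=
    finsum_eq_sum_of_support_subset _ fun v hv =>
      (hF v).2 (Or.inl (Or.inl (Or.inl hv)))
  have e2 : wht 𝔳 Y = ∑ v ∈ F, Real.log (wnorm 𝔳 v Y) :=
    finsum_eq_sum_of_support_subset _ fun v hv =>
      (hF v).2 (Or.inl (Or.inl (Or.inr hv)))
  have e3 : ht 𝔳 (ratVec s) = ∑ v ∈ F, Real.log (vnorm 𝔳 v (ratVec s)) :=
    finsum_eq_sum_of_support_subset _ fun v hv =>
      (hF v).2 (Or.inl (Or.inr hv))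
  have e4 : ∑ᶠ v, b v = ∑ v ∈ F, b v :=
    finsum_eq_sum_of_support_subset _ fun v hv => (hF v).2 (Or.inr hv)
  rw [h1, h2, ← hw, e1, e2, e3, e4, Finset.mul_sum, ← Finset.sum_sub_distrib,
    ← Finset.sum_sub_distrib]
  exact (Finset.abs_sum_le_sum_abs _ _).trans (Finset.sum_le_sum fun v _ => hloc v)

end Fermat.Agent.S17.H
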