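import Fermat.Agent.S17.H.ClassInv.Coord
import Fermat.Agent.S17.H.ClassInv.SolSp
import Fermat.Agent.S17.H.ClassInv.MulConst
import Fermat.Agent.S17.H.ClassInv.Image
import Fermat.Agent.S17.H.ClassInv.HtDiff
import Fermat.Agent.S17.H.ClassInv.Reduce
import Fermat.Agent.S17.H.SubHtMap

/-! # S17/H, node (G3): class invariance of `Θ` (assembly of CI-1 ... CI-7, helper129)

`Θ_w(E) = Φ_n(E) - w hE(E)`-type quantity, `n = e + g + w - 1`: for a linear equivalence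
`s' I(E) = s I(E')` with rational multipliers the multiplication maps by `s'` and `s` send the two
solution spaces onto the same subspace; `subHt_map` compares the heights. -/

set_option autoImplicit false

noncomputable section

open scoped Classical

namespace Fermat.Agent.S17.H

open Fermat.Agent.S17.H.CI Polynomial

variable (𝔳 : AbsFam) {A : Type} [CommRing A] [Algebra Qb A] (C : WCurve A)

theorem Theta_class_invariant [IsDedekindDomain A] (w : ℕ) (hw : C.g + 1 ≤ w) (emax : ℕ) :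
    ∃ Cst : ℝ, ∀ E E' : Finset (Pt A), C.GalStable E → C.GalStable E' → E.card ≤ emax →
      E'.card ≤ emax → ∀ s s' : A, C.IsRat s → C.IsRat s' → s ≠ 0 → s' ≠ 0 →
      Ideal.span {s'} * idealOf E = Ideal.span {s} * idealOf E' →
      |C.Theta 𝔳 w E - C.Theta 𝔳 w E'| ≤ Cst := by
  obtain ⟨μ, hμ⟩ : ∃ μ, μ = emax + 2 * C.g := ⟨_, rfl⟩
  obtain ⟨nmax, hnmax⟩ : ∃ nmax, nmax = emax + C.g + w - 1 := ⟨_, rfl⟩
  obtain ⟨M, hM⟩ : ∃ M, M = μ + nmax := ⟨_, rfl⟩
  -- the constants of `subHt_map`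
  have hmap : ∀ n, n ≤ nmax → ∃ Cst : ℝ, ∀ s : Fin (C.dim μ) → ℚ, s ≠ 0 →
      ∀ W : Submodule ℚ (Fin (C.dim n) → ℚ),
      |subHt 𝔳 (W.map (mulMap (sc C μ n M) s)) - subHt 𝔳 W
        - Module.finrank ℚ W * ht 𝔳 (ratVec s)| ≤ Cst := fun n hn =>
    subHt_map 𝔳 (sc C μ n M) (fun x y h => sc_nzd C (by omega) x y h)
  choose! K hK using hmap
  obtain ⟨Kd, hKd⟩ := ht_sub_ht 𝔳 C μ emax
  have hKle : ∀ n, n ≤ nmax → K n ≤ ∑ n ∈ Finset.range (nmax + 1), |K n| := by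
    intro n hn
    refine (le_abs_self _).trans ?_
    exact Finset.single_le_sum (f := fun n => |K n|) (fun i _ => abs_nonneg _)
      (Finset.mem_range.mpr (by omega))
  refine ⟨2 * (∑ n ∈ Finset.range (nmax + 1), |K n|) + w * Kd, ?_⟩
  intro E E' hE hE' he he' s s' hs hs' hs0 hs0' h
  obtain ⟨s₁, s₁', r₁, r₁', z₁, z₁', v₁, v₁', h₁⟩ :=
    exists_bounded_equiv C hE hE' hs hs' hs0 hs0' h
  have v₁μ : s₁ ∈ C.V μ :=
    (mem_V_iff C μ s₁).mpr (le_trans ((mem_V_iff C _ s₁).mp v₁) (by omega))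
  have v₁μ' : s₁' ∈ C.V μ :=
    (mem_V_iff C μ s₁').mpr (le_trans ((mem_V_iff C _ s₁').mp v₁') (by omega))
  obtain ⟨σ, hσ⟩ := exists_toA_eq C r₁ v₁μ
  obtain ⟨σ', hσ'⟩ := exists_toA_eq C r₁' v₁μ'
  have hσ0 : σ ≠ 0 := by
    rintro rfl
    exact z₁ (by rw [← hσ, toA_zero])
  have hσ0' : σ' ≠ 0 := by
    rintro rfl
    exact z₁' (by rw [← hσ', toA_zero])
  obtain ⟨n, hn⟩ : ∃ n, n = E.card + C.g + w - 1 := ⟨_, rfl⟩
  obtain ⟨n', hn'⟩ : ∃ n', n' = E'.card + C.g + w - 1 := ⟨_, rfl⟩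
  have himg := map_solSp_eq C (E := E) (E' := E') (μ := μ) (n := n) (n' := n') (M := M)
    (by omega) (by omega) (by omega) σ σ' hσ0 hσ0' (by rw [hσ, hσ']; exact h₁)
  have k1 := hK n (by omega) σ' hσ0' (solSp C n E)
  have k2 := hK n' (by omega) σ hσ0 (solSp C n' E')
  have f1 : Module.finrank ℚ (solSp C n E) = w := by
    have := finrank_solSp C hE (n := n) (by omega)
    omega
  have f2 : Module.finrank ℚ (solSp C n' E') = w := by
    have := finrank_solSp C hE' (n := n') (by omega)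
    omega
  rw [himg, subHt_solSp 𝔳 C hE (by omega), f1] at k1
  rw [subHt_solSp 𝔳 C hE' (by omega), f2] at k2
  have kd := hKd E E' hE hE' he he' s₁ s₁' r₁ r₁' z₁ z₁' v₁μ v₁μ' h₁
  have c1 : crd C μ (toA C μ σ) = ratVec σ := crd_toA C μ σ
  have c2 : crd C μ (toA C μ σ') = ratVec σ' := crd_toA C μ σ'
  rw [← hσ, ← hσ', c1, c2] at kd
  have kn := hKle n (by omega)
  have kn' := hKle n' (by omega)
  unfold WCurve.Theta
  rw [← hn, ← hn']
  have hw0 : (0 : ℝ) ≤ w := Nat.cast_nonneg w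
  rw [abs_le] at k1 k2 kd ⊢
  have e1 := mul_le_mul_of_nonneg_left kd.1 hw0
  have e2 := mul_le_mul_of_nonneg_left kd.2 hw0
  constructor <;> nlinarith [k1.1, k1.2, k2.1, k2.2]

end Fermat.Agent.S17.H
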