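import Fermat.Agent.S17.H.Abs

/-!
# S17, part H: the coefficient vector of a polynomial (shared by POLY1 and POLY2)
-/

set_option autoImplicit false

noncomputable section

namespace Fermat.Agent.S17.H

/-- coefficient vector of a polynomial of degree `≤ n`. -/
def cvec (n : ℕ) (f : Polynomial Qb) : Fin (n + 1) → Qb := fun i => f.coeff i

end Fermat.Agent.S17.H
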