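import Fermat.Agent.S17.H.Null

/-!
# S17/H, block NULL, part 2: homogeneous and bihomogeneous families without common zeros

Owner of this file: helper72.
-/

set_option autoImplicit false

noncomputable section

open scoped Classical

namespace Fermat.Agent.S17.H

open MvPolynomial

namespace NullHom

variable (𝔳 : AbsFam)

/-! ### Sup norms -/

theorem av_le_vnorm (v : Pl) {α : Type} [Finite α] (x : α → Qb) (a : α) :
    𝔳.av v (x a) ≤ vnorm 𝔳 v x :=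
  le_ciSup (f := fun i => 𝔳.av v (x i)) (Set.finite_range _).bddAbove a

theorem vnorm_nonneg' (v : Pl) {α : Type} (x : α → Qb) : 0 ≤ vnorm 𝔳 v x :=
  Real.iSup_nonneg fun _ => (𝔳.av v).nonneg _

theorem exists_av_eq_vnorm (v : Pl) {α : Type} [Finite α] {x : α → Qb} (hx : x ≠ 0) :
    ∃ a, x a ≠ 0 ∧ 𝔳.av v (x a) = vnorm 𝔳 v x ∧ 0 < vnorm 𝔳 v x := by
  obtain ⟨a₁, ha₁⟩ : ∃ a, x a ≠ 0 := by
    by_contra hcon
    simp only [not_exists, not_not] at hcon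
    exact hx (funext hcon)
  haveI : Nonempty α := ⟨a₁⟩
  obtain ⟨a, ha⟩ := exists_eq_ciSup_of_finite (f := fun i => 𝔳.av v (x i))
  have hpos : 0 < vnorm 𝔳 v x :=
    lt_of_lt_of_le ((𝔳.av v).pos ha₁) (av_le_vnorm 𝔳 v x a₁)
  have ha' : 𝔳.av v (x a) = vnorm 𝔳 v x := ha
  refine ⟨a, ?_, ha', hpos⟩
  intro h0
  rw [h0, map_zero] at ha'
  exact hpos.ne ha'

/-- After division by a coordinate of maximal absolute value all coordinates are `≤ 1`. -/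
theorem av_inv_smul_le_one (v : Pl) {α : Type} [Finite α] (x : α → Qb) {a : α}
    (ha : 𝔳.av v (x a) = vnorm 𝔳 v x) (hpos : 0 < vnorm 𝔳 v x) (j : α) :
    𝔳.av v (((x a)⁻¹ • x) j) ≤ 1 := by
  rw [Pi.smul_apply, smul_eq_mul, map_mul, map_inv₀, ha, inv_mul_le_iff₀ hpos, mul_one]
  exact av_le_vnorm 𝔳 v x j

/-! ### Finite sums of `M`-constants -/

/-- The sum of a finite family of `M`-constants. -/
def fsum {κ : Type} [Fintype κ] (γ : κ → MConst) : MConst where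
  c v := ∑ k, (γ k).c v
  nonneg v := Finset.sum_nonneg fun k _ => (γ k).nonneg v
  fin := by
    refine (Set.finite_iUnion fun k => (γ k).fin).subset fun v hv => ?_
    rw [Function.mem_support] at hv
    obtain ⟨k, -, hk⟩ := Finset.exists_ne_zero_of_sum_ne_zero hv
    exact Set.mem_iUnion.2 ⟨k, hk⟩

theorem le_fsum {κ : Type} [Fintype κ] (γ : κ → MConst) (k : κ) (v : Pl) :
    (γ k).c v ≤ (fsum γ).c v :=
  Finset.single_le_sum (f := fun k => (γ k).c v) (fun k _ => (γ k).nonneg v) (Finset.mem_univ k)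

/-! ### The statements of the chart lemmas (proved in `Null.lean`) -/

/-- The statement of `chart_lower`. -/
def ChartLower : Prop :=
  ∀ {σ ι : Type} [Fintype σ] (G : ι → MvPolynomial σ Qb),
    (∀ x : σ → Qb, ∃ i, eval x (G i) ≠ 0) →
    ∃ (S : Finset ι) (γ : MConst), ∀ (v : Pl) (x : σ → Qb), (∀ j, 𝔳.av v (x j) ≤ 1) →
      ∃ i ∈ S, Real.exp (-(γ.c v)) ≤ 𝔳.av v (eval x (G i))

/-- The statement of `chart_upper`. -/
def ChartUpper : Prop :=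
  ∀ {σ : Type} [Fintype σ] (G : MvPolynomial σ Qb),
    ∃ γ : MConst, ∀ (v : Pl) (x : σ → Qb), (∀ j, 𝔳.av v (x j) ≤ 1) →
      𝔳.av v (eval x G) ≤ Real.exp (γ.c v)

/-! ### Bihomogeneous families -/

/-- Put the coordinates `a₀` and `b₀` equal to `1`. -/
def dehom {α β : Type} (a₀ : α) (b₀ : β) (z : α ⊕ β → Qb) : α ⊕ β → Qb :=
  fun j => if j = Sum.inl a₀ ∨ j = Sum.inr b₀ then 1 else z j

theorem dehom_eq_elim {α β : Type} (a₀ : α) (b₀ : β) (z : α ⊕ β → Qb) :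
    dehom a₀ b₀ z = Sum.elim (fun a => if a = a₀ then 1 else z (Sum.inl a))
      (fun b => if b = b₀ then 1 else z (Sum.inr b)) := by
  funext j
  rcases j with a | b
  · simp [dehom]
  · simp [dehom]

theorem dehom_eq_self {α β : Type} (a₀ : α) (b₀ : β) (z : α ⊕ β → Qb)
    (ha : z (Sum.inl a₀) = 1) (hb : z (Sum.inr b₀) = 1) : dehom a₀ b₀ z = z := by
  funext j
  unfold dehom
  split_ifs with h
  · rcases h with rfl | rfl
    · exact ha.symm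
    · exact hb.symm
  · rfl

/-- The dehomogenised polynomial. -/
def dehomPoly {α β : Type} (a₀ : α) (b₀ : β) (G : MvPolynomial (α ⊕ β) Qb) :
    MvPolynomial (α ⊕ β) Qb :=
  bind₁ (fun j => if j = Sum.inl a₀ ∨ j = Sum.inr b₀ then 1 else X j) G

theorem eval_dehomPoly {α β : Type} (a₀ : α) (b₀ : β) (G : MvPolynomial (α ⊕ β) Qb)
    (z : α ⊕ β → Qb) : eval z (dehomPoly a₀ b₀ G) = eval (dehom a₀ b₀ z) G := by
  unfold dehomPoly
  rw [← coe_aeval_eq_eval, RingHom.coe_coe, aeval_bind₁]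
  have h : (fun i => (aeval z) (if i = Sum.inl a₀ ∨ i = Sum.inr b₀ then (1 : MvPolynomial (α ⊕ β) Qb)
      else X i)) = dehom a₀ b₀ z := by
    funext i
    unfold dehom
    split_ifs <;> simp
  rw [h, ← coe_aeval_eq_eval, RingHom.coe_coe]

variable {𝔳}

theorem bihom_lower_of (hcl : ChartLower 𝔳) {α β ι : Type} [Fintype α] [Fintype β]
    (G : ι → MvPolynomial (α ⊕ β) Qb) (d₁ d₂ : ℕ)
    (hhom : ∀ (i : ι) (s u : Qb) (x : α → Qb) (y : β → Qb),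
      eval (Sum.elim (s • x) (u • y)) (G i) = s ^ d₁ * u ^ d₂ * eval (Sum.elim x y) (G i))
    (hnz : ∀ (x : α → Qb) (y : β → Qb), x ≠ 0 → y ≠ 0 → ∃ i, eval (Sum.elim x y) (G i) ≠ 0) :
    ∃ (S : Finset ι) (γ : MConst), ∀ (v : Pl) (x : α → Qb) (y : β → Qb), x ≠ 0 → y ≠ 0 →
      ∃ i ∈ S, vnorm 𝔳 v x ^ d₁ * vnorm 𝔳 v y ^ d₂ ≤
        Real.exp (γ.c v) * 𝔳.av v (eval (Sum.elim x y) (G i)) := by
  have hchart : ∀ ab : α × β, ∃ (S : Finset ι) (γ : MConst), ∀ (v : Pl) (z : α ⊕ β → Qb),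
      (∀ j, 𝔳.av v (z j) ≤ 1) →
      ∃ i ∈ S, Real.exp (-(γ.c v)) ≤ 𝔳.av v (eval z (dehomPoly ab.1 ab.2 (G i))) := by
    intro ab
    refine hcl (fun i => dehomPoly ab.1 ab.2 (G i)) fun z => ?_
    obtain ⟨i, hi⟩ := hnz (fun a => if a = ab.1 then 1 else z (Sum.inl a))
      (fun b => if b = ab.2 then 1 else z (Sum.inr b))
      (fun h => by simpa using congrFun h ab.1) (fun h => by simpa using congrFun h ab.2)
    exact ⟨i, by rwa [eval_dehomPoly, dehom_eq_elim]⟩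
  choose S γ hSγ using hchart
  refine ⟨Finset.univ.biUnion S, fsum γ, fun v x y hx hy => ?_⟩
  obtain ⟨a, hxa, ha, hxpos⟩ := exists_av_eq_vnorm 𝔳 v hx
  obtain ⟨b, hyb, hb, hypos⟩ := exists_av_eq_vnorm 𝔳 v hy
  obtain ⟨i, hiS, hi⟩ := hSγ (a, b) v (Sum.elim ((x a)⁻¹ • x) ((y b)⁻¹ • y)) (by
    rintro (j | j)
    · exact av_inv_smul_le_one 𝔳 v x ha hxpos j
    · exact av_inv_smul_le_one 𝔳 v y hb hypos j)
  refine ⟨i, Finset.mem_biUnion.2 ⟨(a, b), Finset.mem_univ _, hiS⟩, ?_⟩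
  rw [eval_dehomPoly, dehom_eq_self _ _ _ (by simp [hxa]) (by simp [hyb]), hhom, map_mul, map_mul,
    map_pow, map_pow, map_inv₀, map_inv₀, ha, hb] at hi
  have hle : Real.exp (-((fsum γ).c v)) ≤ Real.exp (-((γ (a, b)).c v)) :=
    Real.exp_le_exp.2 (neg_le_neg (le_fsum γ (a, b) v))
  have hi' := hle.trans hi
  rw [Real.exp_neg] at hi'
  have hP : 0 < vnorm 𝔳 v x ^ d₁ * vnorm 𝔳 v y ^ d₂ := by positivity
  have hE : 0 < Real.exp ((fsum γ).c v) := Real.exp_pos _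
  have h1 : (vnorm 𝔳 v x)⁻¹ ^ d₁ * (vnorm 𝔳 v y)⁻¹ ^ d₂ * 𝔳.av v (eval (Sum.elim x y) (G i)) =
      𝔳.av v (eval (Sum.elim x y) (G i)) / (vnorm 𝔳 v x ^ d₁ * vnorm 𝔳 v y ^ d₂) := by
    rw [inv_pow, inv_pow]
    field_simp
  rw [h1, le_div_iff₀ hP, inv_mul_le_iff₀ hE] at hi'
  exact hi'

theorem bihom_upper_of (hcu : ChartUpper 𝔳) {α β : Type} [Fintype α] [Fintype β]
    (G : MvPolynomial (α ⊕ β) Qb) (d₁ d₂ : ℕ)
    (hhom : ∀ (s u : Qb) (x : α → Qb) (y : β → Qb),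
      eval (Sum.elim (s • x) (u • y)) G = s ^ d₁ * u ^ d₂ * eval (Sum.elim x y) G) :
    ∃ γ : MConst, ∀ (v : Pl) (x : α → Qb) (y : β → Qb), x ≠ 0 → y ≠ 0 →
      𝔳.av v (eval (Sum.elim x y) G) ≤
        Real.exp (γ.c v) * (vnorm 𝔳 v x ^ d₁ * vnorm 𝔳 v y ^ d₂) := by
  obtain ⟨γ, hγ⟩ := hcu G
  refine ⟨γ, fun v x y hx hy => ?_⟩
  obtain ⟨a, hxa, ha, hxpos⟩ := exists_av_eq_vnorm 𝔳 v hx
  obtain ⟨b, hyb, hb, hypos⟩ := exists_av_eq_vnorm 𝔳 v hy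
  have hi := hγ v (Sum.elim ((x a)⁻¹ • x) ((y b)⁻¹ • y)) (by
    rintro (j | j)
    · exact av_inv_smul_le_one 𝔳 v x ha hxpos j
    · exact av_inv_smul_le_one 𝔳 v y hb hypos j)
  rw [hhom, map_mul, map_mul, map_pow, map_pow, map_inv₀, map_inv₀, ha, hb] at hi
  have hP : 0 < vnorm 𝔳 v x ^ d₁ * vnorm 𝔳 v y ^ d₂ := by positivity
  have h1 : (vnorm 𝔳 v x)⁻¹ ^ d₁ * (vnorm 𝔳 v y)⁻¹ ^ d₂ * 𝔳.av v (eval (Sum.elim x y) G) =
      𝔳.av v (eval (Sum.elim x y) G) / (vnorm 𝔳 v x ^ d₁ * vnorm 𝔳 v y ^ d₂) := by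
    rw [inv_pow, inv_pow]
    field_simp
  rw [h1, div_le_iff₀ hP] at hi
  exact hi

/-! ### Homogeneous families -/

theorem hom_lower_of (hcl : ChartLower 𝔳) {α ι : Type} [Fintype α] (G : ι → MvPolynomial α Qb)
    (d₁ : ℕ)
    (hhom : ∀ (i : ι) (s : Qb) (x : α → Qb), eval (s • x) (G i) = s ^ d₁ * eval x (G i))
    (hnz : ∀ x : α → Qb, x ≠ 0 → ∃ i, eval x (G i) ≠ 0) :
    ∃ (S : Finset ι) (γ : MConst), ∀ (v : Pl) (x : α → Qb), x ≠ 0 →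
      ∃ i ∈ S, vnorm 𝔳 v x ^ d₁ ≤ Real.exp (γ.c v) * 𝔳.av v (eval x (G i)) := by
  have hev : ∀ (i : ι) (x : α → Qb) (y : Unit → Qb),
      eval (Sum.elim x y) (rename Sum.inl (G i)) = eval x (G i) := by
    intro i x y
    rw [eval_rename]
    rfl
  obtain ⟨S, γ, h⟩ := bihom_lower_of hcl (β := Unit) (fun i => rename Sum.inl (G i)) d₁ 0
    (fun i s u x y => by rw [hev, hev, hhom, pow_zero, mul_one])
    (fun x y hx _ => by
      obtain ⟨i, hi⟩ := hnz x hx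
      exact ⟨i, by rwa [hev]⟩)
  refine ⟨S, γ, fun v x hx => ?_⟩
  obtain ⟨i, hiS, hi⟩ := h v x (fun _ => 1) hx (fun h0 => one_ne_zero (congrFun h0 ()))
  refine ⟨i, hiS, ?_⟩
  rwa [hev, pow_zero, mul_one] at hi

theorem hom_upper_of (hcu : ChartUpper 𝔳) {α : Type} [Fintype α] (G : MvPolynomial α Qb) (d₁ : ℕ)
    (hhom : ∀ (s : Qb) (x : α → Qb), eval (s • x) G = s ^ d₁ * eval x G) :
    ∃ γ : MConst, ∀ (v : Pl) (x : α → Qb),
      𝔳.av v (eval x G) ≤ Real.exp (γ.c v) * vnorm 𝔳 v x ^ d₁ := by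
  obtain ⟨γ, hγ⟩ := hcu G
  refine ⟨γ, fun v x => ?_⟩
  by_cases hx : x = 0
  · subst hx
    rcases Nat.eq_zero_or_pos d₁ with rfl | hd
    · rw [pow_zero, mul_one]
      exact hγ v 0 fun j => by simp
    · have h0 : eval (0 : α → Qb) G = 0 := by
        have := hhom 0 0
        rwa [zero_smul, zero_pow hd.ne', zero_mul] at this
      rw [h0, map_zero]
      exact mul_nonneg (Real.exp_pos _).le (pow_nonneg (vnorm_nonneg' 𝔳 v _) _)
  · obtain ⟨a, hxa, ha, hxpos⟩ := exists_av_eq_vnorm 𝔳 v hx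
    have hi := hγ v ((x a)⁻¹ • x) (av_inv_smul_le_one 𝔳 v x ha hxpos)
    rw [hhom, map_mul, map_pow, map_inv₀, ha] at hi
    have hP : 0 < vnorm 𝔳 v x ^ d₁ := by positivity
    have h1 : (vnorm 𝔳 v x)⁻¹ ^ d₁ * 𝔳.av v (eval x G) =
        𝔳.av v (eval x G) / vnorm 𝔳 v x ^ d₁ := by
      rw [inv_pow]
      field_simp
    rw [h1, div_le_iff₀ hP] at hi
    exact hi

end NullHom

variable (𝔳 : AbsFam)

/-- bihomogeneous families without common zero on `ℙ × ℙ`. -/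
theorem bihom_lower {α β ι : Type} [Fintype α] [Fintype β] (G : ι → MvPolynomial (α ⊕ β) Qb)
    (d₁ d₂ : ℕ)
    (hhom : ∀ (i : ι) (s u : Qb) (x : α → Qb) (y : β → Qb),
      eval (Sum.elim (s • x) (u • y)) (G i) = s ^ d₁ * u ^ d₂ * eval (Sum.elim x y) (G i))
    (hnz : ∀ (x : α → Qb) (y : β → Qb), x ≠ 0 → y ≠ 0 → ∃ i, eval (Sum.elim x y) (G i) ≠ 0) :
    ∃ (S : Finset ι) (γ : MConst), ∀ (v : Pl) (x : α → Qb) (y : β → Qb), x ≠ 0 → y ≠ 0 →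
      ∃ i ∈ S, vnorm 𝔳 v x ^ d₁ * vnorm 𝔳 v y ^ d₂ ≤
        Real.exp (γ.c v) * 𝔳.av v (eval (Sum.elim x y) (G i)) :=
  NullHom.bihom_lower_of (fun G h => chart_lower 𝔳 G h) G d₁ d₂ hhom hnz

theorem bihom_upper {α β : Type} [Fintype α] [Fintype β] (G : MvPolynomial (α ⊕ β) Qb)
    (d₁ d₂ : ℕ)
    (hhom : ∀ (s u : Qb) (x : α → Qb) (y : β → Qb),
      eval (Sum.elim (s • x) (u • y)) G = s ^ d₁ * u ^ d₂ * eval (Sum.elim x y) G) :
    ∃ γ : MConst, ∀ (v : Pl) (x : α → Qb) (y : β → Qb), x ≠ 0 → y ≠ 0 →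
      𝔳.av v (eval (Sum.elim x y) G) ≤
        Real.exp (γ.c v) * (vnorm 𝔳 v x ^ d₁ * vnorm 𝔳 v y ^ d₂) :=
  NullHom.bihom_upper_of (fun G => chart_upper 𝔳 G) G d₁ d₂ hhom

/-- homogeneous families without common zero on `ℙ`. -/
theorem hom_lower {α ι : Type} [Fintype α] (G : ι → MvPolynomial α Qb) (d₁ : ℕ)
    (hhom : ∀ (i : ι) (s : Qb) (x : α → Qb), eval (s • x) (G i) = s ^ d₁ * eval x (G i))
    (hnz : ∀ x : α → Qb, x ≠ 0 → ∃ i, eval x (G i) ≠ 0) :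
    ∃ (S : Finset ι) (γ : MConst), ∀ (v : Pl) (x : α → Qb), x ≠ 0 →
      ∃ i ∈ S, vnorm 𝔳 v x ^ d₁ ≤ Real.exp (γ.c v) * 𝔳.av v (eval x (G i)) :=
  NullHom.hom_lower_of (fun G h => chart_lower 𝔳 G h) G d₁ hhom hnz

theorem hom_upper {α : Type} [Fintype α] (G : MvPolynomial α Qb) (d₁ : ℕ)
    (hhom : ∀ (s : Qb) (x : α → Qb), eval (s • x) G = s ^ d₁ * eval x G) :
    ∃ γ : MConst, ∀ (v : Pl) (x : α → Qb),
      𝔳.av v (eval x G) ≤ Real.exp (γ.c v) * vnorm 𝔳 v x ^ d₁ :=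
  NullHom.hom_upper_of (fun G => chart_upper 𝔳 G) G d₁ hhom

end Fermat.Agent.S17.H
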