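import Fermat.Agent.S17.H.Curve
import Fermat.Agent.S17.H.Cvec
import Fermat.Agent.S17.H.AbsBasic
import Fermat.Agent.S17.H.Null
import Fermat.Agent.S17.H.NullHom
import Fermat.Agent.S17.H.NormBasic

/-!
# S17/H, block NP, node NP4: local comparison of `‖Nm f‖_v` and `‖f‖_v ^ d`

* `NormHeight.core`: for matrices `M i` over `ℚ̄[T]` such that `det (∑ xᵢ Mᵢ)` is nonzero of degree
  `≤ n` for all `x ≠ 0`, the sup norm of the coefficients of the determinant is `‖x‖_v ^ d` up to an
  `M`-constant.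
* `NormHeight.log_vnorm_det`: the same for a linear family of matrices on `V_n` of a `WCurve`.
-/

set_option autoImplicit false

noncomputable section

open scoped Classical

namespace Fermat.Agent.S17.H

namespace NormHeight

open Polynomial

variable (𝔳 : AbsFam) {α : Type} [Fintype α] {d : ℕ}

/-- the matrix `∑ xᵢ Mᵢ` -/
def spec (M : α → Matrix (Fin d) (Fin d) Qb[X]) (x : α → Qb) : Matrix (Fin d) (Fin d) Qb[X] :=
  ∑ i, Polynomial.C (x i) • M i

/-- the generic matrix `∑ Xᵢ Mᵢ` -/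
def genMat (M : α → Matrix (Fin d) (Fin d) Qb[X]) :
    Matrix (Fin d) (Fin d) (MvPolynomial α Qb)[X] :=
  ∑ i, Polynomial.C (MvPolynomial.X i : MvPolynomial α Qb) •
    (M i).map (Polynomial.map (MvPolynomial.C : Qb →+* MvPolynomial α Qb))

/-- the coefficients of the generic determinant -/
def G (M : α → Matrix (Fin d) (Fin d) Qb[X]) (k : ℕ) : MvPolynomial α Qb := (genMat M).det.coeff k

theorem map_genMat (M : α → Matrix (Fin d) (Fin d) Qb[X]) (x : α → Qb) :
    (genMat M).map (Polynomial.mapRingHom (MvPolynomial.eval x)) = spec M x := by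
  ext1 a b
  have h : (MvPolynomial.eval x).comp (MvPolynomial.C : Qb →+* MvPolynomial α Qb) =
      RingHom.id Qb := RingHom.ext fun c => MvPolynomial.eval_C c
  simp only [genMat, spec, Matrix.map_apply, Matrix.sum_apply, Matrix.smul_apply, smul_eq_mul,
    Polynomial.coe_mapRingHom, Polynomial.map_sum, Polynomial.map_mul, Polynomial.map_C,
    MvPolynomial.eval_X, Polynomial.map_map, h, Polynomial.map_id]

theorem eval_G (M : α → Matrix (Fin d) (Fin d) Qb[X]) (x : α → Qb) (k : ℕ) :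
    MvPolynomial.eval x (G M k) = (spec M x).det.coeff k := by
  rw [← map_genMat, ← RingHom.mapMatrix_apply, ← RingHom.map_det, Polynomial.coe_mapRingHom,
    Polynomial.coeff_map, G]

theorem spec_smul (M : α → Matrix (Fin d) (Fin d) Qb[X]) (s : Qb) (x : α → Qb) :
    spec M (s • x) = Polynomial.C s • spec M x := by
  simp only [spec, Finset.smul_sum, Pi.smul_apply, smul_eq_mul, Polynomial.C_mul, mul_smul]

theorem eval_G_smul (M : α → Matrix (Fin d) (Fin d) Qb[X]) (k : ℕ) (s : Qb) (x : α → Qb) :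
    MvPolynomial.eval (s • x) (G M k) = s ^ d * MvPolynomial.eval x (G M k) := by
  rw [eval_G, eval_G, spec_smul, Matrix.det_smul, Fintype.card_fin, ← Polynomial.C_pow,
    Polynomial.coeff_C_mul]

theorem core (n : ℕ) (M : α → Matrix (Fin d) (Fin d) Qb[X])
    (hnz : ∀ x : α → Qb, x ≠ 0 → (spec M x).det ≠ 0)
    (hdeg : ∀ x : α → Qb, (spec M x).det.natDegree ≤ n) :
    ∃ γ : MConst, ∀ (v : Pl) (x : α → Qb), x ≠ 0 →
      |Real.log (vnorm 𝔳 v (cvec n (spec M x).det)) - d * Real.log (vnorm 𝔳 v x)| ≤ γ.c v := by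
  obtain ⟨S, γ₁, h₁⟩ := NullHom.hom_lower_of (𝔳 := 𝔳) (fun G h => chart_lower 𝔳 G h)
    (fun k : Fin (n + 1) => G M k) d (fun k s x => eval_G_smul M k s x) (by
      intro x hx
      have h0 := hnz x hx
      refine ⟨⟨(spec M x).det.natDegree, Nat.lt_succ_of_le (hdeg x)⟩, ?_⟩
      rw [eval_G]
      exact Polynomial.leadingCoeff_ne_zero.2 h0)
  choose γ₂ h₂ using fun k : Fin (n + 1) => NullHom.hom_upper_of (𝔳 := 𝔳) (fun G => chart_upper 𝔳 G)
    (G M k) d (fun s x => eval_G_smul M k s x)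
  refine ⟨γ₁ + NullHom.fsum γ₂, fun v x hx => ?_⟩
  have hb : 0 < vnorm 𝔳 v x := vnorm_pos 𝔳 v hx
  have hbd : 0 < vnorm 𝔳 v x ^ d := pow_pos hb d
  -- lower bound
  obtain ⟨k, -, hk⟩ := h₁ v x hx
  rw [eval_G] at hk
  have hk' : vnorm 𝔳 v x ^ d ≤ Real.exp (γ₁.c v) * vnorm 𝔳 v (cvec n (spec M x).det) :=
    hk.trans (mul_le_mul_of_nonneg_left (le_vnorm 𝔳 v (cvec n (spec M x).det) k)
      (Real.exp_pos _).le)
  have ha : 0 < vnorm 𝔳 v (cvec n (spec M x).det) := by
    by_contra hcon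
    have h0 : vnorm 𝔳 v (cvec n (spec M x).det) ≤ 0 := not_lt.1 hcon
    have : Real.exp (γ₁.c v) * vnorm 𝔳 v (cvec n (spec M x).det) ≤ 0 :=
      mul_nonpos_of_nonneg_of_nonpos (Real.exp_pos _).le h0
    linarith
  -- upper bound
  have hup : vnorm 𝔳 v (cvec n (spec M x).det) ≤
      Real.exp ((NullHom.fsum γ₂).c v) * vnorm 𝔳 v x ^ d := by
    apply vnorm_le 𝔳 v (mul_nonneg (Real.exp_pos _).le hbd.le)
    intro k
    have h3 := h₂ k v x
    rw [eval_G] at h3
    exact h3.trans (mul_le_mul_of_nonneg_right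
      (Real.exp_le_exp.2 (NullHom.le_fsum γ₂ k v)) hbd.le)
  have l1 := Real.log_le_log hbd hk'
  have l2 := Real.log_le_log ha hup
  rw [Real.log_mul (Real.exp_pos _).ne' ha.ne', Real.log_exp, Real.log_pow] at l1
  rw [Real.log_mul (Real.exp_pos _).ne' hbd.ne', Real.log_exp, Real.log_pow] at l2
  have e1 : (γ₁ + NullHom.fsum γ₂).c v = γ₁.c v + (NullHom.fsum γ₂).c v := rfl
  have n1 := γ₁.nonneg v
  have n2 := (NullHom.fsum γ₂).nonneg v
  rw [abs_le, e1]
  constructor <;> linarith

/-! ### coordinates on `V_n` -/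

variable {A : Type} [CommRing A] [Algebra Qb A] (C : WCurve A)

theorem lt_dim_iff (n i : ℕ) : i < C.dim n ↔ C.ρ i ≤ n := by
  have hle : ∀ j, j ≤ C.ρ j := fun j => C.ρ_strictMono.le_apply
  unfold WCurve.dim
  constructor
  · intro h
    by_contra hcon
    have hsub : ((Finset.range (n + 1)).filter fun j => C.ρ j ≤ n) ⊆ Finset.range i := by
      intro j hj
      rw [Finset.mem_filter] at hj
      rw [Finset.mem_range]
      exact C.ρ_strictMono.lt_iff_lt.1 (lt_of_le_of_lt hj.2 (not_le.1 hcon))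
    have := Finset.card_le_card hsub
    rw [Finset.card_range] at this
    omega
  · intro h
    have hsub : Finset.range (i + 1) ⊆ ((Finset.range (n + 1)).filter fun j => C.ρ j ≤ n) := by
      intro j hj
      rw [Finset.mem_range] at hj
      have h1 : C.ρ j ≤ n := (C.ρ_strictMono.monotone (Nat.lt_succ_iff.1 hj)).trans h
      rw [Finset.mem_filter, Finset.mem_range]
      exact ⟨Nat.lt_succ_of_le ((hle j).trans h1), h1⟩
    have := Finset.card_le_card hsub
    rw [Finset.card_range] at this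
    omega

/-- the element of `V_n` with coordinates `x` -/
def elt (n : ℕ) (x : Fin (C.dim n) → Qb) : A := ∑ i, x i • C.b i

theorem elt_mem_V (n : ℕ) (x : Fin (C.dim n) → Qb) : elt C n x ∈ C.V n :=
  Submodule.sum_mem _ fun i _ => Submodule.smul_mem _ _
    (Submodule.subset_span ⟨i, (lt_dim_iff C n i).1 i.2, rfl⟩)

theorem repr_elt (n : ℕ) (x : Fin (C.dim n) → Qb) (i : Fin (C.dim n)) :
    C.b.repr (elt C n x) i = x i := by
  unfold elt
  rw [map_sum, Finsupp.finsetSum_apply, Finset.sum_eq_single i]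
  · simp
  · intro j _ hj
    rw [map_smul, Module.Basis.repr_self, Finsupp.smul_apply, Finsupp.single_apply,
      if_neg (fun h => hj (Fin.ext h)), smul_zero]
  · intro h
    exact absurd (Finset.mem_univ i) h

theorem eq_elt_of_mem_V {n : ℕ} {f : A} (hf : f ∈ C.V n) :
    f = elt C n (fun i => C.b.repr f i) := by
  unfold WCurve.V at hf
  rw [Module.Basis.mem_span_image] at hf
  have hsub : (C.b.repr f).support ⊆ Finset.range (C.dim n) := by
    intro i hi
    rw [Finset.mem_range, lt_dim_iff]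
    exact hf hi
  have h1 : f = ∑ i ∈ Finset.range (C.dim n), C.b.repr f i • C.b i := by
    conv_lhs => rw [← C.b.linearCombination_repr f, Finsupp.linearCombination_apply]
    exact Finsupp.sum_of_support_subset (C.b.repr f) hsub (fun i a => a • C.b i)
      (fun i _ => zero_smul _ _)
  rw [Finset.sum_range] at h1
  exact h1

/-- local comparison of the coefficients of `det (mm f)` with the coordinates of `f ∈ V_n`, for a
linear family of matrices `mm f`. -/
theorem log_vnorm_det (n : ℕ) (mm : A → Matrix (Fin d) (Fin d) Qb[X])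
    (h_add : ∀ f g, mm (f + g) = mm f + mm g)
    (h_smul : ∀ (c : Qb) (f : A), mm (c • f) = Polynomial.C c • mm f)
    (h_ne : ∀ f, f ≠ 0 → (mm f).det ≠ 0)
    (h_deg : ∀ f, f ∈ C.V n → (mm f).det.natDegree ≤ n) :
    ∃ γ : MConst, ∀ (v : Pl) (f : A), f ≠ 0 → f ∈ C.V n →
      |Real.log (vnorm 𝔳 v (cvec n (mm f).det)) -
        d * Real.log (vnorm 𝔳 v (fun i : Fin (C.dim n) => C.b.repr f i))| ≤ γ.c v := by
  have h_zero : mm 0 = 0 := by
    have := h_smul 0 0
    rwa [zero_smul, map_zero, zero_smul] at this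
  have h_sum : ∀ (s : Finset (Fin (C.dim n))) (g : Fin (C.dim n) → A),
      mm (∑ i ∈ s, g i) = ∑ i ∈ s, mm (g i) := by
    intro s g
    induction s using Finset.induction_on with
    | empty => simpa using h_zero
    | insert a s ha ih => rw [Finset.sum_insert ha, Finset.sum_insert ha, h_add, ih]
  have h_spec : ∀ x : Fin (C.dim n) → Qb,
      spec (fun i : Fin (C.dim n) => mm (C.b i)) x = mm (elt C n x) := by
    intro x
    unfold spec elt
    rw [h_sum]
    exact Finset.sum_congr rfl fun i _ => (h_smul _ _).symm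
  have h_elt_ne : ∀ x : Fin (C.dim n) → Qb, x ≠ 0 → elt C n x ≠ 0 := by
    intro x hx h0
    apply hx
    funext i
    rw [← repr_elt C n x i, h0, map_zero]
    rfl
  obtain ⟨γ, hγ⟩ := core 𝔳 n (fun i : Fin (C.dim n) => mm (C.b i))
    (fun x hx => by rw [h_spec]; exact h_ne _ (h_elt_ne x hx))
    (fun x => by rw [h_spec]; exact h_deg _ (elt_mem_V C n x))
  refine ⟨γ, fun v f hf hfV => ?_⟩
  have hfe := eq_elt_of_mem_V C hfV
  have hx : (fun i : Fin (C.dim n) => C.b.repr f i) ≠ 0 := by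
    intro h0
    apply hf
    rw [hfe, h0]
    simp [elt]
  have := hγ v _ hx
  rwa [h_spec, ← hfe] at this

end NormHeight

/-- NP4: `‖Nm f‖_v = ‖f‖_v ^ d` up to an `M`-constant, on `V_n`. -/
theorem log_vnorm_Nm (𝔳 : AbsFam) {A : Type} [CommRing A] [Algebra Qb A] (C : WCurve A) (n : ℕ) :
    ∃ γ : MConst, ∀ (v : Pl) (f : A), f ≠ 0 → f ∈ C.V n →
      |Real.log (vnorm 𝔳 v (cvec n (Nm C f))) - C.d * Real.log (vnorm 𝔳 v (crd C n f))| ≤ γ.c v :=
  NormHeight.log_vnorm_det 𝔳 C n (mulMat C) (mulMat_add C) (mulMat_smul C)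
    (fun _ hf => NB.Nm_ne_zero C hf) (fun _ hf => NB.natDegree_Nm_le C hf)

end Fermat.Agent.S17.H
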