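import Fermat.Agent.S17.H.FinAlg
import Fermat.Agent.S17.H.Semigroup

/-!
# S17, part H: the fibre of `t` over `β` as a multiset with multiplicities

Instantiation of `exists_fibre_of_free'` (file `FinAlg`) for a curve `C : WCurve A` and the Apéry
basis `y_j = b (ap j)`.  The node `exists_unique_apery` (file `Apery`) enters as the explicit
hypothesis `h_apery`; the matrix `fun i j => (h_apery (f * C.b (ap C j))).choose i` is
*definitionally* `mulMat C f` once `h_apery := exists_unique_apery C` (proof irrelevance), and its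
determinant is `Nm C f`.

Owner of this file: helper162.
-/

set_option autoImplicit false

noncomputable section

open scoped Classical

namespace Fermat.Agent.S17.H

open Polynomial

variable {A : Type} [CommRing A] [Algebra Qb A] (C : WCurve A)

/-- the matrix of multiplication by `f` in the Apéry basis, relative to a proof of freeness. -/
def mulMatOf (h_apery : ∀ f : A, ∃! p : Fin C.d → Qb[X],
    f = ∑ j, aeval C.t (p j) * C.b (ap C j)) (f : A) : Matrix (Fin C.d) (Fin C.d) Qb[X] :=
  fun i j => (h_apery (f * C.b (ap C j))).choose i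

theorem mul_b_ap_eq_sum_mulMatOf (h_apery : ∀ f : A, ∃! p : Fin C.d → Qb[X],
    f = ∑ j, aeval C.t (p j) * C.b (ap C j)) (f : A) (j : Fin C.d) :
    f * C.b (ap C j) = ∑ i, aeval C.t (mulMatOf C h_apery f i j) * C.b (ap C i) :=
  (h_apery (f * C.b (ap C j))).choose_spec.1

/-- the fibre of `t` over `β` as a multiset with multiplicities: characteristic polynomial, norm and
trace at the fibre, with the same multiset. -/
theorem exists_fibre_full_of (h_apery : ∀ f : A, ∃! p : Fin C.d → Qb[X],
    f = ∑ j, aeval C.t (p j) * C.b (ap C j)) (β : Qb) :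
    ∃ F : Multiset (Pt A), F.card = C.d ∧ (∀ Q, Q ∈ F ↔ Q C.t = β) ∧
      (∀ f : A, ((mulMatOf C h_apery f).map (eval β)).charpoly =
        (F.map fun Q => X - Polynomial.C (Q f)).prod) ∧
      (∀ f : A, (mulMatOf C h_apery f).det.eval β = (F.map fun Q => Q f).prod) ∧
      (∀ f : A, (mulMatOf C h_apery f).trace.eval β = (F.map fun Q => Q f).sum) :=
  exists_fibre_of_free' C.t (fun j => C.b (ap C j)) h_apery (mulMatOf C h_apery)
    (mul_b_ap_eq_sum_mulMatOf C h_apery) β

/-- `exists_fibre` with the node `exists_unique_apery` as a hypothesis. -/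
theorem exists_fibre_of (h_apery : ∀ f : A, ∃! p : Fin C.d → Qb[X],
    f = ∑ j, aeval C.t (p j) * C.b (ap C j)) (β : Qb) :
    ∃ F : Multiset (Pt A), F.card = C.d ∧ (∀ Q, Q ∈ F ↔ Q C.t = β) ∧
      ∀ f : A, (mulMatOf C h_apery f).det.eval β = (F.map fun Q => Q f).prod := by
  obtain ⟨F, h1, h2, -, h3, -⟩ := exists_fibre_full_of C h_apery β
  exact ⟨F, h1, h2, h3⟩

end Fermat.Agent.S17.H
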