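import Fermat.Agent.S17.H.NormQuotAbs
import Fermat.Agent.S17.H.Fibre
import Fermat.Agent.S17.H.Weight

/-!
# S17, part H, block NP3: `Nm_mul_chi_of_equiv`, `exists_residual`, relative to a proof of freeness

Instantiation of the abstract layer `NormQuotAbs` for a curve `C : WCurve A` and the Apéry basis.
The node `exists_unique_apery` (file `Apery`) enters as the explicit hypothesis `h_apery`;
`(mulMatOf C h_apery f).det` is definitionally `Nm C f` once `h_apery := exists_unique_apery C`.

Owner of this file: helper247.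
-/

set_option autoImplicit false

noncomputable section

open scoped Classical

namespace Fermat.Agent.S17.H

open Polynomial

variable {A : Type} [CommRing A] [Algebra Qb A] (C : WCurve A)

/-- the polynomial `∏_{P ∈ E} (T - t(P))`. -/
def chi (E : Finset (Pt A)) : Qb[X] := ∏ P ∈ E, (X - Polynomial.C (P C.t))

/-- linear equivalence and norms. -/
theorem Nm_mul_chi_of_equiv_of (h_apery : ∀ f : A, ∃! p : Fin C.d → Qb[X],
    f = ∑ j, aeval C.t (p j) * C.b (ap C j)) (E E' : Finset (Pt A)) {s s' : A}
    (h : Ideal.span {s'} * idealOf E = Ideal.span {s} * idealOf E') :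
    ∃ c : Qb, c ≠ 0 ∧ (mulMatOf C h_apery s').det * chi C E =
      Polynomial.C c * ((mulMatOf C h_apery s).det * chi C E') :=
  NormQuot.norm_mul_chi_of_equiv (t := C.t) (y := fun j => C.b (ap C j)) h_apery
    (M := mulMatOf C h_apery) (mul_b_ap_eq_sum_mulMatOf C h_apery) E E' h

theorem det_mulMatOf_ne_zero (h_apery : ∀ f : A, ∃! p : Fin C.d → Qb[X],
    f = ∑ j, aeval C.t (p j) * C.b (ap C j)) {f : A} (hf : f ≠ 0) :
    (mulMatOf C h_apery f).det ≠ 0 := by
  have := isDomain C
  exact NormQuot.det_ne_zero (t := C.t) (y := fun j => C.b (ap C j)) h_apery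
    (M := mulMatOf C h_apery) (mul_b_ap_eq_sum_mulMatOf C h_apery) hf

/-- the residual polynomial of `f ∈ I(X)`. -/
theorem exists_residual_of (h_apery : ∀ f : A, ∃! p : Fin C.d → Qb[X],
    f = ∑ j, aeval C.t (p j) * C.b (ap C j)) (X : Finset (Pt A)) {f : A} (hf : f ≠ 0)
    (hX : f ∈ idealOf X) :
    ∃ R : Qb[X], R.Monic ∧ (mulMatOf C h_apery f).det =
        Polynomial.C (mulMatOf C h_apery f).det.leadingCoeff * (chi C X * R) ∧
      ∀ z ∈ idealOf X, f ∣ aeval C.t R * z :=
  NormQuot.exists_residual_abs (t := C.t) (y := fun j => C.b (ap C j)) h_apery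
    (M := mulMatOf C h_apery) (mul_b_ap_eq_sum_mulMatOf C h_apery) X
    (det_mulMatOf_ne_zero C h_apery hf) hX

end Fermat.Agent.S17.H
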