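import Fermat.Agent.S17.H.Cvec
import Fermat.Agent.S17.H.Bilin

/-!
# S17, part H, node POLY1 (owner helper193): Gelfond's inequality and roots versus coefficients,
locally at every place, with `M`-constants.

The namespace `PolyLocal` contains the reduction to the two bounds for bilinear maps without zero
divisors (node NULL3).
-/

set_option autoImplicit false

noncomputable section

open scoped Classical

namespace Fermat.Agent.S17.H

open Polynomial

namespace PolyLocal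

/-! ### private copies of the basic API -/

theorem exists_add (γ γ' : MConst) : ∃ δ : MConst, ∀ v, δ.c v = γ.c v + γ'.c v :=
  ⟨⟨fun v => γ.c v + γ'.c v, fun v => add_nonneg (γ.nonneg v) (γ'.nonneg v),
    (γ.fin.union γ'.fin).subset (Function.support_add _ _)⟩, fun _ => rfl⟩

theorem exists_nsmul (n : ℕ) (γ : MConst) : ∃ δ : MConst, ∀ v, δ.c v = n * γ.c v :=
  ⟨⟨fun v => n * γ.c v, fun v => mul_nonneg (Nat.cast_nonneg n) (γ.nonneg v),
    γ.fin.subset (fun v hv => by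
      simp only [Function.mem_support, ne_eq, mul_eq_zero, not_or] at hv ⊢
      exact hv.2)⟩, fun _ => rfl⟩

variable (𝔳 : AbsFam) (v : Pl)

theorem bdd {ι : Type*} [Finite ι] (x : ι → Qb) : BddAbove (Set.range fun i => 𝔳.av v (x i)) :=
  Set.finite_range _ |>.bddAbove

theorem le_vn {ι : Type*} [Finite ι] (x : ι → Qb) (i : ι) : 𝔳.av v (x i) ≤ vnorm 𝔳 v x :=
  le_ciSup (bdd 𝔳 v x) i

theorem vn_le {ι : Type*} [Nonempty ι] (x : ι → Qb) {c : ℝ} (h : ∀ i, 𝔳.av v (x i) ≤ c) :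
    vnorm 𝔳 v x ≤ c := ciSup_le h

theorem vn_pos {ι : Type*} [Finite ι] (x : ι → Qb) (i : ι) (hi : x i ≠ 0) : 0 < vnorm 𝔳 v x :=
  lt_of_lt_of_le ((𝔳.av v).pos hi) (le_vn 𝔳 v x i)

/-! ### vectors and polynomials -/

/-- the polynomial with given coefficient vector -/
def toPoly (n : ℕ) : (Fin (n + 1) → Qb) →ₗ[Qb] Qb[X] :=
  ∑ i : Fin (n + 1), (Polynomial.monomial (i : ℕ)).comp (LinearMap.proj i)

theorem toPoly_apply (n : ℕ) (x : Fin (n + 1) → Qb) :
    toPoly n x = ∑ i : Fin (n + 1), Polynomial.monomial (i : ℕ) (x i) := by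
  simp [toPoly, LinearMap.sum_apply]

theorem coeff_toPoly (n : ℕ) (x : Fin (n + 1) → Qb) (i : Fin (n + 1)) :
    (toPoly n x).coeff i = x i := by
  rw [toPoly_apply, Polynomial.finsetSum_coeff]
  simp only [Polynomial.coeff_monomial]
  rw [Finset.sum_eq_single i]
  · simp
  · intro j _ hj
    rw [if_neg]
    intro h
    exact hj (Fin.ext h)
  · intro h
    exact absurd (Finset.mem_univ i) h

theorem natDegree_toPoly_le (n : ℕ) (x : Fin (n + 1) → Qb) : (toPoly n x).natDegree ≤ n := by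
  rw [toPoly_apply]
  refine Polynomial.natDegree_sum_le_of_forall_le _ _ fun i _ => ?_
  exact (Polynomial.natDegree_monomial_le _).trans (Nat.lt_succ_iff.1 i.2)

theorem toPoly_cvec (n : ℕ) {f : Qb[X]} (hf : f.natDegree ≤ n) : toPoly n (cvec n f) = f := by
  rw [toPoly_apply]
  conv_rhs => rw [f.as_sum_range' (n + 1) (Nat.lt_succ_iff.2 hf)]
  rw [Finset.sum_range]
  rfl

theorem toPoly_eq_zero (n : ℕ) {x : Fin (n + 1) → Qb} (h : toPoly n x = 0) : x = 0 := by
  funext i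
  rw [← coeff_toPoly n x i, h]
  simp

/-- the coefficient vector as a linear map -/
def cvecLin (m : ℕ) : Qb[X] →ₗ[Qb] (Fin (m + 1) → Qb) :=
  LinearMap.pi fun i => Polynomial.lcoeff Qb (i : ℕ)

theorem cvecLin_apply (m : ℕ) (f : Qb[X]) : cvecLin m f = cvec m f := rfl

theorem eq_zero_of_cvec_eq_zero (m : ℕ) {f : Qb[X]} (hf : f.natDegree ≤ m) (h : cvec m f = 0) :
    f = 0 := by
  rw [← toPoly_cvec m hf, h, map_zero]

/-- multiplication of polynomials of degree `≤ n` -/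
def mulB (n : ℕ) : (Fin (n + 1) → Qb) →ₗ[Qb] (Fin (n + 1) → Qb) →ₗ[Qb] (Fin (2 * n + 1) → Qb) :=
  ((LinearMap.mul Qb Qb[X]).compl₁₂ (toPoly n) (toPoly n)).compr₂ (cvecLin (2 * n))

theorem mulB_apply (n : ℕ) (x y : Fin (n + 1) → Qb) :
    mulB n x y = cvec (2 * n) (toPoly n x * toPoly n y) := rfl

theorem mulB_eq_zero (n : ℕ) (x y : Fin (n + 1) → Qb) (h : mulB n x y = 0) : x = 0 ∨ y = 0 := by
  rw [mulB_apply] at h
  have hdeg : (toPoly n x * toPoly n y).natDegree ≤ 2 * n := by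
    refine Polynomial.natDegree_mul_le.trans ?_
    have h1 := natDegree_toPoly_le n x
    have h2 := natDegree_toPoly_le n y
    omega
  rcases mul_eq_zero.1 (eq_zero_of_cvec_eq_zero _ hdeg h) with h1 | h1
  · exact Or.inl (toPoly_eq_zero n h1)
  · exact Or.inr (toPoly_eq_zero n h1)

theorem vnorm_cvec_eq {n m : ℕ} {f : Qb[X]} (hn : f.natDegree ≤ n) (hm : f.natDegree ≤ m) :
    vnorm 𝔳 v (cvec n f) = vnorm 𝔳 v (cvec m f) := by
  have key : ∀ {a b : ℕ}, f.natDegree ≤ b → vnorm 𝔳 v (cvec a f) ≤ vnorm 𝔳 v (cvec b f) := by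
    intro a b hb
    refine vn_le 𝔳 v _ fun i => ?_
    by_cases hi : (i : ℕ) ≤ b
    · exact le_vn 𝔳 v (cvec b f) ⟨i, Nat.lt_succ_iff.2 hi⟩
    · have h0 : cvec a f i = 0 := Polynomial.coeff_eq_zero_of_natDegree_lt (by omega)
      rw [h0, map_zero]
      exact ((𝔳.av v).nonneg _).trans (le_vn 𝔳 v (cvec b f) 0)
  exact le_antisymm (key hm) (key hn)

theorem vnorm_cvec_pos {n : ℕ} {f : Qb[X]} (hn : f.natDegree ≤ n) (hf : f ≠ 0) :
    0 < vnorm 𝔳 v (cvec n f) :=
  vn_pos 𝔳 v (cvec n f) ⟨f.natDegree, Nat.lt_succ_iff.2 hn⟩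
    (by simpa [cvec] using hf)

/-- Gelfond's inequality from the two bilinear bounds. -/
theorem log_vnorm_mul_core (n : ℕ) (γ₁ γ₂ : MConst)
    (h₁ : ∀ (v : Pl) (x y : Fin (n + 1) → Qb),
      vnorm 𝔳 v x * vnorm 𝔳 v y ≤ Real.exp (γ₁.c v) * vnorm 𝔳 v (mulB n x y))
    (h₂ : ∀ (v : Pl) (x y : Fin (n + 1) → Qb),
      vnorm 𝔳 v (mulB n x y) ≤ Real.exp (γ₂.c v) * (vnorm 𝔳 v x * vnorm 𝔳 v y)) :
    ∃ γ : MConst, ∀ (v : Pl) (f g : Polynomial Qb), f ≠ 0 → g ≠ 0 → (f * g).natDegree ≤ n →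
      |Real.log (vnorm 𝔳 v (cvec n (f * g))) - Real.log (vnorm 𝔳 v (cvec n f)) -
        Real.log (vnorm 𝔳 v (cvec n g))| ≤ γ.c v := by
  obtain ⟨γ, hγ⟩ := exists_add γ₁ γ₂
  refine ⟨γ, fun v f g hf hg hdeg => ?_⟩
  have hfg : f * g ≠ 0 := mul_ne_zero hf hg
  have hd : (f * g).natDegree = f.natDegree + g.natDegree := Polynomial.natDegree_mul hf hg
  have hfn : f.natDegree ≤ n := by omega
  have hgn : g.natDegree ≤ n := by omega
  have hB : mulB n (cvec n f) (cvec n g) = cvec (2 * n) (f * g) := by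
    rw [mulB_apply, toPoly_cvec n hfn, toPoly_cvec n hgn]
  have hN : vnorm 𝔳 v (cvec (2 * n) (f * g)) = vnorm 𝔳 v (cvec n (f * g)) :=
    vnorm_cvec_eq 𝔳 v (by omega) hdeg
  have p1 := vnorm_cvec_pos 𝔳 v hfn hf
  have p2 := vnorm_cvec_pos 𝔳 v hgn hg
  have p3 := vnorm_cvec_pos 𝔳 v hdeg hfg
  have e1 := h₁ v (cvec n f) (cvec n g)
  have e2 := h₂ v (cvec n f) (cvec n g)
  rw [hB, hN] at e1 e2
  have l1 := Real.log_le_log (mul_pos p1 p2) e1
  have l2 := Real.log_le_log p3 e2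
  rw [Real.log_mul p1.ne' p2.ne', Real.log_mul (Real.exp_pos _).ne' p3.ne', Real.log_exp] at l1
  rw [Real.log_mul (Real.exp_pos _).ne' (mul_pos p1 p2).ne', Real.log_exp,
    Real.log_mul p1.ne' p2.ne'] at l2
  have n1 := γ₁.nonneg v
  have n2 := γ₂.nonneg v
  rw [hγ, abs_le]
  constructor <;> linarith

theorem vnorm_cvec_one (n : ℕ) : vnorm 𝔳 v (cvec n 1) = 1 := by
  apply le_antisymm
  · refine vn_le 𝔳 v _ fun i => ?_
    simp only [cvec, Polynomial.coeff_one]
    split_ifs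
    · simp
    · simp
  · have := le_vn 𝔳 v (cvec n 1) 0
    simpa [cvec] using this

theorem vnorm_cvec_X_sub_C {n : ℕ} (hn : 1 ≤ n) (a : Qb) :
    vnorm 𝔳 v (cvec n (X - C a)) = mx 𝔳 v a := by
  apply le_antisymm
  · refine vn_le 𝔳 v _ fun i => ?_
    simp only [cvec, Polynomial.coeff_sub, Polynomial.coeff_X, Polynomial.coeff_C]
    by_cases h0 : (i : ℕ) = 0
    · simp [h0, mx]
    · by_cases h1 : (i : ℕ) = 1
      · simp [h1, mx]
      · rw [if_neg (fun h => h1 h.symm), if_neg h0]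
        simp [mx]
  · refine max_le ?_ ?_
    · have := le_vn 𝔳 v (cvec n (X - C a)) ⟨1, by omega⟩
      simpa [cvec, Polynomial.coeff_X, Polynomial.coeff_C] using this
    · have := le_vn 𝔳 v (cvec n (X - C a)) 0
      simpa [cvec, Polynomial.coeff_X, Polynomial.coeff_C] using this

/-- roots versus coefficients from Gelfond's inequality. -/
theorem log_vnorm_prod_core (n : ℕ) (γ₁ : MConst)
    (h₁ : ∀ (v : Pl) (f g : Polynomial Qb), f ≠ 0 → g ≠ 0 → (f * g).natDegree ≤ n →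
      |Real.log (vnorm 𝔳 v (cvec n (f * g))) - Real.log (vnorm 𝔳 v (cvec n f)) -
        Real.log (vnorm 𝔳 v (cvec n g))| ≤ γ₁.c v) :
    ∃ γ : MConst, ∀ (v : Pl) (s : Multiset Qb), s.card ≤ n →
      |Real.log (vnorm 𝔳 v (cvec n (s.map fun a => Polynomial.X - Polynomial.C a).prod)) -
        (s.map fun a => Real.log (mx 𝔳 v a)).sum| ≤ γ.c v := by
  obtain ⟨γ, hγ⟩ := exists_nsmul n γ₁
  refine ⟨γ, fun v s hs => ?_⟩
  have key : ∀ s : Multiset Qb, s.card ≤ n →
      |Real.log (vnorm 𝔳 v (cvec n (s.map fun a => Polynomial.X - Polynomial.C a).prod)) -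
        (s.map fun a => Real.log (mx 𝔳 v a)).sum| ≤ s.card * γ₁.c v := by
    intro s
    induction s using Multiset.induction_on with
    | empty =>
      intro _
      simp [vnorm_cvec_one]
    | cons a s ih =>
      intro hs
      rw [Multiset.card_cons] at hs
      have ih' := ih (by omega)
      rw [Multiset.map_cons, Multiset.prod_cons, Multiset.map_cons, Multiset.sum_cons,
        Multiset.card_cons]
      have hf : (X - C a : Qb[X]) ≠ 0 := Polynomial.X_sub_C_ne_zero a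
      have hmon : (s.map fun a => (X - C a : Qb[X])).prod.Monic :=
        Polynomial.monic_multiset_prod_of_monic _ _ fun b _ => Polynomial.monic_X_sub_C b
      have hg : (s.map fun a => (X - C a : Qb[X])).prod ≠ 0 := hmon.ne_zero
      have hdeg : ((X - C a) * (s.map fun a => (X - C a : Qb[X])).prod).natDegree ≤ n := by
        rw [Polynomial.natDegree_mul hf hg, Polynomial.natDegree_X_sub_C,
          Polynomial.natDegree_multiset_prod_X_sub_C_eq_card]
        omega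
      have h2 := h₁ v _ _ hf hg hdeg
      rw [vnorm_cvec_X_sub_C 𝔳 v (by omega) a] at h2
      rw [abs_le] at h2 ih' ⊢
      push_cast
      constructor <;> nlinarith [h2.1, h2.2, ih'.1, ih'.2]
  refine (key s hs).trans ?_
  rw [hγ]
  exact mul_le_mul_of_nonneg_right (by exact_mod_cast hs) (γ₁.nonneg v)

end PolyLocal

variable (𝔳 : AbsFam)

/-- Gelfond's inequality, locally. -/
theorem log_vnorm_mul (n : ℕ) :
    ∃ γ : MConst, ∀ (v : Pl) (f g : Polynomial Qb), f ≠ 0 → g ≠ 0 → (f * g).natDegree ≤ n →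
      |Real.log (vnorm 𝔳 v (cvec n (f * g))) - Real.log (vnorm 𝔳 v (cvec n f)) -
        Real.log (vnorm 𝔳 v (cvec n g))| ≤ γ.c v := by
  obtain ⟨γ₁, h₁⟩ := bilin_lower 𝔳 (PolyLocal.mulB n) (PolyLocal.mulB_eq_zero n)
  obtain ⟨γ₂, h₂⟩ := bilin_upper 𝔳 (PolyLocal.mulB n)
  exact PolyLocal.log_vnorm_mul_core 𝔳 n γ₁ γ₂ h₁ h₂

/-- roots versus coefficients, locally. -/
theorem log_vnorm_prod_X_sub_C (n : ℕ) :
    ∃ γ : MConst, ∀ (v : Pl) (s : Multiset Qb), s.card ≤ n →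
      |Real.log (vnorm 𝔳 v (cvec n (s.map fun a => Polynomial.X - Polynomial.C a).prod)) -
        (s.map fun a => Real.log (mx 𝔳 v a)).sum| ≤ γ.c v := by
  obtain ⟨γ₁, h₁⟩ := log_vnorm_mul 𝔳 n
  exact PolyLocal.log_vnorm_prod_core 𝔳 n γ₁ h₁

end Fermat.Agent.S17.H
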