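import Fermat.Agent.S17.H.FibDef

/-!
# S17, part H, node X1-c (NP5): the multiplicity of `P` in the fibre multiset is the order of
`t - t(P)` at `P` (helper206)
-/

set_option autoImplicit false

noncomputable section

open scoped Classical

namespace Fermat.Agent.S17.H

open Polynomial Module

section General

universe u v

variable {K : Type u} {A : Type v} [Field K] [CommRing A] [Algebra K A]

/-- `A/(t-β)` has the basis `y_j`, and multiplication by `f` has the matrix `mm f` at `β`. -/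
theorem exists_basis_quot_of_free (t : A) {d : ℕ} (y : Fin d → A)
    (hy : ∀ f : A, ∃! p : Fin d → K[X], f = ∑ j, aeval t (p j) * y j)
    (mm : A → Matrix (Fin d) (Fin d) K[X])
    (hmm : ∀ f j, f * y j = ∑ i, aeval t (mm f i j) * y i) (β : K) :
    ∃ bs : Basis (Fin d) K (A ⧸ Ideal.span {t - algebraMap K A β}), ∀ f : A,
      LinearMap.toMatrix bs bs (Algebra.lsmul K K (A ⧸ Ideal.span {t - algebraMap K A β}) f) =
        (mm f).map (eval β) := by
  set I : Ideal A := Ideal.span {t - algebraMap K A β} with hI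
  have hkey : ∀ p : K[X], Ideal.Quotient.mk I (aeval t p) = algebraMap K (A ⧸ I) (eval β p) := by
    intro p
    have h1 : (X - C β : K[X]) ∣ p - C (p.eval β) := X_sub_C_dvd_sub_C_eval
    have h2 := map_dvd (aeval t) h1
    rw [map_sub, map_sub, aeval_X, aeval_C, aeval_C] at h2
    have h3 : aeval t p - algebraMap K A (eval β p) ∈ I := Ideal.mem_span_singleton.mpr h2
    rw [← Ideal.Quotient.eq] at h3
    rw [h3]; rfl
  let vv : Fin d → A ⧸ I := fun j => Ideal.Quotient.mk I (y j)
  have hexp : ∀ p : Fin d → K[X], Ideal.Quotient.mk I (∑ j, aeval t (p j) * y j) =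
      ∑ j, eval β (p j) • vv j := by
    intro p
    rw [map_sum]
    refine Finset.sum_congr rfl fun j _ => ?_
    rw [map_mul, hkey, Algebra.smul_def]
  have hli : LinearIndependent K vv := by
    rw [Fintype.linearIndependent_iff]
    intro c hc
    have h1 : Ideal.Quotient.mk I (∑ j, aeval t (C (c j)) * y j) = 0 := by
      rw [hexp]; simpa using hc
    rw [Ideal.Quotient.eq_zero_iff_mem, hI, Ideal.mem_span_singleton'] at h1
    obtain ⟨h, hh⟩ := h1
    obtain ⟨q, hq, -⟩ := hy h
    have h2 : ∑ j, aeval t (C (c j)) * y j = ∑ j, aeval t ((X - C β) * q j) * y j := by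
      rw [← hh, hq, Finset.sum_mul]
      refine Finset.sum_congr rfl fun j _ => ?_
      rw [map_mul, map_sub, aeval_X, aeval_C]; ring
    have h3 := (hy (∑ j, aeval t (C (c j)) * y j)).unique (y₁ := fun j => C (c j))
      (y₂ := fun j => (X - C β) * q j) rfl h2
    intro j
    have h4 := congrArg (eval β) (congrFun h3 j)
    simpa using h4
  have hsp : ⊤ ≤ Submodule.span K (Set.range vv) := by
    intro x _
    obtain ⟨f, rfl⟩ := Ideal.Quotient.mk_surjective x
    obtain ⟨p, hp, -⟩ := hy f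
    rw [hp, hexp]
    exact Submodule.sum_mem _ fun j _ => Submodule.smul_mem _ _ (Submodule.subset_span ⟨j, rfl⟩)
  let bs : Basis (Fin d) K (A ⧸ I) := Basis.mk hli hsp
  have hbs : ∀ j, bs j = vv j := fun j => Basis.mk_apply hli hsp j
  refine ⟨bs, fun f => ?_⟩
  ext i j
  rw [LinearMap.toMatrix_apply, Matrix.map_apply, hbs]
  have h1 : (Algebra.lsmul K K (A ⧸ I) f) (vv j) = ∑ i, eval β (mm f i j) • bs i := by
    have : (Algebra.lsmul K K (A ⧸ I) f) (vv j) = Ideal.Quotient.mk I (f * y j) := rfl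
    rw [this, hmm, hexp]
    simp only [hbs]
  rw [h1, Basis.repr_sum_self]

/-- In a Dedekind domain, `A/m_P^n` has dimension `n` and `f` acts on it with characteristic
polynomial `(X - f(P))^n`. -/
theorem charpoly_quot_ker_pow [IsDedekindDomain A] (P : A →ₐ[K] K)
    (hP : RingHom.ker (P : A →+* K) ≠ ⊥) (n : ℕ) :
    ∃ _ : FiniteDimensional K (A ⧸ RingHom.ker (P : A →+* K) ^ n), ∀ f : A,
      (Algebra.lsmul K K (A ⧸ RingHom.ker (P : A →+* K) ^ n) f).charpoly = (X - C (P f)) ^ n := by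
  set m : Ideal A := RingHom.ker (P : A →+* K) with hm
  have hmax : m.IsMaximal :=
    RingHom.ker_isMaximal_of_surjective (P : A →+* K) fun c => ⟨algebraMap K A c, P.commutes c⟩
  have hprime : m.IsPrime := hmax.isPrime
  have hsub : ∀ f : A, f - algebraMap K A (P f) ∈ m := by
    intro f
    rw [hm, RingHom.mem_ker]
    change P (f - algebraMap K A (P f)) = 0
    rw [map_sub, AlgHom.commutes, Algebra.algebraMap_self, RingHom.id_apply, sub_self]
  induction n with
  | zero =>
    have hs : Subsingleton (A ⧸ m ^ 0) :=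
      Ideal.Quotient.subsingleton_iff.2 (by rw [pow_zero, Ideal.one_eq_top])
    refine ⟨inferInstance, fun f => ?_⟩
    have h1 := LinearMap.charpoly_natDegree (Algebra.lsmul K K (A ⧸ m ^ 0) f)
    rw [Module.finrank_zero_of_subsingleton] at h1
    exact ((LinearMap.charpoly_monic _).natDegree_eq_zero.mp h1).trans (pow_zero _).symm
  | succ n ih =>
    obtain ⟨hfd, ih⟩ := ih
    obtain ⟨a, ha, ha'⟩ := SetLike.exists_of_lt (Ideal.pow_succ_lt_pow hP n)
    have hle : m ^ (n + 1) ≤ m ^ n := Ideal.pow_le_pow_right (Nat.le_succ n)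
    let i : K →ₗ[K] A ⧸ m ^ (n + 1) :=
      LinearMap.toSpanSingleton K _ (Ideal.Quotient.mk (m ^ (n + 1)) a)
    let q : (A ⧸ m ^ (n + 1)) →ₗ[K] A ⧸ m ^ n := (Ideal.Quotient.factorₐ K hle).toLinearMap
    have hi_apply : ∀ c : K, i c = c • Ideal.Quotient.mk (m ^ (n + 1)) a := fun c => rfl
    have hq_apply : ∀ c : A, q (Ideal.Quotient.mk (m ^ (n + 1)) c) = Ideal.Quotient.mk (m ^ n) c :=
      fun c => rfl
    have hmk0 : Ideal.Quotient.mk (m ^ (n + 1)) a ≠ 0 := by
      rw [Ne, Ideal.Quotient.eq_zero_iff_mem]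
      exact ha'
    -- `f a ≡ f(P) a`
    have hfa : ∀ f : A, Ideal.Quotient.mk (m ^ (n + 1)) (f * a) =
        P f • Ideal.Quotient.mk (m ^ (n + 1)) a := by
      intro f
      have h1 : f * a - algebraMap K A (P f) * a ∈ m ^ (n + 1) := by
        rw [← sub_mul, pow_succ']
        exact Ideal.mul_mem_mul (hsub f) ha
      rw [(Ideal.Quotient.eq).2 h1, map_mul, Algebra.smul_def]
      rfl
    have hinj : Function.Injective i := by
      rw [injective_iff_map_eq_zero]
      intro c hc
      rw [hi_apply] at hc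
      exact (smul_eq_zero.1 hc).resolve_right hmk0
    have hsurj : Function.Surjective q := by
      intro x
      obtain ⟨c, rfl⟩ := Ideal.Quotient.mk_surjective x
      exact ⟨Ideal.Quotient.mk _ c, rfl⟩
    have hex : Function.Exact i q := by
      intro x
      obtain ⟨c, rfl⟩ := Ideal.Quotient.mk_surjective x
      rw [hq_apply, Ideal.Quotient.eq_zero_iff_mem]
      constructor
      · intro hc
        obtain ⟨d, e, he, hde⟩ := Ideal.exists_mul_add_mem_pow_succ hP a c ha ha' hc
        refine ⟨P d, ?_⟩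
        rw [hi_apply, ← hfa, ← hde, map_add, (Ideal.Quotient.eq_zero_iff_mem).2 he, add_zero,
          mul_comm]
      · rintro ⟨r, hr⟩
        have h1 := congrArg q hr
        rw [hi_apply, map_smul, hq_apply, hq_apply, (Ideal.Quotient.eq_zero_iff_mem).2 ha,
          smul_zero] at h1
        exact (Ideal.Quotient.eq_zero_iff_mem).1 h1.symm
    have hfd' : FiniteDimensional K (A ⧸ m ^ (n + 1)) := Module.Finite.of_exact hex hsurj
    refine ⟨hfd', fun f => ?_⟩
    have h := charpoly_of_exact i q hinj hsurj hex (algebraMap K (Module.End K K) (P f))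
      (Algebra.lsmul K K (A ⧸ m ^ (n + 1)) f) (Algebra.lsmul K K (A ⧸ m ^ n) f)
      (fun x => by
        have h2 : (Algebra.lsmul K K (A ⧸ m ^ (n + 1)) f) (i x) =
            x • Ideal.Quotient.mk (m ^ (n + 1)) (f * a) := by
          rw [hi_apply, map_smul]
          rfl
        rw [h2, hfa, hi_apply, smul_smul, mul_comm]
        rfl)
      (fun x => by
        obtain ⟨c, rfl⟩ := Ideal.Quotient.mk_surjective x
        rfl)
    rw [h, ih f, charpoly_algebraMap, Module.finrank_self, pow_one, pow_succ']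

end General

variable {A : Type} [CommRing A] [Algebra Qb A] (C : WCurve A)

theorem countFib_t_sub_ne_zero (β : Qb) : C.t - algebraMap Qb A β ≠ 0 := by
  intro h
  have h1 : C.b 1 = β • C.b 0 := by
    rw [C.b_zero, ← Algebra.algebraMap_eq_smul_one]
    exact sub_eq_zero.1 h
  have h2 := congrArg (fun x => C.b.repr x 1) h1
  simp at h2

theorem charpoly_quot_mI_pow [IsDedekindDomain A] (P : Pt A) (hP : mI P ≠ ⊥) (n : ℕ) :
    ∃ _ : FiniteDimensional Qb (A ⧸ mI P ^ n), ∀ f : A,
      (Algebra.lsmul Qb Qb (A ⧸ mI P ^ n) f).charpoly = (X - Polynomial.C (P f)) ^ n :=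
  charpoly_quot_ker_pow P hP n

/-- the multiplicity of `P` in its fibre is the order of `t - t(P)` at `P`. -/
theorem count_Fib_eq [IsDedekindDomain A] (P : Pt A) {e : ℕ}
    (h1 : C.t - algebraMap Qb A (P C.t) ∈ mI P ^ e)
    (h2 : C.t - algebraMap Qb A (P C.t) ∉ mI P ^ (e + 1)) :
    (Fib C (P C.t)).count P = e := by
  have hxm : C.t - algebraMap Qb A (P C.t) ∈ mI P := t_sub_mem_mI C P
  have hPβ : P C.t = P C.t := rfl
  generalize P C.t = β at h1 h2 hxm hPβ
  have hx0 : C.t - algebraMap Qb A β ≠ 0 := countFib_t_sub_ne_zero C β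
  obtain ⟨bs, hbs⟩ := exists_basis_quot_of_free C.t (fun j => C.b (ap C j))
    (exists_unique_apery C) (mulMat C) (mul_b_ap_eq_sum_mulMatOf C (exists_unique_apery C)) β
  have hQx : ∀ Q ∈ Fib C β, C.t - algebraMap Qb A β ∈ mI Q := by
    intro Q hQ
    rw [mem_mI, map_sub, AlgHom.commutes, (mem_Fib C).1 hQ]
    simp
  generalize C.t - algebraMap Qb A β = x at h1 h2 hxm hx0 bs hbs hQx
  have hIx : ∀ 𝔞 : Ideal A, x ∈ 𝔞 → Ideal.span {x} ≤ 𝔞 :=
    fun 𝔞 h => (Ideal.span_singleton_le_iff_mem _).2 h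
  have hxI : x ∈ Ideal.span {x} := Ideal.mem_span_singleton_self x
  generalize Ideal.span {x} = I at bs hbs hIx hxI
  have hm0 : mI P ≠ ⊥ := by
    intro h
    rw [h] at hxm
    exact hx0 hxm
  have hIle : I ≤ mI P ^ e := hIx _ h1
  obtain ⟨J, hJ⟩ : mI P ^ e ∣ I := Ideal.dvd_iff_le.2 hIle
  have hJm : ¬ J ≤ mI P := by
    intro h
    apply h2
    have h3 : I ≤ mI P ^ (e + 1) := by
      rw [hJ, pow_succ]
      exact Ideal.mul_mono_right h
    exact h3 hxI
  obtain ⟨j₀, hj₀, hj₀'⟩ := SetLike.not_le_iff_exists.1 hJm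
  have hPj₀ : P j₀ ≠ 0 := hj₀'
  obtain ⟨j, hjJ, hPj⟩ : ∃ j ∈ J, P j = 1 :=
    ⟨(P j₀)⁻¹ • j₀, Submodule.smul_of_tower_mem J _ hj₀, by
      rw [map_smul, smul_eq_mul, inv_mul_cancel₀ hPj₀]⟩
  have hQj : ∀ Q ∈ Fib C β, Q ≠ P → Q j = 0 := by
    intro Q hQ hne
    have hQI : I ≤ mI Q := hIx _ (hQx Q hQ)
    rw [hJ, (mI_isPrime Q).mul_le] at hQI
    rcases hQI with h | h
    · exfalso
      have h3 : mI P ≤ mI Q := (mI_isPrime Q).le_of_pow_le h
      exact hne (mI_injective ((mI_isMaximal P).eq_of_le (mI_ne_top Q) h3)).symm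
    · exact h hjJ
  have hfdI : FiniteDimensional Qb (A ⧸ I) := Module.Finite.of_basis bs
  obtain ⟨hfde, hche⟩ := charpoly_quot_mI_pow P hm0 e
  let q : (A ⧸ I) →ₗ[Qb] A ⧸ mI P ^ e := (Ideal.Quotient.factorₐ Qb hIle).toLinearMap
  have hq_apply : ∀ c : A, q (Ideal.Quotient.mk I c) = Ideal.Quotient.mk (mI P ^ e) c :=
    fun c => rfl
  have hsurj : Function.Surjective q := by
    intro y
    obtain ⟨c, rfl⟩ := Ideal.Quotient.mk_surjective y
    exact ⟨Ideal.Quotient.mk _ c, rfl⟩
  have h := charpoly_of_exact (LinearMap.ker q).subtype q (Submodule.injective_subtype _) hsurj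
    (LinearMap.exact_subtype_ker_map q) 0 (Algebra.lsmul Qb Qb (A ⧸ I) j)
    (Algebra.lsmul Qb Qb (A ⧸ mI P ^ e) j)
    (fun y => by
      obtain ⟨y, hy⟩ := y
      obtain ⟨c, rfl⟩ := Ideal.Quotient.mk_surjective y
      rw [LinearMap.mem_ker, hq_apply, Ideal.Quotient.eq_zero_iff_mem] at hy
      have h3 : Ideal.Quotient.mk I (j * c) = 0 := by
        rw [Ideal.Quotient.eq_zero_iff_mem, hJ, mul_comm j c]
        exact Ideal.mul_mem_mul hy hjJ
      rw [LinearMap.zero_apply, map_zero]
      exact h3.symm)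
    (fun y => by
      obtain ⟨c, rfl⟩ := Ideal.Quotient.mk_surjective y
      rfl)
  rw [LinearMap.charpoly_zero, hche j, hPj, ← LinearMap.charpoly_toMatrix _ bs, hbs,
    charpoly_Fib] at h
  have h3 : ((Fib C β).map fun Q => Q j) =
      (X ^ finrank Qb (LinearMap.ker q) * (X - Polynomial.C (1 : Qb)) ^ e).roots := by
    rw [← h, ← roots_multiset_prod_X_sub_C ((Fib C β).map fun Q => Q j), Multiset.map_map]
    rfl
  have h4 : (X ^ finrank Qb (LinearMap.ker q) * (X - Polynomial.C (1 : Qb)) ^ e).roots.count 1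
      = e := by
    rw [roots_mul (mul_ne_zero (pow_ne_zero _ X_ne_zero) (pow_ne_zero _ (X_sub_C_ne_zero 1))),
      roots_pow, roots_pow, roots_X, roots_X_sub_C]
    simp
  rw [← h3, Multiset.count_map] at h4
  rw [← h4, Multiset.count_eq_card_filter_eq]
  congr 1
  refine Multiset.filter_congr fun Q hQ => ?_
  constructor
  · rintro rfl
    exact hPj.symm
  · intro h5
    by_contra hne
    rw [hQj Q hQ (fun h => hne h.symm)] at h5
    exact one_ne_zero h5

/-- NP5: the multiplicity of `P` in its fibre is the order of `t - t(P)` at `P`. -/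
theorem count_Fib [IsDedekindDomain A] (P : Pt A) :
    C.t - algebraMap Qb A (P C.t) ∈ mI P ^ ((Fib C (P C.t)).count P) ∧
      C.t - algebraMap Qb A (P C.t) ∉ mI P ^ ((Fib C (P C.t)).count P + 1) := by
  have hx0 : C.t - algebraMap Qb A (P C.t) ≠ 0 := countFib_t_sub_ne_zero C _
  have hex : ∃ n, C.t - algebraMap Qb A (P C.t) ∉ mI P ^ n := by
    by_contra hcon
    apply hx0
    have h1 : C.t - algebraMap Qb A (P C.t) ∈ ⨅ n : ℕ, mI P ^ n :=
      (Ideal.mem_iInf).2 fun n => by_contra fun h => hcon ⟨n, h⟩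
    rw [Ideal.iInf_pow_eq_bot_of_isDomain _ (mI_ne_top P)] at h1
    exact h1
  have hn := Nat.find_spec hex
  have hmin := fun k => Nat.find_min hex (m := k)
  generalize Nat.find hex = n at hn hmin
  obtain ⟨e, rfl⟩ : ∃ e, n = e + 1 := by
    refine Nat.exists_eq_succ_of_ne_zero ?_
    rintro rfl
    apply hn
    rw [pow_zero, Ideal.one_eq_top]
    trivial
  have he : C.t - algebraMap Qb A (P C.t) ∈ mI P ^ e := not_not.1 (hmin e (Nat.lt_succ_self e))
  rw [count_Fib_eq C P he hn]
  exact ⟨he, hn⟩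

end Fermat.Agent.S17.H
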