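import Fermat.Agent.S17.H.Abs

/-!
# S17, part H: affine curves with one rational point at infinity, abstractly

`A` is the ring of functions over `ℚ̄` regular outside the point `∞`; it comes with a basis `b i`
(`i : ℕ`) of functions with rational structure constants and strictly increasing pole orders `ρ i`
at `∞`.  Definitions only.  Owner of this file: helper257.
-/

set_option autoImplicit false

noncomputable section

open scoped Classical

namespace Fermat.Agent.S17.H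

/-- Weierstrass data at infinity. -/
structure WCurve (A : Type) [CommRing A] [Algebra Qb A] where
  /-- a basis of `A` over `ℚ̄` -/
  b : Module.Basis ℕ Qb A
  /-- pole order of `b i` at infinity -/
  ρ : ℕ → ℕ
  /-- the number of gaps -/
  g : ℕ
  ρ_strictMono : StrictMono ρ
  ρ_zero : ρ 0 = 0
  b_zero : b 0 = 1
  ρ_large : ∃ i₀, ∀ i, i₀ ≤ i → ρ i = i + g
  /-- pole orders add, leading coefficients are normalised, structure constants are rational -/
  mul_b : ∀ i j, ∃ (k : ℕ) (c : ℕ → ℚ), ρ k = ρ i + ρ j ∧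
    b i * b j = b k + ∑ l ∈ Finset.range k, algebraMap ℚ Qb (c l) • b l

/-- The `ℚ̄`-points of the affine curve. -/
abbrev Pt (A : Type) [CommRing A] [Algebra Qb A] : Type := A →ₐ[Qb] Qb

/-- the ideal of functions vanishing on `E`. -/
def idealOf {A : Type} [CommRing A] [Algebra Qb A] (E : Finset (Pt A)) : Ideal A :=
  ⨅ P ∈ E, RingHom.ker (P : A →+* Qb)

namespace WCurve

variable {A : Type} [CommRing A] [Algebra Qb A] (C : WCurve A)

/-- the function `t` (first nonconstant basis element) -/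
def t : A := C.b 1

/-- the degree of `t` -/
def d : ℕ := C.ρ 1

/-- `dim V_n`, where `V_n` is the space of functions with pole order `≤ n`. -/
def dim (n : ℕ) : ℕ := ((Finset.range (n + 1)).filter fun i => C.ρ i ≤ n).card

/-- `V_n`: functions with pole order `≤ n`. -/
def V (n : ℕ) : Submodule Qb A := Submodule.span Qb (C.b '' {i | C.ρ i ≤ n})

/-- pole order (weight) of a function; `0` for the zero function. -/
def wt (f : A) : ℕ := (C.b.repr f).support.sup C.ρ

/-- leading coefficient at infinity. -/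
def lc (f : A) : Qb := C.b.repr f ((C.b.repr f).support.sup id)

/-- rational functions: rational coordinates in the basis `b`. -/
def IsRat (f : A) : Prop := ∀ i, C.b.repr f i ∈ Set.range (algebraMap ℚ Qb)

/-- the evaluation vector `φ_n(P) = (b_i(P))_{i < dim V_n}`. -/
def ev (n : ℕ) (P : Pt A) : Fin (C.dim n) → Qb := fun i => P (C.b i)

/-- the evaluation matrix of a finite set of points. -/
def evMat (n : ℕ) (E : Finset (Pt A)) : Matrix E (Fin (C.dim n)) Qb := fun P i => P.1 (C.b i)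

/-- a finite set of points stable under `Gal(ℚ̄/ℚ)`. -/
def GalStable (E : Finset (Pt A)) : Prop :=
  ∀ σ : Qb ≃ₐ[ℚ] Qb, ∀ P ∈ E, ∃ P' ∈ E, ∀ i, P' (C.b i) = σ (P (C.b i))

/-- the fibre of `t` over `α`, as a set. -/
def fib (α : Qb) : Set (Pt A) := {P | P C.t = α}

variable (𝔳 : AbsFam)

/-- local height relative to `∞`: `λ_v(P) = (1/d) log max(1, |t(P)|_v)`. -/
def lam (v : Pl) (P : Pt A) : ℝ := Real.log (mx 𝔳 v (P C.t)) / C.d

/-- `‖φ_m(P) ∧ φ_m(Q)‖_v`. -/
def w2 (m : ℕ) (v : Pl) (P Q : Pt A) : ℝ :=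
  ⨆ kl : Fin (C.dim m) × Fin (C.dim m),
    𝔳.av v (P (C.b kl.1) * Q (C.b kl.2) - P (C.b kl.2) * Q (C.b kl.1))

/-- the local diagonal function `g_v(P,Q) = log ‖φ_m P ∧ φ_m Q‖_v - m λ_v(P) - m λ_v(Q)`. -/
def gl (m : ℕ) (v : Pl) (P Q : Pt A) : ℝ :=
  Real.log (C.w2 𝔳 m v P Q) - m * C.lam 𝔳 v P - m * C.lam 𝔳 v Q

/-- `h(E) = ∑_v ∑_{P ∈ E} λ_v(P)`. -/
def hE (E : Finset (Pt A)) : ℝ := ∑ᶠ v, ∑ P ∈ E, C.lam 𝔳 v P

/-- `I₂(E) = - ∑_v ∑_{unordered pairs} g_v(P,Q)`. -/
def I2 (m : ℕ) (E : Finset (Pt A)) : ℝ := -(∑ᶠ v, ∑ x ∈ E.offDiag, C.gl 𝔳 m v x.1 x.2) / 2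

/-- `Φ_n(E) = ∑_v log ‖∧_{P ∈ E} φ_n(P)‖_v`. -/
def Phi (n : ℕ) (E : Finset (Pt A)) : ℝ := wht 𝔳 (C.evMat n E)

/-- the exactly quadratic function `Q(E) = (e + g - 1) h(E) - I₂(E)`. -/
def Qd (m : ℕ) (E : Finset (Pt A)) : ℝ := ((E.card : ℝ) + C.g - 1) * C.hE 𝔳 E - C.I2 𝔳 m E

/-- `Θ_w(E) = Φ_n(E) - w h(E)` with `n = e + g - 1 + w`. -/
def Theta (w : ℕ) (E : Finset (Pt A)) : ℝ := C.Phi 𝔳 (E.card + C.g + w - 1) E - w * C.hE 𝔳 E

end WCurve

end Fermat.Agent.S17.H
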