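import Fermat.Agent.S17.H.Weight
import Fermat.Agent.S17.H.Apery

/-!
# S17, part H, block X1 (shared node): the coefficient of weight `n`

`cw C n f` is the coordinate of `f` at the unique index `i` with `ρ i = n` (`0` if `n` is a gap).
It is multiplicative on `V n × V n'`; the top coefficient of the norm is `± cw n f ^ d`.
(task S17-H-X1-a, helper187)
-/

set_option autoImplicit false

noncomputable section

open scoped Classical

namespace Fermat.Agent.S17.H

open Polynomial Weight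

variable {A : Type} [CommRing A] [Algebra Qb A] (C : WCurve A)

/-- the coefficient of weight `n` of `f`. -/
def cw (n : ℕ) (f : A) : Qb :=
  ∑ i ∈ (C.b.repr f).support.filter (fun i => C.ρ i = n), C.b.repr f i

theorem cw_eq_repr {n i : ℕ} (hi : C.ρ i = n) (f : A) : cw C n f = C.b.repr f i := by
  unfold cw
  rw [Finset.sum_filter, Finset.sum_eq_single i]
  · rw [if_pos hi]
  · intro j _ hj
    rw [if_neg]
    intro h
    exact hj (C.ρ_strictMono.injective (h.trans hi.symm))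
  · intro h
    rw [if_pos hi]
    exact Finsupp.notMem_support_iff.1 h

theorem cw_eq_zero_of_gap {n : ℕ} (hn : ∀ i, C.ρ i ≠ n) (f : A) : cw C n f = 0 := by
  unfold cw
  rw [Finset.filter_false_of_mem fun i _ => hn i, Finset.sum_empty]

theorem cw_add (n : ℕ) (f h : A) : cw C n (f + h) = cw C n f + cw C n h := by
  by_cases hn : ∃ i, C.ρ i = n
  · obtain ⟨i, hi⟩ := hn
    rw [cw_eq_repr C hi, cw_eq_repr C hi, cw_eq_repr C hi, map_add, Finsupp.add_apply]
  · push Not at hn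
    rw [cw_eq_zero_of_gap C hn, cw_eq_zero_of_gap C hn, cw_eq_zero_of_gap C hn, add_zero]

theorem cw_smul (n : ℕ) (r : Qb) (f : A) : cw C n (r • f) = r * cw C n f := by
  by_cases hn : ∃ i, C.ρ i = n
  · obtain ⟨i, hi⟩ := hn
    rw [cw_eq_repr C hi, cw_eq_repr C hi, map_smul, Finsupp.smul_apply, smul_eq_mul]
  · push Not at hn
    rw [cw_eq_zero_of_gap C hn, cw_eq_zero_of_gap C hn, mul_zero]

theorem cw_zero (n : ℕ) : cw C n (0 : A) = 0 := by
  have := cw_smul C n 0 (0 : A)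
  rwa [zero_smul, zero_mul] at this

theorem cw_neg (n : ℕ) (f : A) : cw C n (-f) = - cw C n f := by
  have := cw_smul C n (-1) f
  rwa [neg_one_smul, neg_one_mul] at this

theorem cw_sub (n : ℕ) (f h : A) : cw C n (f - h) = cw C n f - cw C n h := by
  rw [sub_eq_add_neg, cw_add, cw_neg, sub_eq_add_neg]

theorem cw_sum {ι : Type*} (n : ℕ) (s : Finset ι) (T : ι → A) :
    cw C n (∑ l ∈ s, T l) = ∑ l ∈ s, cw C n (T l) := by
  induction s using Finset.induction_on with
  | empty => simpa using cw_zero C n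
  | insert a s ha ih => rw [Finset.sum_insert ha, Finset.sum_insert ha, cw_add, ih]

theorem cw_eq_zero_of_mem {n n' : ℕ} (h : n' < n) {f : A} (hf : f ∈ C.V n') : cw C n f = 0 := by
  by_cases hn : ∃ i, C.ρ i = n
  · obtain ⟨i, hi⟩ := hn
    rw [cw_eq_repr C hi]
    by_contra hne
    have h1 : C.ρ i ≤ C.wt f := Finset.le_sup (f := C.ρ) (Finsupp.mem_support_iff.2 hne)
    have h2 := (mem_V_iff C _ _).1 hf
    omega
  · push Not at hn
    exact cw_eq_zero_of_gap C hn f

theorem cw_eq_lc {f : A} (_hf : f ≠ 0) : cw C (C.wt f) f = C.lc f := by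
  rw [cw_eq_repr C (wt_eq_rho_top f).symm, lc_eq]

theorem cw_b (i : ℕ) : cw C (C.ρ i) (C.b i) = 1 := by
  rw [cw_eq_repr C rfl, Module.Basis.repr_self, Finsupp.single_eq_same]

theorem Cw.mem_Lt_succ {n i : ℕ} (hi : C.ρ i = n) {f : A} (hf : f ∈ C.V n) : f ∈ Lt C (i + 1) := by
  rw [mem_Lt_iff]
  intro l hl
  by_contra hne
  have h1 : C.ρ l ≤ C.wt f := Finset.le_sup (f := C.ρ) (Finsupp.mem_support_iff.2 hne)
  have h2 := (mem_V_iff C _ _).1 hf
  have h3 := C.ρ_strictMono (Nat.lt_of_succ_le hl)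
  omega

/-- an element of `V n`, `n` a gap, lies in `V (n - 1)`, and `1 ≤ n`. -/
theorem Cw.mem_V_pred_of_gap {n : ℕ} (hn : ∀ i, C.ρ i ≠ n) {f : A} (hf : f ∈ C.V n) :
    1 ≤ n ∧ f ∈ C.V (n - 1) := by
  have h0 : n ≠ 0 := fun h => hn 0 (C.ρ_zero.trans h.symm)
  have h1 := (mem_V_iff C _ _).1 hf
  have h2 : C.wt f ≠ n := by
    rw [wt_eq_rho_top]
    exact hn _
  exact ⟨by omega, (mem_V_iff C _ _).2 (by omega)⟩

theorem cw_mul {n n' : ℕ} {f h : A} (hf : f ∈ C.V n) (hh : h ∈ C.V n') :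
    cw C (n + n') (f * h) = cw C n f * cw C n' h := by
  by_cases hn : ∃ i, C.ρ i = n
  · by_cases hn' : ∃ j, C.ρ j = n'
    · obtain ⟨i, hi⟩ := hn
      obtain ⟨j, hj⟩ := hn'
      rw [cw_eq_repr C hi, cw_eq_repr C hj,
        cw_eq_repr C (i := kap C i j) (by rw [rho_kap, hi, hj]),
        repr_mul (Cw.mem_Lt_succ C hi hf) (Cw.mem_Lt_succ C hj hh)]
    · push Not at hn'
      obtain ⟨h1, h2⟩ := Cw.mem_V_pred_of_gap C hn' hh
      rw [cw_eq_zero_of_gap C hn', mul_zero]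
      exact cw_eq_zero_of_mem C (by omega) (mul_mem_V C hf h2)
  · push Not at hn
    obtain ⟨h1, h2⟩ := Cw.mem_V_pred_of_gap C hn hf
    rw [cw_eq_zero_of_gap C hn, zero_mul]
    exact cw_eq_zero_of_mem C (by omega) (mul_mem_V C h2 hh)

theorem cw_pow {n : ℕ} {f : A} (hf : f ∈ C.V n) (k : ℕ) : cw C (k * n) (f ^ k) = cw C n f ^ k := by
  induction k with
  | zero =>
    have h := cw_b C 0
    rw [C.ρ_zero, C.b_zero] at h
    rw [pow_zero, pow_zero, zero_mul]
    exact h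
  | succ k ih =>
    rw [pow_succ, pow_succ, Nat.succ_mul, cw_mul C (pow_mem_V C hf k) hf, ih]

/-! ### the top coefficient of `p(t)` and of the Apéry coordinates -/

theorem cw_t : cw C C.d C.t = 1 := cw_b C 1

theorem cw_t_pow (e : ℕ) : cw C (C.d * e) (C.t ^ e) = 1 := by
  rw [mul_comm, cw_pow C (t_mem_V C), cw_t, one_pow]

theorem cw_aeval {p : Qb[X]} {e : ℕ} (hp : p.natDegree ≤ e) :
    cw C (C.d * e) (aeval C.t p) = p.coeff e := by
  rw [aeval_eq_sum_range' (Nat.lt_succ_of_le hp), cw_sum, Finset.sum_eq_single e]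
  · rw [cw_smul, cw_t_pow, mul_one]
  · intro k hk hne
    have hke : k < e := lt_of_le_of_ne (Nat.lt_succ_iff.1 (Finset.mem_range.1 hk)) hne
    have hlt : k * C.d < C.d * e := by
      rw [mul_comm]
      exact Nat.mul_lt_mul_of_pos_left hke (d_pos C)
    rw [cw_smul, cw_eq_zero_of_mem C hlt (pow_mem_V C (t_mem_V C) k), mul_zero]
  · intro h
    exact absurd (Finset.mem_range.2 (Nat.lt_succ_self e)) h

/-- the coefficient of weight `N = d e + ρ (ap i)` of `g ∈ V N` is the coefficient of `T ^ e` of the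
`i`-th Apéry coordinate. -/
theorem cw_eq_coeff_aperyCoeff {N e : ℕ} {i : Fin C.d} (hN : C.d * e + C.ρ (ap C i) = N) {g : A}
    (hg : g ∈ C.V N) : cw C N g = (aperyCoeff C g i).coeff e := by
  have hd := d_pos C
  conv_lhs => rw [aperyCoeff_spec C g]
  rw [cw_sum, Finset.sum_eq_single i]
  · have hdeg : (aperyCoeff C g i).natDegree ≤ e := by
      by_cases h0 : aperyCoeff C g i = 0
      · rw [h0]
        simp
      · have h1 := natDegree_aperyCoeff_le C hg i h0
        have h2 : C.d * (aperyCoeff C g i).natDegree ≤ C.d * e := by omega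
        exact Nat.le_of_mul_le_mul_left h2 hd
    have h1 : aeval C.t (aperyCoeff C g i) ∈ C.V (C.d * e) := by
      rw [mem_V_iff, apery_wt_aeval]
      exact Nat.mul_le_mul_left _ hdeg
    rw [← hN, cw_mul C h1 ((b_mem_V_iff C _ _).2 le_rfl), cw_aeval C hdeg, cw_b, mul_one]
  · intro i' _ hne
    by_cases h0 : aperyCoeff C g i' = 0
    · rw [h0, map_zero, zero_mul, cw_zero]
    · have h1 := natDegree_aperyCoeff_le C hg i' h0
      have h2 : C.d * (aperyCoeff C g i').natDegree + C.ρ (ap C i') ≠ N := by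
        intro h
        apply hne
        apply Fin.ext
        rw [← ap_spec C i', ← ap_spec C i]
        have h3 : (C.d * (aperyCoeff C g i').natDegree + C.ρ (ap C i')) % C.d =
            (C.d * e + C.ρ (ap C i)) % C.d := by rw [h, hN]
        rwa [Nat.mul_add_mod, Nat.mul_add_mod] at h3
      refine cw_eq_zero_of_mem C
        (n' := C.d * (aperyCoeff C g i').natDegree + C.ρ (ap C i')) (by omega) ?_
      rw [mem_V_iff, wt_aeval_mul_b C h0]
  · intro h
    exact absurd (Finset.mem_univ i) h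

theorem cw_eq_zero_of_lt_rho_ap {N : ℕ} {i : Fin C.d} (hi : N % C.d = i)
    (hN : N < C.ρ (ap C i)) (g : A) : cw C N g = 0 := by
  apply cw_eq_zero_of_gap
  intro k hk
  have := rho_ap_le C (i := k) (j := i) (by rw [hk, hi])
  omega

/-! ### the determinant -/

namespace Cw

theorem coeff_prod_of_natDegree_le {R ι : Type*} [CommSemiring R] (s : Finset ι) (F : ι → R[X])
    (e : ι → ℕ) (h : ∀ i ∈ s, (F i).natDegree ≤ e i) :
    (∏ i ∈ s, F i).natDegree ≤ ∑ i ∈ s, e i ∧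
      (∏ i ∈ s, F i).coeff (∑ i ∈ s, e i) = ∏ i ∈ s, (F i).coeff (e i) := by
  induction s using Finset.induction_on with
  | empty => simp
  | insert a s ha ih =>
    obtain ⟨h1, h2⟩ := ih (fun i hi => h i (Finset.mem_insert_of_mem hi))
    have ha' := h a (Finset.mem_insert_self a s)
    rw [Finset.prod_insert ha, Finset.sum_insert ha, Finset.prod_insert ha]
    exact ⟨natDegree_mul_le_of_le ha' h1, by rw [coeff_mul_add_eq_of_natDegree_le ha' h1, h2]⟩

theorem exists_shift (d n : ℕ) (hd : 0 < d) :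
    ∃ σ : Equiv.Perm (Fin d), ∀ j, ((σ j : Fin d) : ℕ) = (n + j) % d := by
  have : NeZero d := ⟨hd.ne'⟩
  refine ⟨Equiv.addLeft (Fin.ofNat d n), fun j => ?_⟩
  rw [Equiv.coe_addLeft, Fin.val_add, Fin.val_ofNat, Nat.mod_add_mod]

theorem sum_left (σ : Equiv.Perm (Fin C.d)) (D : Fin C.d → ℕ) :
    ∑ j, (C.d * D j + C.ρ (ap C (σ j))) = C.d * ∑ j, D j + ∑ j, C.ρ (ap C j) := by
  rw [Finset.sum_add_distrib, ← Finset.mul_sum, Equiv.sum_comp σ (fun i => C.ρ (ap C i))]

theorem sum_right (n : ℕ) :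
    ∑ j : Fin C.d, (n + C.ρ (ap C j)) = C.d * n + ∑ j, C.ρ (ap C j) := by
  rw [Finset.sum_add_distrib, Finset.sum_const, Finset.card_univ, Fintype.card_fin, smul_eq_mul]

theorem sum_le {n : ℕ} (σ : Equiv.Perm (Fin C.d)) (D : Fin C.d → ℕ)
    (h : ∀ j, C.d * D j + C.ρ (ap C (σ j)) ≤ n + C.ρ (ap C j)) : ∑ j, D j ≤ n := by
  have h1 := Finset.sum_le_sum (s := Finset.univ) fun j _ => h j
  rw [sum_left, sum_right] at h1
  exact Nat.le_of_mul_le_mul_left (by omega) (d_pos C)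

theorem sum_lt {n : ℕ} (σ : Equiv.Perm (Fin C.d)) (D : Fin C.d → ℕ)
    (h : ∀ j, C.d * D j + C.ρ (ap C (σ j)) ≤ n + C.ρ (ap C j))
    (h' : ∃ j, C.d * D j + C.ρ (ap C (σ j)) < n + C.ρ (ap C j)) : ∑ j, D j < n := by
  obtain ⟨j₀, hj₀⟩ := h'
  have h1 := Finset.sum_lt_sum (s := Finset.univ) (fun j _ => h j) ⟨j₀, Finset.mem_univ _, hj₀⟩
  rw [sum_left, sum_right] at h1
  exact Nat.lt_of_mul_lt_mul_left (a := C.d) (by omega)

theorem sum_eq {n : ℕ} (σ : Equiv.Perm (Fin C.d)) (D : Fin C.d → ℕ)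
    (h : ∀ j, C.d * D j + C.ρ (ap C (σ j)) = n + C.ρ (ap C j)) : ∑ j, D j = n := by
  have h1 := Finset.sum_congr (s₁ := Finset.univ) rfl fun j _ => h j
  rw [sum_left, sum_right] at h1
  exact Nat.eq_of_mul_eq_mul_left (d_pos C) (by omega)

theorem res (n : ℕ) (j : Fin C.d) : (n + C.ρ (ap C j)) % C.d = (n + j) % C.d := by
  have h : C.ρ (ap C j) ≡ j [MOD C.d] := by
    unfold Nat.ModEq
    rw [ap_spec C j, Nat.mod_eq_of_lt j.2]
  exact h.add_left n

variable {n : ℕ} {f : A}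

theorem mul_b_ap_mem (hf : f ∈ C.V n) (j : Fin C.d) :
    f * C.b (ap C j) ∈ C.V (n + C.ρ (ap C j)) :=
  mul_mem_V C hf ((b_mem_V_iff C _ _).2 le_rfl)

/-- degree bound for the entries of `mulMat`. -/
theorem natDegree_mulMat_le (hf : f ∈ C.V n) (i j : Fin C.d) (h : mulMat C f i j ≠ 0) :
    C.d * (mulMat C f i j).natDegree + C.ρ (ap C i) ≤ n + C.ρ (ap C j) :=
  natDegree_aperyCoeff_le C (mul_b_ap_mem C hf j) i h

theorem cw_mul_b_ap (hf : f ∈ C.V n) (j : Fin C.d) :
    cw C (n + C.ρ (ap C j)) (f * C.b (ap C j)) = cw C n f := by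
  rw [cw_mul C hf ((b_mem_V_iff C _ _).2 le_rfl), cw_b, mul_one]

theorem natDegree_prod_le (hf : f ∈ C.V n) (σ : Equiv.Perm (Fin C.d)) :
    (∏ j, mulMat C f (σ j) j).natDegree ≤ n := by
  by_cases h : ∀ j, mulMat C f (σ j) j ≠ 0
  · exact (Polynomial.natDegree_prod_le _ _).trans
      (sum_le C σ _ fun j => natDegree_mulMat_le C hf (σ j) j (h j))
  · push Not at h
    obtain ⟨j, hj⟩ := h
    rw [Finset.prod_eq_zero (f := fun j => mulMat C f (σ j) j) (Finset.mem_univ j) hj]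
    simp

theorem coeff_prod_of_ne (hf : f ∈ C.V n) (σ : Equiv.Perm (Fin C.d))
    (hσ : ∃ j, ((σ j : Fin C.d) : ℕ) ≠ (n + j) % C.d) :
    (∏ j, mulMat C f (σ j) j).coeff n = 0 := by
  by_cases h : ∀ j, mulMat C f (σ j) j ≠ 0
  · apply coeff_eq_zero_of_natDegree_lt
    refine lt_of_le_of_lt (Polynomial.natDegree_prod_le _ _)
      (sum_lt C σ _ (fun j => natDegree_mulMat_le C hf (σ j) j (h j)) ?_)
    obtain ⟨j₀, hj₀⟩ := hσ
    refine ⟨j₀, lt_of_le_of_ne (natDegree_mulMat_le C hf (σ j₀) j₀ (h j₀)) fun heq => hj₀ ?_⟩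
    rw [← res C n j₀, ← heq, Nat.mul_add_mod, ap_spec]
  · push Not at h
    obtain ⟨j, hj⟩ := h
    rw [Finset.prod_eq_zero (f := fun j => mulMat C f (σ j) j) (Finset.mem_univ j) hj, coeff_zero]

theorem coeff_prod_shift (hf : f ∈ C.V n) (σ : Equiv.Perm (Fin C.d))
    (hσ : ∀ j, ((σ j : Fin C.d) : ℕ) = (n + j) % C.d) :
    (∏ j, mulMat C f (σ j) j).coeff n = cw C n f ^ C.d := by
  have hd := d_pos C
  have hres : ∀ j, (n + C.ρ (ap C j)) % C.d = σ j := fun j => by rw [res, hσ j]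
  by_cases hlt : ∃ j, n + C.ρ (ap C j) < C.ρ (ap C (σ j))
  · obtain ⟨j, hj⟩ := hlt
    have h0 : cw C n f = 0 := by
      rw [← cw_mul_b_ap C hf j]
      exact cw_eq_zero_of_lt_rho_ap C (hres j) hj _
    have hM : mulMat C f (σ j) j = 0 := by
      by_contra hne
      have := natDegree_mulMat_le C hf (σ j) j hne
      omega
    rw [Finset.prod_eq_zero (f := fun j => mulMat C f (σ j) j) (Finset.mem_univ j) hM, coeff_zero, h0, zero_pow hd.ne']
  · push Not at hlt
    have hdiv : ∀ j, ∃ e, C.d * e + C.ρ (ap C (σ j)) = n + C.ρ (ap C j) := fun j => by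
      have h1 : C.ρ (ap C (σ j)) ≡ n + C.ρ (ap C j) [MOD C.d] := by
        unfold Nat.ModEq
        rw [ap_spec, hres]
      obtain ⟨e, he⟩ := (Nat.modEq_iff_dvd' (hlt j)).mp h1
      exact ⟨e, by have := hlt j; omega⟩
    choose E hE using hdiv
    have hdeg : ∀ j ∈ Finset.univ, (mulMat C f (σ j) j).natDegree ≤ E j := fun j _ => by
      by_cases h0 : mulMat C f (σ j) j = 0
      · rw [h0]
        simp
      · have h1 := natDegree_mulMat_le C hf (σ j) j h0
        have h2 := hE j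
        exact Nat.le_of_mul_le_mul_left (by omega) hd
    have hsum : ∑ j, E j = n := sum_eq C σ E hE
    have h1 := (coeff_prod_of_natDegree_le Finset.univ (fun j => mulMat C f (σ j) j) E hdeg).2
    rw [hsum] at h1
    have h2 : ∀ j, (mulMat C f (σ j) j).coeff (E j) = cw C n f := fun j => by
      rw [mulMat_apply, ← cw_eq_coeff_aperyCoeff C (hE j) (mul_b_ap_mem C hf j),
        cw_mul_b_ap C hf j]
    rw [h1, Finset.prod_congr rfl fun j _ => h2 j, Finset.prod_const, Finset.card_univ,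
      Fintype.card_fin]

end Cw

/-- the top coefficient of the norm, polynomial version. -/
theorem coeff_Nm_top {n : ℕ} {f : A} (hf : f ∈ C.V n) :
    (Nm C f).coeff n = cw C n f ^ C.d ∨ (Nm C f).coeff n = - cw C n f ^ C.d := by
  obtain ⟨σ₀, hσ₀⟩ := Cw.exists_shift C.d n (d_pos C)
  have key : (Nm C f).coeff n = ((Equiv.Perm.sign σ₀ : ℤ) : Qb) * cw C n f ^ C.d := by
    unfold Nm
    rw [Matrix.det_apply', finsetSum_coeff, Finset.sum_eq_single σ₀]
    · rw [coeff_intCast_mul, Cw.coeff_prod_shift C hf σ₀ hσ₀]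
    · intro σ _ hne
      rw [coeff_intCast_mul, Cw.coeff_prod_of_ne C hf σ, mul_zero]
      by_contra hcon
      push Not at hcon
      exact hne (Equiv.ext fun j => Fin.ext ((hcon j).trans (hσ₀ j).symm))
    · intro h
      exact absurd (Finset.mem_univ σ₀) h
  rcases Int.units_eq_one_or (Equiv.Perm.sign σ₀) with h | h
  · left
    rw [key, h]
    simp
  · right
    rw [key, h]
    simp

theorem natDegree_Nm_le {n : ℕ} {f : A} (hf : f ∈ C.V n) : (Nm C f).natDegree ≤ n := by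
  unfold Nm
  rw [Matrix.det_apply']
  refine natDegree_sum_le_of_forall_le _ _ fun σ _ => ?_
  refine le_trans ?_ (Cw.natDegree_prod_le C hf σ)
  rcases Int.units_eq_one_or (Equiv.Perm.sign σ) with h | h
  · rw [h]
    simp
  · rw [h]
    simp

/-- (NP1) degree of the norm. -/
theorem Cw.natDegree_Nm {f : A} (hf : f ≠ 0) : (Nm C f).natDegree = C.wt f := by
  have hV : f ∈ C.V (C.wt f) := (mem_V_iff C _ _).2 le_rfl
  refine le_antisymm (natDegree_Nm_le C hV) (le_natDegree_of_ne_zero ?_)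
  have h0 : cw C (C.wt f) f ^ C.d ≠ 0 := by
    rw [cw_eq_lc C hf]
    exact pow_ne_zero _ (lc_ne_zero C hf)
  rcases coeff_Nm_top C hV with h | h
  · rw [h]
    exact h0
  · rw [h]
    exact neg_ne_zero.2 h0

/-- (NP1) leading coefficient of the norm. -/
theorem Cw.leadingCoeff_Nm {f : A} (hf : f ≠ 0) :
    (Nm C f).leadingCoeff = C.lc f ^ C.d ∨ (Nm C f).leadingCoeff = - C.lc f ^ C.d := by
  have hV : f ∈ C.V (C.wt f) := (mem_V_iff C _ _).2 le_rfl
  rw [leadingCoeff, Cw.natDegree_Nm C hf, ← cw_eq_lc C hf]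
  exact coeff_Nm_top C hV

end Fermat.Agent.S17.H
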