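import Fermat.Agent.S17.H.Abs

/-!
# S17, part H, node LA3b: complementary minors

If `A * Xᵀ = 0`, the rows of `A` and of `X` are linearly independent and the numbers of rows add
up to the number of columns, then the maximal minors of `A` are proportional (up to sign) to the
complementary maximal minors of `X`.
-/

set_option autoImplicit false
set_option linter.unusedSectionVars false

noncomputable section

open scoped Classical

namespace Fermat.Agent.S17.H

open Matrix

section general

variable {R : Type*} [CommRing R] {ω ε κ : Type*} [Fintype ω] [Fintype ε] [Fintype κ]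
  [DecidableEq ω] [DecidableEq ε] [DecidableEq κ]

/-- The basic identity behind complementary minors (arbitrary finite index types). -/
theorem dualMinors_det_inl_eq (A : Matrix ω κ R) (A' : Matrix ε κ R) (B : Matrix κ ε R)
    (hAB : A * B = 0) (hA'B : A' * B = 1) (e : ω ⊕ ε ≃ κ) :
    (A.submatrix id (fun i => e (Sum.inl i))).det =
      ((Matrix.fromRows A A').submatrix id e).det *
        (B.submatrix (fun j => e (Sum.inr j)) id).det := by
  set I : Matrix κ ω R := (1 : Matrix κ κ R).submatrix id (fun i => e (Sum.inl i)) with hI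
  set Q : Matrix κ (ω ⊕ ε) R := Matrix.fromCols I B with hQ
  set G : Matrix (ω ⊕ ε) κ R := Matrix.fromRows A A' with hG
  have hAI : A * I = A.submatrix id (fun i => e (Sum.inl i)) := by
    rw [hI]
    ext i j
    simp [Matrix.mul_apply, Matrix.one_apply]
  have h1 : (G * Q).det = (A.submatrix id (fun i => e (Sum.inl i))).det := by
    rw [hG, hQ, Matrix.fromRows_mul_fromCols, hAB, hA'B, hAI, Matrix.det_fromBlocks_zero₁₂,
      Matrix.det_one, mul_one]
  have h2 : G * Q = (G.submatrix id e) * (Q.submatrix e id) := by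
    rw [Matrix.submatrix_mul_equiv, Matrix.submatrix_id_id]
  have h3 : Q.submatrix e id = Matrix.fromBlocks 1 (B.submatrix (fun i => e (Sum.inl i)) id) 0
      (B.submatrix (fun j => e (Sum.inr j)) id) := by
    ext a b
    rcases a with a | a <;> rcases b with b | b
    · simp [hQ, hI, Matrix.one_apply]
    · simp [hQ]
    · simp [hQ, hI]
    · simp [hQ]
  rw [← h1, h2, Matrix.det_mul, h3, Matrix.det_fromBlocks_zero₂₁, Matrix.det_one, one_mul]

/-- An injective map `ω → κ` is the first half of an equivalence `ω ⊕ ε ≃ κ`. -/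
theorem dualMinors_exists_equiv_inl (hcard : Fintype.card ω + Fintype.card ε = Fintype.card κ)
    (K : ω → κ) (hK : Function.Injective K) : ∃ e : ω ⊕ ε ≃ κ, ∀ i, e (Sum.inl i) = K i := by
  have h1 : Fintype.card ↥(Set.range K)ᶜ = Fintype.card ε := by
    rw [Fintype.card_compl_set, Set.card_range_of_injective hK]
    omega
  let f : ε ≃ ↥(Set.range K)ᶜ := (Fintype.equivOfCardEq h1).symm
  refine ⟨(Equiv.sumCongr (Equiv.ofInjective K hK) f).trans (Equiv.Set.sumCompl (Set.range K)),
    fun i => ?_⟩
  simp

/-- An injective map `ε → κ` is the second half of an equivalence `ω ⊕ ε ≃ κ`. -/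
theorem dualMinors_exists_equiv_inr (hcard : Fintype.card ω + Fintype.card ε = Fintype.card κ)
    (K : ε → κ) (hK : Function.Injective K) : ∃ e : ω ⊕ ε ≃ κ, ∀ i, e (Sum.inr i) = K i := by
  obtain ⟨e, he⟩ := dualMinors_exists_equiv_inl (ω := ε) (ε := ω) (by omega) K hK
  exact ⟨(Equiv.sumComm ω ε).trans e, fun i => by simpa using he i⟩

end general

section field

variable {F : Type*} [Field F] {ω ε κ : Type*} [Fintype ω] [Fintype ε] [Fintype κ]
  [DecidableEq ω] [DecidableEq ε] [DecidableEq κ]

/-- A matrix with linearly independent rows has a right inverse. -/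
theorem dualMinors_exists_right_inverse (X : Matrix ε κ F)
    (hX : LinearIndependent F (fun i => X i)) : ∃ C : Matrix κ ε F, X * C = 1 := by
  rw [← Matrix.mulVec_surjective_iff_exists_right_inverse]
  have hr : X.rank = Fintype.card ε := LinearIndependent.rank_matrix (M := X) hX
  have htop : LinearMap.range X.mulVecLin = ⊤ := by
    apply Submodule.eq_top_of_finrank_eq
    rw [Module.finrank_fintype_fun_eq_card]
    exact hr
  intro y
  have : y ∈ LinearMap.range X.mulVecLin := by rw [htop]; trivial
  obtain ⟨x, hx⟩ := this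
  exact ⟨x, hx⟩

/-- A non injective choice of columns gives a vanishing minor. -/
theorem dualMinors_det_eq_zero_of_not_injective (X : Matrix ε κ F) (K : ε → κ)
    (hK : ¬ Function.Injective K) : (X.submatrix id K).det = 0 := by
  simp only [Function.Injective, not_forall] at hK
  obtain ⟨i, j, hij, hne⟩ := hK
  exact Matrix.det_zero_of_column_eq hne (fun k => by simp [hij])

/-- Complementary minors, algebraic form. -/
theorem dualMinors_exists_lam (A : Matrix ω κ F) (X : Matrix ε κ F)
    (hcard : Fintype.card ω + Fintype.card ε = Fintype.card κ)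
    (hA : LinearIndependent F (fun i => A i)) (hX : LinearIndependent F (fun i => X i))
    (h0 : A * X.transpose = 0) :
    ∃ lam : F, lam ≠ 0 ∧ ∀ e : ω ⊕ ε ≃ κ,
      (A.submatrix id (fun j => e (Sum.inl j))).det =
          lam * (X.submatrix id (fun j => e (Sum.inr j))).det ∨
        (A.submatrix id (fun j => e (Sum.inl j))).det =
          -(lam * (X.submatrix id (fun j => e (Sum.inr j))).det) := by
  obtain ⟨C, hC⟩ := dualMinors_exists_right_inverse X hX
  have hA'B : C.transpose * X.transpose = 1 := by
    rw [← Matrix.transpose_mul, hC, Matrix.transpose_one]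
  let e0 : ω ⊕ ε ≃ κ := Fintype.equivOfCardEq (by rw [Fintype.card_sum, hcard])
  set G := Matrix.fromRows A C.transpose with hG
  refine ⟨(G.submatrix id e0).det, ?_, fun e => ?_⟩
  · -- the rows of `G` are linearly independent
    intro hdet
    obtain ⟨v, hv0, hv⟩ := Matrix.exists_vecMul_eq_zero_iff.2 hdet
    have hvG : v ᵥ* G = 0 := by
      funext k
      have := congrFun hv (e0.symm k)
      simpa [Matrix.vecMul, dotProduct] using this
    have hsplit : v ᵥ* G = (v ∘ Sum.inl) ᵥ* A + (v ∘ Sum.inr) ᵥ* C.transpose := by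
      funext k
      simp [Matrix.vecMul, dotProduct, hG, Fintype.sum_sum_type]
    have h2 : (v ∘ Sum.inr : ε → F) = 0 := by
      have h3 : (v ᵥ* G) ᵥ* X.transpose = 0 := by rw [hvG, Matrix.zero_vecMul]
      rw [hsplit, Matrix.add_vecMul, Matrix.vecMul_vecMul, Matrix.vecMul_vecMul, h0, hA'B,
        Matrix.vecMul_zero, Matrix.vecMul_one, zero_add] at h3
      exact h3
    have h1 : (v ∘ Sum.inl : ω → F) = 0 := by
      have h3 : (v ∘ Sum.inl) ᵥ* A = 0 := by
        rw [hsplit, h2, Matrix.zero_vecMul, add_zero] at hvG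
        exact hvG
      have hinj : Function.Injective A.vecMul := Matrix.vecMul_injective_iff.2 hA
      exact hinj (by show (v ∘ Sum.inl) ᵥ* A = 0 ᵥ* A; rw [h3, Matrix.zero_vecMul])
    apply hv0
    funext x
    rcases x with x | x
    · exact congrFun h1 x
    · exact congrFun h2 x
  · have h1 := dualMinors_det_inl_eq A C.transpose X.transpose h0 hA'B e
    have h4 : G.submatrix id e = (G.submatrix id e0).submatrix id (e.trans e0.symm) := by
      ext a b
      simp
    have h5 : (X.transpose.submatrix (fun j => e (Sum.inr j)) id).det =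
        (X.submatrix id (fun j => e (Sum.inr j))).det := by
      rw [← Matrix.det_transpose]
      rfl
    rw [h4, Matrix.det_permute', h5] at h1
    rcases Int.units_eq_one_or (Equiv.Perm.sign (e.trans e0.symm)) with hs | hs
    · left
      rw [h1, hs]
      simp
    · right
      rw [h1, hs]
      simp

end field

variable (𝔳 : AbsFam)

theorem dualMinors_wnorm_nonneg (v : Pl) {ι κ : Type} [Fintype ι] (X : Matrix ι κ Qb) :
    0 ≤ wnorm 𝔳 v X :=
  Real.iSup_nonneg fun _ => (𝔳.av v).nonneg _

theorem dualMinors_le_wnorm (v : Pl) {ι κ : Type} [Fintype ι] [Fintype κ] (X : Matrix ι κ Qb)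
    (K : ι → κ) : 𝔳.av v (X.submatrix id K).det ≤ wnorm 𝔳 v X :=
  le_ciSup (f := fun K : ι → κ => 𝔳.av v (X.submatrix id K).det) (Set.finite_range _).bddAbove K

/-- **LA3b**: complementary minors. -/
theorem wnorm_dual {ω ε κ : Type} [Fintype ω] [Fintype ε] [Fintype κ]
    (Aₘ : Matrix ω κ Qb) (X : Matrix ε κ Qb)
    (hcard : Fintype.card ω + Fintype.card ε = Fintype.card κ)
    (hA : LinearIndependent Qb (fun i => Aₘ i)) (hX : LinearIndependent Qb (fun i => X i))
    (h0 : Aₘ * X.transpose = 0) :
    ∃ lam : Qb, lam ≠ 0 ∧ (∀ v, wnorm 𝔳 v Aₘ = 𝔳.av v lam * wnorm 𝔳 v X) ∧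
      ∀ e : κ ≃ ω ⊕ ε,
        (Aₘ.submatrix id (fun j => e.symm (Sum.inl j))).det =
            lam * (X.submatrix id (fun j => e.symm (Sum.inr j))).det ∨
          (Aₘ.submatrix id (fun j => e.symm (Sum.inl j))).det =
            -(lam * (X.submatrix id (fun j => e.symm (Sum.inr j))).det) := by
  obtain ⟨lam, hlam, h⟩ := dualMinors_exists_lam Aₘ X hcard hA hX h0
  have habs : ∀ (v : Pl) (e : ω ⊕ ε ≃ κ),
      𝔳.av v (Aₘ.submatrix id (fun j => e (Sum.inl j))).det =
        𝔳.av v lam * 𝔳.av v (X.submatrix id (fun j => e (Sum.inr j))).det := by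
    intro v e
    rcases h e with h1 | h1
    · rw [h1, map_mul]
    · rw [h1, map_neg_eq_map, map_mul]
  refine ⟨lam, hlam, fun v => ?_, fun e => h e.symm⟩
  have hpos : 0 < 𝔳.av v lam := (𝔳.av v).pos hlam
  apply le_antisymm
  · apply Real.iSup_le _ (mul_nonneg hpos.le (dualMinors_wnorm_nonneg 𝔳 v X))
    intro K
    by_cases hK : Function.Injective K
    · obtain ⟨e, he⟩ := dualMinors_exists_equiv_inl (ε := ε) hcard K hK
      have hKe : K = fun j => e (Sum.inl j) := funext fun i => (he i).symm
      rw [hKe, habs v e]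
      exact mul_le_mul_of_nonneg_left (dualMinors_le_wnorm 𝔳 v X _) hpos.le
    · rw [dualMinors_det_eq_zero_of_not_injective Aₘ K hK, map_zero]
      exact mul_nonneg hpos.le (dualMinors_wnorm_nonneg 𝔳 v X)
  · rw [← le_div_iff₀' hpos]
    apply Real.iSup_le _ (div_nonneg (dualMinors_wnorm_nonneg 𝔳 v Aₘ) hpos.le)
    intro K
    rw [le_div_iff₀' hpos]
    by_cases hK : Function.Injective K
    · obtain ⟨e, he⟩ := dualMinors_exists_equiv_inr (ω := ω) hcard K hK
      have hKe : K = fun j => e (Sum.inr j) := funext fun i => (he i).symm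
      rw [hKe, ← habs v e]
      exact dualMinors_le_wnorm 𝔳 v Aₘ _
    · rw [dualMinors_det_eq_zero_of_not_injective X K hK, map_zero, mul_zero]
      exact dualMinors_wnorm_nonneg 𝔳 v Aₘ

end Fermat.Agent.S17.H
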