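import Fermat.Agent.S17.H.DualCore
import Fermat.Agent.S17.H.DualMinors

/-!
# S17/H, node LA3c (second layer): `H(W) = H(W^⊥)`, with the dimension count (LA3a), the finiteness
of `{v | |x|_v ≠ 1}` (ABS0) and the product formula (ABS2) as hypotheses.   Owner: helper274.
-/

set_option autoImplicit false

noncomputable section

open scoped Classical

namespace Fermat.Agent.S17.H

theorem subHt_dual_aux (𝔳 : AbsFam)
    (hfin : ∀ x : Qb, x ≠ 0 → {v | 𝔳.av v x ≠ 1}.Finite)
    (hprod : ∀ θ : Qb, θ ≠ 0 → θ ^ 2 ∈ Set.range (algebraMap ℚ Qb) →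
      ∑ᶠ v, Real.log (𝔳.av v θ) = 0)
    {ε κ : Type} [Fintype ε] [Fintype κ] (X : Matrix ε κ Qb)
    (hgal : ∀ σ : Qb ≃ₐ[ℚ] Qb, ∃ π : Equiv.Perm ε, ∀ i k, σ (X i k) = X (π i) k)
    (hind : LinearIndependent Qb (fun i => X i))
    (W : Submodule ℚ (κ → ℚ)) (hW : ∀ c, c ∈ W ↔ ∀ i, ∑ k, X i k * algebraMap ℚ Qb (c k) = 0)
    (hcard : Module.finrank ℚ W + Fintype.card ε = Fintype.card κ) :
    subHt 𝔳 W = wht 𝔳 X := by
  set a : Fin (Module.finrank ℚ W) → κ → ℚ :=
    fun i => ((Module.finBasis ℚ W i : W) : κ → ℚ) with ha_def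
  have ha : LinearIndependent ℚ a :=
    (Module.finBasis ℚ W).linearIndependent.map' W.subtype (Submodule.ker_subtype W)
  have hcard' : Fintype.card (Fin (Module.finrank ℚ W)) + Fintype.card ε = Fintype.card κ := by
    simpa using hcard
  have h0 : ratMat a * X.transpose = 0 := by
    ext i e
    have h1 := (hW (a i)).mp (Module.finBasis ℚ W i).2 e
    simp only [Matrix.mul_apply, Matrix.transpose_apply, Matrix.zero_apply, ratMat]
    rw [← h1]
    exact Finset.sum_congr rfl fun k _ => mul_comm _ _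
  obtain ⟨lam, hlam, hw, hdet⟩ :=
    wnorm_dual 𝔳 (ratMat a) X hcard' (dual_linearIndependent_ratMat a ha) hind h0
  unfold subHt
  refine wht_eq_of_compl_minors 𝔳 hfin hprod a ha X hgal hcard' lam hlam ?_ ?_
  · intro v
    convert hw v
  · intro e
    convert hdet e <;> rfl

end Fermat.Agent.S17.H
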