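import Fermat.Agent.S17.H.EvBoundAux
import Fermat.Agent.S17.H.Apery

/-!
# S17, part H, node (X3): `log ‖φ_n(P)‖_v ≤ n λ_v(P) + γ_v`

Assembly of `EvBoundAux.log_vnorm_ev_le_of_apery` with the Apéry decomposition of `Apery.lean`.
-/

set_option autoImplicit false

noncomputable section

open scoped Classical

namespace Fermat.Agent.S17.H

open Polynomial

variable (𝔳 : AbsFam) {A : Type} [CommRing A] [Algebra Qb A] (C : WCurve A)

/-- (X3). -/
theorem log_vnorm_ev_le (n : ℕ) : ∃ γ : MConst, ∀ (v : Pl) (P : Pt A),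
    Real.log (vnorm 𝔳 v (C.ev n P)) ≤ n * C.lam 𝔳 v P + γ.c v :=
  log_vnorm_ev_le_of_apery 𝔳 C (ap C)
    (fun f => ⟨aperyCoeff C f, aperyCoeff_spec C f, fun j hj => by
      have h := wt_apery C (aperyCoeff C f) j hj
      rwa [← aperyCoeff_spec C f] at h⟩) n

end Fermat.Agent.S17.H
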