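import Fermat.Agent.S17.H.EvBoundCore
import Fermat.Agent.S17.H.Curve

/-!
# S17, part H, node (X3): `|b_i(P)|_v ≤ C_v max(1,|t(P)|_v)^(n/d)` for `ρ i ≤ n`

This file proves (X3) from the Apéry decomposition taken as a hypothesis, and the (elementary)
lower bound `n λ_v(P) ≤ log ‖φ_n(P)‖_v + γ_v` for `d ∣ n`.
-/

set_option autoImplicit false

noncomputable section

open scoped Classical

namespace Fermat.Agent.S17.H

open Polynomial

variable (𝔳 : AbsFam) {A : Type} [CommRing A] [Algebra Qb A] (C : WCurve A)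

theorem evBound_d_pos : 0 < C.d := by
  have := C.ρ_strictMono (Nat.zero_lt_one)
  rw [C.ρ_zero] at this
  exact this

theorem evBound_lt_dim_iff (n i : ℕ) : i < C.dim n ↔ C.ρ i ≤ n := by
  have hid : ∀ j, j ≤ C.ρ j := fun j => C.ρ_strictMono.le_apply
  constructor
  · intro hi
    by_contra hlt
    push Not at hlt
    have hsub : (Finset.range (n + 1)).filter (fun j => C.ρ j ≤ n) ⊆ Finset.range i := by
      intro j hj
      rw [Finset.mem_filter] at hj
      rw [Finset.mem_range]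
      by_contra hji
      push Not at hji
      have := C.ρ_strictMono.monotone hji
      omega
    have := Finset.card_le_card hsub
    rw [Finset.card_range] at this
    exact absurd hi (not_lt.2 this)
  · intro hi
    have hsub : Finset.range (i + 1) ⊆ (Finset.range (n + 1)).filter (fun j => C.ρ j ≤ n) := by
      intro j hj
      rw [Finset.mem_range] at hj
      have h1 : C.ρ j ≤ C.ρ i := C.ρ_strictMono.monotone (Nat.lt_succ_iff.1 hj)
      rw [Finset.mem_filter, Finset.mem_range]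
      have := hid j
      constructor <;> omega
    have := Finset.card_le_card hsub
    rw [Finset.card_range] at this
    exact this

theorem evBound_b_mem_V {i n : ℕ} (h : C.ρ i ≤ n) : C.b i ∈ C.V n :=
  Submodule.subset_span ⟨i, h, rfl⟩

theorem evBound_V_mono {m n : ℕ} (h : m ≤ n) : C.V m ≤ C.V n :=
  Submodule.span_mono (Set.image_mono fun _ hi => le_trans hi h)

theorem evBound_wt_le {f : A} {n : ℕ} (hf : f ∈ C.V n) : C.wt f ≤ n := by
  have h := (C.b.mem_span_image (s := {i | C.ρ i ≤ n})).1 hf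
  exact Finset.sup_le fun i hi => h hi

theorem evBound_exists_coord {f : A} {n : ℕ} (hf : f ∈ C.V n) :
    ∃ a : Fin (C.dim n) → Qb, f = ∑ i, a i • C.b i := by
  have hV : C.V n = Submodule.span Qb (Set.range fun i : Fin (C.dim n) => C.b i) := by
    unfold WCurve.V
    congr 1
    ext x
    constructor
    · rintro ⟨i, hi, rfl⟩
      exact ⟨⟨i, (evBound_lt_dim_iff C n i).2 hi⟩, rfl⟩
    · rintro ⟨i, rfl⟩
      exact ⟨i, (evBound_lt_dim_iff C n i).1 i.2, rfl⟩
  rw [hV, Submodule.mem_span_range_iff_exists_fun] at hf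
  obtain ⟨a, ha⟩ := hf
  exact ⟨a, ha.symm⟩

theorem evBound_b_mul_b_mem (i j : ℕ) : C.b i * C.b j ∈ C.V (C.ρ i + C.ρ j) := by
  obtain ⟨k, c, hk, h⟩ := C.mul_b i j
  rw [h, ← hk]
  refine Submodule.add_mem _ (evBound_b_mem_V C le_rfl) (Submodule.sum_mem _ fun l hl => ?_)
  exact Submodule.smul_mem _ _
    (evBound_b_mem_V C (C.ρ_strictMono (Finset.mem_range.1 hl)).le)

theorem evBound_mul_mem {f h : A} {m n : ℕ} (hf : f ∈ C.V m) (hh : h ∈ C.V n) :
    f * h ∈ C.V (m + n) := by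
  have hle : C.V m * C.V n ≤ C.V (m + n) := by
    unfold WCurve.V
    rw [Submodule.span_mul_span, Submodule.span_le]
    rintro _ ⟨_, ⟨i, hi, rfl⟩, _, ⟨j, hj, rfl⟩, rfl⟩
    exact evBound_V_mono C (Nat.add_le_add hi hj) (evBound_b_mul_b_mem C i j)
  exact hle (Submodule.mul_mem_mul hf hh)

theorem evBound_t_pow_mem (k : ℕ) : C.t ^ k ∈ C.V (C.d * k) := by
  induction k with
  | zero =>
    rw [pow_zero, ← C.b_zero]
    exact evBound_b_mem_V C (by rw [C.ρ_zero]; exact Nat.zero_le _)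
  | succ k ih =>
    rw [pow_succ, Nat.mul_succ]
    exact evBound_mul_mem C ih (evBound_b_mem_V C le_rfl)

theorem evBound_one_le_vnorm (n : ℕ) (v : Pl) (P : Pt A) : 1 ≤ vnorm 𝔳 v (C.ev n P) := by
  have h0 : 0 < C.dim n := (evBound_lt_dim_iff C n 0).2 (by rw [C.ρ_zero]; exact Nat.zero_le _)
  have h1 := le_vnorm 𝔳 v (C.ev n P) ⟨0, h0⟩
  have h2 : C.ev n P ⟨0, h0⟩ = 1 := by
    show P (C.b 0) = 1
    rw [C.b_zero, map_one]
  rwa [h2, map_one] at h1

/-- (X3) from the Apéry decomposition. -/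
theorem log_vnorm_ev_le_of_apery (a : Fin C.d → ℕ)
    (hAP : ∀ f : A, ∃ p : Fin C.d → Qb[X], f = ∑ j, aeval C.t (p j) * C.b (a j) ∧
      ∀ j, p j ≠ 0 → C.d * (p j).natDegree + C.ρ (a j) ≤ C.wt f) (n : ℕ) :
    ∃ γ : MConst, ∀ (v : Pl) (P : Pt A),
      Real.log (vnorm 𝔳 v (C.ev n P)) ≤ n * C.lam 𝔳 v P + γ.c v := by
  have hd := evBound_d_pos C
  choose p hp1 hp2 using fun x : Fin C.d × Fin C.d => hAP (C.b (a x.1) * C.b (a x.2))
  obtain ⟨γ, hγ⟩ := evBound_core 𝔳 C.t hd (fun j => C.b (a j)) (fun j => C.ρ (a j))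
    (fun j k => p (j, k)) (fun j k => hp1 (j, k))
    (fun j k l hl => (hp2 (j, k) l hl).trans (evBound_wt_le C (evBound_b_mul_b_mem C _ _)))
  choose q hq1 hq2 using fun i : Fin (C.dim n) => hAP (C.b i)
  obtain ⟨γ', hγ'⟩ := evBound_comb 𝔳 C.t hd (fun j => C.b (a j)) (fun j => C.ρ (a j)) q
    (fun _ => n) (fun i l hl => (hq2 i l hl).trans
      (evBound_wt_le C (evBound_b_mem_V C ((evBound_lt_dim_iff C n i).1 i.2))))
  refine ⟨γ' + γ, fun v P => ?_⟩
  have hpos : 0 < vnorm 𝔳 v (C.ev n P) := zero_lt_one.trans_le (evBound_one_le_vnorm 𝔳 C n v P)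
  rw [Real.log_le_iff_le_exp hpos]
  apply vnorm_le 𝔳 v (Real.exp_pos _).le
  intro i
  have h1 := hγ' v P (Real.exp (γ.c v)) (Real.exp_pos _).le (hγ v P) i
  rw [← hq1 i] at h1
  refine h1.trans (le_of_eq ?_)
  rw [← Real.exp_add, ← Real.exp_add, MConst.add_c]
  congr 1
  unfold WCurve.lam
  ring

/-- the lower bound used in (M). -/
theorem le_log_vnorm_ev (n : ℕ) (hn : C.d ∣ n) :
    ∃ γ : MConst, ∀ (v : Pl) (P : Pt A),
      n * C.lam 𝔳 v P ≤ Real.log (vnorm 𝔳 v (C.ev n P)) + γ.c v := by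
  obtain ⟨k, rfl⟩ := hn
  have hd := evBound_d_pos C
  obtain ⟨a, ha⟩ := evBound_exists_coord C (evBound_t_pow_mem C k)
  obtain ⟨γ₁, h₁⟩ := exists_mconst_av_family 𝔳 a
  obtain ⟨γ₂, h₂⟩ := exists_mconst_ac_le (C.dim (C.d * k))
  refine ⟨γ₂ + γ₁, fun v P => ?_⟩
  set N := vnorm 𝔳 v (C.ev (C.d * k) P) with hN
  have hN1 : 1 ≤ N := evBound_one_le_vnorm 𝔳 C _ v P
  have hNpos : 0 < N := zero_lt_one.trans_le hN1
  have hE : 1 ≤ Real.exp ((γ₂ + γ₁).c v) := MConst.one_le_exp_c v _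
  have hc : 0 ≤ Real.exp (γ₁.c v) * N := by positivity
  have h3 : 𝔳.av v (P C.t) ^ k ≤ Real.exp ((γ₂ + γ₁).c v) * N := by
    rw [← map_pow, ← map_pow, ha, map_sum]
    have h4 := av_sum_le 𝔳 v Finset.univ (fun i => P (a i • C.b i)) hc (by
      intro i _
      rw [map_smul, smul_eq_mul, map_mul]
      exact mul_le_mul (h₁ v i).1 (le_vnorm 𝔳 v (C.ev (C.d * k) P) i) ((𝔳.av v).nonneg _)
        (Real.exp_pos _).le)
    refine h4.trans ?_
    rw [Finset.card_univ, Fintype.card_fin, MConst.add_c, Real.exp_add, mul_assoc]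
    exact mul_le_mul_of_nonneg_right (h₂ v) hc
  have h5 : mx 𝔳 v (P C.t) ^ k ≤ Real.exp ((γ₂ + γ₁).c v) * N := by
    rcases le_total (𝔳.av v (P C.t)) 1 with h | h
    · rw [mx_def, max_eq_left h, one_pow]
      calc (1 : ℝ) = 1 * 1 := (one_mul 1).symm
        _ ≤ _ := mul_le_mul hE hN1 zero_le_one (Real.exp_pos _).le
    · rw [mx_def, max_eq_right h]
      exact h3
  have h6 : ((C.d * k : ℕ) : ℝ) * C.lam 𝔳 v P = Real.log (mx 𝔳 v (P C.t) ^ k) := by
    rw [evBound_mx_pow 𝔳 v (P C.t) hd k, Real.log_exp]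
    rfl
  rw [h6]
  have h7 := Real.log_le_log (pow_pos (mx_pos 𝔳 v (P C.t)) k) h5
  rw [Real.log_mul (Real.exp_pos _).ne' hNpos.ne', Real.log_exp] at h7
  linarith

end Fermat.Agent.S17.H
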