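import Fermat.Agent.S17.H.AbsBasic

/-!
# S17, part H, node (X3), abstract core

Let `y j` be finitely many elements of a `ℚ̄`-algebra with weights `μ j` such that
`y j * y k = ∑ l, p j k l (t) * y l` with `d * deg (p j k l) + μ l ≤ μ j + μ k`.  Then
`|y j (P)|_v ≤ exp (γ_v) * max (1, |t (P)|_v) ^ (μ j / d)` for an `M`-constant `γ`
(the `Y ^ 2 ≤ c * Y` trick).
-/

set_option autoImplicit false

noncomputable section

open scoped Classical

namespace Fermat.Agent.S17.H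

open Polynomial

variable (𝔳 : AbsFam)

/-- trivial upper bound for the values of a polynomial. -/
theorem evBound_poly (q : Qb[X]) : ∃ γ : MConst, ∀ (v : Pl) (s : Qb),
    𝔳.av v (q.eval s) ≤ Real.exp (γ.c v) * mx 𝔳 v s ^ q.natDegree := by
  obtain ⟨γ₁, h₁⟩ := exists_mconst_av_le 𝔳 ((Finset.range (q.natDegree + 1)).image q.coeff)
  obtain ⟨γ₂, h₂⟩ := exists_mconst_ac_le (q.natDegree + 1)
  refine ⟨γ₂ + γ₁, fun v s => ?_⟩
  have hT : 1 ≤ mx 𝔳 v s := one_le_mx 𝔳 v s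
  have hc : 0 ≤ Real.exp (γ₁.c v) * mx 𝔳 v s ^ q.natDegree := by positivity
  rw [Polynomial.eval_eq_sum_range]
  have h3 := av_sum_le 𝔳 v (Finset.range (q.natDegree + 1)) (fun i => q.coeff i * s ^ i) hc (by
    intro i hi
    rw [map_mul, map_pow]
    have hi' : i ≤ q.natDegree := Nat.lt_succ_iff.1 (Finset.mem_range.1 hi)
    have h4 : 𝔳.av v s ^ i ≤ mx 𝔳 v s ^ q.natDegree :=
      (pow_le_pow_left₀ ((𝔳.av v).nonneg s) (av_le_mx 𝔳 v s) i).trans (pow_le_pow_right₀ hT hi')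
    exact mul_le_mul (h₁ v _ (Finset.mem_image_of_mem _ hi)) h4 (by positivity) (by positivity))
  refine h3.trans ?_
  rw [Finset.card_range, MConst.add_c, Real.exp_add, mul_assoc]
  exact mul_le_mul_of_nonneg_right (h₂ v) hc

/-- the same for a finite family of polynomials. -/
theorem evBound_poly_family {α : Type*} [Finite α] (q : α → Qb[X]) :
    ∃ γ : MConst, ∀ (v : Pl) (a : α) (s : Qb),
      𝔳.av v ((q a).eval s) ≤ Real.exp (γ.c v) * mx 𝔳 v s ^ (q a).natDegree := by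
  cases nonempty_fintype α
  choose γ hγ using fun a => evBound_poly 𝔳 (q a)
  refine ⟨∑ a, γ a, fun v a s => (hγ a v s).trans ?_⟩
  have : (γ a).c v ≤ (∑ a, γ a).c v := MConst.le_sum_c v Finset.univ γ (Finset.mem_univ a)
  exact mul_le_mul_of_nonneg_right (Real.exp_le_exp.2 this) (by have := mx_pos 𝔳 v s; positivity)

/-- `max (1, |s|_v) ^ k = exp (k * d * L)` with `L = log (max (1, |s|_v)) / d`. -/
theorem evBound_mx_pow (v : Pl) (s : Qb) {d : ℕ} (hd : 0 < d) (k : ℕ) :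
    mx 𝔳 v s ^ k = Real.exp ((d * k : ℕ) * (Real.log (mx 𝔳 v s) / d)) := by
  have hd' : (d : ℝ) ≠ 0 := Nat.cast_ne_zero.2 hd.ne'
  have : ((d * k : ℕ) : ℝ) * (Real.log (mx 𝔳 v s) / d) = k * Real.log (mx 𝔳 v s) := by
    push_cast
    field_simp
  rw [this, Real.exp_nat_mul, Real.exp_log (mx_pos 𝔳 v s)]

section core

variable {A : Type} [CommRing A] [Algebra Qb A] (t : A) {d : ℕ} (hd : 0 < d)
  {ι : Type} [Fintype ι] (y : ι → A) (μ : ι → ℕ)

include hd in
/-- a combination `∑ l, q l (t) * y l` of weight `≤ n` is bounded by the `y l`. -/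
theorem evBound_comb {α : Type} [Finite α] (q : α → ι → Qb[X]) (n : α → ℕ)
    (hdeg : ∀ a l, q a l ≠ 0 → d * (q a l).natDegree + μ l ≤ n a) :
    ∃ γ : MConst, ∀ (v : Pl) (P : A →ₐ[Qb] Qb) (B : ℝ), 0 ≤ B →
      (∀ l, 𝔳.av v (P (y l)) ≤ B * Real.exp (μ l * (Real.log (mx 𝔳 v (P t)) / d))) →
      ∀ a, 𝔳.av v (P (∑ l, aeval t (q a l) * y l)) ≤
        Real.exp (γ.c v) * B * Real.exp (n a * (Real.log (mx 𝔳 v (P t)) / d)) := by
  obtain ⟨γ₀, h₀⟩ := evBound_poly_family 𝔳 (fun x : α × ι => q x.1 x.2)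
  obtain ⟨γ₁, h₁⟩ := exists_mconst_ac_le (Fintype.card ι)
  refine ⟨γ₁ + γ₀, fun v P B hB hy a => ?_⟩
  set L : ℝ := Real.log (mx 𝔳 v (P t)) / d with hL
  have hL0 : 0 ≤ L := div_nonneg (log_mx_nonneg 𝔳 v _) (Nat.cast_nonneg d)
  have hc : 0 ≤ Real.exp (γ₀.c v) * B * Real.exp (n a * L) := by positivity
  rw [map_sum]
  have h3 := av_sum_le 𝔳 v Finset.univ (fun l => P (aeval t (q a l) * y l)) hc (by
    intro l _
    by_cases hq : q a l = 0
    · simpa [hq] using hc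
    · rw [map_mul, map_mul, ← Polynomial.aeval_algHom_apply, Polynomial.coe_aeval_eq_eval]
      have h4 := h₀ v (a, l) (P t)
      simp only at h4
      rw [evBound_mx_pow 𝔳 v (P t) hd, ← hL] at h4
      have h5 := hy l
      calc 𝔳.av v ((q a l).eval (P t)) * 𝔳.av v (P (y l))
          ≤ (Real.exp (γ₀.c v) * Real.exp ((d * (q a l).natDegree : ℕ) * L)) *
              (B * Real.exp (μ l * L)) :=
            mul_le_mul h4 h5 ((𝔳.av v).nonneg _) (by positivity)
        _ = Real.exp (γ₀.c v) * B * Real.exp ((d * (q a l).natDegree + μ l : ℕ) * L) := by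
            push_cast
            rw [add_mul, Real.exp_add]
            ring
        _ ≤ Real.exp (γ₀.c v) * B * Real.exp (n a * L) := by
            apply mul_le_mul_of_nonneg_left _ (by positivity)
            apply Real.exp_le_exp.2
            exact mul_le_mul_of_nonneg_right (by exact_mod_cast hdeg a l hq) hL0)
  refine h3.trans ?_
  rw [Finset.card_univ, MConst.add_c, Real.exp_add]
  calc ac v (Fintype.card ι) * (Real.exp (γ₀.c v) * B * Real.exp (n a * L))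
      ≤ Real.exp (γ₁.c v) * (Real.exp (γ₀.c v) * B * Real.exp (n a * L)) :=
        mul_le_mul_of_nonneg_right (h₁ v) hc
    _ = Real.exp (γ₁.c v) * Real.exp (γ₀.c v) * B * Real.exp (n a * L) := by ring

include hd in
/-- the `Y ^ 2 ≤ c * Y` trick. -/
theorem evBound_core (p : ι → ι → ι → Qb[X])
    (hmul : ∀ j k, y j * y k = ∑ l, aeval t (p j k l) * y l)
    (hdeg : ∀ j k l, p j k l ≠ 0 → d * (p j k l).natDegree + μ l ≤ μ j + μ k) :
    ∃ γ : MConst, ∀ (v : Pl) (P : A →ₐ[Qb] Qb) (j : ι),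
      𝔳.av v (P (y j)) ≤
        Real.exp (γ.c v) * Real.exp (μ j * (Real.log (mx 𝔳 v (P t)) / d)) := by
  obtain ⟨γ, hγ⟩ := evBound_comb 𝔳 t hd y μ (fun x : ι × ι => p x.1 x.2)
    (fun x => μ x.1 + μ x.2) (fun x l => hdeg x.1 x.2 l)
  refine ⟨γ, fun v P j => ?_⟩
  set L : ℝ := Real.log (mx 𝔳 v (P t)) / d with hL
  have : Nonempty ι := ⟨j⟩
  let Y : ι → ℝ := fun l => 𝔳.av v (P (y l)) * Real.exp (-(μ l * L))
  have hY0 : ∀ l, 0 ≤ Y l := fun l => mul_nonneg ((𝔳.av v).nonneg _) (Real.exp_pos _).le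
  have hYeq : ∀ l, 𝔳.av v (P (y l)) = Y l * Real.exp (μ l * L) := by
    intro l
    simp only [Y]
    rw [mul_assoc, ← Real.exp_add, neg_add_cancel, Real.exp_zero, mul_one]
  obtain ⟨j₀, hj₀⟩ := Finite.exists_max Y
  have h1 := hγ v P (Y j₀) (hY0 j₀) (fun l => by
    rw [hYeq l]
    exact mul_le_mul_of_nonneg_right (hj₀ l) (Real.exp_pos _).le) (j₀, j₀)
  simp only at h1
  rw [← hmul, map_mul, map_mul, hYeq j₀] at h1
  have h2 : Y j₀ * Y j₀ ≤ Real.exp (γ.c v) * Y j₀ := by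
    have h3 : Y j₀ * Real.exp (μ j₀ * L) * (Y j₀ * Real.exp (μ j₀ * L)) =
        Y j₀ * Y j₀ * Real.exp (((μ j₀ + μ j₀ : ℕ) : ℝ) * L) := by
      push_cast
      rw [add_mul, Real.exp_add]
      ring
    rw [h3] at h1
    exact le_of_mul_le_mul_right h1 (Real.exp_pos _)
  have h4 : Y j₀ ≤ Real.exp (γ.c v) := by
    rcases (hY0 j₀).eq_or_lt with h0 | h0
    · rw [← h0]; exact (Real.exp_pos _).le
    · exact le_of_mul_le_mul_right h2 h0
  rw [hYeq j]
  exact mul_le_mul_of_nonneg_right ((hj₀ j).trans h4) (Real.exp_pos _).le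

end core

end Fermat.Agent.S17.H
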