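import Fermat.Agent.S17.H.Apery
import Fermat.Agent.S17.H.Fibre

/-!
# S17, part H, node X1-b: the fibre multiset `Fib`, its basic API, unramified fibres, `mI`
(helper110)
-/

set_option autoImplicit false

noncomputable section

open scoped Classical

namespace Fermat.Agent.S17.H

open Polynomial

variable {A : Type} [CommRing A] [Algebra Qb A] (C : WCurve A)

theorem mulMatOf_eq_mulMat (f : A) : mulMatOf C (exists_unique_apery C) f = mulMat C f := rfl

/-- the fibre of `t` over `β` as a multiset with multiplicities: characteristic polynomial, norm and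
trace at the fibre, with the same multiset. -/
theorem exists_fibre_full (β : Qb) :
    ∃ F : Multiset (Pt A), F.card = C.d ∧ (∀ Q, Q ∈ F ↔ Q C.t = β) ∧
      (∀ f : A, ((mulMat C f).map (eval β)).charpoly =
        (F.map fun Q => X - Polynomial.C (Q f)).prod) ∧
      (∀ f : A, (Nm C f).eval β = (F.map fun Q => Q f).prod) ∧
      (∀ f : A, (mulMat C f).trace.eval β = (F.map fun Q => Q f).sum) :=
  exists_fibre_full_of C (exists_unique_apery C) β

/-- the fibre of `t` over `β` as a multiset with multiplicities. -/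
theorem exists_fibre (β : Qb) : ∃ F : Multiset (Pt A), F.card = C.d ∧ (∀ Q, Q ∈ F ↔ Q C.t = β) ∧
    ∀ f : A, (Nm C f).eval β = (F.map fun Q => Q f).prod := by
  obtain ⟨F, h1, h2, -, h3, -⟩ := exists_fibre_full C β
  exact ⟨F, h1, h2, h3⟩

/-- the fibre multiset. -/
def Fib (β : Qb) : Multiset (Pt A) := (exists_fibre_full C β).choose

theorem card_Fib (β : Qb) : (Fib C β).card = C.d := (exists_fibre_full C β).choose_spec.1

theorem mem_Fib {β : Qb} {Q : Pt A} : Q ∈ Fib C β ↔ Q C.t = β :=
  (exists_fibre_full C β).choose_spec.2.1 Q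

theorem charpoly_Fib (β : Qb) (f : A) : ((mulMat C f).map (eval β)).charpoly =
    ((Fib C β).map fun Q => X - Polynomial.C (Q f)).prod :=
  (exists_fibre_full C β).choose_spec.2.2.1 f

theorem eval_Nm (β : Qb) (f : A) : (Nm C f).eval β = ((Fib C β).map fun Q => Q f).prod :=
  (exists_fibre_full C β).choose_spec.2.2.2.1 f

theorem eval_trace_mulMat (β : Qb) (f : A) :
    (mulMat C f).trace.eval β = ((Fib C β).map fun Q => Q f).sum :=
  (exists_fibre_full C β).choose_spec.2.2.2.2 f

theorem self_mem_Fib (P : Pt A) : P ∈ Fib C (P C.t) := (mem_Fib C).mpr rfl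

/-- an unramified fibre: `d` distinct points. -/
theorem Fib_eq_val {α : Qb} (F : Finset (Pt A)) (hF : ∀ P, P ∈ F ↔ P C.t = α)
    (hc : F.card = C.d) : Fib C α = F.val := by
  have hle : F.val ≤ Fib C α := by
    rw [Multiset.le_iff_subset F.nodup]
    intro P hP
    exact (mem_Fib C).mpr ((hF P).mp hP)
  refine (Multiset.eq_of_le_of_card_le hle ?_).symm
  rw [card_Fib, ← hc]
  rfl

theorem nodup_Fib_of_card {α : Qb} (F : Finset (Pt A)) (hF : ∀ P, P ∈ F ↔ P C.t = α)
    (hc : F.card = C.d) : (Fib C α).Nodup := by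
  rw [Fib_eq_val C F hF hc]
  exact F.nodup

/-- products over an unramified fibre. -/
theorem eval_Nm_of_card {α : Qb} (F : Finset (Pt A)) (hF : ∀ P, P ∈ F ↔ P C.t = α)
    (hc : F.card = C.d) (f : A) : (Nm C f).eval α = ∏ Q ∈ F, Q f := by
  rw [eval_Nm, Fib_eq_val C F hF hc]
  rfl

theorem eval_trace_mulMat_of_card {α : Qb} (F : Finset (Pt A)) (hF : ∀ P, P ∈ F ↔ P C.t = α)
    (hc : F.card = C.d) (f : A) : (mulMat C f).trace.eval α = ∑ Q ∈ F, Q f := by
  rw [eval_trace_mulMat, Fib_eq_val C F hF hc]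
  rfl

/-- the fibre of `t` over `α`, as a set, is finite. -/
theorem finite_fib (α : Qb) : (C.fib α).Finite := by
  refine (Fib C α).toFinset.finite_toSet.subset fun P hP => ?_
  simp only [Finset.mem_coe, Multiset.mem_toFinset]
  exact (mem_Fib C).mpr hP

/-- the maximal ideal of a point. -/
def mI (P : Pt A) : Ideal A := RingHom.ker (P : A →+* Qb)

theorem mem_mI {P : Pt A} {f : A} : f ∈ mI P ↔ P f = 0 := Iff.rfl

theorem mI_isMaximal (P : Pt A) : (mI P).IsMaximal :=
  RingHom.ker_isMaximal_of_surjective (P : A →+* Qb) fun c => ⟨algebraMap Qb A c, P.commutes c⟩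

instance (P : Pt A) : (mI P).IsMaximal := mI_isMaximal P

theorem mI_isPrime (P : Pt A) : (mI P).IsPrime := (mI_isMaximal P).isPrime

theorem sub_algebraMap_mem_mI (P : Pt A) (f : A) : f - algebraMap Qb A (P f) ∈ mI P := by
  rw [mem_mI, map_sub, AlgHom.commutes, Algebra.algebraMap_self, RingHom.id_apply, sub_self]

theorem t_sub_mem_mI (P : Pt A) : C.t - algebraMap Qb A (P C.t) ∈ mI P :=
  sub_algebraMap_mem_mI P C.t

theorem mI_ne_top (P : Pt A) : mI P ≠ ⊤ := (mI_isMaximal P).ne_top

/-- a point is determined by its maximal ideal. -/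
theorem mI_injective : Function.Injective (mI : Pt A → Ideal A) := by
  intro P Q h
  ext f
  have h1 : f - algebraMap Qb A (P f) ∈ mI Q := h ▸ sub_algebraMap_mem_mI P f
  rw [mem_mI, map_sub, AlgHom.commutes, Algebra.algebraMap_self, RingHom.id_apply,
    sub_eq_zero] at h1
  exact h1.symm

theorem idealOf_eq_iInf_mI (E : Finset (Pt A)) : idealOf E = ⨅ P ∈ E, mI P := rfl

end Fermat.Agent.S17.H
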