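import Mathlib

/-!
# S17, part H: finite dimensional modules over commutative algebras over an algebraically closed
field: characters with multiplicities

Mathlib only.  Main results:

* `charpoly_eq_restrict_mul_mapQ`, `charpoly_of_exact`: the characteristic polynomial is
  multiplicative in short exact sequences;
* `exists_chars`: for a commutative `K`-algebra `B` (`K` algebraically closed) and a `B`-module `M`
  of finite dimension over `K` there is a multiset `Z` of characters `B →ₐ[K] K` of cardinality
  `finrank K M` such that the characteristic polynomial of every `z : B` acting on `M` is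
  `∏_{χ ∈ Z} (X - χ z)`; a character belongs to `Z` iff it kills the annihilator of `M`;
* `exists_fibre_of_free`: the fibre of `t : A` over `β` as a multiset with multiplicities, when `A`
  is free of rank `d` over `K[t]`.

Owner of this file: helper162.
-/

set_option autoImplicit false

noncomputable section

open scoped Classical

namespace Fermat.Agent.S17.H

open Polynomial Module

section Exact

variable {K V : Type*} [Field K] [AddCommGroup V] [Module K V] [FiniteDimensional K V]

open Module.Basis in
/-- the characteristic polynomial is multiplicative for an invariant subspace. -/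
theorem charpoly_eq_restrict_mul_mapQ (W : Submodule K V) (e : V →ₗ[K] V) (he : W ≤ W.comap e) :
    e.charpoly = (e.restrict he).charpoly * (W.mapQ W e he).charpoly := by
  let m := Module.Free.ChooseBasisIndex K W
  let bW : Basis m K W := Module.Free.chooseBasis K W
  let n := Module.Free.ChooseBasisIndex K (V ⧸ W)
  let bQ : Basis n K (V ⧸ W) := Module.Free.chooseBasis K (V ⧸ W)
  let b := sumQuot bW bQ
  let A : Matrix m m K := LinearMap.toMatrix bW bW (e.restrict he)
  let B : Matrix m n K := Matrix.of fun i l ↦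
    ((sumQuot bW bQ).repr (e ((sumQuot bW bQ) (Sum.inr l)))) (Sum.inl i)
  let D : Matrix n n K := LinearMap.toMatrix bQ bQ (W.mapQ W e he)
  suffices LinearMap.toMatrix b b e = Matrix.fromBlocks A B 0 D by
    rw [← LinearMap.charpoly_toMatrix e b, this, ← LinearMap.charpoly_toMatrix _ bW,
      ← LinearMap.charpoly_toMatrix _ bQ, Matrix.charpoly_fromBlocks_zero₂₁]
  ext u v
  cases u with
  | inl i =>
    cases v with
    | inl k =>
      simp only [b, sumQuot_inl, Matrix.fromBlocks_apply₁₁, A, LinearMap.toMatrix_apply]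
      apply sumQuot_repr_inl_of_mem
    | inr l => simp [b, LinearMap.toMatrix_apply, Matrix.fromBlocks_apply₁₂, B]
  | inr j =>
    cases v with
    | inl k =>
      suffices W.mkQ (e (bW k)) = 0 by simp [LinearMap.toMatrix_apply, b, this]
      rw [← LinearMap.mem_ker, Submodule.ker_mkQ]
      exact he (Submodule.coe_mem (bW k))
    | inr l =>
      simp only [LinearMap.toMatrix_apply, sumQuot_repr_inr,
        Matrix.fromBlocks_apply₂₂, b, D]
      rw [← sumQuot_inr bW bQ l, W.mapQ_apply]
      simp

end Exact

theorem charpoly_of_exact {K N M Q : Type*} [Field K] [AddCommGroup N] [Module K N]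
    [AddCommGroup M] [Module K M] [AddCommGroup Q] [Module K Q] [FiniteDimensional K N]
    [FiniteDimensional K M] [FiniteDimensional K Q]
    (i : N →ₗ[K] M) (q : M →ₗ[K] Q) (hi : Function.Injective i) (hq : Function.Surjective q)
    (hex : Function.Exact i q) (fN : N →ₗ[K] N) (fM : M →ₗ[K] M) (fQ : Q →ₗ[K] Q)
    (h1 : ∀ x, i (fN x) = fM (i x)) (h2 : ∀ x, q (fM x) = fQ (q x)) :
    fM.charpoly = fN.charpoly * fQ.charpoly := by
  have he : LinearMap.ker q ≤ (LinearMap.ker q).comap fM := by
    intro x hx
    rw [Submodule.mem_comap, LinearMap.mem_ker, h2, LinearMap.mem_ker.mp hx, map_zero]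
  let eN : N ≃ₗ[K] LinearMap.ker q :=
    (LinearEquiv.ofInjective i hi).trans (LinearEquiv.ofEq _ _ (LinearMap.exact_iff.mp hex).symm)
  let eQ : (M ⧸ LinearMap.ker q) ≃ₗ[K] Q := q.quotKerEquivOfSurjective hq
  have heN : ∀ y, ((eN y : LinearMap.ker q) : M) = i y := fun y => rfl
  have heQ : ∀ m, eQ (Submodule.Quotient.mk m) = q m := fun m => rfl
  have hN : eN.conj fN = fM.restrict he := by
    ext x
    obtain ⟨y, rfl⟩ := eN.surjective x
    rw [LinearEquiv.conj_apply_apply, LinearEquiv.symm_apply_apply, heN, h1,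
      LinearMap.coe_restrict_apply, heN]
  have hQ : eQ.conj ((LinearMap.ker q).mapQ (LinearMap.ker q) fM he) = fQ := by
    ext z
    obtain ⟨m, rfl⟩ := hq z
    rw [LinearEquiv.conj_apply_apply, ← heQ m, LinearEquiv.symm_apply_apply,
      Submodule.mapQ_apply, heQ, heQ, h2]
  rw [charpoly_eq_restrict_mul_mapQ (LinearMap.ker q) fM he, ← hN, ← hQ,
    LinearEquiv.charpoly_conj, LinearEquiv.charpoly_conj]

theorem finrank_of_exact {K N M Q : Type*} [Field K] [AddCommGroup N] [Module K N]
    [AddCommGroup M] [Module K M] [AddCommGroup Q] [Module K Q] [FiniteDimensional K N]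
    [FiniteDimensional K M] [FiniteDimensional K Q]
    (i : N →ₗ[K] M) (q : M →ₗ[K] Q) (hi : Function.Injective i) (hq : Function.Surjective q)
    (hex : Function.Exact i q) : finrank K M = finrank K N + finrank K Q := by
  have h := charpoly_of_exact i q hi hq hex 0 0 0 (by simp) (by simp)
  have h' := congrArg natDegree h
  rwa [(LinearMap.charpoly_monic _).natDegree_mul (LinearMap.charpoly_monic _),
    LinearMap.charpoly_natDegree, LinearMap.charpoly_natDegree, LinearMap.charpoly_natDegree] at h'

theorem charpoly_algebraMap {K N : Type*} [Field K] [AddCommGroup N] [Module K N]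
    [FiniteDimensional K N] (c : K) :
    (algebraMap K (Module.End K N) c).charpoly = (X - C c) ^ finrank K N := by
  have h := LinearMap.charpoly_sub_smul (0 : Module.End K N) (-c)
  rw [LinearMap.charpoly_zero] at h
  have h2 : (0 : Module.End K N) - (-c) • 1 = algebraMap K (Module.End K N) c := by
    rw [Algebra.algebraMap_eq_smul_one]; simp
  rw [h2] at h
  rw [h]; simp [sub_eq_add_neg]


universe u v w

theorem exists_chars_aux (K : Type u) (B : Type v) [Field K] [IsAlgClosed K] [CommRing B]
    [Algebra K B] (n : ℕ) :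
    ∀ (M : Type w) [AddCommGroup M] [Module K M] [Module B M] [IsScalarTower K B M]
      [FiniteDimensional K M], finrank K M = n →
      ∃ Z : Multiset (B →ₐ[K] K), Z.card = n ∧
        ∀ z : B, (Algebra.lsmul K K M z).charpoly = (Z.map fun χ => X - C (χ z)).prod := by
  induction n using Nat.strong_induction_on with
  | _ n ih =>
    intro M _ _ _ _ _ hM
    rcases Nat.eq_zero_or_pos n with rfl | hn
    · refine ⟨0, rfl, fun z => ?_⟩
      have h1 := LinearMap.charpoly_natDegree (Algebra.lsmul K K M z)
      rw [hM] at h1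
      simpa using (LinearMap.charpoly_monic _).natDegree_eq_zero.mp h1
    · have : Nontrivial M := Module.nontrivial_of_finrank_pos (R := K) (hM ▸ hn)
      have : IsArtinian B M := isArtinian_of_tower K inferInstance
      obtain ⟨N, hN⟩ := IsAtomic.exists_atom (Submodule B M)
      have : IsSimpleModule B N := isSimpleModule_iff_isAtom.mpr hN
      have : FiniteDimensional K N :=
        FiniteDimensional.of_injective ((N.subtype).restrictScalars K) N.injective_subtype
      have : FiniteDimensional K (M ⧸ N) :=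
        Module.Finite.of_surjective ((N.mkQ).restrictScalars K) N.mkQ_surjective
      have hbij := IsSimpleModule.algebraMap_end_bijective_of_isAlgClosed (A := B) (V := N) K
      let χ : B →ₐ[K] K :=
        ((AlgEquiv.ofBijective (Algebra.ofId K (Module.End B N)) hbij).symm : _ →ₐ[K] K).comp
          (Algebra.lsmul K B N)
      have hχ : ∀ (z : B) (x : N), χ z • x = z • x := by
        intro z x
        have h : algebraMap K (Module.End B N) (χ z) = Algebra.lsmul K B N z :=
          (AlgEquiv.ofBijective (Algebra.ofId K (Module.End B N)) hbij).apply_symm_apply _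
        have := congrArg (fun f : Module.End B N => f x) h
        simpa using this
      have hfr := finrank_of_exact ((N.subtype).restrictScalars K) ((N.mkQ).restrictScalars K)
        N.injective_subtype N.mkQ_surjective (LinearMap.exact_subtype_mkQ N)
      have : Nontrivial N := IsSimpleModule.nontrivial B N
      have hNpos : 0 < finrank K N := Module.finrank_pos
      obtain ⟨Z, hZc, hZ⟩ := ih (finrank K (M ⧸ N)) (by omega) (M ⧸ N) rfl
      refine ⟨Multiset.replicate (finrank K N) χ + Z, by simp [hZc]; omega, fun z => ?_⟩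
      have h := charpoly_of_exact ((N.subtype).restrictScalars K) ((N.mkQ).restrictScalars K)
        N.injective_subtype N.mkQ_surjective (LinearMap.exact_subtype_mkQ N)
        (Algebra.lsmul K K N z) (Algebra.lsmul K K M z) (Algebra.lsmul K K (M ⧸ N) z)
        (fun x => rfl) (fun x => rfl)
      have hs : Algebra.lsmul K K N z = algebraMap K (Module.End K N) (χ z) := by
        ext x
        simp [hχ]
      rw [h, hZ z, hs, charpoly_algebraMap]
      simp

theorem exists_chars (K : Type u) (B : Type v) [Field K] [IsAlgClosed K] [CommRing B]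
    [Algebra K B] (M : Type w) [AddCommGroup M] [Module K M] [Module B M] [IsScalarTower K B M]
    [FiniteDimensional K M] :
    ∃ Z : Multiset (B →ₐ[K] K), Z.card = finrank K M ∧
      (∀ z : B, (Algebra.lsmul K K M z).charpoly = (Z.map fun χ => X - C (χ z)).prod) ∧
      ∀ χ : B →ₐ[K] K, χ ∈ Z ↔ ∀ z : B, (∀ m : M, z • m = 0) → χ z = 0 := by
  obtain ⟨Z, hc, hZ⟩ := exists_chars_aux K B (finrank K M) M rfl
  refine ⟨Z, hc, hZ, fun χ₀ => ⟨fun hmem z hz => ?_, fun h => ?_⟩⟩
  · have h0 : Algebra.lsmul K K M z = 0 := by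
      ext m; simpa using hz m
    have h1 := hZ z
    rw [h0, LinearMap.charpoly_zero] at h1
    have h2 := congrArg (eval (χ₀ z)) h1
    rw [eval_multiset_prod, eval_pow, eval_X, Multiset.map_map] at h2
    rw [Multiset.prod_eq_zero (Multiset.mem_map.mpr ⟨χ₀, hmem, by simp⟩)] at h2
    exact pow_eq_zero_iff (M₀ := K) (by
      rw [← hc]; exact (Multiset.card_pos_iff_exists_mem.mpr ⟨_, hmem⟩).ne') |>.mp h2
  · by_contra hnot
    have hex : ∀ χ : B →ₐ[K] K, ∃ e : B, χ₀ e = 1 ∧ (χ ≠ χ₀ → χ e = 0) := by
      intro χ
      by_cases hχ : χ = χ₀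
      · exact ⟨1, map_one _, fun h => absurd hχ h⟩
      · obtain ⟨w, hw⟩ : ∃ w, χ w ≠ χ₀ w := by
          by_contra hcon
          exact hχ (AlgHom.ext fun w => by_contra fun hw => hcon ⟨w, hw⟩)
        have hne : χ₀ w - χ w ≠ 0 := sub_ne_zero.mpr (Ne.symm hw)
        refine ⟨(χ₀ w - χ w)⁻¹ • (w - algebraMap K B (χ w)), ?_, fun _ => ?_⟩
        · rw [map_smul, map_sub, AlgHom.commutes, smul_eq_mul]
          exact inv_mul_cancel₀ hne
        · rw [map_smul, map_sub, AlgHom.commutes]
          simp
    choose E hE0 hE using hex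
    set e : B := (Z.map E).prod with he
    have he0 : χ₀ e = 1 := by
      rw [he, map_multiset_prod, Multiset.map_map]
      simp [hE0]
    have he1 : ∀ χ ∈ Z, χ e = 0 := by
      intro χ hχ
      rw [he, map_multiset_prod, Multiset.map_map]
      refine Multiset.prod_eq_zero (Multiset.mem_map.mpr ⟨χ, hχ, ?_⟩)
      exact hE χ (fun h => hnot (h ▸ hχ))
    have h1 := hZ e
    have h2 : (Z.map fun χ => X - C (χ e)) = Z.map fun _ => (X : K[X]) :=
      Multiset.map_congr rfl (fun χ hχ => by rw [he1 χ hχ]; simp)
    rw [h2, Multiset.map_const', Multiset.prod_replicate] at h1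
    have h3 := LinearMap.aeval_self_charpoly (Algebra.lsmul K K M e)
    rw [h1, map_pow, aeval_X, ← map_pow] at h3
    have h4 := h (e ^ Z.card) (fun m => by
      have := congrArg (fun f : Module.End K M => f m) h3
      exact this)
    rw [map_pow, he0, one_pow] at h4
    exact one_ne_zero h4

theorem det_trace_of_charpoly_eq {K : Type u} [Field K] {n : Type*} [Fintype n] [DecidableEq n]
    (Mx : Matrix n n K) (s : Multiset K) (h : Mx.charpoly = (s.map fun a => X - C a).prod) :
    Mx.det = s.prod ∧ Mx.trace = s.sum := by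
  have hs : Mx.charpoly.Splits := by
    rw [h]
    exact Polynomial.Splits.multisetProd (by
      intro p hp
      obtain ⟨a, _, rfl⟩ := Multiset.mem_map.mp hp
      exact Polynomial.Splits.X_sub_C a)
  have hr : Mx.charpoly.roots = s := by rw [h, roots_multiset_prod_X_sub_C]
  refine ⟨?_, ?_⟩
  · rw [Matrix.det_eq_prod_roots_charpoly_of_splits hs, hr]
  · rw [Matrix.trace_eq_sum_roots_charpoly_of_splits hs, hr]

theorem exists_fibre_of_free {K : Type u} {A : Type v} [Field K] [IsAlgClosed K] [CommRing A]
    [Algebra K A] (t : A) {d : ℕ} (y : Fin d → A)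
    (hy : ∀ f : A, ∃! p : Fin d → K[X], f = ∑ j, aeval t (p j) * y j)
    (mm : A → Matrix (Fin d) (Fin d) K[X])
    (hmm : ∀ f j, f * y j = ∑ i, aeval t (mm f i j) * y i) (β : K) :
    ∃ F : Multiset (A →ₐ[K] K), F.card = d ∧ (∀ Q, Q ∈ F ↔ Q t = β) ∧
      ∀ f : A, ((mm f).map (eval β)).charpoly = (F.map fun Q => X - C (Q f)).prod := by
  set I : Ideal A := Ideal.span {t - algebraMap K A β} with hI
  have hkey : ∀ p : K[X], Ideal.Quotient.mk I (aeval t p) = algebraMap K (A ⧸ I) (eval β p) := by
    intro p
    have h1 : (X - C β : K[X]) ∣ p - C (p.eval β) := X_sub_C_dvd_sub_C_eval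
    have h2 := map_dvd (aeval t) h1
    rw [map_sub, map_sub, aeval_X, aeval_C, aeval_C] at h2
    have h3 : aeval t p - algebraMap K A (eval β p) ∈ I := Ideal.mem_span_singleton.mpr h2
    rw [← Ideal.Quotient.eq] at h3
    rw [h3]; rfl
  let vv : Fin d → A ⧸ I := fun j => Ideal.Quotient.mk I (y j)
  have hexp : ∀ p : Fin d → K[X], Ideal.Quotient.mk I (∑ j, aeval t (p j) * y j) =
      ∑ j, eval β (p j) • vv j := by
    intro p
    rw [map_sum]
    refine Finset.sum_congr rfl fun j _ => ?_
    rw [map_mul, hkey, Algebra.smul_def]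
  have hli : LinearIndependent K vv := by
    rw [Fintype.linearIndependent_iff]
    intro c hc
    have h1 : Ideal.Quotient.mk I (∑ j, aeval t (C (c j)) * y j) = 0 := by
      rw [hexp]; simpa using hc
    rw [Ideal.Quotient.eq_zero_iff_mem, hI, Ideal.mem_span_singleton'] at h1
    obtain ⟨h, hh⟩ := h1
    obtain ⟨q, hq, -⟩ := hy h
    have h2 : ∑ j, aeval t (C (c j)) * y j = ∑ j, aeval t ((X - C β) * q j) * y j := by
      rw [← hh, hq, Finset.sum_mul]
      refine Finset.sum_congr rfl fun j _ => ?_
      rw [map_mul, map_sub, aeval_X, aeval_C]; ring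
    have h3 := (hy (∑ j, aeval t (C (c j)) * y j)).unique (y₁ := fun j => C (c j))
      (y₂ := fun j => (X - C β) * q j) rfl h2
    intro j
    have h4 := congrArg (eval β) (congrFun h3 j)
    simpa using h4
  have hsp : ⊤ ≤ Submodule.span K (Set.range vv) := by
    intro x _
    obtain ⟨f, rfl⟩ := Ideal.Quotient.mk_surjective x
    obtain ⟨p, hp, -⟩ := hy f
    rw [hp, hexp]
    exact Submodule.sum_mem _ fun j _ => Submodule.smul_mem _ _ (Submodule.subset_span ⟨j, rfl⟩)
  let bs : Basis (Fin d) K (A ⧸ I) := Basis.mk hli hsp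
  have hbs : ∀ j, bs j = vv j := fun j => Basis.mk_apply hli hsp j
  have : FiniteDimensional K (A ⧸ I) := Module.Finite.of_basis bs
  obtain ⟨Z, hc, hZ, hmem⟩ := exists_chars K A (A ⧸ I)
  refine ⟨Z, ?_, fun Q => ?_, fun f => ?_⟩
  · rw [hc, Module.finrank_eq_card_basis bs, Fintype.card_fin]
  · rw [hmem]
    constructor
    · intro h
      have h1 := h (t - algebraMap K A β) (fun m => by
        obtain ⟨a, rfl⟩ := Ideal.Quotient.mk_surjective m
        rw [← Ideal.Quotient.mk_eq_mk, ← Submodule.Quotient.mk_smul, Ideal.Quotient.mk_eq_mk,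
          Ideal.Quotient.eq_zero_iff_mem, smul_eq_mul]
        exact I.mul_mem_right _ (Ideal.subset_span rfl))
      rw [map_sub, AlgHom.commutes] at h1
      exact sub_eq_zero.mp h1
    · intro h z hz
      have h1 := hz (Ideal.Quotient.mk I 1)
      rw [← Ideal.Quotient.mk_eq_mk, ← Submodule.Quotient.mk_smul, Ideal.Quotient.mk_eq_mk,
        Ideal.Quotient.eq_zero_iff_mem, smul_eq_mul, mul_one, hI, Ideal.mem_span_singleton'] at h1
      obtain ⟨a, rfl⟩ := h1
      rw [map_mul, map_sub, AlgHom.commutes, h]
      simp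
  · rw [← hZ f, ← LinearMap.charpoly_toMatrix _ bs]
    congr 1
    ext i j
    rw [LinearMap.toMatrix_apply, Matrix.map_apply, hbs]
    have h1 : (Algebra.lsmul K K (A ⧸ I) f) (vv j) = ∑ i, eval β (mm f i j) • bs i := by
      have : (Algebra.lsmul K K (A ⧸ I) f) (vv j) = Ideal.Quotient.mk I (f * y j) := rfl
      rw [this, hmm, hexp]
      simp only [hbs]
    rw [h1, Basis.repr_sum_self]

/-- (FA) for the regular representation of a finite dimensional commutative algebra. -/
theorem exists_chars_self (K : Type u) (B : Type v) [Field K] [IsAlgClosed K] [CommRing B]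
    [Algebra K B] [FiniteDimensional K B] :
    ∃ Z : Multiset (B →ₐ[K] K), Z.card = finrank K B ∧ (∀ χ : B →ₐ[K] K, χ ∈ Z) ∧
      (∀ z : B, (Algebra.lmul K B z).charpoly = (Z.map fun χ => X - C (χ z)).prod) ∧
      (∀ z : B, LinearMap.det (Algebra.lmul K B z) = (Z.map fun χ => χ z).prod) ∧
      (∀ z : B, LinearMap.trace K B (Algebra.lmul K B z) = (Z.map fun χ => χ z).sum) := by
  obtain ⟨Z, hc, hZ, hmem⟩ := exists_chars K B B
  have hZ' : ∀ z : B, (Algebra.lmul K B z).charpoly = (Z.map fun χ => X - C (χ z)).prod := hZ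
  have hdt : ∀ z : B, LinearMap.det (Algebra.lmul K B z) = (Z.map fun χ => χ z).prod ∧
      LinearMap.trace K B (Algebra.lmul K B z) = (Z.map fun χ => χ z).sum := by
    intro z
    have h := det_trace_of_charpoly_eq
      (LinearMap.toMatrix (Module.finBasis K B) (Module.finBasis K B) (Algebra.lmul K B z))
      (Z.map fun χ => χ z) (by
        rw [LinearMap.charpoly_toMatrix, hZ' z, Multiset.map_map]; rfl)
    rw [LinearMap.det_toMatrix] at h
    rw [LinearMap.trace_eq_matrix_trace K (Module.finBasis K B)]
    exact h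
  refine ⟨Z, hc, fun χ => (hmem χ).mpr fun z hz => ?_, hZ', fun z => (hdt z).1,
    fun z => (hdt z).2⟩
  have := hz 1
  rw [smul_eq_mul, mul_one] at this
  rw [this, map_zero]

/-- the fibre with multiplicities: characteristic polynomial, norm and trace. -/
theorem exists_fibre_of_free' {K : Type u} {A : Type v} [Field K] [IsAlgClosed K] [CommRing A]
    [Algebra K A] (t : A) {d : ℕ} (y : Fin d → A)
    (hy : ∀ f : A, ∃! p : Fin d → K[X], f = ∑ j, aeval t (p j) * y j)
    (mm : A → Matrix (Fin d) (Fin d) K[X])
    (hmm : ∀ f j, f * y j = ∑ i, aeval t (mm f i j) * y i) (β : K) :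
    ∃ F : Multiset (A →ₐ[K] K), F.card = d ∧ (∀ Q, Q ∈ F ↔ Q t = β) ∧
      (∀ f : A, ((mm f).map (eval β)).charpoly = (F.map fun Q => X - C (Q f)).prod) ∧
      (∀ f : A, (mm f).det.eval β = (F.map fun Q => Q f).prod) ∧
      (∀ f : A, (mm f).trace.eval β = (F.map fun Q => Q f).sum) := by
  obtain ⟨F, hc, hmem, hF⟩ := exists_fibre_of_free t y hy mm hmm β
  have hdt := fun f : A => det_trace_of_charpoly_eq ((mm f).map (eval β)) (F.map fun Q => Q f) (by
    rw [hF f, Multiset.map_map]; rfl)
  refine ⟨F, hc, hmem, hF, fun f => ?_, fun f => ?_⟩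
  · rw [← (hdt f).1]
    exact RingHom.map_det (evalRingHom β) (mm f)
  · rw [← (hdt f).2]
    exact AddMonoidHom.map_trace (evalRingHom β).toAddMonoidHom (mm f)

end Fermat.Agent.S17.H
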