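import Mathlib

/-!
# S17, route H, node (HT): the abstract argument

From a function `Th` on finite sets of points which is (a) a class function up to `O(1)`,
(b) equal up to `O(1)` to a function `Qd` satisfying the cube identity on disjoint unions,
(c) bounded below, (d) Northcott, we construct a height `h` on the class group: nonnegative,
satisfying the parallelogram law up to `O(1)`, with the Northcott property.
-/

set_option autoImplicit false

namespace Fermat.Agent.S17.H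

theorem height_abstract {P G : Type} [DecidableEq P] [AddCommGroup G]
    (St : Finset P → Prop) (hSt : ∀ E E', St E → St E' → St (E ∪ E'))
    (cl : Finset P → G) (Th Qd : Finset P → ℝ) (T₀ : Finset P) (r : ℕ)
    (h_add : ∀ E E', St E → St E' → Disjoint E E' → cl (E ∪ E') = cl E + cl E')
    (h_move : ∀ (x : G) (T : Finset P), ∃ E, St E ∧ E.card = r ∧ Disjoint E T ∧ cl E = x)
    (C1 : ℝ) (hclass : ∀ E E', St E → St E' → E.card ≤ 3 * r → E'.card ≤ 3 * r → cl E = cl E' →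
      |Th E - Th E'| ≤ C1)
    (C0 : ℝ) (hVF : ∀ E, St E → (E.card = r ∨ E.card = 2 * r ∨ E.card = 3 * r) → Disjoint E T₀ →
      |Th E - Qd E| ≤ C0)
    (hcube : ∀ E₁ E₂ E₃ : Finset P, Disjoint E₁ E₂ → Disjoint E₁ E₃ → Disjoint E₂ E₃ →
      Qd (E₁ ∪ E₂ ∪ E₃) = Qd (E₁ ∪ E₂) + Qd (E₁ ∪ E₃) + Qd (E₂ ∪ E₃) - Qd E₁ - Qd E₂ - Qd E₃)
    (C2 : ℝ) (hlow : ∀ E, St E → E.card = r → -C2 ≤ Th E)
    (hnorth : ∀ B : ℝ, {x : G | ∃ E, St E ∧ E.card = r ∧ cl E = x ∧ Th E ≤ B}.Finite) :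
    ∃ h : G → ℝ, (∀ x, 0 ≤ h x) ∧
      (∃ Cst : ℝ, ∀ x y, |h (x + y) + h (x - y) - 2 * (h x + h y)| ≤ Cst) ∧
      ∀ B : ℝ, {x | h x ≤ B}.Finite := by
  classical
  choose Ex hEx1 hEx2 hEx3 hEx4 using fun x => h_move x T₀
  set q : G → ℝ := fun x => Th (Ex x) with hq
  -- comparison of `Qd Z` with `q (cl Z)`
  have hcmp : ∀ Z, St Z → (Z.card = r ∨ Z.card = 2 * r ∨ Z.card = 3 * r) → Disjoint Z T₀ →
      ∀ z, cl Z = z → |Qd Z - q z| ≤ C0 + C1 := by
    intro Z hZ hcard hdis z hz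
    have h1 := hVF Z hZ hcard hdis
    have hle : Z.card ≤ 3 * r := by rcases hcard with h | h | h <;> omega
    have h2 := hclass Z (Ex z) hZ (hEx1 z) hle (by rw [hEx2 z]; omega) (by rw [hz, hEx4 z])
    have h3 : Qd Z - q z = -(Th Z - Qd Z) + (Th Z - Th (Ex z)) := by simp only [hq]; ring
    rw [h3]
    calc |-(Th Z - Qd Z) + (Th Z - Th (Ex z))| ≤ |-(Th Z - Qd Z)| + |Th Z - Th (Ex z)| :=
          abs_add_le _ _
      _ ≤ C0 + C1 := by rw [abs_neg]; exact add_le_add h1 h2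
  -- the key estimate
  have hkey : ∀ x y : G,
      |q (x + y) + q (x - y) - 2 * q x - q y - q (-y) + q 0| ≤ 7 * (C0 + C1) := by
    intro x y
    obtain ⟨E₁, s1, c1, d1, k1⟩ := h_move x T₀
    obtain ⟨E₂, s2, c2, d2, k2⟩ := h_move y (T₀ ∪ E₁)
    obtain ⟨E₃, s3, c3, d3, k3⟩ := h_move (-y) (T₀ ∪ E₁ ∪ E₂)
    rw [Finset.disjoint_union_right] at d2 d3
    rw [Finset.disjoint_union_right] at d3
    have d12 : Disjoint E₁ E₂ := d2.2.symm
    have d13 : Disjoint E₁ E₃ := d3.1.2.symm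
    have d23 : Disjoint E₂ E₃ := d3.2.symm
    have d123 : Disjoint (E₁ ∪ E₂) E₃ := Finset.disjoint_union_left.mpr ⟨d13, d23⟩
    have e12 : (E₁ ∪ E₂).card = 2 * r := by rw [Finset.card_union_of_disjoint d12]; omega
    have e13 : (E₁ ∪ E₃).card = 2 * r := by rw [Finset.card_union_of_disjoint d13]; omega
    have e23 : (E₂ ∪ E₃).card = 2 * r := by rw [Finset.card_union_of_disjoint d23]; omega
    have e123 : (E₁ ∪ E₂ ∪ E₃).card = 3 * r := by
      rw [Finset.card_union_of_disjoint d123]; omega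
    have s12 := hSt _ _ s1 s2
    have s13 := hSt _ _ s1 s3
    have s23 := hSt _ _ s2 s3
    have s123 := hSt _ _ s12 s3
    have k12 : cl (E₁ ∪ E₂) = x + y := by rw [h_add _ _ s1 s2 d12, k1, k2]
    have k13 : cl (E₁ ∪ E₃) = x - y := by rw [h_add _ _ s1 s3 d13, k1, k3, sub_eq_add_neg]
    have k23 : cl (E₂ ∪ E₃) = 0 := by rw [h_add _ _ s2 s3 d23, k2, k3, add_neg_cancel]
    have k123 : cl (E₁ ∪ E₂ ∪ E₃) = x := by
      rw [h_add _ _ s12 s3 d123, k12, k3]; abel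
    have t1 := hcmp E₁ s1 (Or.inl c1) d1 x k1
    have t2 := hcmp E₂ s2 (Or.inl c2) d2.1 y k2
    have t3 := hcmp E₃ s3 (Or.inl c3) d3.1.1 (-y) k3
    have t12 := hcmp _ s12 (Or.inr (Or.inl e12)) (Finset.disjoint_union_left.mpr ⟨d1, d2.1⟩) _ k12
    have t13 := hcmp _ s13 (Or.inr (Or.inl e13))
      (Finset.disjoint_union_left.mpr ⟨d1, d3.1.1⟩) _ k13
    have t23 := hcmp _ s23 (Or.inr (Or.inl e23))
      (Finset.disjoint_union_left.mpr ⟨d2.1, d3.1.1⟩) _ k23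
    have t123 := hcmp _ s123 (Or.inr (Or.inr e123))
      (Finset.disjoint_union_left.mpr ⟨Finset.disjoint_union_left.mpr ⟨d1, d2.1⟩, d3.1.1⟩) _ k123
    have hc := hcube E₁ E₂ E₃ d12 d13 d23
    rw [abs_le] at t1 t2 t3 t12 t13 t23 t123 ⊢
    constructor <;> linarith [t1.1, t1.2, t2.1, t2.2, t3.1, t3.2, t12.1, t12.2, t13.1, t13.2,
      t23.1, t23.2, t123.1, t123.2]
  have hqlow : ∀ x, -C2 ≤ q x := fun x => hlow _ (hEx1 x) (hEx2 x)
  refine ⟨fun x => q x + q (-x) + 2 * C2, ?_, ⟨14 * (C0 + C1) + 2 * |q 0| + 4 * |C2|, ?_⟩, ?_⟩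
  · intro x
    have h1 := hqlow x
    have h2 := hqlow (-x)
    show 0 ≤ q x + q (-x) + 2 * C2
    linarith
  · intro x y
    have h1 := hkey x y
    have h2 := hkey (-x) (-y)
    have e1 : -x + -y = -(x + y) := by abel
    have e2 : -x - -y = -(x - y) := by abel
    rw [e1, e2, neg_neg] at h2
    have h3 := neg_abs_le (q 0)
    have h4 := le_abs_self (q 0)
    have h5 := neg_abs_le C2
    have h6 := le_abs_self C2
    show |(q (x + y) + q (-(x + y)) + 2 * C2) + (q (x - y) + q (-(x - y)) + 2 * C2)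
      - 2 * ((q x + q (-x) + 2 * C2) + (q y + q (-y) + 2 * C2))| ≤ _
    rw [abs_le] at h1 h2 ⊢
    constructor <;> linarith [h1.1, h1.2, h2.1, h2.2]
  · intro B
    refine (hnorth (B - C2)).subset ?_
    intro x hx
    have hx' : q x + q (-x) + 2 * C2 ≤ B := hx
    refine ⟨Ex x, hEx1 x, hEx2 x, hEx4 x, ?_⟩
    have h2 := hqlow (-x)
    show q x ≤ B - C2
    linarith

end Fermat.Agent.S17.H
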