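import Fermat.Agent.S17.H.Curve
import Fermat.Agent.S17.H.AbsBasic
import Fermat.Agent.S17.H.MainAbstract

/-!
# S17, route H, node (HT): `exists_height` from the nodes (taken as explicit hypotheses)
-/

set_option autoImplicit false

noncomputable section

open scoped Classical

namespace Fermat.Agent.S17.H

/-! ### combinatorics of `offDiag` -/

theorem main_sum_offDiag_union {P : Type} [DecidableEq P] (φ : P × P → ℝ) {s t : Finset P}
    (h : Disjoint s t) :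
    ∑ x ∈ (s ∪ t).offDiag, φ x = ∑ x ∈ s.offDiag, φ x + ∑ x ∈ t.offDiag, φ x
      + ∑ x ∈ s ×ˢ t, φ x + ∑ x ∈ t ×ˢ s, φ x := by
  have hl := Finset.disjoint_left.mp h
  have h1 : Disjoint s.offDiag t.offDiag := by
    rw [Finset.disjoint_left]
    intro x hx hx'
    rw [Finset.mem_offDiag] at hx hx'
    exact hl hx.1 hx'.1
  have h2 : Disjoint (s.offDiag ∪ t.offDiag) (s ×ˢ t) := by
    rw [Finset.disjoint_left]
    intro x hx hx'
    rw [Finset.mem_product] at hx'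
    rcases Finset.mem_union.mp hx with hx | hx <;> rw [Finset.mem_offDiag] at hx
    · exact hl hx.2.1 hx'.2
    · exact hl hx'.1 hx.1
  have h3 : Disjoint (s.offDiag ∪ t.offDiag ∪ s ×ˢ t) (t ×ˢ s) := by
    rw [Finset.disjoint_left]
    intro x hx hx'
    rw [Finset.mem_product] at hx'
    rcases Finset.mem_union.mp hx with hx | hx
    · rcases Finset.mem_union.mp hx with hx | hx <;> rw [Finset.mem_offDiag] at hx
      · exact hl hx.1 hx'.1
      · exact hl hx'.2 hx.2.1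
    · rw [Finset.mem_product] at hx
      exact hl hx.1 hx'.1
  rw [Finset.offDiag_union h, Finset.sum_union h3, Finset.sum_union h2, Finset.sum_union h1]

theorem main_sum_offDiag_cube {P : Type} [DecidableEq P] (φ : P × P → ℝ) (E₁ E₂ E₃ : Finset P)
    (d12 : Disjoint E₁ E₂) (d13 : Disjoint E₁ E₃) (d23 : Disjoint E₂ E₃) :
    ∑ x ∈ (E₁ ∪ E₂ ∪ E₃).offDiag, φ x =
      ∑ x ∈ (E₁ ∪ E₂).offDiag, φ x + ∑ x ∈ (E₁ ∪ E₃).offDiag, φ x
        + ∑ x ∈ (E₂ ∪ E₃).offDiag, φ x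
        - ∑ x ∈ E₁.offDiag, φ x - ∑ x ∈ E₂.offDiag, φ x - ∑ x ∈ E₃.offDiag, φ x := by
  have d123 : Disjoint (E₁ ∪ E₂) E₃ := Finset.disjoint_union_left.mpr ⟨d13, d23⟩
  rw [main_sum_offDiag_union φ d123, main_sum_offDiag_union φ d13, main_sum_offDiag_union φ d23,
    Finset.union_product, Finset.product_union,
    Finset.sum_union (Finset.disjoint_product.mpr (Or.inl d12)),
    Finset.sum_union (Finset.disjoint_product.mpr (Or.inr d12))]
  ring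

variable (𝔳 : AbsFam) {A : Type} [CommRing A] [Algebra Qb A] (C : WCurve A)

theorem main_galStable_union {E E' : Finset (Pt A)} (h : C.GalStable E) (h' : C.GalStable E') :
    C.GalStable (E ∪ E') := by
  intro σ P hP
  rcases Finset.mem_union.mp hP with hP | hP
  · obtain ⟨P', hP', h1⟩ := h σ P hP
    exact ⟨P', Finset.mem_union_left _ hP', h1⟩
  · obtain ⟨P', hP', h1⟩ := h' σ P hP
    exact ⟨P', Finset.mem_union_right _ hP', h1⟩

theorem main_d_pos : 0 < C.d := by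
  have := C.ρ_strictMono (show (0 : ℕ) < 1 by norm_num)
  rw [C.ρ_zero] at this
  exact this

/-! ### `hE` and `I2` as finite sums -/

theorem main_finite_support_lam (P : Pt A) :
    (Function.support fun v => C.lam 𝔳 v P).Finite := by
  refine (finite_support_log_mx 𝔳 (P C.t)).subset ?_
  intro v hv h
  apply hv
  show Real.log (mx 𝔳 v (P C.t)) / C.d = 0
  have h' : Real.log (mx 𝔳 v (P C.t)) = 0 := h
  rw [h', zero_div]

theorem main_hE_eq_sum (E : Finset (Pt A)) : C.hE 𝔳 E = ∑ P ∈ E, ∑ᶠ v, C.lam 𝔳 v P :=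
  finsum_sum_comm E _ (fun P _ => main_finite_support_lam 𝔳 C P)

theorem main_hE_union {E E' : Finset (Pt A)} (hd : Disjoint E E') :
    C.hE 𝔳 (E ∪ E') = C.hE 𝔳 E + C.hE 𝔳 E' := by
  rw [main_hE_eq_sum, main_hE_eq_sum, main_hE_eq_sum, Finset.sum_union hd]

theorem main_finite_support_gl (m : ℕ) (P Q : Pt A) :
    (Function.support fun v => C.gl 𝔳 m v P Q).Finite := by
  have h1 : (Function.support fun v => Real.log (C.w2 𝔳 m v P Q)).Finite :=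
    finite_support_log_iSup_av 𝔳 (fun kl : Fin (C.dim m) × Fin (C.dim m) =>
      P (C.b kl.1) * Q (C.b kl.2) - P (C.b kl.2) * Q (C.b kl.1))
  refine ((h1.union (main_finite_support_lam 𝔳 C P)).union
    (main_finite_support_lam 𝔳 C Q)).subset ?_
  intro v hv
  by_contra hnot
  simp only [Set.mem_union, Function.mem_support, not_or, not_not] at hnot
  apply hv
  show Real.log (C.w2 𝔳 m v P Q) - m * C.lam 𝔳 v P - m * C.lam 𝔳 v Q = 0
  rw [hnot.1.1, hnot.1.2, hnot.2]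
  ring

theorem main_I2_eq_sum (m : ℕ) (E : Finset (Pt A)) :
    C.I2 𝔳 m E = -(∑ x ∈ E.offDiag, ∑ᶠ v, C.gl 𝔳 m v x.1 x.2) / 2 := by
  unfold WCurve.I2
  rw [finsum_sum_comm E.offDiag _ (fun x _ => main_finite_support_gl 𝔳 C m x.1 x.2)]

theorem main_Qd_cube (m : ℕ) (E₁ E₂ E₃ : Finset (Pt A))
    (d12 : Disjoint E₁ E₂) (d13 : Disjoint E₁ E₃) (d23 : Disjoint E₂ E₃) :
    C.Qd 𝔳 m (E₁ ∪ E₂ ∪ E₃) = C.Qd 𝔳 m (E₁ ∪ E₂) + C.Qd 𝔳 m (E₁ ∪ E₃) + C.Qd 𝔳 m (E₂ ∪ E₃)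
      - C.Qd 𝔳 m E₁ - C.Qd 𝔳 m E₂ - C.Qd 𝔳 m E₃ := by
  have d123 : Disjoint (E₁ ∪ E₂) E₃ := Finset.disjoint_union_left.mpr ⟨d13, d23⟩
  unfold WCurve.Qd
  simp only [main_I2_eq_sum]
  rw [main_sum_offDiag_cube _ E₁ E₂ E₃ d12 d13 d23, main_hE_union 𝔳 C d123,
    main_hE_union 𝔳 C d12, main_hE_union 𝔳 C d13, main_hE_union 𝔳 C d23,
    Finset.card_union_of_disjoint d123, Finset.card_union_of_disjoint d12,
    Finset.card_union_of_disjoint d13, Finset.card_union_of_disjoint d23]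
  push_cast
  ring

/-! ### the bad set -/

theorem main_finite_bad (n_fib : ∀ α : Qb, (C.fib α).Finite) (Δ : Polynomial ℚ) (hΔ : Δ ≠ 0) :
    {P : Pt A | Polynomial.aeval (P C.t) Δ = 0}.Finite := by
  refine ((Δ.rootSet_finite Qb).biUnion (fun α _ => n_fib α)).subset ?_
  intro P hP
  simp only [Set.mem_iUnion]
  exact ⟨P C.t, (Polynomial.mem_rootSet).mpr ⟨hΔ, hP⟩, rfl⟩

/-! ### the theorem -/

theorem exists_height_of_nodes [IsDedekindDomain A] {G : Type} [AddCommGroup G]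
    (cl : Finset (Pt A) → G) (r₀ : ℕ)
    (h_add : ∀ E E', C.GalStable E → C.GalStable E' → Disjoint E E' → cl (E ∪ E') = cl E + cl E')
    (h_iff : ∀ E E', C.GalStable E → C.GalStable E' → (cl E = cl E' ↔
      ∃ s s' : A, C.IsRat s ∧ C.IsRat s' ∧ s ≠ 0 ∧ s' ≠ 0 ∧
        Ideal.span {s'} * idealOf E = Ideal.span {s} * idealOf E'))
    (h_move : ∀ r, r₀ ≤ r → ∀ (x : G) (T : Finset (Pt A)),
      ∃ E, C.GalStable E ∧ E.card = r ∧ Disjoint E T ∧ cl E = x)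
    (n_fib : ∀ α : Qb, (C.fib α).Finite)
    (n_VF : ∃ Δ : Polynomial ℚ, Δ ≠ 0 ∧
      ∃ m₀, ∀ m, m₀ ≤ m → C.d ∣ m → ∀ (e w : ℕ), C.d ∣ e + C.g + w - 1 → 1 ≤ w →
        C.d * e * m ≤ e + C.g + w - 1 →
        ∃ Cst : ℝ, ∀ E : Finset (Pt A), C.GalStable E → E.card = e →
          (∀ P ∈ E, Polynomial.aeval (P C.t) Δ ≠ 0) →
          |C.Theta 𝔳 w E - C.Qd 𝔳 m E| ≤ Cst)
    (n_G3 : ∀ (w : ℕ), C.g + 1 ≤ w → ∀ emax : ℕ,
      ∃ Cst : ℝ, ∀ E E' : Finset (Pt A), C.GalStable E → C.GalStable E' → E.card ≤ emax →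
        E'.card ≤ emax → ∀ s s' : A, C.IsRat s → C.IsRat s' → s ≠ 0 → s' ≠ 0 →
        Ideal.span {s'} * idealOf E = Ideal.span {s} * idealOf E' →
        |C.Theta 𝔳 w E - C.Theta 𝔳 w E'| ≤ Cst)
    (n_sec : ∀ (w : ℕ), C.g + 1 ≤ w → ∀ emax : ℕ,
      ∃ Cst : ℝ, ∀ X : Finset (Pt A), C.GalStable X → X.card ≤ emax →
        ∃ f : A, C.IsRat f ∧ f ≠ 0 ∧ f ∈ C.V (X.card + C.g + w - 1) ∧ f ∈ idealOf X ∧
          w * ht 𝔳 (fun i : Fin (C.dim (X.card + C.g + w - 1)) => C.b.repr f i)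
            ≤ C.Phi 𝔳 (X.card + C.g + w - 1) X + Cst)
    (n_low : ∀ n : ℕ,
      ∃ Cst : ℝ, ∀ X : Finset (Pt A), C.GalStable X → ∀ f : A, C.IsRat f → f ≠ 0 → f ∈ C.V n →
        f ∈ idealOf X → C.hE 𝔳 X ≤ ht 𝔳 (fun i : Fin (C.dim n) => C.b.repr f i) + Cst)
    (n_north : ∀ (n : ℕ) (B : ℝ),
      ∃ 𝔉 : Set (Ideal A), 𝔉.Finite ∧ ∀ X : Finset (Pt A), C.GalStable X → ∀ f : A, C.IsRat f →
        f ≠ 0 → f ∈ C.V n → f ∈ idealOf X →
        ht 𝔳 (fun i : Fin (C.dim n) => C.b.repr f i) ≤ C.hE 𝔳 X + B →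
        ∃ 𝔢 ∈ 𝔉, 𝔢 ≠ ⊥ ∧ idealOf X * 𝔢 = Ideal.span {f}) :
    ∃ h : G → ℝ, (∀ x, 0 ≤ h x) ∧
      (∃ Cst : ℝ, ∀ x y, |h (x + y) + h (x - y) - 2 * (h x + h y)| ≤ Cst) ∧
      ∀ B : ℝ, {x | h x ≤ B}.Finite := by
  obtain ⟨Δ, hΔ, m₀, hVF⟩ := n_VF
  have hd : 0 < C.d := main_d_pos C
  -- parameters
  set d := C.d with hd_def
  set g := C.g with hg_def
  set m : ℕ := d * m₀ with hm
  set r : ℕ := d * (r₀ + 1) with hr
  set K : ℕ := 2 * g + 3 * r * m with hK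
  set w : ℕ := d * K + 1 - g with hw
  have hm₀ : m₀ ≤ m := Nat.le_mul_of_pos_left m₀ hd
  have hdm : d ∣ m := Dvd.intro _ rfl
  have hr₀ : r₀ ≤ r := (Nat.le_succ r₀).trans (Nat.le_mul_of_pos_left _ hd)
  have hdr : d ∣ r := Dvd.intro _ rfl
  have hKle : K ≤ d * K := Nat.le_mul_of_pos_left K hd
  have hgw : g + 1 ≤ w := by omega
  have hw1 : 1 ≤ w := by omega
  have hn : ∀ e : ℕ, e + g + w - 1 = e + d * K := by intro e; omega
  have hparam : ∀ e : ℕ, d ∣ e → e ≤ 3 * r →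
      d ∣ e + g + w - 1 ∧ d * e * m ≤ e + g + w - 1 := by
    intro e hde he
    rw [hn e]
    refine ⟨Dvd.dvd.add hde (Dvd.intro _ rfl), ?_⟩
    have h1 : e * m ≤ K := by
      have : e * m ≤ 3 * r * m := Nat.mul_le_mul_right m he
      omega
    calc d * e * m = d * (e * m) := Nat.mul_assoc _ _ _
      _ ≤ d * K := Nat.mul_le_mul_left d h1
      _ ≤ e + d * K := Nat.le_add_left _ _
  -- constants from (VF)
  obtain ⟨c1, hc1⟩ := hVF m hm₀ hdm r w (hparam r hdr (by omega)).1 hw1 (hparam r hdr (by omega)).2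
  obtain ⟨c2, hc2⟩ := hVF m hm₀ hdm (2 * r) w (hparam (2 * r) (Dvd.dvd.mul_left hdr 2) (by omega)).1
    hw1 (hparam (2 * r) (Dvd.dvd.mul_left hdr 2) (by omega)).2
  obtain ⟨c3, hc3⟩ := hVF m hm₀ hdm (3 * r) w (hparam (3 * r) (Dvd.dvd.mul_left hdr 3) le_rfl).1
    hw1 (hparam (3 * r) (Dvd.dvd.mul_left hdr 3) le_rfl).2
  obtain ⟨C1, hC1⟩ := n_G3 w hgw (3 * r)
  obtain ⟨Cs, hCs⟩ := n_sec w hgw r
  obtain ⟨Ch, hCh⟩ := n_low (r + g + w - 1)
  set T₀ : Finset (Pt A) := (main_finite_bad C n_fib Δ hΔ).toFinset with hT₀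
  have hT₀mem : ∀ E : Finset (Pt A), Disjoint E T₀ →
      ∀ P ∈ E, Polynomial.aeval (P C.t) Δ ≠ 0 := by
    intro E hE P hP h0
    exact Finset.disjoint_left.mp hE hP ((Set.Finite.mem_toFinset _).mpr h0)
  have hwpos : (0 : ℝ) < (w : ℝ) := by exact_mod_cast hw1
  -- the section attached to a set of cardinality `r`
  have hsec : ∀ X : Finset (Pt A), C.GalStable X → X.card = r →
      ∃ f : A, C.IsRat f ∧ f ≠ 0 ∧ f ∈ C.V (r + g + w - 1) ∧ f ∈ idealOf X ∧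
        w * ht 𝔳 (fun i : Fin (C.dim (r + g + w - 1)) => C.b.repr f i)
          ≤ C.Theta 𝔳 w X + w * C.hE 𝔳 X + Cs := by
    intro X hX hcard
    obtain ⟨f, f1, f2, f3, f4, f5⟩ := hCs X hX hcard.le
    rw [hcard] at f3 f5
    refine ⟨f, f1, f2, f3, f4, ?_⟩
    have : C.Theta 𝔳 w X = C.Phi 𝔳 (r + g + w - 1) X - w * C.hE 𝔳 X := by
      unfold WCurve.Theta
      rw [hcard]
    rw [this]
    linarith
  refine height_abstract C.GalStable (fun E E' => main_galStable_union C) cl (C.Theta 𝔳 w)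
    (C.Qd 𝔳 m) T₀ r h_add (h_move r hr₀) C1 ?_ (max c1 (max c2 c3)) ?_
    (main_Qd_cube 𝔳 C m) (Cs + w * Ch) ?_ ?_
  · -- class invariance
    intro E E' hE hE' hc hc' hcl
    obtain ⟨s, s', h1, h2, h3, h4, h5⟩ := (h_iff E E' hE hE').mp hcl
    exact hC1 E E' hE hE' hc hc' s s' h1 h2 h3 h4 h5
  · -- (VF)
    intro E hE hcard hdis
    rcases hcard with h | h | h
    · exact (hc1 E hE h (hT₀mem E hdis)).trans (le_max_left _ _)
    · exact (hc2 E hE h (hT₀mem E hdis)).trans ((le_max_left _ _).trans (le_max_right _ _))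
    · exact (hc3 E hE h (hT₀mem E hdis)).trans ((le_max_right _ _).trans (le_max_right _ _))
  · -- lower bound
    intro X hX hcard
    obtain ⟨f, f1, f2, f3, f4, f5⟩ := hsec X hX hcard
    have h1 := hCh X hX f f1 f2 f3 f4
    have h2 : (w : ℝ) * C.hE 𝔳 X ≤
        w * (ht 𝔳 (fun i : Fin (C.dim (r + g + w - 1)) => C.b.repr f i) + Ch) :=
      mul_le_mul_of_nonneg_left h1 hwpos.le
    linarith
  · -- Northcott
    intro B
    obtain ⟨𝔉, h𝔉, hN⟩ := n_north (r + g + w - 1) ((B + Cs) / w)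
    have hex : ∀ x : G, x ∈ {x : G | ∃ E, C.GalStable E ∧ E.card = r ∧ cl E = x ∧
        C.Theta 𝔳 w E ≤ B} → ∃ 𝔢 : Ideal A, 𝔢 ∈ 𝔉 ∧ 𝔢 ≠ ⊥ ∧ ∃ (E : Finset (Pt A)) (f : A),
          C.GalStable E ∧ cl E = x ∧ C.IsRat f ∧ f ≠ 0 ∧ idealOf E * 𝔢 = Ideal.span {f} := by
      rintro x ⟨E, hE, hcard, hcl, hB⟩
      obtain ⟨f, f1, f2, f3, f4, f5⟩ := hsec E hE hcard
      have hht : ht 𝔳 (fun i : Fin (C.dim (r + g + w - 1)) => C.b.repr f i)
          ≤ C.hE 𝔳 E + (B + Cs) / w := by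
        have h1 : (w : ℝ) * ht 𝔳 (fun i : Fin (C.dim (r + g + w - 1)) => C.b.repr f i)
            ≤ w * (C.hE 𝔳 E + (B + Cs) / w) := by
          have : (w : ℝ) * (C.hE 𝔳 E + (B + Cs) / w) = w * C.hE 𝔳 E + (B + Cs) := by
            field_simp
          rw [this]
          linarith
        exact le_of_mul_le_mul_left h1 hwpos
      obtain ⟨𝔢, e1, e2, e3⟩ := hN E hE f f1 f2 f3 f4 hht
      exact ⟨𝔢, e1, e2, E, f, hE, hcl, f1, f2, e3⟩
    choose! F hF using hex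
    refine Set.Finite.of_injOn (f := F) (fun x hx => (hF x hx).1) ?_ h𝔉
    intro x hx x' hx' hxx'
    obtain ⟨-, e2, E, f, hE, hcl, f1, f2, e3⟩ := hF x hx
    obtain ⟨-, -, E', f', hE', hcl', f1', f2', e3'⟩ := hF x' hx'
    rw [← hxx'] at e3'
    rw [← hcl, ← hcl']
    refine (h_iff E E' hE hE').mpr ⟨f, f', f1, f1', f2, f2', ?_⟩
    have hne : F x ≠ 0 := e2
    apply mul_right_cancel₀ hne
    rw [mul_assoc, mul_assoc, e3, e3', mul_comm]

end Fermat.Agent.S17.H
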