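import Fermat.Agent.S17.H.Curve
import Fermat.Agent.S17.H.AbsBasic
import Fermat.Agent.S17.H.Wnorm

/-!
# S17, part H, task S17-H-M (helper66): local monotonicity (M) of `Ξ`
-/

set_option autoImplicit false

noncomputable section

open scoped Classical

namespace Fermat.Agent.S17.H

variable (𝔳 : AbsFam) {A : Type} [CommRing A] [Algebra Qb A] (C : WCurve A)

/-- local version of `Ξ = Φ - Φ^naive`. -/
def XiLoc (m n : ℕ) (v : Pl) (E : Finset (Pt A)) : ℝ :=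
  Real.log (wnorm 𝔳 v (C.evMat n E)) - n * ∑ P ∈ E, C.lam 𝔳 v P
    - (∑ x ∈ E.offDiag, C.gl 𝔳 m v x.1 x.2) / 2

namespace Mono

/-! ### the spaces `V n` -/

theorem le_rho (i : ℕ) : i ≤ C.ρ i := C.ρ_strictMono.le_apply

theorem lt_dim_iff (n i : ℕ) : i < C.dim n ↔ C.ρ i ≤ n := by
  set S := (Finset.range (n + 1)).filter fun i => C.ρ i ≤ n with hS
  have hmem : ∀ j, j ∈ S ↔ C.ρ j ≤ n := by
    intro j
    rw [hS, Finset.mem_filter, Finset.mem_range]
    exact ⟨fun h => h.2, fun h => ⟨Nat.lt_succ_of_le ((le_rho C j).trans h), h⟩⟩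
  show i < S.card ↔ _
  constructor
  · intro hi
    by_contra hcon
    have hsub : S ⊆ Finset.range i := by
      intro j hj
      rw [Finset.mem_range]
      by_contra hji
      exact hcon ((C.ρ_strictMono.monotone (not_lt.1 hji)).trans ((hmem j).1 hj))
    have := Finset.card_le_card hsub
    rw [Finset.card_range] at this
    omega
  · intro hi
    have hsub : Finset.range (i + 1) ⊆ S := by
      intro j hj
      rw [Finset.mem_range] at hj
      exact (hmem j).2 ((C.ρ_strictMono.monotone (Nat.lt_succ_iff.1 hj)).trans hi)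
    have := Finset.card_le_card hsub
    rw [Finset.card_range] at this
    omega

theorem dim_pos (n : ℕ) : 0 < C.dim n := (lt_dim_iff C n 0).2 (by rw [C.ρ_zero]; exact Nat.zero_le n)

theorem d_pos : 0 < C.d := by
  have := C.ρ_strictMono (show 0 < 1 from one_pos)
  rw [C.ρ_zero] at this
  exact this

theorem mem_V_iff (n : ℕ) (f : A) : f ∈ C.V n ↔ ∀ i, C.b.repr f i ≠ 0 → C.ρ i ≤ n := by
  rw [WCurve.V, Module.Basis.mem_span_image]
  constructor
  · intro h i hi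
    exact h (Finsupp.mem_support_iff.2 hi)
  · intro h i hi
    exact h i (Finsupp.mem_support_iff.1 hi)

theorem b_mem_V {n i : ℕ} (h : C.ρ i ≤ n) : C.b i ∈ C.V n :=
  Submodule.subset_span ⟨i, h, rfl⟩

theorem V_mono {a b : ℕ} (h : a ≤ b) : C.V a ≤ C.V b :=
  Submodule.span_mono (Set.image_mono fun _ hi => le_trans hi h)

theorem one_mem_V (n : ℕ) : (1 : A) ∈ C.V n := by
  rw [← C.b_zero]
  exact b_mem_V C (by rw [C.ρ_zero]; exact Nat.zero_le n)

theorem mul_mem_V {a b : ℕ} {f h : A} (hf : f ∈ C.V a) (hh : h ∈ C.V b) : f * h ∈ C.V (a + b) := by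
  have h1 : f * h ∈ C.V a * C.V b := Submodule.mul_mem_mul hf hh
  have h2 : C.V a * C.V b ≤ C.V (a + b) := by
    rw [WCurve.V, WCurve.V, Submodule.span_mul_span, Submodule.span_le]
    rintro _ ⟨_, ⟨i, hi, rfl⟩, _, ⟨j, hj, rfl⟩, rfl⟩
    obtain ⟨k, c, hk, hmul⟩ := C.mul_b i j
    show C.b i * C.b j ∈ C.V (a + b)
    rw [hmul]
    have hk' : C.ρ k ≤ a + b := by
      rw [hk]; exact Nat.add_le_add hi hj
    refine Submodule.add_mem _ (b_mem_V C hk') (Submodule.sum_mem _ fun l hl => ?_)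
    refine Submodule.smul_mem _ _ (b_mem_V C ?_)
    exact (C.ρ_strictMono.monotone (Finset.mem_range.1 hl).le).trans hk'
  exact h2 h1

theorem pow_mem_V {a : ℕ} {f : A} (hf : f ∈ C.V a) (r : ℕ) : f ^ r ∈ C.V (r * a) := by
  induction r with
  | zero => simpa using one_mem_V C 0
  | succ r ih =>
    rw [pow_succ, Nat.succ_mul]
    exact mul_mem_V C ih hf

theorem t_mem_V : C.t ∈ C.V C.d := b_mem_V C le_rfl

theorem eq_sum {n : ℕ} {f : A} (hf : f ∈ C.V n) :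
    f = ∑ k : Fin (C.dim n), C.b.repr f k • C.b k := by
  conv_lhs => rw [← C.b.linearCombination_repr f, Finsupp.linearCombination_apply, Finsupp.sum]
  rw [Fin.sum_univ_eq_sum_range (fun k => C.b.repr f k • C.b k) (C.dim n)]
  refine Finset.sum_subset ?_ ?_
  · intro i hi
    rw [Finset.mem_range, lt_dim_iff]
    exact (mem_V_iff C n f).1 hf i (Finsupp.mem_support_iff.1 hi)
  · intro i _ hi
    rw [Finsupp.notMem_support_iff.1 hi, zero_smul]

theorem eval_eq_sum {n : ℕ} {f : A} (hf : f ∈ C.V n) (Q : Pt A) :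
    Q f = ∑ k : Fin (C.dim n), C.b.repr f k * Q (C.b k) := by
  conv_lhs => rw [eq_sum C hf]
  rw [map_sum]
  refine Finset.sum_congr rfl fun k _ => ?_
  rw [map_smul, smul_eq_mul]

/-! ### the coordinate norm -/

/-- coordinates of an element of `V_n`. -/
def co (n : ℕ) (f : A) : Fin (C.dim n) → Qb := fun i => C.b.repr f i

/-- sup norm of the first `dim n` coordinates. -/
def nrm (n : ℕ) (v : Pl) (f : A) : ℝ := vnorm 𝔳 v (co C n f)

theorem nrm_nonneg (n : ℕ) (v : Pl) (f : A) : 0 ≤ nrm 𝔳 C n v f := vnorm_nonneg 𝔳 v _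

theorem repr_mul {n : ℕ} {f h : A} (hf : f ∈ C.V n) (hh : h ∈ C.V n) (l : ℕ) :
    C.b.repr (f * h) l = ∑ ij : Fin (C.dim n) × Fin (C.dim n),
      C.b.repr f ij.1 * C.b.repr h ij.2 * C.b.repr (C.b ij.1 * C.b ij.2) l := by
  have h1 : f * h = ∑ ij : Fin (C.dim n) × Fin (C.dim n),
      (C.b.repr f ij.1 * C.b.repr h ij.2) • (C.b ij.1 * C.b ij.2) := by
    conv_lhs => rw [eq_sum C hf, eq_sum C hh]
    rw [Finset.sum_mul_sum, ← Finset.univ_product_univ, Finset.sum_product]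
    refine Finset.sum_congr rfl fun i _ => Finset.sum_congr rfl fun j _ => ?_
    rw [smul_mul_smul_comm]
  rw [h1, map_sum, Finsupp.finsetSum_apply]
  refine Finset.sum_congr rfl fun ij _ => ?_
  rw [map_smul, Finsupp.smul_apply, smul_eq_mul]

theorem nrm_mul_le (n : ℕ) : ∃ γ : MConst, ∀ (v : Pl) (f h : A), f ∈ C.V n → h ∈ C.V n →
    nrm 𝔳 C n v (f * h) ≤ Real.exp (γ.c v) * (nrm 𝔳 C n v f * nrm 𝔳 C n v h) := by
  obtain ⟨γs, hγs⟩ := exists_mconst_av_family 𝔳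
    (fun x : (Fin (C.dim n) × Fin (C.dim n)) × Fin (C.dim n) =>
      C.b.repr (C.b x.1.1 * C.b x.1.2) x.2)
  obtain ⟨γa, hγa⟩ := exists_mconst_ac_le (C.dim n * C.dim n)
  refine ⟨γa + γs, fun v f h hf hh => ?_⟩
  have hN : 0 ≤ nrm 𝔳 C n v f * nrm 𝔳 C n v h :=
    mul_nonneg (nrm_nonneg 𝔳 C n v f) (nrm_nonneg 𝔳 C n v h)
  refine vnorm_le 𝔳 v (mul_nonneg (Real.exp_pos _).le hN) fun l => ?_
  show 𝔳.av v (C.b.repr (f * h) l) ≤ _
  rw [repr_mul C hf hh]
  have h1 := av_sum_le 𝔳 v (Finset.univ : Finset (Fin (C.dim n) × Fin (C.dim n)))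
    (fun ij => C.b.repr f ij.1 * C.b.repr h ij.2 * C.b.repr (C.b ij.1 * C.b ij.2) l)
    (c := nrm 𝔳 C n v f * nrm 𝔳 C n v h * Real.exp (γs.c v))
    (mul_nonneg hN (Real.exp_pos _).le) (fun ij _ => by
      rw [map_mul, map_mul]
      refine mul_le_mul (mul_le_mul ?_ ?_ ((𝔳.av v).nonneg _) (nrm_nonneg 𝔳 C n v f))
        (hγs v (ij, l)).1 ((𝔳.av v).nonneg _) hN
      · exact le_vnorm 𝔳 v (co C n f) ij.1
      · exact le_vnorm 𝔳 v (co C n h) ij.2)
  refine h1.trans ?_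
  rw [Finset.card_univ, Fintype.card_prod, Fintype.card_fin, MConst.add_c, Real.exp_add]
  calc ac v (C.dim n * C.dim n) * (nrm 𝔳 C n v f * nrm 𝔳 C n v h * Real.exp (γs.c v))
      ≤ Real.exp (γa.c v) * (nrm 𝔳 C n v f * nrm 𝔳 C n v h * Real.exp (γs.c v)) :=
        mul_le_mul_of_nonneg_right (hγa v) (mul_nonneg hN (Real.exp_pos _).le)
    _ = Real.exp (γa.c v) * Real.exp (γs.c v) * (nrm 𝔳 C n v f * nrm 𝔳 C n v h) := by ring

theorem nrm_one_le (n : ℕ) (v : Pl) : nrm 𝔳 C n v 1 ≤ 1 := by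
  refine vnorm_le 𝔳 v zero_le_one fun l => ?_
  show 𝔳.av v (C.b.repr 1 l) ≤ 1
  rw [← C.b_zero, C.b.repr_self, Finsupp.single_apply]
  split_ifs <;> simp

/-- a fixed element has bounded norm. -/
theorem exists_nrm_le (n : ℕ) (f : A) : ∃ γ : MConst, ∀ v, nrm 𝔳 C n v f ≤ Real.exp (γ.c v) := by
  obtain ⟨γ, hγ⟩ := exists_mconst_av_family 𝔳 (co C n f)
  exact ⟨γ, fun v => vnorm_le 𝔳 v (Real.exp_pos _).le fun l => (hγ v l).1⟩

/-- products of functions in `V m`. -/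
theorem prod_mem_V {ι : Type} (E : Finset ι) (F : ι → A) (m : ℕ) (hF : ∀ P ∈ E, F P ∈ C.V m) :
    ∏ P ∈ E, F P ∈ C.V (E.card * m) := by
  induction E using Finset.induction_on with
  | empty => simpa using one_mem_V C 0
  | insert a E ha ih =>
    rw [Finset.prod_insert ha, Finset.card_insert_of_notMem ha, Nat.succ_mul, add_comm]
    exact mul_mem_V C (hF a (Finset.mem_insert_self a E))
      (ih fun P hP => hF P (Finset.mem_insert_of_mem hP))

theorem nrm_prod_le {n : ℕ} {γ : MConst}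
    (hγ : ∀ (v : Pl) (f h : A), f ∈ C.V n → h ∈ C.V n →
      nrm 𝔳 C n v (f * h) ≤ Real.exp (γ.c v) * (nrm 𝔳 C n v f * nrm 𝔳 C n v h))
    {ι : Type} (E : Finset ι) (F : ι → A) (m : ℕ) (hF : ∀ P ∈ E, F P ∈ C.V m)
    (hn : E.card * m ≤ n) (v : Pl) :
    nrm 𝔳 C n v (∏ P ∈ E, F P) ≤ Real.exp (E.card * γ.c v) * ∏ P ∈ E, nrm 𝔳 C n v (F P) := by
  induction E using Finset.induction_on with
  | empty => simpa using nrm_one_le 𝔳 C n v
  | insert a E ha ih =>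
    have hcard : (insert a E).card = E.card + 1 := Finset.card_insert_of_notMem ha
    rw [hcard, Nat.succ_mul] at hn
    have hF' : ∀ P ∈ E, F P ∈ C.V m := fun P hP => hF P (Finset.mem_insert_of_mem hP)
    have ih' := ih hF' (by omega)
    rw [Finset.prod_insert ha, Finset.prod_insert ha, hcard]
    have h1 := hγ v (F a) (∏ P ∈ E, F P)
      (V_mono C (by omega) (hF a (Finset.mem_insert_self a E)))
      (V_mono C (by omega) (prod_mem_V C E F m hF'))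
    refine h1.trans ?_
    have h2 : Real.exp (((E.card + 1 : ℕ) : ℝ) * γ.c v) =
        Real.exp (γ.c v) * Real.exp (E.card * γ.c v) := by
      rw [← Real.exp_add]
      congr 1
      push_cast
      ring
    rw [h2]
    calc Real.exp (γ.c v) * (nrm 𝔳 C n v (F a) * nrm 𝔳 C n v (∏ P ∈ E, F P))
        ≤ Real.exp (γ.c v) * (nrm 𝔳 C n v (F a) *
            (Real.exp (E.card * γ.c v) * ∏ P ∈ E, nrm 𝔳 C n v (F P))) :=
          mul_le_mul_of_nonneg_left
            (mul_le_mul_of_nonneg_left ih' (nrm_nonneg 𝔳 C n v _)) (Real.exp_pos _).le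
      _ = _ := by ring

/-! ### explicit sections -/

/-- the section `P(b_k) b_l - P(b_l) b_k`, vanishing at `P`. -/
def sec (k l : ℕ) (P : Pt A) : A := P (C.b k) • C.b l - P (C.b l) • C.b k

theorem sec_mem_V {m k l : ℕ} (hk : k < C.dim m) (hl : l < C.dim m) (P : Pt A) :
    sec C k l P ∈ C.V m :=
  Submodule.sub_mem _ (Submodule.smul_mem _ _ (b_mem_V C ((lt_dim_iff C m l).1 hl)))
    (Submodule.smul_mem _ _ (b_mem_V C ((lt_dim_iff C m k).1 hk)))

theorem sec_apply (k l : ℕ) (P x : Pt A) :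
    x (sec C k l P) = P (C.b k) * x (C.b l) - P (C.b l) * x (C.b k) := by
  rw [sec, map_sub, map_smul, map_smul, smul_eq_mul, smul_eq_mul]

theorem sec_self (k l : ℕ) (P : Pt A) : P (sec C k l P) = 0 := by
  rw [sec_apply]; ring

theorem nrm_sec_le (n m : ℕ) (v : Pl) {k l : ℕ} (hk : k < C.dim m) (hl : l < C.dim m) (P : Pt A) :
    nrm 𝔳 C n v (sec C k l P) ≤ ac v 2 * vnorm 𝔳 v (C.ev m P) := by
  have hV := vnorm_nonneg 𝔳 v (C.ev m P)
  refine vnorm_le 𝔳 v (mul_nonneg (ac_nonneg v 2) hV) fun i => ?_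
  show 𝔳.av v (C.b.repr (sec C k l P) i) ≤ _
  have h1 : C.b.repr (sec C k l P) i =
      P (C.b k) * (Finsupp.single l (1 : Qb) (i : ℕ)) +
        -(P (C.b l) * (Finsupp.single k (1 : Qb) (i : ℕ))) := by
    rw [sec, map_sub, map_smul, map_smul, C.b.repr_self, C.b.repr_self, Finsupp.sub_apply,
      Finsupp.smul_apply, Finsupp.smul_apply, smul_eq_mul, smul_eq_mul, sub_eq_add_neg]
  rw [h1]
  refine (av_add_le 𝔳 v _ _).trans (mul_le_mul_of_nonneg_left (max_le ?_ ?_) (ac_nonneg v 2))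
  · rw [map_mul, Finsupp.single_apply]
    have h2 : 𝔳.av v (P (C.b k)) ≤ vnorm 𝔳 v (C.ev m P) := le_vnorm 𝔳 v (C.ev m P) ⟨k, hk⟩
    split_ifs
    · simpa using h2
    · simpa using hV
  · rw [map_neg_eq_map, map_mul, Finsupp.single_apply]
    have h2 : 𝔳.av v (P (C.b l)) ≤ vnorm 𝔳 v (C.ev m P) := le_vnorm 𝔳 v (C.ev m P) ⟨l, hl⟩
    split_ifs
    · simpa using h2
    · simpa using hV

theorem exists_sigma (n r : ℕ) : ∃ γ : MConst, ∀ (v : Pl) (x : Pt A),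
    ∃ σ ∈ C.V (r * C.d), nrm 𝔳 C n v σ ≤ Real.exp (γ.c v) ∧
      𝔳.av v (x σ) = mx 𝔳 v (x C.t) ^ r := by
  obtain ⟨γ, hγ⟩ := exists_nrm_le 𝔳 C n (C.t ^ r)
  refine ⟨γ, fun v x => ?_⟩
  by_cases h : 1 ≤ 𝔳.av v (x C.t)
  · refine ⟨C.t ^ r, pow_mem_V C (t_mem_V C) r, hγ v, ?_⟩
    rw [map_pow, map_pow, mx, max_eq_right h]
  · refine ⟨1, one_mem_V C _, (nrm_one_le 𝔳 C n v).trans (MConst.one_le_exp_c v γ), ?_⟩
    rw [map_one, map_one, mx, max_eq_left (not_le.1 h).le, one_pow]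

theorem w2_symm (m : ℕ) (v : Pl) (P Q : Pt A) : C.w2 𝔳 m v P Q = C.w2 𝔳 m v Q P := by
  unfold WCurve.w2
  congr 1
  funext kl
  rw [← map_neg_eq_map]
  congr 1
  ring

theorem gl_symm (m : ℕ) (v : Pl) (P Q : Pt A) : C.gl 𝔳 m v P Q = C.gl 𝔳 m v Q P := by
  unfold WCurve.gl
  rw [w2_symm]
  ring

theorem wnorm_inst (v : Pl) {ι κ : Type} [Fintype ι] (i₁ i₂ : DecidableEq ι) (X : Matrix ι κ Qb) :
    @wnorm 𝔳 v ι κ _ i₁ X = @wnorm 𝔳 v ι κ _ i₂ X := by
  rw [Subsingleton.elim i₁ i₂]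

theorem wnorm_insert (n : ℕ) (v : Pl) {E : Finset (Pt A)} {x : Pt A} (hx : x ∉ E) :
    wnorm 𝔳 v (optMat (C.evMat n E) (C.ev n x)) = wnorm 𝔳 v (C.evMat n (insert x E)) := by
  have h1 := wnorm_reindex 𝔳 v (Finset.subtypeInsertEquivOption hx)
    (optMat (C.evMat n E) (C.ev n x))
  have h2 : (optMat (C.evMat n E) (C.ev n x)).submatrix (Finset.subtypeInsertEquivOption hx) id =
      C.evMat n (insert x E) := by
    ext P k
    simp only [Matrix.submatrix_apply, id_eq, optMat, Finset.subtypeInsertEquivOption,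
      Equiv.coe_fn_mk]
    split_ifs with h
    · show x (C.b k) = P.1 (C.b k)
      rw [h]
    · rfl
  rw [h2] at h1
  rw [wnorm_inst 𝔳 v _ (fun a b => Classical.propDecidable (a = b)), ← h1]
  exact wnorm_inst 𝔳 v _ _ _

/-! ### the one step inequality -/

theorem contraction' (v : Pl) {ι κ : Type} [Fintype ι] [Fintype κ] (i₁ : DecidableEq ι)
    (i₂ : DecidableEq (Option ι)) (X : Matrix ι κ Qb) (x f : κ → Qb)
    (hf : ∀ i, ∑ k, f k * X i k = 0) :
    𝔳.av v (∑ k, f k * x k) * @wnorm 𝔳 v ι κ _ i₁ X ≤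
      ac v (Fintype.card κ) * (vnorm 𝔳 v f * @wnorm 𝔳 v (Option ι) κ _ i₂ (optMat X x)) := by
  have h := wnorm_contraction 𝔳 v X x f hf
  rw [wnorm_inst 𝔳 v _ i₁ X, wnorm_inst 𝔳 v _ i₂ (optMat X x)] at h
  exact h

/-- the node (X3). -/
def HX3 : Prop := ∀ n : ℕ, ∃ γ : MConst, ∀ (v : Pl) (P : Pt A),
  Real.log (vnorm 𝔳 v (C.ev n P)) ≤ n * C.lam 𝔳 v P + γ.c v

/-- the node `wnorm_evMat_pos`. -/
def HPos : Prop := ∀ (v : Pl) (E : Finset (Pt A)) {n : ℕ}, E.card + 2 * C.g ≤ n + 1 →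
  0 < wnorm 𝔳 v (C.evMat n E)

/-- the node `w2_pos`. -/
def HW2 : Prop := ∀ (v : Pl) {m : ℕ}, 2 * C.g + 1 ≤ m → ∀ {P Q : Pt A}, P ≠ Q →
  0 < C.w2 𝔳 m v P Q

theorem vnorm_ev_le {m : ℕ} {γ : MConst} {v : Pl} {P : Pt A}
    (h : Real.log (vnorm 𝔳 v (C.ev m P)) ≤ m * C.lam 𝔳 v P + γ.c v) :
    vnorm 𝔳 v (C.ev m P) ≤ Real.exp (γ.c v) * Real.exp (m * C.lam 𝔳 v P) := by
  rw [← Real.exp_add, add_comm]
  rcases (vnorm_nonneg 𝔳 v (C.ev m P)).eq_or_lt with h0 | h0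
  · rw [← h0]; exact (Real.exp_pos _).le
  · exact (Real.log_le_iff_le_exp h0).1 h

theorem step (hX3 : HX3 𝔳 C) (hpos : HPos 𝔳 C) (hw2 : HW2 𝔳 C)
    (m n e : ℕ) (hm : 2 * C.g + 1 ≤ m) (hdm : C.d ∣ m) (hdn : C.d ∣ n) (hn : (e + 1) * m ≤ n) :
    ∃ γ : MConst, ∀ (v : Pl) (E : Finset (Pt A)) (x : Pt A), x ∉ E → E.card = e →
      Real.log (wnorm 𝔳 v (C.evMat n E)) + ∑ P ∈ E, C.gl 𝔳 m v P x + n * C.lam 𝔳 v x ≤
        Real.log (wnorm 𝔳 v (C.evMat n (insert x E))) + γ.c v := by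
  obtain ⟨γX, hγX⟩ := hX3 m
  obtain ⟨γm, hγm⟩ := nrm_mul_le 𝔳 C n
  have hem : e * m ≤ n := by
    rw [Nat.succ_mul] at hn; omega
  obtain ⟨r, hr⟩ : ∃ r, n - e * m = r * C.d := by
    obtain ⟨r, hr⟩ := Nat.dvd_sub hdn (Dvd.dvd.mul_left hdm e)
    exact ⟨r, by rw [hr, mul_comm]⟩
  obtain ⟨γσ, hγσ⟩ := exists_sigma 𝔳 C n r
  obtain ⟨γ2, hγ2⟩ := exists_mconst_ac_le 2
  obtain ⟨γa, hγa⟩ := exists_mconst_ac_le (C.dim n)
  refine ⟨γa + γm + e • γm + γσ + e • (γ2 + γX), fun v E x hx hE => ?_⟩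
  have : Nonempty (Fin (C.dim m) × Fin (C.dim m)) := ⟨(⟨0, dim_pos C m⟩, ⟨0, dim_pos C m⟩)⟩
  have hkl : ∀ P : Pt A, ∃ kl : Fin (C.dim m) × Fin (C.dim m),
      𝔳.av v (P (C.b kl.1) * x (C.b kl.2) - P (C.b kl.2) * x (C.b kl.1)) = C.w2 𝔳 m v P x :=
    fun P => exists_eq_ciSup_of_finite
      (f := fun kl : Fin (C.dim m) × Fin (C.dim m) =>
        𝔳.av v (P (C.b kl.1) * x (C.b kl.2) - P (C.b kl.2) * x (C.b kl.1)))
  choose kl hkl using hkl
  set F : Pt A → A := fun P => sec C (kl P).1 (kl P).2 P with hF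
  have hFV : ∀ P ∈ E, F P ∈ C.V m := fun P _ => sec_mem_V C (kl P).1.2 (kl P).2.2 P
  obtain ⟨σ, hσV, hσn, hσx⟩ := hγσ v x
  set f : A := (∏ P ∈ E, F P) * σ with hf
  have hsum : E.card * m + r * C.d = n := by
    rw [hE, ← hr]; omega
  have hprodV : ∏ P ∈ E, F P ∈ C.V (E.card * m) := prod_mem_V C E F m hFV
  have hfV : f ∈ C.V n := by
    have := mul_mem_V C hprodV hσV
    rwa [hsum] at this
  have hfE : ∀ P ∈ E, P f = 0 := by
    intro P hP
    rw [hf, map_mul, map_prod, Finset.prod_eq_zero hP (sec_self C _ _ P), zero_mul]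
  have hfx : 𝔳.av v (x f) = (∏ P ∈ E, C.w2 𝔳 m v P x) * mx 𝔳 v (x C.t) ^ r := by
    rw [hf, map_mul, map_mul, hσx, map_prod, map_prod]
    congr 1
    refine Finset.prod_congr rfl fun P _ => ?_
    rw [hF, sec_apply, hkl]
  -- contraction
  have hc := contraction' 𝔳 v inferInstance inferInstance (C.evMat n E) (C.ev n x) (co C n f) (fun P => by
    have := eval_eq_sum C hfV P.1
    rw [hfE P.1 P.2] at this
    exact this.symm)
  have hxf : ∑ k, co C n f k * C.ev n x k = x f := (eval_eq_sum C hfV x).symm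
  rw [hxf, hfx, Fintype.card_fin] at hc
  rw [wnorm_insert 𝔳 C n v hx] at hc
  set W := wnorm 𝔳 v (C.evMat n E) with hW
  set W' := wnorm 𝔳 v (C.evMat n (insert x E)) with hW'
  set a := ∏ P ∈ E, C.w2 𝔳 m v P x with ha
  set L := Real.log (mx 𝔳 v (x C.t)) with hL
  have hWpos : 0 < W := hpos v E (by
    rw [hE]
    have h1 := Nat.mul_le_mul_left (e + 1) hm
    have h2 : (e + 1) * (2 * C.g + 1) = 2 * (e * C.g) + e + 2 * C.g + 1 := by ring
    omega)
  have hapos : 0 < a := Finset.prod_pos fun P hP => hw2 v hm (fun h => hx (h ▸ hP))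
  have hmxpos : 0 < mx 𝔳 v (x C.t) := mx_pos 𝔳 v _
  have hW'0 : 0 ≤ W' := wnorm_nonneg 𝔳 v _
  set u : Pt A → ℝ := fun P => γ2.c v + γX.c v + m * C.lam 𝔳 v P with hu
  have hFn : ∀ P ∈ E, nrm 𝔳 C n v (F P) ≤ Real.exp (u P) := by
    intro P _
    refine (nrm_sec_le 𝔳 C n m v (kl P).1.2 (kl P).2.2 P).trans ?_
    rw [hu]
    simp only
    rw [Real.exp_add, Real.exp_add, mul_assoc]
    exact mul_le_mul (hγ2 v) (vnorm_ev_le 𝔳 C (hγX v P)) (vnorm_nonneg 𝔳 v _) (Real.exp_pos _).le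
  have hprodn : ∏ P ∈ E, nrm 𝔳 C n v (F P) ≤ Real.exp (∑ P ∈ E, u P) := by
    rw [Real.exp_sum]
    exact Finset.prod_le_prod (fun P _ => nrm_nonneg 𝔳 C n v _) hFn
  have hn1 : nrm 𝔳 C n v (∏ P ∈ E, F P) ≤
      Real.exp (e * γm.c v) * Real.exp (∑ P ∈ E, u P) := by
    have h1 := nrm_prod_le 𝔳 C hγm E F m hFV (by rw [hE]; exact hem) v
    rw [hE] at h1
    exact h1.trans (mul_le_mul_of_nonneg_left hprodn (Real.exp_pos _).le)
  have hnf : nrm 𝔳 C n v f ≤ Real.exp (γm.c v) *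
      (Real.exp (e * γm.c v) * Real.exp (∑ P ∈ E, u P) * Real.exp (γσ.c v)) := by
    have h1 := hγm v (∏ P ∈ E, F P) σ (V_mono C (by omega) hprodV) (V_mono C (by omega) hσV)
    refine h1.trans (mul_le_mul_of_nonneg_left ?_ (Real.exp_pos _).le)
    exact mul_le_mul hn1 hσn (nrm_nonneg 𝔳 C n v _)
      (mul_nonneg (Real.exp_pos _).le (Real.exp_pos _).le)
  set T : ℝ := γa.c v + (γm.c v + (e * γm.c v + ∑ P ∈ E, u P + γσ.c v)) with hT
  have hmain : a * mx 𝔳 v (x C.t) ^ r * W ≤ Real.exp T * W' := by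
    refine hc.trans ?_
    rw [← mul_assoc]
    refine mul_le_mul_of_nonneg_right ?_ hW'0
    rw [hT, Real.exp_add, Real.exp_add, Real.exp_add, Real.exp_add]
    exact mul_le_mul (hγa v) hnf (nrm_nonneg 𝔳 C n v _) (Real.exp_pos _).le
  have hLHS : 0 < a * mx 𝔳 v (x C.t) ^ r * W :=
    mul_pos (mul_pos hapos (pow_pos hmxpos r)) hWpos
  have hW'pos : 0 < W' := by
    rcases hW'0.eq_or_lt with h0 | h0
    · rw [← h0, mul_zero] at hmain
      exact absurd hLHS (not_lt.2 hmain)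
    · exact h0
  have hlog := Real.log_le_log hLHS hmain
  rw [Real.log_mul (mul_pos hapos (pow_pos hmxpos r)).ne' hWpos.ne',
    Real.log_mul hapos.ne' (pow_pos hmxpos r).ne', Real.log_pow,
    Real.log_mul (Real.exp_pos _).ne' hW'pos.ne', Real.log_exp, ha,
    Real.log_prod (f := fun P => C.w2 𝔳 m v P x)
      (fun P hP => (hw2 v hm (P := P) (Q := x) (fun h => hx (h ▸ hP))).ne')] at hlog
  have hgl : ∑ P ∈ E, C.gl 𝔳 m v P x = ∑ P ∈ E, Real.log (C.w2 𝔳 m v P x)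
      - m * ∑ P ∈ E, C.lam 𝔳 v P - e * (m * C.lam 𝔳 v x) := by
    unfold WCurve.gl
    rw [Finset.sum_sub_distrib, Finset.sum_sub_distrib, Finset.mul_sum, Finset.sum_const, hE,
      nsmul_eq_mul]
  have hlam : (n : ℝ) * C.lam 𝔳 v x = e * (m * C.lam 𝔳 v x) + r * L := by
    have hd : (C.d : ℝ) ≠ 0 := by exact_mod_cast (d_pos C).ne'
    have hn' : (n : ℝ) = e * m + r * C.d := by
      rw [hE] at hsum
      exact_mod_cast hsum.symm
    have hl : C.lam 𝔳 v x = L / C.d := rfl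
    rw [hn', hl]
    field_simp
  have hsu : ∑ P ∈ E, u P = e * (γ2.c v + γX.c v) + m * ∑ P ∈ E, C.lam 𝔳 v P := by
    rw [hu, Finset.sum_add_distrib, Finset.sum_const, hE, nsmul_eq_mul, Finset.mul_sum]
  have hγtot : (γa + γm + e • γm + γσ + e • (γ2 + γX)).c v =
      γa.c v + γm.c v + e * γm.c v + γσ.c v + e * (γ2.c v + γX.c v) := by
    simp only [MConst.add_c, MConst.nsmul_c]
  rw [hgl, hlam, hγtot]
  rw [hT, hsu] at hlog
  linarith

/-! ### bookkeeping and induction -/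

theorem sum_offDiag_insert (g : Pt A → Pt A → ℝ) (hsymm : ∀ P Q, g P Q = g Q P)
    {E : Finset (Pt A)} {x : Pt A} (hx : x ∉ E) :
    ∑ y ∈ (insert x E).offDiag, g y.1 y.2 = ∑ y ∈ E.offDiag, g y.1 y.2 + 2 * ∑ P ∈ E, g P x := by
  rw [Finset.offDiag_insert hx, Finset.sum_union, Finset.sum_union, Finset.sum_product,
    Finset.sum_product, Finset.sum_singleton]
  · simp only [Finset.sum_singleton]
    have : ∑ P ∈ E, g x P = ∑ P ∈ E, g P x := Finset.sum_congr rfl fun P _ => hsymm x P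
    rw [this]
    ring
  · rw [Finset.disjoint_left]
    rintro ⟨p, q⟩ h1 h2
    rw [Finset.mem_offDiag] at h1
    rw [Finset.mem_product, Finset.mem_singleton] at h2
    exact hx (h2.1 ▸ h1.1)
  · rw [Finset.disjoint_left]
    rintro ⟨p, q⟩ h1 h2
    rw [Finset.mem_product, Finset.mem_singleton] at h2
    rw [Finset.mem_union, Finset.mem_offDiag, Finset.mem_product, Finset.mem_singleton] at h1
    rcases h1 with h1 | h1
    · exact hx (h2.2 ▸ h1.2.1)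
    · exact hx (h2.2 ▸ h1.2)

theorem XiLoc_insert {m n : ℕ} {v : Pl} {E : Finset (Pt A)} {x : Pt A} (hx : x ∉ E) {c : ℝ}
    (h : Real.log (wnorm 𝔳 v (C.evMat n E)) + ∑ P ∈ E, C.gl 𝔳 m v P x + n * C.lam 𝔳 v x ≤
        Real.log (wnorm 𝔳 v (C.evMat n (insert x E))) + c) :
    XiLoc 𝔳 C m n v E ≤ XiLoc 𝔳 C m n v (insert x E) + c := by
  unfold XiLoc
  rw [sum_offDiag_insert (fun P Q => C.gl 𝔳 m v P Q) (gl_symm 𝔳 C m v) hx, Finset.sum_insert hx]
  linarith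

theorem XiLoc_mono_of (hX3 : HX3 𝔳 C) (hpos : HPos 𝔳 C) (hw2 : HW2 𝔳 C) :
    ∃ m₀, ∀ m, m₀ ≤ m → C.d ∣ m → ∀ n, C.d ∣ n → ∀ z : ℕ, z * m ≤ n →
    ∃ γ : MConst, ∀ (v : Pl) (E Z : Finset (Pt A)), E ⊆ Z → Z.card ≤ z →
      XiLoc 𝔳 C m n v E ≤ XiLoc 𝔳 C m n v Z + γ.c v := by
  refine ⟨2 * C.g + 1, fun m hm hdm n hdn z hz => ?_⟩
  have hstep : ∀ e : ℕ, e < z → ∃ γ : MConst, ∀ (v : Pl) (E : Finset (Pt A)) (x : Pt A), x ∉ E →
      E.card = e →
      Real.log (wnorm 𝔳 v (C.evMat n E)) + ∑ P ∈ E, C.gl 𝔳 m v P x + n * C.lam 𝔳 v x ≤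
        Real.log (wnorm 𝔳 v (C.evMat n (insert x E))) + γ.c v := fun e he =>
    step 𝔳 C hX3 hpos hw2 m n e hm hdm hdn ((Nat.mul_le_mul_right m he).trans hz)
  have : Nonempty MConst := ⟨0⟩
  choose! γe hγe using hstep
  set γ1 : MConst := ∑ e ∈ Finset.range z, γe e with hγ1
  refine ⟨z • γ1, fun v E Z hEZ hZ => ?_⟩
  have key : ∀ T : Finset (Pt A), Disjoint T E → (E ∪ T).card ≤ z →
      XiLoc 𝔳 C m n v E ≤ XiLoc 𝔳 C m n v (E ∪ T) + T.card * γ1.c v := by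
    intro T
    induction T using Finset.induction_on with
    | empty => intro _ _; simp
    | insert x T hxT ih =>
      intro hdisj hcard
      rw [Finset.disjoint_insert_left] at hdisj
      have hxET : x ∉ E ∪ T := by
        rw [Finset.mem_union]
        rintro (h | h)
        · exact hdisj.1 h
        · exact hxT h
      rw [Finset.union_insert] at hcard ⊢
      rw [Finset.card_insert_of_notMem hxET] at hcard
      have ih' := ih hdisj.2 (by omega)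
      have hlt : (E ∪ T).card < z := by omega
      have h1 := XiLoc_insert 𝔳 C hxET (hγe _ hlt v (E ∪ T) x hxET rfl)
      have h2 : (γe (E ∪ T).card).c v ≤ γ1.c v :=
        MConst.le_sum_c v (Finset.range z) γe (Finset.mem_range.2 hlt)
      rw [Finset.card_insert_of_notMem hxT]
      push_cast
      linarith
  have h1 := key (Z \ E) Finset.sdiff_disjoint (by rw [Finset.union_sdiff_of_subset hEZ]; exact hZ)
  rw [Finset.union_sdiff_of_subset hEZ] at h1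
  refine h1.trans ?_
  rw [MConst.nsmul_c]
  have h2 : ((Z \ E).card : ℝ) ≤ z := by
    exact_mod_cast (Finset.card_le_card Finset.sdiff_subset).trans hZ
  have h3 := mul_le_mul_of_nonneg_right h2 (γ1.nonneg v)
  linarith

end Mono

end Fermat.Agent.S17.H
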