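import Fermat.Agent.S17.H.Cvec

/-! # S17/H, node POLY2: Northcott for monic rational polynomials of bounded degree -/

set_option autoImplicit false

noncomputable section

open scoped Classical

namespace Fermat.Agent.S17.H

/-- if `p ∣ a.den` then `|a|_p = p ^ v_p(den)`. -/
theorem northcott_padicNorm_of_dvd_den (p : ℕ) [hp : Fact p.Prime] (a : ℚ) (h : p ∣ a.den) :
    padicNorm p a = (p : ℚ) ^ (padicValNat p a.den) := by
  have hnum : ¬ (p : ℤ) ∣ a.num := by
    intro hn
    have h1 : p ∣ a.num.natAbs := Int.natCast_dvd.mp hn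
    have h2 := Nat.dvd_gcd h1 h
    rw [a.reduced.gcd_eq_one] at h2
    exact hp.out.one_lt.ne' (Nat.dvd_one.mp h2)
  have hden : ((a.den : ℕ) : ℚ) ≠ 0 := Nat.cast_ne_zero.mpr a.den_nz
  conv_lhs => rw [← Rat.num_div_den a]
  rw [padicNorm.div, (padicNorm.int_eq_one_iff a.num).mpr hnum,
    padicNorm.eq_zpow_of_nonzero hden, padicValRat.of_nat, zpow_neg, one_div, inv_inv,
    zpow_natCast]

/-- if `p ∤ a.den` then `|a|_p ≤ 1`. -/
theorem northcott_padicNorm_le_one (p : ℕ) [hp : Fact p.Prime] (a : ℚ) (h : ¬ p ∣ a.den) :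
    padicNorm p a ≤ 1 := by
  conv_lhs => rw [← Rat.num_div_den a]
  rw [padicNorm.div, (padicNorm.nat_eq_one_iff a.den).mpr h, div_one]
  exact padicNorm.of_int a.num

/-- rationals with bounded numerator and denominator. -/
theorem northcott_finite_rat (D : ℕ) (E : ℝ) :
    {a : ℚ | a.den ≤ D ∧ |(a.num : ℝ)| ≤ E}.Finite := by
  set K : ℤ := ⌈E⌉ with hK
  have hfin : ((Finset.Icc (-K) K ×ˢ Finset.range (D + 1) : Finset (ℤ × ℕ)) : Set (ℤ × ℕ)).Finite :=
    Finset.finite_toSet _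
  refine (hfin.image (fun q : ℤ × ℕ => (q.1 : ℚ) / (q.2 : ℚ))).subset ?_
  rintro a ⟨hd, hn⟩
  refine ⟨(a.num, a.den), ?_, Rat.num_div_den a⟩
  simp only [Finset.coe_product, Finset.coe_Icc, Finset.coe_range, Set.mem_prod, Set.mem_Icc,
    Set.mem_Iio]
  have h1 : |(a.num : ℝ)| ≤ (K : ℝ) := hn.trans (Int.le_ceil E)
  rw [abs_le] at h1
  refine ⟨⟨?_, ?_⟩, by omega⟩
  · have : ((-K : ℤ) : ℝ) ≤ (a.num : ℝ) := by push_cast; exact h1.1
    exact_mod_cast this
  · exact_mod_cast h1.2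

variable (𝔳 : AbsFam)

theorem northcott_le_vnorm (v : Pl) {n : ℕ} (x : Fin (n + 1) → Qb) (i : Fin (n + 1)) :
    𝔳.av v (x i) ≤ vnorm 𝔳 v x :=
  le_ciSup (f := fun i => 𝔳.av v (x i)) (Set.finite_range _).bddAbove i

theorem northcott_vnorm_le (v : Pl) {n : ℕ} (x : Fin (n + 1) → Qb) (C : ℝ)
    (h : ∀ i, 𝔳.av v (x i) ≤ C) : vnorm 𝔳 v x ≤ C :=
  ciSup_le h

/-- the key local-global estimate for a rational vector having a coordinate equal to `1`. -/
theorem northcott_coord {n : ℕ} (c : Fin (n + 1) → ℚ) (i₀ : Fin (n + 1)) (h₀ : c i₀ = 1) (B : ℝ)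
    (hB : ht 𝔳 (fun i => algebraMap ℚ Qb (c i)) ≤ B) (i : Fin (n + 1)) :
    (c i).den ≤ (⌊Real.exp B⌋₊).factorial ∧
      |((c i).num : ℝ)| ≤ Real.exp B * (⌊Real.exp B⌋₊).factorial := by
  set x : Fin (n + 1) → Qb := fun i => algebraMap ℚ Qb (c i) with hx
  have hone : ∀ v, 1 ≤ vnorm 𝔳 v x := by
    intro v
    have := northcott_le_vnorm 𝔳 v x i₀
    simpa [hx, h₀] using this
  have hnonneg : ∀ v, 0 ≤ Real.log (vnorm 𝔳 v x) := fun v => Real.log_nonneg (hone v)
  -- finite support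
  set D : ℕ := ∏ i, (c i).den with hD
  have hD0 : D ≠ 0 := Finset.prod_ne_zero_iff.mpr (fun i _ => (c i).den_nz)
  have hsupp : Function.HasFiniteSupport (fun v => Real.log (vnorm 𝔳 v x)) := by
    have hfinP : {p : Nat.Primes | (p : ℕ) ≤ D}.Finite :=
      Set.Finite.preimage (Subtype.val_injective.injOn) (Set.finite_le_nat D)
    refine ((hfinP.image some).union (Set.finite_singleton none)).subset ?_
    intro v hv
    rcases v with _ | p
    · exact Or.inr rfl
    · left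
      refine ⟨p, ?_, rfl⟩
      by_contra hp
      apply hv
      have hpD : ¬ (p : ℕ) ∣ D := fun h => hp (Nat.le_of_dvd (Nat.pos_of_ne_zero hD0) h)
      have : Fact (p : ℕ).Prime := ⟨p.2⟩
      have hle : vnorm 𝔳 (some p) x ≤ 1 := by
        apply northcott_vnorm_le
        intro j
        have hj : ¬ (p : ℕ) ∣ (c j).den :=
          fun h => hpD (h.trans (Finset.dvd_prod_of_mem _ (Finset.mem_univ j)))
        simp only [hx]
        rw [𝔳.av_fin]
        exact_mod_cast northcott_padicNorm_le_one p (c j) hj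
      have : vnorm 𝔳 (some p) x = 1 := le_antisymm hle (hone _)
      simp [this]
  have hsingle : ∀ v, vnorm 𝔳 v x ≤ Real.exp B := by
    intro v
    have h1 : Real.log (vnorm 𝔳 v x) ≤ B :=
      (single_le_finsum v hsupp hnonneg).trans hB
    have hpos : 0 < vnorm 𝔳 v x := lt_of_lt_of_le one_pos (hone v)
    calc vnorm 𝔳 v x = Real.exp (Real.log (vnorm 𝔳 v x)) := (Real.exp_log hpos).symm
      _ ≤ Real.exp B := Real.exp_le_exp.mpr h1
  set N : ℕ := ⌊Real.exp B⌋₊ with hN
  -- the denominator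
  have hden : (c i).den ∣ N.factorial := by
    rw [← Nat.factorization_prime_le_iff_dvd (c i).den_nz (Nat.factorial_ne_zero N)]
    intro p hp
    have : Fact p.Prime := ⟨hp⟩
    rw [← Nat.Prime.pow_dvd_iff_le_factorization hp (Nat.factorial_ne_zero N),
      Nat.factorization_def _ hp]
    by_cases hpd : p ∣ (c i).den
    · apply Nat.dvd_factorial (pow_pos hp.pos _)
      rw [hN]
      apply Nat.le_floor
      have h1 := (northcott_le_vnorm 𝔳 (some ⟨p, hp⟩) x i).trans (hsingle _)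
      simp only [hx] at h1
      rw [𝔳.av_fin] at h1
      have h2 := northcott_padicNorm_of_dvd_den p (c i) hpd
      have h3 : ((padicNorm p (c i) : ℚ) : ℝ) = ((p ^ padicValNat p (c i).den : ℕ) : ℝ) := by
        rw [h2]; push_cast; rfl
      rw [← h3]
      exact h1
    · rw [padicValNat.eq_zero_of_not_dvd hpd, pow_zero]
      exact one_dvd _
  have hden' : (c i).den ≤ N.factorial := Nat.le_of_dvd (Nat.factorial_pos N) hden
  refine ⟨hden', ?_⟩
  -- the numerator
  have habs : |((c i : ℚ) : ℝ)| ≤ Real.exp B := by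
    have h1 := (northcott_le_vnorm 𝔳 none x i).trans (hsingle _)
    simp only [hx] at h1
    rwa [𝔳.av_inf] at h1
  have hnum : ((c i).num : ℝ) = ((c i : ℚ) : ℝ) * ((c i).den : ℝ) := by
    have h := Rat.mul_den_eq_num (c i)
    have h' : (((c i) * ((c i).den : ℚ) : ℚ) : ℝ) = (((c i).num : ℚ) : ℝ) := by rw [h]
    push_cast at h'
    exact h'.symm
  rw [hnum, abs_mul, Nat.abs_cast]
  exact mul_le_mul habs (by exact_mod_cast hden') (Nat.cast_nonneg _) (Real.exp_pos B).le

/-- Northcott for rational polynomials. -/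
theorem finite_monic_ht_le (n : ℕ) (B : ℝ) :
    {f : Polynomial ℚ | f.Monic ∧ f.natDegree ≤ n ∧
      ht 𝔳 (cvec n (f.map (algebraMap ℚ Qb))) ≤ B}.Finite := by
  set S : Set ℚ := {a : ℚ | a.den ≤ (⌊Real.exp B⌋₊).factorial ∧
    |(a.num : ℝ)| ≤ Real.exp B * (⌊Real.exp B⌋₊).factorial} with hS
  have hSfin : S.Finite := northcott_finite_rat _ _
  have htarget : {g : Fin (n + 1) → ℚ | ∀ i, g i ∈ S}.Finite := Set.Finite.pi' (fun _ => hSfin)
  refine Set.Finite.of_injOn (f := fun f : Polynomial ℚ => fun i : Fin (n + 1) => f.coeff i)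
    ?_ ?_ htarget
  · rintro f ⟨hmon, hdeg, hht⟩ i
    have hcv : cvec n (f.map (algebraMap ℚ Qb)) =
        fun i : Fin (n + 1) => algebraMap ℚ Qb (f.coeff i) := by
      funext j
      simp [cvec, Polynomial.coeff_map]
    rw [hcv] at hht
    exact northcott_coord 𝔳 (fun i : Fin (n + 1) => f.coeff i) ⟨f.natDegree, by omega⟩
      hmon.coeff_natDegree B hht i
  · rintro f ⟨-, hdeg, -⟩ g ⟨-, hdeg', -⟩ hfg
    ext j
    by_cases hj : j < n + 1
    · exact congrFun hfg ⟨j, hj⟩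
    · rw [Polynomial.coeff_eq_zero_of_natDegree_lt (by omega),
        Polynomial.coeff_eq_zero_of_natDegree_lt (by omega)]

end Fermat.Agent.S17.H
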