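/-
S17 / route H, node (N): Siegel + Northcott, proved FROM THE NODES.   Owner: helper270.

The three theorems `exists_small_section`, `hE_le_ht_of_mem_idealOf`, `northcott_ideals` of the
blueprint are proved here with the nodes that were not yet available as explicit hypotheses
(verbatim statements of the blueprint; the norm `Nm C` is an arbitrary function `Nm : A → Qb[X]`,
`crd C n f` is written `fun i : Fin (C.dim n) => C.b.repr f i` and `chi C X` is written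
`∏ P ∈ X, (X - C (P C.t))`, which are the definitional unfoldings).
-/
import Fermat.Agent.S17.H.Curve
import Fermat.Agent.S17.H.Cvec
import Fermat.Agent.S17.H.AbsBasic
import Fermat.Agent.S17.H.ProdFormula
import Fermat.Agent.S17.H.Dual
import Fermat.Agent.S17.H.PolyLocal
import Fermat.Agent.S17.H.PolyNorthcott

set_option autoImplicit false

noncomputable section

open scoped Classical

namespace Fermat.Agent.S17.H

open Polynomial

namespace NC

variable (𝔳 : AbsFam) {A : Type} [CommRing A] [Algebra Qb A] (C : WCurve A)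

/-- `i < dim V_n` iff the pole order of `b i` is `≤ n`. -/
theorem lt_dim_iff (n i : ℕ) : i < C.dim n ↔ C.ρ i ≤ n := by
  have hmem : ∀ j, j ∈ (Finset.range (n + 1)).filter (fun i => C.ρ i ≤ n) ↔ C.ρ j ≤ n := by
    intro j
    rw [Finset.mem_filter, Finset.mem_range]
    constructor
    · exact fun h => h.2
    · intro h
      exact ⟨Nat.lt_succ_of_le ((C.ρ_strictMono.le_apply).trans h), h⟩
  constructor
  · intro hi
    by_contra hn
    have hsub : (Finset.range (n + 1)).filter (fun i => C.ρ i ≤ n) ⊆ Finset.range i := by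
      intro j hj
      rw [hmem] at hj
      rw [Finset.mem_range]
      by_contra hji
      exact hn ((C.ρ_strictMono.monotone (not_lt.1 hji)).trans hj)
    have := Finset.card_le_card hsub
    rw [Finset.card_range] at this
    exact absurd hi (not_lt.2 this)
  · intro hi
    have hsub : Finset.range (i + 1) ⊆ (Finset.range (n + 1)).filter (fun i => C.ρ i ≤ n) := by
      intro j hj
      rw [hmem]
      rw [Finset.mem_range] at hj
      exact (C.ρ_strictMono.monotone (Nat.lt_succ_iff.1 hj)).trans hi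
    have := Finset.card_le_card hsub
    rw [Finset.card_range] at this
    exact this

theorem mem_V_iff_support (n : ℕ) (f : A) :
    f ∈ C.V n ↔ ∀ i ∈ (C.b.repr f).support, C.ρ i ≤ n := by
  unfold WCurve.V
  rw [Module.Basis.mem_span_image]
  rfl

/-- the function with coordinate vector `c`. -/
def mk (n : ℕ) (c : Fin (C.dim n) → Qb) : A := ∑ k : Fin (C.dim n), c k • C.b k

theorem repr_mk (n : ℕ) (c : Fin (C.dim n) → Qb) (i : ℕ) :
    C.b.repr (mk C n c) i = if h : i < C.dim n then c ⟨i, h⟩ else 0 := by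
  unfold mk
  rw [map_sum, Finsupp.finsetSum_apply]
  simp only [map_smul, Module.Basis.repr_self, Finsupp.smul_apply, Finsupp.single_apply,
    smul_eq_mul, mul_ite, mul_one, mul_zero]
  split_ifs with h
  · rw [Finset.sum_eq_single (⟨i, h⟩ : Fin (C.dim n))]
    · simp
    · intro k _ hk
      rw [if_neg]
      intro hki
      exact hk (Fin.ext hki)
    · intro hk
      exact absurd (Finset.mem_univ _) hk
  · apply Finset.sum_eq_zero
    intro k _
    rw [if_neg]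
    intro hki
    exact h (hki ▸ k.2)

theorem mk_mem_V (n : ℕ) (c : Fin (C.dim n) → Qb) : mk C n c ∈ C.V n := by
  rw [mem_V_iff_support]
  intro i hi
  rw [Finsupp.mem_support_iff, repr_mk] at hi
  split_ifs at hi with h
  · exact (lt_dim_iff C n i).1 h
  · exact absurd rfl hi

theorem apply_mk (n : ℕ) (c : Fin (C.dim n) → Qb) (P : Pt A) :
    P (mk C n c) = ∑ k : Fin (C.dim n), P (C.b k) * c k := by
  unfold mk
  rw [map_sum]
  refine Finset.sum_congr rfl fun k _ => ?_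
  rw [map_smul, smul_eq_mul, mul_comm]

theorem pt_ext {P Q : Pt A} (h : ∀ i, P (C.b i) = Q (C.b i)) : P = Q := by
  have : P.toLinearMap = Q.toLinearMap := C.b.ext h
  exact AlgHom.toLinearMap_injective this

/-- the permutation of a Galois stable set induced by `σ`. -/
theorem exists_perm {X : Finset (Pt A)} (hX : C.GalStable X) (σ : Qb ≃ₐ[ℚ] Qb) :
    ∃ π : Equiv.Perm X, ∀ (P : X) (i : ℕ), (π P).1 (C.b i) = σ (P.1 (C.b i)) := by
  have h1 : ∀ P : X, ∃ P' : X, ∀ i, P'.1 (C.b i) = σ (P.1 (C.b i)) := by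
    intro P
    obtain ⟨P', hP', h⟩ := hX σ P.1 P.2
    exact ⟨⟨P', hP'⟩, h⟩
  choose φ hφ using h1
  have hinj : Function.Injective φ := by
    intro P Q hPQ
    apply Subtype.ext
    apply pt_ext C
    intro i
    apply σ.injective
    rw [← hφ P i, ← hφ Q i, hPQ]
  exact ⟨Equiv.ofBijective φ (Finite.injective_iff_bijective.1 hinj), hφ⟩

theorem mem_idealOf {X : Finset (Pt A)} {f : A} : f ∈ idealOf X ↔ ∀ P ∈ X, P f = 0 := by
  unfold idealOf
  simp only [Submodule.mem_iInf, RingHom.mem_ker]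
  rfl

theorem finite_support_sum {α : Type*} (s : Finset α) (F : α → Pl → ℝ)
    (h : ∀ a ∈ s, (Function.support (F a)).Finite) :
    (Function.support fun v => ∑ a ∈ s, F a v).Finite :=
  (Set.Finite.biUnion s.finite_toSet h).subset (Finset.support_sum s F)

/-- `∑_v ∑_{P ∈ X} log max(1, |t(P)|_v) = d h(X)`. -/
theorem finsum_sum_log_mx (hd : 0 < C.d) (X : Finset (Pt A)) :
    ∑ᶠ v, ∑ P ∈ X, Real.log (mx 𝔳 v (P C.t)) = C.d * C.hE 𝔳 X := by
  unfold WCurve.hE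
  rw [mul_finsum]
  refine finsum_congr fun v => ?_
  rw [Finset.mul_sum]
  refine Finset.sum_congr rfl fun P _ => ?_
  unfold WCurve.lam
  have : (C.d : ℝ) ≠ 0 := by exact_mod_cast hd.ne'
  field_simp

theorem cvec_C_mul (n : ℕ) (a : Qb) (p : Qb[X]) : cvec n (Polynomial.C a * p) = a • cvec n p := by
  funext i
  simp [cvec]

theorem one_le_vnorm_cvec_of_monic (v : Pl) {n : ℕ} {R : Qb[X]} (hR : R.Monic)
    (hn : R.natDegree ≤ n) : 1 ≤ vnorm 𝔳 v (cvec n R) := by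
  have h := le_vnorm 𝔳 v (cvec n R) ⟨R.natDegree, Nat.lt_succ_of_le hn⟩
  have h1 : cvec n R ⟨R.natDegree, Nat.lt_succ_of_le hn⟩ = 1 := hR
  rwa [h1, map_one] at h

theorem ht_cvec_nonneg_of_monic {n : ℕ} {R : Qb[X]} (hR : R.Monic) (hn : R.natDegree ≤ n) :
    0 ≤ ht 𝔳 (cvec n R) :=
  finsum_nonneg fun v => Real.log_nonneg (one_le_vnorm_cvec_of_monic 𝔳 v hR hn)

/-- the polynomial `∏_{P ∈ X} (T - t(P))` -/
abbrev chiX (X : Finset (Pt A)) : Qb[X] := ∏ P ∈ X, (Polynomial.X - Polynomial.C (P C.t))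

theorem chiX_monic (X : Finset (Pt A)) : (chiX C X).Monic :=
  Polynomial.monic_prod_of_monic _ _ fun _ _ => Polynomial.monic_X_sub_C _

theorem natDegree_chiX (X : Finset (Pt A)) : (chiX C X).natDegree = X.card := by
  unfold chiX
  rw [Polynomial.natDegree_prod_of_monic _ _ fun P _ => Polynomial.monic_X_sub_C _]
  simp

theorem chiX_eq_multiset (X : Finset (Pt A)) :
    chiX C X = ((X.val.map fun P : Pt A => P C.t).map
      fun a => Polynomial.X - Polynomial.C a).prod := by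
  rw [Multiset.map_map]
  rfl

theorem sum_eq_multiset (v : Pl) (X : Finset (Pt A)) :
    ∑ P ∈ X, Real.log (mx 𝔳 v (P C.t)) =
      ((X.val.map fun P : Pt A => P C.t).map fun a => Real.log (mx 𝔳 v a)).sum := by
  rw [Multiset.map_map]
  rfl

/-- The common estimate: `d h(f) = d h(X) + h(R) + O(1)` if `Nm f = a χ_X R`, `a` rational. -/
theorem exists_global_bound (Nm : A → Qb[X]) (hd : 0 < C.d)
    (h_mul : ∀ n : ℕ, ∃ γ : MConst, ∀ (v : Pl) (f g : Polynomial Qb), f ≠ 0 → g ≠ 0 →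
      (f * g).natDegree ≤ n →
      |Real.log (vnorm 𝔳 v (cvec n (f * g))) - Real.log (vnorm 𝔳 v (cvec n f)) -
        Real.log (vnorm 𝔳 v (cvec n g))| ≤ γ.c v)
    (h_prod : ∀ n : ℕ, ∃ γ : MConst, ∀ (v : Pl) (s : Multiset Qb), s.card ≤ n →
      |Real.log (vnorm 𝔳 v (cvec n (s.map fun a => Polynomial.X - Polynomial.C a).prod)) -
        (s.map fun a => Real.log (mx 𝔳 v a)).sum| ≤ γ.c v)
    (h_logNm : ∀ n : ℕ, ∃ γ : MConst, ∀ (v : Pl) (f : A), f ≠ 0 → f ∈ C.V n →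
      |Real.log (vnorm 𝔳 v (cvec n (Nm f))) -
        C.d * Real.log (vnorm 𝔳 v (fun i : Fin (C.dim n) => C.b.repr f i))| ≤ γ.c v)
    (n : ℕ) :
    ∃ Γ : ℝ, ∀ (X : Finset (Pt A)) (f : A) (R : Qb[X]) (a : ℚ), f ≠ 0 → f ∈ C.V n → a ≠ 0 →
      R.Monic → (Nm f).natDegree ≤ n →
      Nm f = Polynomial.C (algebraMap ℚ Qb a) * (chiX C X * R) →
      |C.d * ht 𝔳 (fun i : Fin (C.dim n) => C.b.repr f i) -
        (C.d * C.hE 𝔳 X + ht 𝔳 (cvec n R))| ≤ Γ := by
  obtain ⟨γ₁, h₁⟩ := h_mul n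
  obtain ⟨γ₂, h₂⟩ := h_logNm n
  obtain ⟨γ₃, h₃⟩ := h_prod n
  refine ⟨(γ₁ + γ₂ + γ₃).tot, fun X f R a hf hfV ha hR hdeg hNm => ?_⟩
  have ha' : algebraMap ℚ Qb a ≠ 0 := (_root_.map_ne_zero _).2 ha
  have hχ := chiX_monic C X
  have hχR : (chiX C X * R).Monic := hχ.mul hR
  have hdeg' : (chiX C X * R).natDegree ≤ n := by
    rw [hNm, Polynomial.natDegree_C_mul ha'] at hdeg
    exact hdeg
  have hcard : X.card ≤ n := by
    rw [hχ.natDegree_mul hR, natDegree_chiX] at hdeg'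
    omega
  -- the local estimate
  have hloc : ∀ v, |(C.d * Real.log (vnorm 𝔳 v (fun i : Fin (C.dim n) => C.b.repr f i)) -
      Real.log (𝔳.av v (algebraMap ℚ Qb a))) -
      (∑ P ∈ X, Real.log (mx 𝔳 v (P C.t)) + Real.log (vnorm 𝔳 v (cvec n R)))| ≤
      (γ₁ + γ₂ + γ₃).c v := by
    intro v
    have e1 := h₁ v (chiX C X) R hχ.ne_zero hR.ne_zero hdeg'
    have e2 := h₂ v f hf hfV
    have e3 := h₃ v (X.val.map fun P : Pt A => P C.t) (by rw [Multiset.card_map]; exact hcard)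
    rw [← chiX_eq_multiset, ← sum_eq_multiset] at e3
    have e4 : Real.log (vnorm 𝔳 v (cvec n (Nm f))) = Real.log (𝔳.av v (algebraMap ℚ Qb a)) +
        Real.log (vnorm 𝔳 v (cvec n (chiX C X * R))) := by
      rw [hNm, cvec_C_mul, vnorm_smul, Real.log_mul ((𝔳.av v).ne_zero ha')
        (PolyLocal.vnorm_cvec_pos 𝔳 v hdeg' hχR.ne_zero).ne']
    rw [MConst.add_c, MConst.add_c]
    rw [abs_le] at e1 e2 e3 ⊢
    constructor <;> linarith [e1.1, e1.2, e2.1, e2.2, e3.1, e3.2]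
  have s1 : (Function.support fun v =>
      Real.log (vnorm 𝔳 v (fun i : Fin (C.dim n) => C.b.repr f i))).Finite :=
    finite_support_log_vnorm 𝔳 _
  have s1' : (Function.support fun v =>
      C.d * Real.log (vnorm 𝔳 v (fun i : Fin (C.dim n) => C.b.repr f i))).Finite :=
    s1.subset fun v hv h => hv (by simp [h])
  have s2 := finite_support_log_av 𝔳 (algebraMap ℚ Qb a)
  have s3 : (Function.support fun v => ∑ P ∈ X, Real.log (mx 𝔳 v (P C.t))).Finite :=
    finite_support_sum X _ fun P _ => finite_support_log_mx 𝔳 (P C.t)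
  have s4 := finite_support_log_vnorm 𝔳 (cvec n R)
  have hglob := abs_finsum_sub_le _ _
    ((s1'.union s2).subset (Function.support_sub _ _))
    ((s3.union s4).subset (Function.support_add _ _)) (γ₁ + γ₂ + γ₃) hloc
  rw [finsum_sub_distrib s1' s2, finsum_add_distrib s3 s4, sum_log_av_rat 𝔳 ha, sub_zero,
    ← mul_finsum, finsum_sum_log_mx 𝔳 C hd] at hglob
  exact hglob

theorem wt_le_of_mem_V {n : ℕ} {f : A} (h : f ∈ C.V n) : C.wt f ≤ n :=
  Finset.sup_le ((mem_V_iff_support C n f).1 h)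

/-- extraction of the residual polynomial and of the rational leading coefficient. -/
theorem exists_data (Nm : A → Qb[X])
    (h_deg : ∀ {f : A}, f ≠ 0 → (Nm f).natDegree = C.wt f)
    (h_lead : ∀ {f : A}, f ≠ 0 →
      (Nm f).leadingCoeff = C.lc f ^ C.d ∨ (Nm f).leadingCoeff = - C.lc f ^ C.d)
    (h_lc : ∀ {f : A}, f ≠ 0 → C.lc f ≠ 0)
    (h_rat : ∀ {f : A}, C.IsRat f → ∃ p : ℚ[X], Nm f = p.map (algebraMap ℚ Qb))
    (h_res : ∀ (X : Finset (Pt A)) {f : A}, f ≠ 0 → f ∈ idealOf X →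
      ∃ R : Qb[X], R.Monic ∧ Nm f = Polynomial.C (Nm f).leadingCoeff * (chiX C X * R) ∧
        ∀ z ∈ idealOf X, f ∣ aeval C.t R * z)
    {n : ℕ} {X : Finset (Pt A)} {f : A} (hrat : C.IsRat f) (hf : f ≠ 0) (hV : f ∈ C.V n)
    (hX : f ∈ idealOf X) :
    ∃ (R : Qb[X]) (a : ℚ) (p : ℚ[X]), a ≠ 0 ∧ R.Monic ∧ R.natDegree ≤ n ∧ (Nm f).natDegree ≤ n ∧
      Nm f = p.map (algebraMap ℚ Qb) ∧
      Nm f = Polynomial.C (algebraMap ℚ Qb a) * (chiX C X * R) ∧
      ∀ z ∈ idealOf X, f ∣ aeval C.t R * z := by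
  obtain ⟨R, hR, hNm, hdvd⟩ := h_res X hf hX
  obtain ⟨p, hp⟩ := h_rat hrat
  have hlead0 : (Nm f).leadingCoeff ≠ 0 := by
    rcases h_lead hf with h | h
    · rw [h]
      exact pow_ne_zero _ (h_lc hf)
    · rw [h]
      exact neg_ne_zero.2 (pow_ne_zero _ (h_lc hf))
  have hlead : (Nm f).leadingCoeff = algebraMap ℚ Qb p.leadingCoeff := by
    rw [hp, Polynomial.leadingCoeff_map]
  have hdeg : (Nm f).natDegree ≤ n := by
    rw [h_deg hf]
    exact wt_le_of_mem_V C hV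
  have hRdeg : R.natDegree ≤ n := by
    have h1 := hdeg
    rw [hNm, Polynomial.natDegree_C_mul hlead0, (chiX_monic C X).natDegree_mul hR] at h1
    omega
  refine ⟨R, p.leadingCoeff, p, ?_, hR, hRdeg, hdeg, hp, ?_, hdvd⟩
  · intro h0
    rw [h0, map_zero] at hlead
    exact hlead0 hlead
  · rw [← hlead]
    exact hNm

/-- a polynomial fixed by the Galois group has rational coefficients. -/
theorem exists_rat_poly (p : Qb[X])
    (h : ∀ σ : Qb ≃ₐ[ℚ] Qb, p.map (σ : Qb →+* Qb) = p) :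
    ∃ q : ℚ[X], q.map (algebraMap ℚ Qb) = p := by
  rw [← Polynomial.mem_lifts, Polynomial.lifts_iff_coeff_lifts]
  intro i
  apply mem_range_algebraMap_of_fixed
  intro σ
  have := congrArg (fun q => Polynomial.coeff q i) (h σ)
  simpa [Polynomial.coeff_map] using this

theorem map_map_rat (p : ℚ[X]) (σ : Qb ≃ₐ[ℚ] Qb) :
    (p.map (algebraMap ℚ Qb)).map (σ : Qb →+* Qb) = p.map (algebraMap ℚ Qb) := by
  rw [Polynomial.map_map]
  congr 1
  exact RingHom.ext fun x => σ.commutes x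

omit [Algebra Qb A] in
/-- finitely many ideals of a Dedekind domain contain a given nonzero element. -/
theorem finite_ideals_of_mem [IsDedekindDomain A] {a : A} (ha : a ≠ 0) :
    {𝔢 : Ideal A | a ∈ 𝔢}.Finite := by
  have hne : Ideal.span {a} ≠ (0 : Ideal A) := by
    rw [Ne, Ideal.zero_eq_bot, Ideal.span_singleton_eq_bot]
    exact ha
  have hfin : Finite {x : Ideal A // x ∣ Ideal.span {a}} :=
    (UniqueFactorizationMonoid.fintypeSubtypeDvd _ hne).finite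
  have : {𝔢 : Ideal A | a ∈ 𝔢} = {x : Ideal A | x ∣ Ideal.span {a}} := by
    ext 𝔢
    change a ∈ 𝔢 ↔ 𝔢 ∣ Ideal.span {a}
    rw [Ideal.dvd_iff_le, Ideal.span_singleton_le_iff_mem]
  rw [this]
  exact hfin

theorem chiX_map {X : Finset (Pt A)} (hX : C.GalStable X) (σ : Qb ≃ₐ[ℚ] Qb) :
    (chiX C X).map (σ : Qb →+* Qb) = chiX C X := by
  obtain ⟨π, hπ⟩ := exists_perm C hX σ
  unfold chiX
  rw [Polynomial.map_prod]
  simp only [Polynomial.map_sub, Polynomial.map_X, Polynomial.map_C]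
  rw [← Finset.prod_coe_sort X
      (fun P => Polynomial.X - Polynomial.C ((σ : Qb →+* Qb) (P C.t))),
    ← Finset.prod_coe_sort X (fun P => Polynomial.X - Polynomial.C (P C.t)),
    ← Equiv.prod_comp π (fun P : X => Polynomial.X - Polynomial.C (P.1 C.t))]
  refine Finset.prod_congr rfl fun P _ => ?_
  rw [show C.t = C.b 1 from rfl, hπ P 1]
  rfl

theorem aeval_t_ne_zero (Nm : A → Qb[X]) (hd : 0 < C.d)
    (h_aeval : ∀ p : Qb[X], Nm (aeval C.t p) = p ^ C.d) {p : Qb[X]} (hp : p ≠ 0) :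
    aeval C.t p ≠ 0 := by
  intro h0
  have h1 := h_aeval p
  have h2 := h_aeval 0
  rw [map_zero, zero_pow hd.ne'] at h2
  rw [h0, h2] at h1
  exact hp (pow_eq_zero_iff hd.ne' |>.1 h1.symm)

end NC

open NC

variable (𝔳 : AbsFam) {A : Type} [CommRing A] [Algebra Qb A] (C : WCurve A)

/-- (N1) from the nodes `siegel`, `linearIndependent_evMat`, `dim_add_g` (and `subHt_dual`). -/
theorem exists_small_section_of_nodes
    (h_siegel : ∀ (κ : Type) [Fintype κ], ∃ Cst : ℝ, ∀ W : Submodule ℚ (κ → ℚ), W ≠ ⊥ →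
      ∃ c ∈ W, c ≠ 0 ∧ Module.finrank ℚ W * ht 𝔳 (ratVec c) ≤ subHt 𝔳 W + Cst)
    (h_ind : ∀ (E : Finset (Pt A)) {n : ℕ}, E.card + 2 * C.g ≤ n + 1 →
      LinearIndependent Qb (fun P : E => C.evMat n E P))
    (h_dim : ∀ {n : ℕ}, 2 * C.g ≤ n + 1 → C.dim n + C.g = n + 1)
    (w : ℕ) (hw : C.g + 1 ≤ w) (emax : ℕ) :
    ∃ Cst : ℝ, ∀ X : Finset (Pt A), C.GalStable X → X.card ≤ emax →
      ∃ f : A, C.IsRat f ∧ f ≠ 0 ∧ f ∈ C.V (X.card + C.g + w - 1) ∧ f ∈ idealOf X ∧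
        w * ht 𝔳 (fun i : Fin (C.dim (X.card + C.g + w - 1)) => C.b.repr f i) ≤
          C.Phi 𝔳 (X.card + C.g + w - 1) X + Cst := by
  have h1 := fun e : ℕ => h_siegel (Fin (C.dim (e + C.g + w - 1)))
  choose K hK using h1
  refine ⟨∑ e ∈ Finset.range (emax + 1), |K e|, fun X hX hcard => ?_⟩
  have hKle : K X.card ≤ ∑ e ∈ Finset.range (emax + 1), |K e| :=
    (le_abs_self _).trans (Finset.single_le_sum (f := fun e => |K e|) (fun e _ => abs_nonneg _)
      (Finset.mem_range.2 (Nat.lt_succ_of_le hcard)))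
  have hKX := hK X.card
  generalize K X.card = K₀ at hKX hKle
  clear hK
  have hn : X.card + C.g + w = (X.card + C.g + w - 1) + 1 := by omega
  generalize X.card + C.g + w - 1 = n at hKX hn ⊢
  -- the space of rational solutions
  let W : Submodule ℚ (Fin (C.dim n) → ℚ) :=
    { carrier := {c | ∀ P : X, ∑ k, C.evMat n X P k * algebraMap ℚ Qb (c k) = 0}
      add_mem' := by
        intro a b ha hb P
        simp only [Pi.add_apply, map_add, mul_add, Finset.sum_add_distrib]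
        rw [ha P, hb P, add_zero]
      zero_mem' := by
        intro P
        simp
      smul_mem' := by
        intro r a ha P
        have : ∀ k, C.evMat n X P k * algebraMap ℚ Qb ((r • a) k) =
            algebraMap ℚ Qb r * (C.evMat n X P k * algebraMap ℚ Qb (a k)) := by
          intro k
          rw [Pi.smul_apply, smul_eq_mul, map_mul]
          ring
        simp only [this]
        rw [← Finset.mul_sum, ha P, mul_zero] }
  have hgal : ∀ σ : Qb ≃ₐ[ℚ] Qb, ∃ π : Equiv.Perm X, ∀ i k,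
      σ (C.evMat n X i k) = C.evMat n X (π i) k := by
    intro σ
    obtain ⟨π, hπ⟩ := exists_perm C hX σ
    exact ⟨π, fun i k => (hπ i k).symm⟩
  obtain ⟨hrank, hsub⟩ := subHt_dual 𝔳 (C.evMat n X) hgal (h_ind X (by omega)) W
    (fun c => Iff.rfl)
  rw [Fintype.card_coe, Fintype.card_fin] at hrank
  have hdim := h_dim (n := n) (by omega)
  have hw' : Module.finrank ℚ W = w := by omega
  have hWne : W ≠ ⊥ := by
    intro h
    rw [h, finrank_bot] at hw'
    omega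
  obtain ⟨c, hcW, hc0, hc⟩ := hKX W hWne
  have hrepr : ∀ i : Fin (C.dim n), C.b.repr (mk C n (ratVec c)) i = ratVec c i := by
    intro i
    rw [repr_mk, dif_pos i.2]
  refine ⟨mk C n (ratVec c), ?_, ?_, mk_mem_V C n _, ?_, ?_⟩
  · intro i
    rw [repr_mk]
    split_ifs with h
    · exact ⟨_, rfl⟩
    · exact ⟨0, map_zero _⟩
  · intro h0
    apply hc0
    funext k
    have := hrepr k
    rw [h0, map_zero, Finsupp.zero_apply] at this
    exact (map_eq_zero (algebraMap ℚ Qb)).1 this.symm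
  · rw [mem_idealOf]
    intro P hP
    rw [apply_mk]
    exact hcW ⟨P, hP⟩
  · have e1 : (fun i : Fin (C.dim n) => C.b.repr (mk C n (ratVec c)) i) = ratVec c :=
      funext hrepr
    rw [e1]
    rw [hw'] at hc
    have e2 : C.Phi 𝔳 n X = subHt 𝔳 W := by
      rw [hsub]
      unfold WCurve.Phi
      congr
    rw [e2]
    linarith

/-- (N2) from the nodes. -/
theorem hE_le_ht_of_nodes (Nm : A → Qb[X]) (hd : 0 < C.d)
    (h_mul : ∀ n : ℕ, ∃ γ : MConst, ∀ (v : Pl) (f g : Polynomial Qb), f ≠ 0 → g ≠ 0 →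
      (f * g).natDegree ≤ n →
      |Real.log (vnorm 𝔳 v (cvec n (f * g))) - Real.log (vnorm 𝔳 v (cvec n f)) -
        Real.log (vnorm 𝔳 v (cvec n g))| ≤ γ.c v)
    (h_prod : ∀ n : ℕ, ∃ γ : MConst, ∀ (v : Pl) (s : Multiset Qb), s.card ≤ n →
      |Real.log (vnorm 𝔳 v (cvec n (s.map fun a => Polynomial.X - Polynomial.C a).prod)) -
        (s.map fun a => Real.log (mx 𝔳 v a)).sum| ≤ γ.c v)
    (h_logNm : ∀ n : ℕ, ∃ γ : MConst, ∀ (v : Pl) (f : A), f ≠ 0 → f ∈ C.V n →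
      |Real.log (vnorm 𝔳 v (cvec n (Nm f))) -
        C.d * Real.log (vnorm 𝔳 v (fun i : Fin (C.dim n) => C.b.repr f i))| ≤ γ.c v)
    (h_deg : ∀ {f : A}, f ≠ 0 → (Nm f).natDegree = C.wt f)
    (h_lead : ∀ {f : A}, f ≠ 0 →
      (Nm f).leadingCoeff = C.lc f ^ C.d ∨ (Nm f).leadingCoeff = - C.lc f ^ C.d)
    (h_lc : ∀ {f : A}, f ≠ 0 → C.lc f ≠ 0)
    (h_rat : ∀ {f : A}, C.IsRat f → ∃ p : ℚ[X], Nm f = p.map (algebraMap ℚ Qb))
    (h_res : ∀ (X : Finset (Pt A)) {f : A}, f ≠ 0 → f ∈ idealOf X →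
      ∃ R : Qb[X], R.Monic ∧ Nm f = Polynomial.C (Nm f).leadingCoeff *
        ((∏ P ∈ X, (Polynomial.X - Polynomial.C (P C.t))) * R) ∧
        ∀ z ∈ idealOf X, f ∣ aeval C.t R * z)
    (n : ℕ) :
    ∃ Cst : ℝ, ∀ X : Finset (Pt A), C.GalStable X → ∀ f : A, C.IsRat f → f ≠ 0 → f ∈ C.V n →
      f ∈ idealOf X → C.hE 𝔳 X ≤ ht 𝔳 (fun i : Fin (C.dim n) => C.b.repr f i) + Cst := by
  obtain ⟨Γ, hΓ⟩ := exists_global_bound 𝔳 C Nm hd h_mul h_prod h_logNm n
  refine ⟨Γ / C.d, fun X _ f hrat hf hV hX => ?_⟩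
  obtain ⟨R, a, p, ha, hR, hRdeg, hdeg, -, hNm, -⟩ :=
    exists_data C Nm h_deg h_lead h_lc h_rat h_res hrat hf hV hX
  have h1 := hΓ X f R a hf hV ha hR hdeg hNm
  have h2 := ht_cvec_nonneg_of_monic 𝔳 hR hRdeg
  have hd' : (0 : ℝ) < C.d := by exact_mod_cast hd
  rw [abs_le] at h1
  have h3 : C.d * C.hE 𝔳 X ≤ C.d * (ht 𝔳 (fun i : Fin (C.dim n) => C.b.repr f i) + Γ / C.d) := by
    rw [mul_add, mul_div_cancel₀ _ hd'.ne']
    linarith [h1.1]
  exact le_of_mul_le_mul_left h3 hd'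

/-- (N3) from the nodes. -/
theorem northcott_ideals_of_nodes [IsDedekindDomain A] (Nm : A → Qb[X]) (hd : 0 < C.d)
    (h_mul : ∀ n : ℕ, ∃ γ : MConst, ∀ (v : Pl) (f g : Polynomial Qb), f ≠ 0 → g ≠ 0 →
      (f * g).natDegree ≤ n →
      |Real.log (vnorm 𝔳 v (cvec n (f * g))) - Real.log (vnorm 𝔳 v (cvec n f)) -
        Real.log (vnorm 𝔳 v (cvec n g))| ≤ γ.c v)
    (h_prod : ∀ n : ℕ, ∃ γ : MConst, ∀ (v : Pl) (s : Multiset Qb), s.card ≤ n →
      |Real.log (vnorm 𝔳 v (cvec n (s.map fun a => Polynomial.X - Polynomial.C a).prod)) -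
        (s.map fun a => Real.log (mx 𝔳 v a)).sum| ≤ γ.c v)
    (h_logNm : ∀ n : ℕ, ∃ γ : MConst, ∀ (v : Pl) (f : A), f ≠ 0 → f ∈ C.V n →
      |Real.log (vnorm 𝔳 v (cvec n (Nm f))) -
        C.d * Real.log (vnorm 𝔳 v (fun i : Fin (C.dim n) => C.b.repr f i))| ≤ γ.c v)
    (h_deg : ∀ {f : A}, f ≠ 0 → (Nm f).natDegree = C.wt f)
    (h_lead : ∀ {f : A}, f ≠ 0 →
      (Nm f).leadingCoeff = C.lc f ^ C.d ∨ (Nm f).leadingCoeff = - C.lc f ^ C.d)
    (h_lc : ∀ {f : A}, f ≠ 0 → C.lc f ≠ 0)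
    (h_rat : ∀ {f : A}, C.IsRat f → ∃ p : ℚ[X], Nm f = p.map (algebraMap ℚ Qb))
    (h_res : ∀ (X : Finset (Pt A)) {f : A}, f ≠ 0 → f ∈ idealOf X →
      ∃ R : Qb[X], R.Monic ∧ Nm f = Polynomial.C (Nm f).leadingCoeff *
        ((∏ P ∈ X, (Polynomial.X - Polynomial.C (P C.t))) * R) ∧
        ∀ z ∈ idealOf X, f ∣ aeval C.t R * z)
    (h_aeval : ∀ p : Qb[X], Nm (aeval C.t p) = p ^ C.d)
    (n : ℕ) (B : ℝ) :
    ∃ 𝔉 : Set (Ideal A), 𝔉.Finite ∧ ∀ X : Finset (Pt A), C.GalStable X → ∀ f : A, C.IsRat f →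
      f ≠ 0 → f ∈ C.V n → f ∈ idealOf X →
      ht 𝔳 (fun i : Fin (C.dim n) => C.b.repr f i) ≤ C.hE 𝔳 X + B →
      ∃ 𝔢 ∈ 𝔉, 𝔢 ≠ ⊥ ∧ idealOf X * 𝔢 = Ideal.span {f} := by
  obtain ⟨Γ, hΓ⟩ := exists_global_bound 𝔳 C Nm hd h_mul h_prod h_logNm n
  have h𝒮 := finite_monic_ht_le 𝔳 n (C.d * B + Γ)
  refine ⟨⋃ R₀ ∈ {f : Polynomial ℚ | f.Monic ∧ f.natDegree ≤ n ∧
      ht 𝔳 (cvec n (f.map (algebraMap ℚ Qb))) ≤ C.d * B + Γ},
      {𝔢 : Ideal A | aeval C.t (R₀.map (algebraMap ℚ Qb)) ∈ 𝔢}, ?_, ?_⟩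
  · refine h𝒮.biUnion fun R₀ hR₀ => finite_ideals_of_mem ?_
    apply aeval_t_ne_zero C Nm hd h_aeval
    exact (hR₀.1.map _).ne_zero
  intro X hXgal f hrat hf hV hX hht
  obtain ⟨R, a, p, ha, hR, hRdeg, hdeg, hp, hNm, hdvd⟩ :=
    exists_data C Nm h_deg h_lead h_lc h_rat h_res hrat hf hV hX
  have ha' : algebraMap ℚ Qb a ≠ 0 := (_root_.map_ne_zero _).2 ha
  -- `R` is rational
  have hRinv : ∀ σ : Qb ≃ₐ[ℚ] Qb, R.map (σ : Qb →+* Qb) = R := by
    intro σ
    have h1 := congrArg (Polynomial.map (σ : Qb →+* Qb)) hNm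
    rw [hp, map_map_rat, ← hp, Polynomial.map_mul, Polynomial.map_mul, chiX_map C hXgal,
      Polynomial.map_C] at h1
    have h2 : (σ : Qb →+* Qb) (algebraMap ℚ Qb a) = algebraMap ℚ Qb a := σ.commutes a
    rw [h2] at h1
    have h3 := hNm.symm.trans h1
    have h4 := mul_left_cancel₀ (Polynomial.C_ne_zero.2 ha') h3
    exact (mul_left_cancel₀ (chiX_monic C X).ne_zero h4).symm
  obtain ⟨R₀, hR₀⟩ := exists_rat_poly R hRinv
  have hd' : (0 : ℝ) < C.d := by exact_mod_cast hd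
  have hmem : R₀ ∈ {f : Polynomial ℚ | f.Monic ∧ f.natDegree ≤ n ∧
      ht 𝔳 (cvec n (f.map (algebraMap ℚ Qb))) ≤ C.d * B + Γ} := by
    refine ⟨Polynomial.monic_of_injective (algebraMap ℚ Qb).injective (hR₀ ▸ hR), ?_, ?_⟩
    · rw [← Polynomial.natDegree_map (algebraMap ℚ Qb), hR₀]
      exact hRdeg
    · rw [hR₀]
      have h1 := hΓ X f R a hf hV ha hR hdeg hNm
      rw [abs_le] at h1
      have h2 := mul_le_mul_of_nonneg_left hht hd'.le
      rw [mul_add] at h2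
      linarith [h1.1]
  -- the residual ideal
  have hle : Ideal.span {f} ≤ idealOf X := (Ideal.span_singleton_le_iff_mem _).2 hX
  obtain ⟨𝔢, h𝔢⟩ := Ideal.dvd_iff_le.2 hle
  have hXne : idealOf X ≠ 0 := by
    intro h0
    rw [h0] at hX
    exact hf hX
  refine ⟨𝔢, ?_, ?_, h𝔢.symm⟩
  · refine Set.mem_biUnion hmem ?_
    change aeval C.t (R₀.map (algebraMap ℚ Qb)) ∈ 𝔢
    rw [hR₀]
    have h1 : Ideal.span {aeval C.t R} * idealOf X ≤ Ideal.span {f} := by
      rw [Ideal.span_singleton_mul_le_iff]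
      intro z hz
      exact Ideal.mem_span_singleton.2 (hdvd z hz)
    rw [h𝔢, mul_comm, ← Ideal.dvd_iff_le] at h1
    have h2 := (mul_dvd_mul_iff_left hXne).1 h1
    exact (Ideal.span_singleton_le_iff_mem _).1 (Ideal.dvd_iff_le.1 h2)
  · intro h0
    rw [h0, Ideal.mul_bot, Ideal.span_singleton_eq_bot] at h𝔢
    exact hf h𝔢

end Fermat.Agent.S17.H
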