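import Fermat.Agent.S17.H.SiegelOf
import Fermat.Agent.S17.H.SubHt

/-!
# S17 / H / LA5 : Siegel's lemma with the Schmidt height (final form)
-/

set_option autoImplicit false

noncomputable section

open scoped Classical

namespace Fermat.Agent.S17.H

variable (𝔳 : AbsFam)

/-- Siegel's lemma (weak Bombieri-Vaaler). -/
theorem siegel {κ : Type} [Fintype κ] :
    ∃ Cst : ℝ, ∀ W : Submodule ℚ (κ → ℚ), W ≠ ⊥ → ∃ c ∈ W, c ≠ 0 ∧
      Module.finrank ℚ W * ht 𝔳 (ratVec c) ≤ subHt 𝔳 W + Cst :=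
  siegel_of 𝔳 (fun W a => subHt_eq_of_basis 𝔳 W a)

end Fermat.Agent.S17.H
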