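import Fermat.Agent.S17.H.AbsBasic
import Fermat.Agent.S17.H.Curve

/-!
# S17, part H, node (VF): `Θ_w = Q + O(1)`

`Θ_w(E) - Q(E) = Φ_n(E) - n h(E) + I₂(E) = ∑_v Ξ_v(E)`, `n = e + g + w - 1`.  The lower bound comes
from local monotonicity applied to `∅ ⊆ E`, the upper bound from local monotonicity applied to
`E ⊆ Z := t⁻¹(t(E))` and the two estimates for pull-back divisors.

The three nodes used (`XiLoc_mono`, `Phi_pullback_le`, `I2_pullback_le`) enter `Theta_eq_Qd_of` as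
explicit hypotheses, with the definitions `XiLoc`, `IsPullback` of the blueprint unfolded.
Everything else (conjugate points, fibres of `t` have at most `d` points, finite supports) is proved
here.  (task S17-H-VF, helper171)
-/

set_option autoImplicit false

noncomputable section

open scoped Classical

namespace Fermat.Agent.S17.H

variable (𝔳 : AbsFam) {A : Type} [CommRing A] [Algebra Qb A] (C : WCurve A)

namespace VF

/-! ### Elementary facts on the semigroup -/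

theorem d_pos : 0 < C.d :=
  lt_of_le_of_lt (Nat.zero_le _) (C.ρ_strictMono Nat.zero_lt_one)

theorem exists_rho_add_d (j : ℕ) : ∃ k, C.ρ k = C.ρ j + C.d := by
  obtain ⟨k, -, hk, -⟩ := C.mul_b 1 j
  exact ⟨k, by rw [hk, WCurve.d, add_comm]⟩

theorem exists_rho_add_mul_d (j n : ℕ) : ∃ k, C.ρ k = C.ρ j + n * C.d := by
  induction n with
  | zero => exact ⟨j, by simp⟩
  | succ n ih =>
    obtain ⟨k, hk⟩ := ih
    obtain ⟨k', hk'⟩ := exists_rho_add_d C k
    exact ⟨k', by rw [hk', hk]; ring⟩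

/-- the Apéry indices: `ρ i - d` is not in the semigroup. -/
def apSet : Set ℕ := {i | ∀ j, C.ρ i ≠ C.ρ j + C.d}

theorem apSet_injOn : Set.InjOn (fun i => C.ρ i % C.d) (apSet C) := by
  have key : ∀ i i', i' ∈ apSet C → C.ρ i % C.d = C.ρ i' % C.d → C.ρ i ≤ C.ρ i' →
      C.ρ i = C.ρ i' := by
    intro i i' hi' hmod hle
    by_contra hne
    have hlt : C.ρ i < C.ρ i' := lt_of_le_of_ne hle hne
    have hdvd : C.d ∣ C.ρ i' - C.ρ i := (Nat.modEq_iff_dvd' hle).1 hmod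
    obtain ⟨q, hq⟩ := hdvd
    have hq0 : q ≠ 0 := by
      rintro rfl
      omega
    obtain ⟨q', rfl⟩ : ∃ q', q = q' + 1 := ⟨q - 1, by omega⟩
    obtain ⟨k, hk⟩ := exists_rho_add_mul_d C i q'
    refine hi' k ?_
    rw [hk]
    have : C.d * (q' + 1) = q' * C.d + C.d := by ring
    omega
  intro i hi i' hi' hmod
  rcases le_total (C.ρ i) (C.ρ i') with h | h
  · exact C.ρ_strictMono.injective (key i i' hi' hmod h)
  · exact (C.ρ_strictMono.injective (key i' i hi hmod.symm h)).symm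

theorem apSet_finite : (apSet C).Finite := by
  refine Set.Finite.of_finite_image ?_ (apSet_injOn C)
  refine (Finset.range C.d).finite_toSet.subset ?_
  rintro _ ⟨i, -, rfl⟩
  simpa using Nat.mod_lt _ (d_pos C)

theorem card_apSet_le : (apSet_finite C).toFinset.card ≤ C.d := by
  have h := Finset.card_le_card_of_injOn (s := (apSet_finite C).toFinset) (t := Finset.range C.d)
    (fun i => C.ρ i % C.d) (fun i _ => by simpa using Nat.mod_lt _ (d_pos C))
    (by simpa using apSet_injOn C)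
  simpa using h

/-! ### Fibres of `t` have at most `d` points -/

/-- a functional killing `(t - β) A` and the Apéry basis elements is zero. -/
theorem functional_eq_zero (β : Qb) (φ : A →ₗ[Qb] Qb)
    (h1 : ∀ a, φ (C.t * a) = β * φ a) (h2 : ∀ i ∈ apSet C, φ (C.b i) = 0) : φ = 0 := by
  have key : ∀ i, φ (C.b i) = 0 := by
    intro i
    induction i using Nat.strong_induction_on with
    | _ i ih =>
      by_cases hi : i ∈ apSet C
      · exact h2 i hi
      · simp only [apSet, Set.mem_ofPred_eq, not_forall, not_not] at hi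
        obtain ⟨j, hj⟩ := hi
        obtain ⟨k, c, hk, hmul⟩ := C.mul_b 1 j
        have hki : k = i := C.ρ_strictMono.injective (by rw [hk, hj, WCurve.d, add_comm])
        subst hki
        have hjk : j < k := by
          rw [← C.ρ_strictMono.lt_iff_lt, hj]
          have := d_pos C
          omega
        have h3 : φ (C.b 1 * C.b j) = 0 := by
          have := h1 (C.b j)
          rw [WCurve.t] at this
          rw [this, ih j hjk, mul_zero]
        rw [hmul, map_add, map_sum] at h3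
        have h4 : ∑ l ∈ Finset.range k, φ (algebraMap ℚ Qb (c l) • C.b l) = 0 := by
          refine Finset.sum_eq_zero fun l hl => ?_
          rw [map_smul, ih l (Finset.mem_range.1 hl), smul_zero]
        rwa [h4, add_zero] at h3
  exact C.b.ext fun i => by rw [key i, LinearMap.zero_apply]

theorem card_le_d (β : Qb) (F : Finset (Pt A)) (hF : ∀ P ∈ F, P C.t = β) : F.card ≤ C.d := by
  refine le_trans ?_ (card_apSet_le C)
  let T := (apSet_finite C).toFinset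
  let u : F → (T → Qb) := fun P i => P.1 (C.b i)
  have hu : LinearIndependent Qb u := by
    rw [Fintype.linearIndependent_iff]
    intro g hg
    have hφ : ∑ P : F, g P • (P.1 : Pt A).toLinearMap = 0 := by
      refine functional_eq_zero C β _ ?_ ?_
      · intro a
        simp only [LinearMap.sum_apply, LinearMap.smul_apply, AlgHom.toLinearMap_apply, map_mul,
          smul_eq_mul, Finset.mul_sum]
        refine Finset.sum_congr rfl fun P _ => ?_
        rw [hF P.1 P.2]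
        ring
      · intro i hi
        have := congrFun hg ⟨i, by simpa [T] using hi⟩
        simpa [u, Finset.sum_apply] using this
    have hli := (linearIndependent_algHom_toLinearMap Qb A Qb).comp (Subtype.val : F → Pt A)
      Subtype.val_injective
    exact Fintype.linearIndependent_iff.1 hli g hφ
  have := hu.fintype_card_le_finrank
  simpa [T] using this

theorem fib_finite (β : Qb) : (C.fib β).Finite := by
  by_contra h
  obtain ⟨F, hF, hcard⟩ := Set.Infinite.exists_subset_card_eq h (C.d + 1)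
  have := card_le_d C β F fun P hP => hF hP
  omega

/-! ### Conjugate points -/

theorem exists_conj (σ : Qb ≃ₐ[ℚ] Qb) (P : Pt A) :
    ∃ P' : Pt A, ∀ i, P' (C.b i) = σ (P (C.b i)) := by
  let f : A →ₗ[Qb] Qb := C.b.constr Qb (fun i => σ (P (C.b i)))
  have hf : ∀ i, f (C.b i) = σ (P (C.b i)) := fun i => C.b.constr_basis Qb _ i
  have hmul : ∀ i j, f (C.b i * C.b j) = f (C.b i) * f (C.b j) := by
    intro i j
    obtain ⟨k, c, -, h⟩ := C.mul_b i j
    rw [hf, hf, ← map_mul σ, ← map_mul P, h, map_add f, map_sum f, map_add P, map_sum P,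
      map_add σ, map_sum σ, hf]
    congr 1
    refine Finset.sum_congr rfl fun l _ => ?_
    rw [map_smul f, map_smul P, hf, smul_eq_mul, smul_eq_mul, map_mul σ, σ.commutes]
  have hmul' : ∀ x y, f (x * y) = f x * f y := by
    have h : (LinearMap.mul Qb A).compr₂ f = (LinearMap.mul Qb Qb).compl₁₂ f f := by
      refine C.b.ext fun i => C.b.ext fun j => ?_
      simp [hmul]
    intro x y
    exact DFunLike.congr_fun (DFunLike.congr_fun h x) y
  have h1 : f 1 = 1 := by rw [← C.b_zero, hf, C.b_zero, map_one, map_one]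
  exact ⟨AlgHom.ofLinearMap f h1 hmul', hf⟩

/-! ### The saturation `t⁻¹(t(E))` -/

/-- `t⁻¹(t(E))`. -/
def sat (E : Finset (Pt A)) : Finset (Pt A) :=
  (E.image fun P => P C.t).biUnion fun β => (fib_finite C β).toFinset

theorem mem_sat {E : Finset (Pt A)} {Q : Pt A} : Q ∈ sat C E ↔ ∃ P ∈ E, Q C.t = P C.t := by
  simp only [sat, Finset.mem_biUnion, Finset.mem_image, Set.Finite.mem_toFinset, WCurve.fib,
    Set.mem_ofPred_eq]
  constructor
  · rintro ⟨_, ⟨P, hP, rfl⟩, h⟩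
    exact ⟨P, hP, h⟩
  · rintro ⟨P, hP, h⟩
    exact ⟨_, ⟨P, hP, rfl⟩, h⟩

theorem subset_sat (E : Finset (Pt A)) : E ⊆ sat C E := fun P hP => (mem_sat C).2 ⟨P, hP, rfl⟩

theorem card_sat_le (E : Finset (Pt A)) : (sat C E).card ≤ C.d * E.card := by
  have h := Finset.card_biUnion_le_card_mul (E.image fun P => P C.t)
    (fun β => (fib_finite C β).toFinset) C.d fun β _ =>
      card_le_d C β _ fun P hP => by simpa [WCurve.fib] using hP
  calc (sat C E).card ≤ (E.image fun P => P C.t).card * C.d := h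
    _ ≤ E.card * C.d := Nat.mul_le_mul_right _ Finset.card_image_le
    _ = C.d * E.card := Nat.mul_comm _ _

theorem galStable_sat {E : Finset (Pt A)} (hE : C.GalStable E) : C.GalStable (sat C E) := by
  intro σ Q hQ
  obtain ⟨P, hP, hQP⟩ := (mem_sat C).1 hQ
  obtain ⟨Q', hQ'⟩ := exists_conj C σ Q
  obtain ⟨P', hP', hPP'⟩ := hE σ P hP
  refine ⟨Q', (mem_sat C).2 ⟨P', hP', ?_⟩, hQ'⟩
  rw [WCurve.t, hQ' 1, hPP' 1]
  rw [WCurve.t] at hQP
  rw [hQP]

theorem sat_closed {E : Finset (Pt A)} {P : Pt A} (hP : P ∈ sat C E) {Q : Pt A}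
    (h : Q C.t = P C.t) : Q ∈ sat C E := by
  obtain ⟨P₀, hP₀, hPP₀⟩ := (mem_sat C).1 hP
  exact (mem_sat C).2 ⟨P₀, hP₀, h.trans hPP₀⟩

/-! ### Finite supports, local to global -/

theorem finite_support_sum {α : Type*} (s : Finset α) (f : α → Pl → ℝ)
    (h : ∀ a ∈ s, (Function.support (f a)).Finite) :
    (Function.support fun v => ∑ a ∈ s, f a v).Finite :=
  (s.finite_toSet.biUnion h).subset (Finset.support_sum s f)

theorem finite_support_lam (P : Pt A) : (Function.support fun v => C.lam 𝔳 v P).Finite :=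
  (finite_support_log_mx 𝔳 (P C.t)).subset fun v hv h => hv (by
    show Real.log (mx 𝔳 v (P C.t)) / C.d = 0
    rw [show Real.log (mx 𝔳 v (P C.t)) = 0 from h, zero_div])

theorem finite_support_gl (m : ℕ) (P Q : Pt A) :
    (Function.support fun v => C.gl 𝔳 m v P Q).Finite := by
  have h1 : (Function.support fun v => Real.log (C.w2 𝔳 m v P Q)).Finite :=
    finite_support_log_iSup_av 𝔳 fun kl : Fin (C.dim m) × Fin (C.dim m) =>
      P (C.b kl.1) * Q (C.b kl.2) - P (C.b kl.2) * Q (C.b kl.1)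
  refine ((h1.union (finite_support_lam 𝔳 C P)).union (finite_support_lam 𝔳 C Q)).subset ?_
  intro v hv
  by_contra h
  simp only [Set.mem_union, Function.mem_support, not_or, not_not] at h
  refine hv ?_
  show Real.log (C.w2 𝔳 m v P Q) - m * C.lam 𝔳 v P - m * C.lam 𝔳 v Q = 0
  rw [h.1.1, h.1.2, h.2]
  ring

theorem finite_support_sum_lam (E : Finset (Pt A)) :
    (Function.support fun v => ∑ P ∈ E, C.lam 𝔳 v P).Finite :=
  finite_support_sum E (fun P v => C.lam 𝔳 v P) fun P _ => finite_support_lam 𝔳 C P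

theorem finite_support_sum_gl (m : ℕ) (E : Finset (Pt A)) :
    (Function.support fun v => ∑ x ∈ E.offDiag, C.gl 𝔳 m v x.1 x.2).Finite :=
  finite_support_sum E.offDiag (fun x v => C.gl 𝔳 m v x.1 x.2)
    fun x _ => finite_support_gl 𝔳 C m x.1 x.2

/-- the local term `Ξ_v(E)` (this is `XiLoc` of the blueprint). -/
def xi (m n : ℕ) (v : Pl) (E : Finset (Pt A)) : ℝ :=
  Real.log (wnorm 𝔳 v (C.evMat n E)) - n * ∑ P ∈ E, C.lam 𝔳 v P
    - (∑ x ∈ E.offDiag, C.gl 𝔳 m v x.1 x.2) / 2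

theorem finite_support_xi (m n : ℕ) (E : Finset (Pt A)) :
    (Function.support fun v => xi 𝔳 C m n v E).Finite := by
  refine (((finite_support_log_wnorm 𝔳 (C.evMat n E)).union
    (finite_support_sum_lam 𝔳 C E)).union (finite_support_sum_gl 𝔳 C m E)).subset ?_
  intro v hv
  by_contra h
  simp only [Set.mem_union, Function.mem_support, not_or, not_not] at h
  refine hv ?_
  show Real.log (wnorm 𝔳 v (C.evMat n E)) - n * ∑ P ∈ E, C.lam 𝔳 v P
    - (∑ x ∈ E.offDiag, C.gl 𝔳 m v x.1 x.2) / 2 = 0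
  rw [h.1.1, h.1.2, h.2]
  ring

theorem finsum_xi (m n : ℕ) (E : Finset (Pt A)) :
    ∑ᶠ v, xi 𝔳 C m n v E = C.Phi 𝔳 n E - n * C.hE 𝔳 E + C.I2 𝔳 m E := by
  have h1 := finite_support_log_wnorm 𝔳 (C.evMat n E)
  have h2 := finite_support_sum_lam 𝔳 C E
  have h3 := finite_support_sum_gl 𝔳 C m E
  have h2' : (Function.support fun v => (n : ℝ) * ∑ P ∈ E, C.lam 𝔳 v P).Finite :=
    h2.subset fun v hv h => hv (by
      show (n : ℝ) * ∑ P ∈ E, C.lam 𝔳 v P = 0
      rw [show ∑ P ∈ E, C.lam 𝔳 v P = 0 from h, mul_zero])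
  have h3' : (Function.support fun v => (∑ x ∈ E.offDiag, C.gl 𝔳 m v x.1 x.2) * (1 / 2)).Finite :=
    h3.subset fun v hv h => hv (by
      show (∑ x ∈ E.offDiag, C.gl 𝔳 m v x.1 x.2) * (1 / 2) = 0
      rw [show ∑ x ∈ E.offDiag, C.gl 𝔳 m v x.1 x.2 = 0 from h, zero_mul])
  have h12 : (Function.support fun v => Real.log (wnorm 𝔳 v (C.evMat n E)) -
      (n : ℝ) * ∑ P ∈ E, C.lam 𝔳 v P).Finite :=
    (h1.union h2').subset (Function.support_sub _ _)
  have e1 : ∀ v, xi 𝔳 C m n v E = (Real.log (wnorm 𝔳 v (C.evMat n E)) -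
      (n : ℝ) * ∑ P ∈ E, C.lam 𝔳 v P) - (∑ x ∈ E.offDiag, C.gl 𝔳 m v x.1 x.2) * (1 / 2) := by
    intro v
    rw [xi]
    ring
  rw [finsum_congr e1, finsum_sub_distrib h12 h3', finsum_sub_distrib h1 h2', ← mul_finsum,
    ← finsum_mul, WCurve.Phi, wht, WCurve.hE, WCurve.I2]
  ring

theorem xi_empty (m n : ℕ) (v : Pl) : xi 𝔳 C m n v ∅ = 0 := by
  rw [xi, wnorm_of_isEmpty]
  simp

theorem Theta_sub_Qd (m w : ℕ) (hw : 1 ≤ w) (E : Finset (Pt A)) :
    C.Theta 𝔳 w E - C.Qd 𝔳 m E = ∑ᶠ v, xi 𝔳 C m (E.card + C.g + w - 1) v E := by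
  rw [finsum_xi, WCurve.Theta, WCurve.Qd, Nat.cast_sub (by omega)]
  push_cast
  ring

end VF

open VF in
/-- (VF) with the three nodes used as explicit hypotheses (`XiLoc`, `IsPullback` unfolded). -/
theorem Theta_eq_Qd_of
    (h_mono : ∃ m₀, ∀ m, m₀ ≤ m → C.d ∣ m → ∀ n, C.d ∣ n → ∀ z : ℕ, z * m ≤ n →
      ∃ γ : MConst, ∀ (v : Pl) (E Z : Finset (Pt A)), E ⊆ Z → Z.card ≤ z →
        Real.log (wnorm 𝔳 v (C.evMat n E)) - n * ∑ P ∈ E, C.lam 𝔳 v P
            - (∑ x ∈ E.offDiag, C.gl 𝔳 m v x.1 x.2) / 2 ≤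
          Real.log (wnorm 𝔳 v (C.evMat n Z)) - n * ∑ P ∈ Z, C.lam 𝔳 v P
            - (∑ x ∈ Z.offDiag, C.gl 𝔳 m v x.1 x.2) / 2 + γ.c v)
    (h_Phi : ∃ Δ : Polynomial ℚ, Δ ≠ 0 ∧
      ∀ (n z : ℕ), z + 2 * C.g ≤ n → ∃ Cst : ℝ, ∀ Z : Finset (Pt A),
        (C.GalStable Z ∧ (∀ P ∈ Z, Polynomial.aeval (P C.t) Δ ≠ 0) ∧
          ∀ P ∈ Z, ∀ Q : Pt A, Q C.t = P C.t → Q ∈ Z) → Z.card ≤ z →
        C.Phi 𝔳 n Z ≤ ((n : ℝ) - Z.card + 1 - C.g) * C.hE 𝔳 Z + Cst)
    (h_I2 : ∃ Δ : Polynomial ℚ, Δ ≠ 0 ∧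
      ∃ m₀, ∀ m, m₀ ≤ m → ∀ z : ℕ, ∃ Cst : ℝ, ∀ Z : Finset (Pt A),
        (C.GalStable Z ∧ (∀ P ∈ Z, Polynomial.aeval (P C.t) Δ ≠ 0) ∧
          ∀ P ∈ Z, ∀ Q : Pt A, Q C.t = P C.t → Q ∈ Z) → Z.card ≤ z →
        C.I2 𝔳 m Z ≤ ((Z.card : ℝ) + C.g - 1) * C.hE 𝔳 Z + Cst) :
    ∃ Δ : Polynomial ℚ, Δ ≠ 0 ∧
    ∃ m₀, ∀ m, m₀ ≤ m → C.d ∣ m → ∀ (e w : ℕ), C.d ∣ e + C.g + w - 1 → 1 ≤ w →
      C.d * e * m ≤ e + C.g + w - 1 →
      ∃ Cst : ℝ, ∀ E : Finset (Pt A), C.GalStable E → E.card = e →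
        (∀ P ∈ E, Polynomial.aeval (P C.t) Δ ≠ 0) →
        |C.Theta 𝔳 w E - C.Qd 𝔳 m E| ≤ Cst := by
  obtain ⟨m₁, H₀⟩ := h_mono
  obtain ⟨Δ₁, hΔ₁, H₁⟩ := h_Phi
  obtain ⟨Δ₂, hΔ₂, m₂, H₂⟩ := h_I2
  refine ⟨Δ₁ * Δ₂, mul_ne_zero hΔ₁ hΔ₂, max (max m₁ m₂) (2 * C.g + 1), ?_⟩
  intro m hm hdm e w hdn hw hle
  have hm₁ : m₁ ≤ m := le_trans (le_trans (le_max_left _ _) (le_max_left _ _)) hm
  have hm₂ : m₂ ≤ m := le_trans (le_trans (le_max_right _ _) (le_max_left _ _)) hm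
  have hm₃ : 2 * C.g + 1 ≤ m := le_trans (le_max_right _ _) hm
  rcases Nat.eq_zero_or_pos e with rfl | he
  · refine ⟨|C.Theta 𝔳 w ∅ - C.Qd 𝔳 m ∅|, fun E _ hE _ => ?_⟩
    rw [Finset.card_eq_zero.1 hE]
  have hd := d_pos C
  have hde : 1 ≤ C.d * e := Nat.mul_pos hd he
  have hz : C.d * e + 2 * C.g ≤ e + C.g + w - 1 := by
    refine le_trans ?_ hle
    calc C.d * e + 2 * C.g ≤ C.d * e + C.d * e * (2 * C.g) :=
          Nat.add_le_add_left (Nat.le_mul_of_pos_left _ hde) _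
      _ = C.d * e * (2 * C.g + 1) := by ring
      _ ≤ C.d * e * m := Nat.mul_le_mul_left _ hm₃
  obtain ⟨γ, hγ⟩ := H₀ m hm₁ hdm (e + C.g + w - 1) hdn (C.d * e) hle
  obtain ⟨C₁, hC₁⟩ := H₁ (e + C.g + w - 1) (C.d * e) hz
  obtain ⟨C₂, hC₂⟩ := H₂ m hm₂ (C.d * e)
  refine ⟨γ.tot + |C₁ + C₂|, fun E hgal hcard hΔ => ?_⟩
  subst hcard
  rw [Theta_sub_Qd 𝔳 C m w hw E]
  set n := E.card + C.g + w - 1 with hn
  have hcardE : E.card ≤ C.d * E.card := Nat.le_mul_of_pos_left _ hd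
  have hlow : 0 ≤ ∑ᶠ v, xi 𝔳 C m n v E + γ.tot := by
    have h := finsum_le_of_le_add (fun v => xi 𝔳 C m n v ∅) (fun v => xi 𝔳 C m n v E)
      (finite_support_xi 𝔳 C m n ∅) (finite_support_xi 𝔳 C m n E) γ
      fun v => hγ v ∅ E (Finset.empty_subset _) hcardE
    simpa [xi_empty] using h
  have hpb : ∀ Δ' : Polynomial ℚ, (∀ P ∈ E, Polynomial.aeval (P C.t) Δ' ≠ 0) →
      (C.GalStable (sat C E) ∧ (∀ P ∈ sat C E, Polynomial.aeval (P C.t) Δ' ≠ 0) ∧
          ∀ P ∈ sat C E, ∀ Q : Pt A, Q C.t = P C.t → Q ∈ sat C E) := by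
    intro Δ' h
    refine ⟨galStable_sat C hgal, fun P hP => ?_, fun P hP Q hQ => sat_closed C hP hQ⟩
    obtain ⟨P₀, hP₀, hPP₀⟩ := (mem_sat C).1 hP
    rw [hPP₀]
    exact h P₀ hP₀
  have hup : ∑ᶠ v, xi 𝔳 C m n v E ≤ C₁ + C₂ + γ.tot := by
    have h := finsum_le_of_le_add (fun v => xi 𝔳 C m n v E) (fun v => xi 𝔳 C m n v (sat C E))
      (finite_support_xi 𝔳 C m n E) (finite_support_xi 𝔳 C m n (sat C E)) γ
      fun v => hγ v E (sat C E) (subset_sat C E) (card_sat_le C E)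
    rw [finsum_xi 𝔳 C m n (sat C E)] at h
    have h1 := hC₁ (sat C E) (hpb Δ₁ fun P hP h0 => hΔ P hP (by rw [map_mul, h0, zero_mul]))
      (card_sat_le C E)
    have h2 := hC₂ (sat C E) (hpb Δ₂ fun P hP h0 => hΔ P hP (by rw [map_mul, h0, mul_zero]))
      (card_sat_le C E)
    nlinarith [h, h1, h2]
  have habs := le_abs_self (C₁ + C₂)
  have hγ0 := γ.tot_nonneg
  have habs0 := abs_nonneg (C₁ + C₂)
  rw [abs_le]
  constructor <;> linarith

end Fermat.Agent.S17.H
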