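/-
S17/H: the final theorem of route H (`exists_height`) from the four remaining nodes
X1 (`cross_fibre_lower`), X2 (`same_fibre_lower`), T1 (`Phi_pullback_le`), G3
(`Theta_class_invariant`), which enter as explicit hypotheses.   Wiring: helper257.
-/
import Fermat.Agent.S17.H.MainCore
import Fermat.Agent.S17.H.Northcott
import Fermat.Agent.S17.H.VF
import Fermat.Agent.S17.H.Mono
import Fermat.Agent.S17.H.EvBound
import Fermat.Agent.S17.H.I2Pullback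
import Fermat.Agent.S17.H.AbsExists

set_option autoImplicit false
noncomputable section
open scoped Classical

namespace Fermat.Agent.S17.H
variable (𝔳 : AbsFam) {A : Type} [CommRing A] [Algebra Qb A] (C : WCurve A)

/-- the statement of node X1. -/
def CrossStatement : Prop :=
  ∃ m₀ : ℕ, ∀ m : ℕ, m₀ ≤ m →
      ∃ γ : MConst, ∀ (v : Pl) (α α' : Qb), α ≠ α' → ∀ F F' : Finset (Pt A),
      (∀ P, P ∈ F ↔ P C.t = α) → (∀ P, P ∈ F' ↔ P C.t = α') → F.card = C.d → F'.card = C.d →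
      C.d * Real.log (𝔳.av v (α - α')) +
        ((C.d : ℝ) * ((m : ℝ) - 1)) * (Real.log (mx 𝔳 v α) + Real.log (mx 𝔳 v α')) ≤
      ∑ P ∈ F, ∑ Q ∈ F', Real.log (C.w2 𝔳 m v P Q) + γ.c v

/-- the statement of node X2. -/
def SameStatement : Prop :=
  ∃ Δ : Polynomial ℚ, Δ ≠ 0 ∧
      (∀ α : Qb, Polynomial.aeval α Δ ≠ 0 →
        ∃ F : Finset (Pt A), (∀ P, P ∈ F ↔ P C.t = α) ∧ F.card = C.d) ∧
      ∃ m₀ : ℕ, ∀ m : ℕ, m₀ ≤ m → ∃ γ : MConst, ∀ (v : Pl) (α : Qb),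
        Polynomial.aeval α Δ ≠ 0 → ∀ F : Finset (Pt A),
        (∀ P, P ∈ F ↔ P C.t = α) →
        Real.log (𝔳.av v (Polynomial.aeval α Δ)) +
          2 * (((C.d : ℝ) - 1) * ((m : ℝ) - 1) - C.g) * Real.log (mx 𝔳 v α) ≤
        ∑ x ∈ F.offDiag, Real.log (C.w2 𝔳 m v x.1 x.2) + γ.c v

/-- the statement of node T1. -/
def PhiStatement : Prop :=
  ∃ Δ : Polynomial ℚ, Δ ≠ 0 ∧
    ∀ (n z : ℕ), z + 2 * C.g ≤ n → ∃ Cst : ℝ, ∀ Z : Finset (Pt A), IsPullback C Δ Z → Z.card ≤ z →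
      C.Phi 𝔳 n Z ≤ ((n : ℝ) - Z.card + 1 - C.g) * C.hE 𝔳 Z + Cst

/-- the statement of node G3. -/
def ClassInvStatement : Prop :=
  ∀ (w : ℕ), C.g + 1 ≤ w → ∀ emax : ℕ,
    ∃ Cst : ℝ, ∀ E E' : Finset (Pt A), C.GalStable E → C.GalStable E' → E.card ≤ emax →
      E'.card ≤ emax → ∀ s s' : A, C.IsRat s → C.IsRat s' → s ≠ 0 → s' ≠ 0 →
      Ideal.span {s'} * idealOf E = Ideal.span {s} * idealOf E' →
      |C.Theta 𝔳 w E - C.Theta 𝔳 w E'| ≤ Cst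

theorem XiLoc_mono : ∃ m₀, ∀ m, m₀ ≤ m → C.d ∣ m → ∀ n, C.d ∣ n → ∀ z : ℕ, z * m ≤ n →
    ∃ γ : MConst, ∀ (v : Pl) (E Z : Finset (Pt A)), E ⊆ Z → Z.card ≤ z →
      XiLoc 𝔳 C m n v E ≤ XiLoc 𝔳 C m n v Z + γ.c v :=
  Mono.XiLoc_mono_of 𝔳 C (log_vnorm_ev_le 𝔳 C) (fun v E _ hn => wnorm_evMat_pos 𝔳 C v E hn)
    (fun v _ hm _ _ h => w2_pos 𝔳 C v hm h)

theorem Theta_eq_Qd_of4 (h1 : CrossStatement 𝔳 C) (h2 : SameStatement 𝔳 C)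
    (h3 : PhiStatement 𝔳 C) : ∃ Δ : Polynomial ℚ, Δ ≠ 0 ∧
    ∃ m₀, ∀ m, m₀ ≤ m → C.d ∣ m → ∀ (e w : ℕ), C.d ∣ e + C.g + w - 1 → 1 ≤ w →
      C.d * e * m ≤ e + C.g + w - 1 →
      ∃ Cst : ℝ, ∀ E : Finset (Pt A), C.GalStable E → E.card = e →
        (∀ P ∈ E, Polynomial.aeval (P C.t) Δ ≠ 0) →
        |C.Theta 𝔳 w E - C.Qd 𝔳 m E| ≤ Cst :=
  Theta_eq_Qd_of 𝔳 C (XiLoc_mono 𝔳 C) h3 (I2_pullback_le_of 𝔳 C h1 h2)

theorem exists_height_of4 [IsDedekindDomain A] (h1 : CrossStatement 𝔳 C)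
    (h2 : SameStatement 𝔳 C) (h3 : PhiStatement 𝔳 C) (h4 : ClassInvStatement 𝔳 C)
    {G : Type} [AddCommGroup G]
    (cl : Finset (Pt A) → G) (r₀ : ℕ)
    (h_add : ∀ E E', C.GalStable E → C.GalStable E' → Disjoint E E' → cl (E ∪ E') = cl E + cl E')
    (h_iff : ∀ E E', C.GalStable E → C.GalStable E' → (cl E = cl E' ↔
      ∃ s s' : A, C.IsRat s ∧ C.IsRat s' ∧ s ≠ 0 ∧ s' ≠ 0 ∧
        Ideal.span {s'} * idealOf E = Ideal.span {s} * idealOf E'))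
    (h_move : ∀ r, r₀ ≤ r → ∀ (x : G) (T : Finset (Pt A)),
      ∃ E, C.GalStable E ∧ E.card = r ∧ Disjoint E T ∧ cl E = x) :
    ∃ h : G → ℝ, (∀ x, 0 ≤ h x) ∧
      (∃ Cst : ℝ, ∀ x y, |h (x + y) + h (x - y) - 2 * (h x + h y)| ≤ Cst) ∧
      ∀ B : ℝ, {x | h x ≤ B}.Finite :=
  exists_height_of_nodes 𝔳 C cl r₀ h_add h_iff h_move (fib_finite C)
    (Theta_eq_Qd_of4 𝔳 C h1 h2 h3) h4 (exists_small_section 𝔳 C)
    (hE_le_ht_of_mem_idealOf 𝔳 C) (northcott_ideals 𝔳 C)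

end Fermat.Agent.S17.H
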