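/-
S17/H, node (T1) `Phi_pullback_le` as a COROLLARY of node (G3) `Theta_class_invariant`:
for `Z = t^* S` unramified and Galois stable, `I(Z) = (a_S(t))` with `a_S = ∏_{α ∈ S} (X - α)` rational,
so `Z` is linearly equivalent to `∅` and `Θ_w(Z) = Θ_w(∅) + O(1)`, `w = n + 1 - |Z| - g`.   (helper257)
-/
import Fermat.Agent.S17.H.MainOf
import Fermat.Agent.S17.H.ClassInv.Gal

set_option autoImplicit false
noncomputable section
open scoped Classical

namespace Fermat.Agent.S17.H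

open Polynomial

variable (𝔳 : AbsFam) {A : Type} [CommRing A] [Algebra Qb A] (C : WCurve A)

/-- a monic polynomial with Galois stable set of simple roots is rational. -/
theorem pb_prod_isRat (S : Finset Qb) (hS : ∀ σ : Qb ≃ₐ[ℚ] Qb, ∀ x ∈ S, σ x ∈ S) :
    ∃ p : ℚ[X], ∏ α ∈ S, (X - Polynomial.C α) = p.map (algebraMap ℚ Qb) := by
  have hfix : ∀ σ : Qb ≃ₐ[ℚ] Qb,
      (∏ α ∈ S, (X - Polynomial.C α)).map (σ : Qb →+* Qb) = ∏ α ∈ S, (X - Polynomial.C α) := by
    intro σ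
    rw [Polynomial.map_prod]
    have himg : S.image σ = S :=
      Finset.eq_of_subset_of_card_le
        (fun y hy => by
          obtain ⟨x, hx, rfl⟩ := Finset.mem_image.1 hy
          exact hS σ x hx)
        (by rw [Finset.card_image_of_injective _ σ.injective])
    conv_rhs => rw [← himg, Finset.prod_image (fun x _ y _ h => σ.injective h)]
    refine Finset.prod_congr rfl fun α _ => ?_
    rw [Polynomial.map_sub, Polynomial.map_X, Polynomial.map_C]
    rfl
  have hl : (∏ α ∈ S, (X - Polynomial.C α)) ∈ Polynomial.lifts (algebraMap ℚ Qb) := by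
    rw [Polynomial.lifts_iff_coeff_lifts]
    intro n
    apply CI.mem_range_of_fixed
    intro σ
    have h1 := congrArg (fun p => Polynomial.coeff p n) (hfix σ)
    simp only [Polynomial.coeff_map] at h1
    exact h1
  obtain ⟨p, hp⟩ := (Polynomial.mem_lifts _).1 hl
  exact ⟨p, hp.symm⟩

theorem pb_isRat_aeval (p : ℚ[X]) : C.IsRat (aeval C.t (p.map (algebraMap ℚ Qb))) := by
  rw [Polynomial.aeval_eq_sum_range]
  refine isRat_sum C _ _ fun k _ => ?_
  rw [Polynomial.coeff_map]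
  exact isRat_smul_rat C _ (isRat_pow C (isRat_t C) k)

theorem pb_galStable_empty : C.GalStable ∅ := fun _ P hP => absurd hP (Finset.notMem_empty P)

theorem pb_idealOf_empty : idealOf (∅ : Finset (Pt A)) = ⊤ := by
  unfold idealOf
  simp

variable {C}

/-- the number of points of an unramified pull-back divisor. -/
theorem pb_card {Δ : ℚ[X]} (hfib : ∀ α : Qb, Polynomial.aeval α Δ ≠ 0 →
      ∃ F : Finset (Pt A), (∀ P, P ∈ F ↔ P C.t = α) ∧ F.card = C.d)
    {Z : Finset (Pt A)} (hZ : IsPullback C Δ Z) :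
    Z.card = C.d * (Z.image fun P : Pt A => P C.t).card := by
  rw [Finset.card_eq_sum_card_image (fun P : Pt A => P C.t) Z, mul_comm, ← smul_eq_mul,
    ← Finset.sum_const]
  refine Finset.sum_congr rfl fun α hα => ?_
  obtain ⟨P₀, hP₀, rfl⟩ := Finset.mem_image.1 hα
  obtain ⟨F, hF, hcard⟩ := hfib _ (hZ.2.1 P₀ hP₀)
  rw [← hcard]
  congr 1
  ext P
  rw [Finset.mem_filter, hF]
  exact ⟨fun h => h.2, fun h => ⟨hZ.2.2 P₀ hP₀ P h, h⟩⟩

/-- the ideal of an unramified pull-back divisor is principal, generated by a rational function. -/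
theorem pb_exists_generator {Δ : ℚ[X]} (hfib : ∀ α : Qb, Polynomial.aeval α Δ ≠ 0 →
      ∃ F : Finset (Pt A), (∀ P, P ∈ F ↔ P C.t = α) ∧ F.card = C.d)
    {Z : Finset (Pt A)} (hZ : IsPullback C Δ Z) :
    ∃ s : A, C.IsRat s ∧ s ≠ 0 ∧ idealOf Z = Ideal.span {s} := by
  set S : Finset Qb := Z.image fun P : Pt A => P C.t with hS
  set a : Qb[X] := ∏ α ∈ S, (X - Polynomial.C α) with ha
  have hamonic : a.Monic := monic_prod_of_monic _ _ fun α _ => monic_X_sub_C α
  have hadeg : a.natDegree = S.card := by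
    rw [ha, natDegree_prod_of_monic _ _ fun α _ => monic_X_sub_C α]
    simp
  obtain ⟨p, hp⟩ := pb_prod_isRat S (fun σ x hx => i2p_galStable_image hZ.1 σ x hx)
  have hNm : Nm C (aeval C.t a) = a ^ C.d := Nm_aeval C a
  have hs0 : aeval C.t a ≠ 0 := by
    intro h
    rw [h, NB.Nm_zero] at hNm
    exact (pow_ne_zero _ hamonic.ne_zero) hNm.symm
  have hmem : aeval C.t a ∈ idealOf Z := by
    unfold idealOf
    simp only [Submodule.mem_iInf]
    intro P hP
    rw [RingHom.mem_ker]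
    show P (aeval C.t a) = 0
    rw [← Polynomial.aeval_algHom_apply, Polynomial.coe_aeval_eq_eval, ha, Polynomial.eval_prod]
    refine Finset.prod_eq_zero (Finset.mem_image_of_mem _ hP) ?_
    simp
  refine ⟨aeval C.t a, ?_, hs0, ?_⟩
  · rw [ha, hp]
    exact pb_isRat_aeval C p
  · obtain ⟨R, hR, hNR, hdvd⟩ := exists_residual C Z hs0 hmem
    have hchimonic : (chi C Z).Monic := monic_prod_of_monic _ _ fun P _ => monic_X_sub_C _
    have hchideg : (chi C Z).natDegree = Z.card := by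
      unfold chi
      rw [natDegree_prod_of_monic _ _ fun P _ => monic_X_sub_C _]
      simp
    have hlc : (Nm C (aeval C.t a)).leadingCoeff = 1 := by
      rw [hNm]
      exact (hamonic.pow _).leadingCoeff
    rw [hlc, map_one, one_mul, hNm] at hNR
    have hdeg := congrArg natDegree hNR
    have hZc : Z.card = C.d * S.card := pb_card hfib hZ
    rw [hamonic.natDegree_pow, hchimonic.natDegree_mul hR, hchideg, hadeg, hZc] at hdeg
    have hR0 : R.natDegree = 0 := by omega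
    have hR1 : R = 1 := by
      rw [Polynomial.eq_C_of_natDegree_eq_zero hR0] at hR ⊢
      have : R.coeff 0 = 1 := by simpa [Polynomial.Monic] using hR
      rw [this, map_one]
    apply le_antisymm
    · intro z hz
      have := hdvd z hz
      rw [hR1, map_one, one_mul] at this
      exact Ideal.mem_span_singleton.2 this
    · rw [Ideal.span_singleton_le_iff_mem]
      exact hmem

variable (C)

/-- (T1) from (G3). -/
theorem pb_Phi_pullback_le (h4 : ClassInvStatement 𝔳 C) {Δ : ℚ[X]}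
    (hfib : ∀ α : Qb, Polynomial.aeval α Δ ≠ 0 →
      ∃ F : Finset (Pt A), (∀ P, P ∈ F ↔ P C.t = α) ∧ F.card = C.d) (n z : ℕ)
    (hn : z + 2 * C.g ≤ n) : ∃ Cst : ℝ, ∀ Z : Finset (Pt A), IsPullback C Δ Z → Z.card ≤ z →
      C.Phi 𝔳 n Z ≤ ((n : ℝ) - Z.card + 1 - C.g) * C.hE 𝔳 Z + Cst := by
  have hK : ∀ e : ℕ, ∃ K : ℝ, e ≤ z → ∀ E E' : Finset (Pt A), C.GalStable E → C.GalStable E' →
      E.card ≤ z → E'.card ≤ z → ∀ s s' : A, C.IsRat s → C.IsRat s' → s ≠ 0 → s' ≠ 0 →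
      Ideal.span {s'} * idealOf E = Ideal.span {s} * idealOf E' →
      |C.Theta 𝔳 (n + 1 - e - C.g) E - C.Theta 𝔳 (n + 1 - e - C.g) E'| ≤ K := by
    intro e
    by_cases he : e ≤ z
    · obtain ⟨K, hK⟩ := h4 (n + 1 - e - C.g) (by omega) z
      exact ⟨K, fun _ => hK⟩
    · exact ⟨0, fun h => absurd h he⟩
  choose K hK using hK
  refine ⟨∑ e ∈ Finset.range (z + 1), (|K e| + |C.Theta 𝔳 (n + 1 - e - C.g) ∅|), ?_⟩
  intro Z hZ hcard
  obtain ⟨s, hsr, hs0, hI⟩ := pb_exists_generator hfib hZ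
  have := isDomain C
  have h := hK Z.card hcard Z ∅ hZ.1 (pb_galStable_empty C) hcard (by simp) s 1 hsr (isRat_one C)
    hs0 one_ne_zero (by rw [pb_idealOf_empty, hI, Ideal.span_singleton_one, Ideal.top_mul,
      Ideal.mul_top])
  have hle : |K Z.card| + |C.Theta 𝔳 (n + 1 - Z.card - C.g) ∅| ≤
      ∑ e ∈ Finset.range (z + 1), (|K e| + |C.Theta 𝔳 (n + 1 - e - C.g) ∅|) :=
    Finset.single_le_sum (f := fun e => |K e| + |C.Theta 𝔳 (n + 1 - e - C.g) ∅|)
      (fun e _ => add_nonneg (abs_nonneg _) (abs_nonneg _)) (Finset.mem_range.2 (by omega))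
  have hTh : C.Theta 𝔳 (n + 1 - Z.card - C.g) Z =
      C.Phi 𝔳 n Z - ((n : ℝ) - Z.card + 1 - C.g) * C.hE 𝔳 Z := by
    unfold WCurve.Theta
    have h1 : Z.card + C.g + (n + 1 - Z.card - C.g) - 1 = n := by omega
    have h2 : ((n + 1 - Z.card - C.g : ℕ) : ℝ) = (n : ℝ) - Z.card + 1 - C.g := by
      rw [Nat.cast_sub (by omega), Nat.cast_sub (by omega)]
      push_cast
      ring
    rw [h1, h2]
  rw [hTh] at h
  have h1 := (abs_le.1 h).2
  have h2 := le_abs_self (K Z.card)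
  have h3 := le_abs_self (C.Theta 𝔳 (n + 1 - Z.card - C.g) ∅)
  linarith

theorem PhiStatement_of (h2 : SameStatement 𝔳 C) (h4 : ClassInvStatement 𝔳 C) :
    PhiStatement 𝔳 C := by
  obtain ⟨Δ, hΔ, hfib, -⟩ := h2
  exact ⟨Δ, hΔ, fun n z hn => pb_Phi_pullback_le 𝔳 C h4 hfib n z hn⟩

/-- the final theorem of route H from the three nodes X1, X2, G3. -/
theorem exists_height_of3 [IsDedekindDomain A] (h1 : CrossStatement 𝔳 C)
    (h2 : SameStatement 𝔳 C) (h4 : ClassInvStatement 𝔳 C)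
    {G : Type} [AddCommGroup G]
    (cl : Finset (Pt A) → G) (r₀ : ℕ)
    (h_add : ∀ E E', C.GalStable E → C.GalStable E' → Disjoint E E' → cl (E ∪ E') = cl E + cl E')
    (h_iff : ∀ E E', C.GalStable E → C.GalStable E' → (cl E = cl E' ↔
      ∃ s s' : A, C.IsRat s ∧ C.IsRat s' ∧ s ≠ 0 ∧ s' ≠ 0 ∧
        Ideal.span {s'} * idealOf E = Ideal.span {s} * idealOf E'))
    (h_move : ∀ r, r₀ ≤ r → ∀ (x : G) (T : Finset (Pt A)),
      ∃ E, C.GalStable E ∧ E.card = r ∧ Disjoint E T ∧ cl E = x) :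
    ∃ h : G → ℝ, (∀ x, 0 ≤ h x) ∧
      (∃ Cst : ℝ, ∀ x y, |h (x + y) + h (x - y) - 2 * (h x + h y)| ≤ Cst) ∧
      ∀ B : ℝ, {x | h x ≤ B}.Finite :=
  exists_height_of4 𝔳 C h1 h2 (PhiStatement_of 𝔳 C h2 h4) h4 cl r₀ h_add h_iff h_move

end Fermat.Agent.S17.H
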