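/-
S17, route H: the Mordell-Weil theorem for `J_0(N)` from the last open node X2 (`SameStatement`).
Wiring: helper257.
-/
import Fermat.Agent.S17.H.PullbackOfG3
import Fermat.Agent.S17.H.X1.Main
import Fermat.Agent.S17.H.ClassInv
import Fermat.Agent.S17.H.Glue.Main
import Fermat.Agent.S17.W.Main
import Fermat.Agent.GAL.KLInputs.Main

set_option autoImplicit false
noncomputable section
open scoped Classical

namespace Fermat.Agent.S17.H

open ModularCurve AlgebraicCurve

theorem fg_of_same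
    (hsame : ∀ (𝔳 : AbsFam) (A : Type) [CommRing A] [Algebra Qb A] [IsDedekindDomain A]
      (C : WCurve A), SameStatement 𝔳 C) (N : ℕ) [NeZero N] :
    AddGroup.FG ↥(FixedPoints.addSubgroup ((AlgebraicClosure ℚ) ≃ₐ[ℚ] (AlgebraicClosure ℚ))
      (JZero N)) := by
  obtain ⟨𝔳⟩ := exists_absFam
  obtain ⟨A, _, _, _, C, cl, r₀, h1, h2, h3⟩ := Glue.glue N
  obtain ⟨h, hpos, ⟨Cst, hpar⟩, hfin⟩ := exists_height_of3 𝔳 C (cross_fibre_lower 𝔳 C)
    (hsame 𝔳 A C) (Theta_class_invariant 𝔳 C) cl r₀ h1 h2 h3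
  haveI : Northcott h := ⟨hfin⟩
  exact AddCommGroup.fg_of_descent' (W.weakMW Fermat.Agent.GAL.klStatement N) hpos hpar

end Fermat.Agent.S17.H
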