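import Fermat.Agent.S17.H.FibDef
import Fermat.Agent.S17.H.Weight
import Fermat.Agent.S17.H.Semigroup
import Fermat.Agent.S17.H.Indep

/-!
# S17, part H: (GP) good pencils
(task S17-H-X1-d, helper68)

Interpolation on a `WCurve`: for a finite set `S` of points and `m ≥ 2|S| + 2g + 2` there are
`a` of weight `m - 1` and `c` of weight `m` such that `a = 1` on `S`, `c` separates `S` and
`c(Q) a - c` is a uniformiser at every `Q ∈ S`.
-/

set_option autoImplicit false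

noncomputable section

open scoped Classical

namespace Fermat.Agent.S17.H

variable {A : Type} [CommRing A] [Algebra Qb A] (C : WCurve A)

/-! ### The maximal ideal of a point -/

theorem algebraMap_mem_V_zero (c : Qb) : algebraMap Qb A c ∈ C.V 0 := by
  rw [Algebra.algebraMap_eq_smul_one]
  exact (C.V 0).smul_mem c (one_mem_V C 0)

theorem t_sub_algebraMap_ne_zero (c : Qb) : C.t - algebraMap Qb A c ≠ 0 := by
  intro h
  have h1 : C.t ∈ C.V 0 := by
    rw [sub_eq_zero.1 h]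
    exact algebraMap_mem_V_zero C c
  rw [mem_V_iff, wt_t] at h1
  exact absurd (d_pos C) (by omega)

include C in
theorem mI_ne_bot (P : Pt A) : mI P ≠ ⊥ := by
  intro h
  have h1 := t_sub_mem_mI C P
  rw [h, Ideal.mem_bot] at h1
  exact t_sub_algebraMap_ne_zero C _ h1

theorem mI_sq_le (P : Pt A) : mI P ^ 2 ≤ mI P := Ideal.pow_le_self two_ne_zero

include C in
theorem exists_uniformiser [IsDedekindDomain A] (P : Pt A) : ∃ π ∈ mI P, π ∉ mI P ^ 2 := by
  obtain ⟨π, h1, h2⟩ := Ideal.exists_mem_pow_notMem_pow_succ (mI P) (mI_ne_bot C P) (mI_ne_top P) 1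
  exact ⟨π, by simpa using h1, h2⟩

include C in
/-- `A / 𝔪_P ^ 2` is spanned by `1` and a uniformiser. -/
theorem span_quot_mI_sq [IsDedekindDomain A] (P : Pt A) {π : A} (h1 : π ∈ mI P)
    (h2 : π ∉ mI P ^ 2) :
    Submodule.span Qb ({Ideal.Quotient.mk (mI P ^ 2) 1, Ideal.Quotient.mk (mI P ^ 2) π} :
      Set (A ⧸ mI P ^ 2)) = ⊤ := by
  rw [eq_top_iff]
  intro x _
  obtain ⟨f, rfl⟩ := Ideal.Quotient.mk_surjective x
  have hP : (mI P).IsPrime := mI_isPrime P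
  obtain ⟨d, e, he, hde⟩ := Ideal.exists_mul_add_mem_pow_succ (mI_ne_bot C P) (i := 1) π
    (f - algebraMap Qb A (P f)) (by simpa using h1) h2 (by simpa using sub_algebraMap_mem_mI P f)
  have key : Ideal.Quotient.mk (mI P ^ 2) f =
      P f • Ideal.Quotient.mk (mI P ^ 2) 1 + P d • Ideal.Quotient.mk (mI P ^ 2) π := by
    have h3 : f - (P f • (1 : A) + P d • π) ∈ mI P ^ 2 := by
      have h4 : f - (P f • (1 : A) + P d • π) = π * (d - algebraMap Qb A (P d)) + e := by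
        rw [Algebra.smul_def, Algebra.smul_def, mul_one]
        linear_combination -hde
      rw [h4]
      refine Ideal.add_mem _ ?_ he
      rw [sq]
      exact Ideal.mul_mem_mul h1 (sub_algebraMap_mem_mI P d)
    rw [← sub_eq_zero]
    have h5 := Ideal.Quotient.eq_zero_iff_mem.2 h3
    rw [map_sub, map_add] at h5
    exact h5
  rw [key]
  exact Submodule.add_mem _
    (Submodule.smul_mem _ _ (Submodule.subset_span (Set.mem_insert _ _)))
    (Submodule.smul_mem _ _ (Submodule.subset_span (Set.mem_insert_of_mem _ rfl)))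

include C in
theorem finite_quot_mI_sq [IsDedekindDomain A] (P : Pt A) : Module.Finite Qb (A ⧸ mI P ^ 2) := by
  obtain ⟨π, h1, h2⟩ := exists_uniformiser C P
  refine ⟨⟨{Ideal.Quotient.mk (mI P ^ 2) 1, Ideal.Quotient.mk (mI P ^ 2) π}, ?_⟩⟩
  rw [← span_quot_mI_sq C P h1 h2]
  simp

include C in
theorem finrank_quot_mI_sq_le [IsDedekindDomain A] (P : Pt A) :
    Module.finrank Qb (A ⧸ mI P ^ 2) ≤ 2 := by
  obtain ⟨π, h1, h2⟩ := exists_uniformiser C P
  have h3 := finrank_span_finset_le_card (R := Qb)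
    ({Ideal.Quotient.mk (mI P ^ 2) 1, Ideal.Quotient.mk (mI P ^ 2) π} : Finset (A ⧸ mI P ^ 2))
  have h4 : Submodule.span Qb (({Ideal.Quotient.mk (mI P ^ 2) 1,
      Ideal.Quotient.mk (mI P ^ 2) π} : Finset (A ⧸ mI P ^ 2)) : Set (A ⧸ mI P ^ 2)) = ⊤ := by
    rw [← span_quot_mI_sq C P h1 h2]
    simp
  unfold Set.finrank at h3
  rw [h4, finrank_top] at h3
  exact h3.trans Finset.card_le_two

/-! ### The ideal `⨅_{Q ∈ S} 𝔪_Q ^ 2` -/

/-- the ideal of functions vanishing to the second order on `S`. -/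
def sqIdeal (S : Finset (Pt A)) : Ideal A := ⨅ Q : S, mI Q.1 ^ 2

theorem sqIdeal_le (S : Finset (Pt A)) {Q : Pt A} (hQ : Q ∈ S) : sqIdeal S ≤ mI Q ^ 2 :=
  iInf_le (fun Q : S => mI Q.1 ^ 2) ⟨Q, hQ⟩

/-- the diagonal map `A / ⨅ 𝔪_Q ^ 2 → ∏ A / 𝔪_Q ^ 2`. -/
def sqIdealMap (S : Finset (Pt A)) : (A ⧸ sqIdeal S) →ₗ[A] (∀ Q : S, A ⧸ mI Q.1 ^ 2) :=
  (sqIdeal S).liftQ (LinearMap.pi fun Q : S => (mI Q.1 ^ 2).mkQ) (by
    rw [LinearMap.ker_pi]
    simp only [Submodule.ker_mkQ]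
    exact le_rfl)

theorem sqIdealMap_injective (S : Finset (Pt A)) : Function.Injective (sqIdealMap S) := by
  rw [← LinearMap.ker_eq_bot]
  unfold sqIdealMap
  apply Submodule.ker_liftQ_eq_bot
  rw [LinearMap.ker_pi]
  simp only [Submodule.ker_mkQ]
  exact le_rfl

include C in
theorem finite_quot_sqIdeal [IsDedekindDomain A] (S : Finset (Pt A)) :
    Module.Finite Qb (A ⧸ sqIdeal S) := by
  have : ∀ Q : S, Module.Finite Qb (A ⧸ mI Q.1 ^ 2) := fun Q => finite_quot_mI_sq C Q.1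
  exact Module.Finite.of_injective ((sqIdealMap S).restrictScalars Qb) (sqIdealMap_injective S)

include C in
theorem finrank_quot_sqIdeal_le [IsDedekindDomain A] (S : Finset (Pt A)) :
    Module.finrank Qb (A ⧸ sqIdeal S) ≤ 2 * S.card := by
  have : ∀ Q : S, Module.Finite Qb (A ⧸ mI Q.1 ^ 2) := fun Q => finite_quot_mI_sq C Q.1
  have h1 := LinearMap.finrank_le_finrank_of_injective
    (f := (sqIdealMap S).restrictScalars Qb) (sqIdealMap_injective S)
  rw [Module.finrank_pi_fintype] at h1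
  refine h1.trans ?_
  refine (Finset.sum_le_card_nsmul _ _ 2 fun Q _ => finrank_quot_mI_sq_le C Q.1).trans ?_
  simp [mul_comm]

/-! ### Interpolation with exact weight -/

theorem exists_mem_V_sub_mem {I : Ideal A} {n : ℕ}
    (hsup : C.V n ⊔ I.restrictScalars Qb = ⊤) (z : A) : ∃ w ∈ C.V n, w - z ∈ I := by
  have hz : z ∈ C.V n ⊔ I.restrictScalars Qb := by
    rw [hsup]
    exact Submodule.mem_top
  obtain ⟨w, hw, u, hu, rfl⟩ := Submodule.mem_sup.1 hz
  refine ⟨w, hw, ?_⟩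
  have hu' : u ∈ I := hu
  have : w - (w + u) = -u := by ring
  rw [this]
  exact I.neg_mem hu'

/-- an element of `I` of weight exactly `n + 1`. -/
theorem exists_mem_ideal_wt_eq {I : Ideal A} {n : ℕ} (hn : 2 * C.g ≤ n + 1)
    (hsup : C.V n ⊔ I.restrictScalars Qb = ⊤) : ∃ u ∈ I, u ∈ C.V (n + 1) ∧ u ∉ C.V n := by
  have hρ : C.ρ (n + 1 - C.g) = n + 1 := by
    rw [rho_of_ge C (by omega)]
    omega
  obtain ⟨w, hw, hwI⟩ := exists_mem_V_sub_mem C hsup (C.b (n + 1 - C.g))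
  have hb : C.b (n + 1 - C.g) ∈ C.V (n + 1) := (b_mem_V_iff C _ _).2 hρ.le
  refine ⟨C.b (n + 1 - C.g) - w, ?_, ?_, ?_⟩
  · have := I.neg_mem hwI
    rwa [neg_sub] at this
  · exact (C.V (n + 1)).sub_mem hb (V_mono C (Nat.le_succ n) hw)
  · intro h
    have h1 := (C.V n).add_mem h hw
    rw [sub_add_cancel, b_mem_V_iff, hρ] at h1
    omega

/-- every class modulo `I` contains an element of weight exactly `n + 1`. -/
theorem exists_wt_eq_sub_mem {I : Ideal A} {n : ℕ} (hn : 2 * C.g ≤ n + 1)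
    (hsup : C.V n ⊔ I.restrictScalars Qb = ⊤) (z : A) : ∃ c, C.wt c = n + 1 ∧ c - z ∈ I := by
  obtain ⟨u, huI, hu1, hu2⟩ := exists_mem_ideal_wt_eq C hn hsup
  obtain ⟨w, hw, hwI⟩ := exists_mem_V_sub_mem C hsup z
  refine ⟨w + u, ?_, ?_⟩
  · have h1 : w + u ∈ C.V (n + 1) := (C.V (n + 1)).add_mem (V_mono C (Nat.le_succ n) hw) hu1
    have h2 : w + u ∉ C.V n := by
      intro h
      apply hu2
      have := (C.V n).sub_mem h hw
      rwa [add_sub_cancel_left] at this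
    rw [mem_V_iff] at h1 h2
    omega
  · have : w + u - z = (w - z) + u := by ring
    rw [this]
    exact I.add_mem hwI huI

/-! ### Good pencils -/

theorem exists_injOn_Qb (S : Finset (Pt A)) : ∃ l : Pt A → Qb, Set.InjOn l S := by
  refine ⟨fun Q => if h : Q ∈ S then ((S.equivFin ⟨Q, h⟩ : ℕ) : Qb) else 0, ?_⟩
  intro P hP Q hQ h
  have hP' : P ∈ S := hP
  have hQ' : Q ∈ S := hQ
  simp only [hP', hQ', dif_pos] at h
  have h1 := Fin.val_injective (Nat.cast_injective h)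
  have h2 := S.equivFin.injective h1
  exact congrArg Subtype.val h2

theorem pairwise_isCoprime_mI_sq (S : Finset (Pt A)) :
    Pairwise (Function.onFun IsCoprime fun Q : S => mI Q.1 ^ 2) := by
  intro P Q hPQ
  have h : mI P.1 ≠ mI Q.1 := fun h => hPQ (Subtype.ext (mI_injective h))
  exact (Ideal.isCoprime_of_isMaximal h).pow

/-- GP: good pencils, from the complementation statement `V_sup_ideal_eq_top`. -/
theorem exists_good_pencil_of [IsDedekindDomain A]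
    (hV : ∀ (I : Ideal A) (e : ℕ) [Module.Finite Qb (A ⧸ I)],
      Module.finrank Qb (A ⧸ I) = e → ∀ {n : ℕ}, e + 2 * C.g ≤ n + 1 →
      C.V n ⊔ I.restrictScalars Qb = ⊤)
    (S : Finset (Pt A)) {m : ℕ} (hm : 2 * S.card + 2 * C.g + 2 ≤ m) :
    ∃ a c : A, C.wt a = m - 1 ∧ C.wt c = m ∧ (∀ Q ∈ S, Q a = 1) ∧
      (∀ P ∈ S, ∀ Q ∈ S, P ≠ Q → P c ≠ Q c) ∧ ∀ Q ∈ S, Q c • a - c ∉ mI Q ^ 2 := by
  have hfin : Module.Finite Qb (A ⧸ sqIdeal S) := finite_quot_sqIdeal C S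
  have hrank := finrank_quot_sqIdeal_le C S
  have hsup1 : C.V (m - 2) ⊔ (sqIdeal S).restrictScalars Qb = ⊤ :=
    hV (sqIdeal S) _ rfl (by omega)
  have hsup2 : C.V (m - 1) ⊔ (sqIdeal S).restrictScalars Qb = ⊤ :=
    hV (sqIdeal S) _ rfl (by omega)
  obtain ⟨a, hwa, haI⟩ := exists_wt_eq_sub_mem C (n := m - 2) (by omega) hsup1 1
  obtain ⟨l, hl⟩ := exists_injOn_Qb S
  choose π hπ1 hπ2 using exists_uniformiser C
  obtain ⟨z, hz⟩ := Ideal.exists_forall_sub_mem_ideal (pairwise_isCoprime_mI_sq S)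
    (fun Q : S => l Q.1 • a - π Q.1)
  obtain ⟨c, hwc, hcI⟩ := exists_wt_eq_sub_mem C (n := m - 1) (by omega) hsup2 z
  have ha1 : ∀ Q ∈ S, Q a = 1 := by
    intro Q hQ
    have h1 : a - 1 ∈ mI Q := mI_sq_le Q (sqIdeal_le S hQ haI)
    rw [mem_mI, map_sub, map_one, sub_eq_zero] at h1
    exact h1
  have hc1 : ∀ Q ∈ S, c - (l Q • a - π Q) ∈ mI Q ^ 2 := by
    intro Q hQ
    have h1 := (mI Q ^ 2).add_mem (sqIdeal_le S hQ hcI) (hz ⟨Q, hQ⟩)
    rwa [sub_add_sub_cancel] at h1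
  have hc2 : ∀ Q ∈ S, Q c = l Q := by
    intro Q hQ
    have h1 : c - (l Q • a - π Q) ∈ mI Q := mI_sq_le Q (hc1 Q hQ)
    have h2 : Q (π Q) = 0 := hπ1 Q
    rw [mem_mI, map_sub, map_sub, map_smul, ha1 Q hQ, h2, sub_zero, smul_eq_mul, mul_one,
      sub_eq_zero] at h1
    exact h1
  refine ⟨a, c, by omega, by omega, ha1, ?_, ?_⟩
  · intro P hP Q hQ hPQ h
    rw [hc2 P hP, hc2 Q hQ] at h
    exact hPQ (hl hP hQ h)
  · intro Q hQ h
    rw [hc2 Q hQ] at h
    apply hπ2 Q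
    have h1 := (mI Q ^ 2).add_mem h (hc1 Q hQ)
    have h2 : l Q • a - c + (c - (l Q • a - π Q)) = π Q := by ring
    rwa [h2] at h1

/-- GP: good pencils. -/
theorem exists_good_pencil [IsDedekindDomain A] (S : Finset (Pt A)) {m : ℕ}
    (hm : 2 * S.card + 2 * C.g + 2 ≤ m) :
    ∃ a c : A, C.wt a = m - 1 ∧ C.wt c = m ∧ (∀ Q ∈ S, Q a = 1) ∧
      (∀ P ∈ S, ∀ Q ∈ S, P ≠ Q → P c ≠ Q c) ∧ ∀ Q ∈ S, Q c • a - c ∉ mI Q ^ 2 :=
  exists_good_pencil_of C (fun I e _ he _ hn => V_sup_ideal_eq_top C I e he hn) S hm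

end Fermat.Agent.S17.H
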