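import Fermat.Agent.S17.H.Weight
import Fermat.Agent.S17.H.AbsBasic

/-!
# S17, part H, node X1-e: pencil sections are dominated by `w2`   (helper110)
-/

set_option autoImplicit false

noncomputable section

open scoped Classical

namespace Fermat.Agent.S17.H

variable (𝔳 : AbsFam) {A : Type} [CommRing A] [Algebra Qb A] (C : WCurve A)

theorem pencil_w2_nonneg (m : ℕ) (v : Pl) (P Q : Pt A) : 0 ≤ C.w2 𝔳 m v P Q :=
  Real.iSup_nonneg fun _ => (𝔳.av v).nonneg _

theorem pencil_le_w2 (m : ℕ) (v : Pl) (P Q : Pt A) (k l : Fin (C.dim m)) :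
    𝔳.av v (P (C.b k) * Q (C.b l) - P (C.b l) * Q (C.b k)) ≤ C.w2 𝔳 m v P Q :=
  le_ciSup (f := fun kl : Fin (C.dim m) × Fin (C.dim m) =>
    𝔳.av v (P (C.b kl.1) * Q (C.b kl.2) - P (C.b kl.2) * Q (C.b kl.1)))
    (Set.finite_range _).bddAbove (k, l)

/-- evaluation of an element of `V m` in coordinates. -/
theorem pencil_apply_eq_sum {m : ℕ} {f : A} (hf : f ∈ C.V m) (P : Pt A) :
    P f = ∑ i : Fin (C.dim m), crd C m f i * P (C.b i) := by
  conv_lhs => rw [eq_sum_crd C hf]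
  rw [map_sum]
  exact Finset.sum_congr rfl fun i _ => by rw [map_smul, smul_eq_mul]

/-- the bilinear expansion of a pencil section. -/
theorem pencil_expand {m : ℕ} {a c : A} (ha : a ∈ C.V m) (hc : c ∈ C.V m) (P Q : Pt A) :
    P a * Q c - P c * Q a = ∑ kl : Fin (C.dim m) × Fin (C.dim m),
      (crd C m a kl.1 * crd C m c kl.2) *
        (P (C.b kl.1) * Q (C.b kl.2) - P (C.b kl.2) * Q (C.b kl.1)) := by
  rw [pencil_apply_eq_sum C ha P, pencil_apply_eq_sum C hc Q, pencil_apply_eq_sum C hc P,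
    pencil_apply_eq_sum C ha Q, Fintype.sum_prod_type, Finset.sum_mul_sum, Finset.sum_mul_sum,
    Finset.sum_comm (f := fun i j => crd C m c i * P (C.b i) * (crd C m a j * Q (C.b j))),
    ← Finset.sum_sub_distrib]
  refine Finset.sum_congr rfl fun k _ => ?_
  rw [← Finset.sum_sub_distrib]
  refine Finset.sum_congr rfl fun l _ => ?_
  ring

/-- pencil sections are dominated by `w2`. -/
theorem av_pencil_le (m : ℕ) {a c : A} (ha : a ∈ C.V m) (hc : c ∈ C.V m) :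
    ∃ γ : MConst, ∀ (v : Pl) (P Q : Pt A),
      𝔳.av v (P a * Q c - P c * Q a) ≤ Real.exp (γ.c v) * C.w2 𝔳 m v P Q := by
  obtain ⟨γ₁, h₁⟩ := exists_mconst_av_family 𝔳
    (fun kl : Fin (C.dim m) × Fin (C.dim m) => crd C m a kl.1 * crd C m c kl.2)
  obtain ⟨γ₂, h₂⟩ := exists_mconst_ac_le
    (Finset.univ : Finset (Fin (C.dim m) × Fin (C.dim m))).card
  refine ⟨γ₂ + γ₁, fun v P Q => ?_⟩
  have hw := pencil_w2_nonneg 𝔳 C m v P Q
  have h0 : 0 ≤ Real.exp (γ₁.c v) * C.w2 𝔳 m v P Q := mul_nonneg (Real.exp_pos _).le hw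
  rw [pencil_expand C ha hc P Q]
  refine (av_sum_le 𝔳 v Finset.univ _ h0 fun kl _ => ?_).trans ?_
  · rw [map_mul]
    exact mul_le_mul (h₁ v kl).1 (pencil_le_w2 𝔳 C m v P Q kl.1 kl.2) ((𝔳.av v).nonneg _)
      (Real.exp_pos _).le
  · rw [MConst.add_c, Real.exp_add, mul_assoc]
    exact mul_le_mul_of_nonneg_right (h₂ v) h0

end Fermat.Agent.S17.H
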