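/-
S17, route H (second, independent proof of the Mordell-Weil theorem for `J_0(N)`; not used by `S17.lean`).
Wiring: helper257.
-/
import Fermat.Agent.S17.H.FinalOf
import Fermat.Agent.S17.H.X2.Main

set_option autoImplicit false
noncomputable section
open scoped Classical

namespace Fermat.Agent.S17.H

open ModularCurve AlgebraicCurve

theorem mordellWeil (N : ℕ) [NeZero N] :
    AddGroup.FG ↥(FixedPoints.addSubgroup ((AlgebraicClosure ℚ) ≃ₐ[ℚ] (AlgebraicClosure ℚ))
      (JZero N)) :=
  fg_of_same (fun 𝔳 _ _ _ _ C => same_fibre_lower 𝔳 C) N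

end Fermat.Agent.S17.H
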