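import Fermat.Agent.S17.H.Curve

/-!
# S17, part H: the definition `IsPullback` (test divisors `Z = t^* S`)

Shared by `H/Pullback.lean` (T1), `H/I2Pullback.lean` (T2) and `H/VF.lean`.  Definition only,
verbatim from the blueprint `H/WIP/Top.lean`.
-/

set_option autoImplicit false

noncomputable section

open scoped Classical

namespace Fermat.Agent.S17.H

variable {A : Type} [CommRing A] [Algebra Qb A] (C : WCurve A)

/-- `Z = t^* S`, all values in `S` being unramified. -/
def IsPullback (Δ : Polynomial ℚ) (Z : Finset (Pt A)) : Prop :=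
  C.GalStable Z ∧ (∀ P ∈ Z, Polynomial.aeval (P C.t) Δ ≠ 0) ∧
    ∀ P ∈ Z, ∀ Q : Pt A, Q C.t = P C.t → Q ∈ Z

end Fermat.Agent.S17.H
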