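import Fermat.Agent.S17.H.AbsBasic
import Fermat.Agent.S17.H.ProdFormula
import Fermat.Agent.S17.H.PullbackDefs

/-!
# S17, part H: (T2) `I2_pullback_le`
(task S17-H-T2, helper68)

`I₂(t^* S) ≤ (|Z| + g - 1) h(Z) + C` from the diagonal estimates X1 (`cross_fibre_lower`),
X2 (`same_fibre_lower`) and the product formula.
-/

set_option autoImplicit false

noncomputable section

open scoped Classical

namespace Fermat.Agent.S17.H

/-! ### Combinatorics of sums over `offDiag` -/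

section comb

variable {α β : Type*} [DecidableEq α] [DecidableEq β]

theorem sum_offDiag_fst_eq (Z : Finset α) (a : α → ℝ) :
    ∑ x ∈ Z.offDiag, a x.1 = ((Z.card : ℝ) - 1) * ∑ P ∈ Z, a P := by
  have h := Finset.sum_union (Finset.disjoint_diag_offDiag Z) (f := fun x : α × α => a x.1)
  rw [Finset.diag_union_offDiag, Finset.sum_product, Finset.sum_diag] at h
  simp only [Finset.sum_const, nsmul_eq_mul] at h
  rw [← Finset.mul_sum] at h
  linarith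

theorem sum_offDiag_snd_eq (Z : Finset α) (a : α → ℝ) :
    ∑ x ∈ Z.offDiag, a x.2 = ((Z.card : ℝ) - 1) * ∑ P ∈ Z, a P := by
  have h := Finset.sum_union (Finset.disjoint_diag_offDiag Z) (f := fun x : α × α => a x.2)
  rw [Finset.diag_union_offDiag, Finset.sum_product, Finset.sum_diag] at h
  simp only [Finset.sum_const, nsmul_eq_mul] at h
  linarith

omit [DecidableEq α] in
theorem sum_offDiag_fiberwise (Z : Finset α) (τ : α → β) (f : α × α → ℝ) :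
    ∑ x ∈ Z.offDiag, f x =
      ∑ y ∈ (Z.image τ).offDiag, ∑ P ∈ Z.filter (fun P => τ P = y.1),
        ∑ Q ∈ Z.filter (fun Q => τ Q = y.2), f (P, Q)
      + ∑ a ∈ Z.image τ, ∑ x ∈ (Z.filter (fun P => τ P = a)).offDiag, f x := by
  have hmaps : ∀ x ∈ Z.offDiag, (τ x.1, τ x.2) ∈ (Z.image τ) ×ˢ (Z.image τ) := by
    intro x hx
    rw [Finset.mem_offDiag] at hx
    exact Finset.mem_product.2
      ⟨Finset.mem_image_of_mem τ hx.1, Finset.mem_image_of_mem τ hx.2.1⟩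
  rw [← Finset.sum_fiberwise_of_maps_to hmaps, ← Finset.diag_union_offDiag,
    Finset.sum_union (Finset.disjoint_diag_offDiag _), Finset.sum_diag, add_comm]
  congr 1
  · refine Finset.sum_congr rfl fun y hy => ?_
    rw [Finset.mem_offDiag] at hy
    rw [← Finset.sum_product']
    refine Finset.sum_congr ?_ fun _ _ => rfl
    ext x
    simp only [Finset.mem_filter, Finset.mem_offDiag, Finset.mem_product, Prod.ext_iff]
    constructor
    · rintro ⟨⟨h1, h2, _⟩, h4, h5⟩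
      exact ⟨⟨h1, h4⟩, h2, h5⟩
    · rintro ⟨⟨h1, h4⟩, h2, h5⟩
      refine ⟨⟨h1, h2, ?_⟩, h4, h5⟩
      intro h
      apply hy.2.2
      rw [← h4, ← h5, h]
  · refine Finset.sum_congr rfl fun a _ => ?_
    refine Finset.sum_congr ?_ fun _ _ => rfl
    ext x
    simp only [Finset.mem_filter, Finset.mem_offDiag, Prod.ext_iff]
    tauto

end comb

/-! ### The product formula for Galois stable families -/

section prodFormula

variable (𝔳 : AbsFam)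

/-- product formula for a finite family whose product is Galois invariant. -/
theorem sum_log_av_family {ι : Type*} (T : Finset ι) (f : ι → Qb) (hne : ∀ i ∈ T, f i ≠ 0)
    (hfix : ∀ σ : Qb ≃ₐ[ℚ] Qb, ∏ i ∈ T, σ (f i) = ∏ i ∈ T, f i) :
    ∑ᶠ v, ∑ i ∈ T, Real.log (𝔳.av v (f i)) = 0 := by
  have hcl : IsAlgClosure ℚ Qb := by
    have h : (DivisionRing.toRatAlgebra : Algebra ℚ (AlgebraicClosure ℚ)) =
        AlgebraicClosure.instAlgebra ℚ := Subsingleton.elim _ _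
    rw [h]
    infer_instance
  have : IsGalois ℚ Qb := inferInstance
  have hfix' : ∀ σ : Qb ≃ₐ[ℚ] Qb, σ (∏ i ∈ T, f i) = ∏ i ∈ T, f i := by
    intro σ
    rw [map_prod]
    exact hfix σ
  obtain ⟨r, hr⟩ := (InfiniteGalois.mem_range_algebraMap_iff_fixed (k := ℚ) (∏ i ∈ T, f i)).2 hfix'
  have hr0 : r ≠ 0 := by
    rintro rfl
    rw [map_zero] at hr
    exact Finset.prod_ne_zero_iff.2 hne hr.symm
  rw [← sum_log_av_rat 𝔳 hr0]
  refine finsum_congr fun v => ?_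
  rw [hr, map_prod, Real.log_prod (fun i hi => (𝔳.av v).ne_zero (hne i hi))]

/-- product formula for the differences of a Galois stable finite set. -/
theorem sum_log_av_offDiag_sub (S : Finset Qb) (hS : ∀ σ : Qb ≃ₐ[ℚ] Qb, ∀ x ∈ S, σ x ∈ S) :
    ∑ᶠ v, ∑ y ∈ S.offDiag, Real.log (𝔳.av v (y.1 - y.2)) = 0 := by
  refine sum_log_av_family 𝔳 S.offDiag (fun y => y.1 - y.2) ?_ ?_
  · intro y hy
    rw [Finset.mem_offDiag] at hy
    exact sub_ne_zero.2 hy.2.2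
  · intro σ
    refine Finset.prod_nbij' (fun y => (σ y.1, σ y.2)) (fun y => (σ.symm y.1, σ.symm y.2))
      ?_ ?_ ?_ ?_ ?_
    · intro y hy
      rw [Finset.mem_offDiag] at hy ⊢
      exact ⟨hS σ _ hy.1, hS σ _ hy.2.1, fun h => hy.2.2 (σ.injective h)⟩
    · intro y hy
      rw [Finset.mem_offDiag] at hy ⊢
      exact ⟨hS σ.symm _ hy.1, hS σ.symm _ hy.2.1, fun h => hy.2.2 (σ.symm.injective h)⟩
    · intro y _
      simp
    · intro y _
      simp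
    · intro y _
      simp

/-- product formula for the values of a rational polynomial on a Galois stable finite set. -/
theorem sum_log_av_aeval (S : Finset Qb) (hS : ∀ σ : Qb ≃ₐ[ℚ] Qb, ∀ x ∈ S, σ x ∈ S)
    (Δ : Polynomial ℚ) (hΔ : ∀ a ∈ S, Polynomial.aeval a Δ ≠ 0) :
    ∑ᶠ v, ∑ a ∈ S, Real.log (𝔳.av v (Polynomial.aeval a Δ)) = 0 := by
  refine sum_log_av_family 𝔳 S (fun a => Polynomial.aeval a Δ) hΔ ?_
  intro σ
  refine Finset.prod_nbij' (fun a => σ a) (fun a => σ.symm a) ?_ ?_ ?_ ?_ ?_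
  · intro a ha
    exact hS σ a ha
  · intro a ha
    exact hS σ.symm a ha
  · intro a _
    simp
  · intro a _
    simp
  · intro a _
    exact (Polynomial.aeval_algHom_apply (σ : Qb →ₐ[ℚ] Qb) a Δ).symm

end prodFormula

/-! ### Pullback divisors -/

section pullback

variable {A : Type} [CommRing A] [Algebra Qb A] (C : WCurve A)

theorem i2p_d_pos : 0 < C.d := by
  have h := C.ρ_strictMono Nat.zero_lt_one
  rw [C.ρ_zero] at h
  exact h

variable {C} {Δ : Polynomial ℚ} {Z : Finset (Pt A)}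

/-- the set of values of `t` on a Galois stable set of points is Galois stable. -/
theorem i2p_galStable_image (hZ : C.GalStable Z) (σ : Qb ≃ₐ[ℚ] Qb) (x : Qb)
    (hx : x ∈ Z.image (fun P : Pt A => P C.t)) : σ x ∈ Z.image (fun P : Pt A => P C.t) := by
  obtain ⟨P, hP, rfl⟩ := Finset.mem_image.1 hx
  obtain ⟨P', hP', h⟩ := hZ σ P hP
  exact Finset.mem_image.2 ⟨P', hP', h 1⟩

theorem i2p_mem_fibre_iff (hZ : IsPullback C Δ Z) {a : Qb}
    (ha : a ∈ Z.image (fun P : Pt A => P C.t)) (P : Pt A) :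
    P ∈ Z.filter (fun P : Pt A => P C.t = a) ↔ P C.t = a := by
  obtain ⟨P₀, hP₀, rfl⟩ := Finset.mem_image.1 ha
  rw [Finset.mem_filter]
  exact ⟨fun h => h.2, fun h => ⟨hZ.2.2 P₀ hP₀ P h, h⟩⟩

theorem i2p_aeval_ne (hZ : IsPullback C Δ Z) {a : Qb}
    (ha : a ∈ Z.image (fun P : Pt A => P C.t)) : Polynomial.aeval a Δ ≠ 0 := by
  obtain ⟨P₀, hP₀, rfl⟩ := Finset.mem_image.1 ha
  exact hZ.2.1 P₀ hP₀

theorem i2p_card_fibre
    (hfib : ∀ α : Qb, Polynomial.aeval α Δ ≠ 0 →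
      ∃ F : Finset (Pt A), (∀ P, P ∈ F ↔ P C.t = α) ∧ F.card = C.d)
    (hZ : IsPullback C Δ Z) {a : Qb} (ha : a ∈ Z.image (fun P : Pt A => P C.t)) :
    (Z.filter (fun P : Pt A => P C.t = a)).card = C.d := by
  obtain ⟨F, hF, hcard⟩ := hfib a (i2p_aeval_ne hZ ha)
  rw [← hcard]
  congr 1
  ext P
  rw [i2p_mem_fibre_iff hZ ha, hF]

theorem i2p_card
    (hfib : ∀ α : Qb, Polynomial.aeval α Δ ≠ 0 →
      ∃ F : Finset (Pt A), (∀ P, P ∈ F ↔ P C.t = α) ∧ F.card = C.d)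
    (hZ : IsPullback C Δ Z) : Z.card = C.d * (Z.image (fun P : Pt A => P C.t)).card := by
  rw [Finset.card_eq_sum_card_image (fun P : Pt A => P C.t) Z,
    Finset.sum_congr rfl fun a ha => i2p_card_fibre hfib hZ ha, Finset.sum_const, smul_eq_mul,
    mul_comm]

theorem i2p_sum_lam (𝔳 : AbsFam)
    (hfib : ∀ α : Qb, Polynomial.aeval α Δ ≠ 0 →
      ∃ F : Finset (Pt A), (∀ P, P ∈ F ↔ P C.t = α) ∧ F.card = C.d)
    (hZ : IsPullback C Δ Z) (v : Pl) :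
    ∑ P ∈ Z, C.lam 𝔳 v P = ∑ a ∈ Z.image (fun P : Pt A => P C.t), Real.log (mx 𝔳 v a) := by
  have hd : (C.d : ℝ) ≠ 0 := Nat.cast_ne_zero.2 (i2p_d_pos C).ne'
  rw [← Finset.sum_fiberwise_of_maps_to (g := fun P : Pt A => P C.t)
    (fun P hP => Finset.mem_image_of_mem _ hP)]
  refine Finset.sum_congr rfl fun a ha => ?_
  have h1 : ∀ P ∈ Z.filter (fun P : Pt A => P C.t = a),
      C.lam 𝔳 v P = Real.log (mx 𝔳 v a) / C.d := by
    intro P hP
    rw [Finset.mem_filter] at hP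
    unfold WCurve.lam
    rw [hP.2]
  rw [Finset.sum_congr rfl h1, Finset.sum_const, i2p_card_fibre hfib hZ ha, nsmul_eq_mul,
    mul_div_cancel₀ _ hd]

end pullback

/-! ### The local inequality -/

section main

variable (𝔳 : AbsFam) {A : Type} [CommRing A] [Algebra Qb A] (C : WCurve A)

theorem i2p_sum_gl (m : ℕ) (v : Pl) (Z : Finset (Pt A)) :
    ∑ x ∈ Z.offDiag, C.gl 𝔳 m v x.1 x.2 =
      ∑ x ∈ Z.offDiag, Real.log (C.w2 𝔳 m v x.1 x.2) -
        2 * (m : ℝ) * (((Z.card : ℝ) - 1) * ∑ P ∈ Z, C.lam 𝔳 v P) := by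
  unfold WCurve.gl
  rw [Finset.sum_sub_distrib, Finset.sum_sub_distrib, ← Finset.mul_sum, ← Finset.mul_sum,
    sum_offDiag_fst_eq Z (fun P => C.lam 𝔳 v P), sum_offDiag_snd_eq Z (fun P => C.lam 𝔳 v P)]
  ring

variable {C} in
theorem i2p_local {Δ : Polynomial ℚ}
    (hfib : ∀ α : Qb, Polynomial.aeval α Δ ≠ 0 →
      ∃ F : Finset (Pt A), (∀ P, P ∈ F ↔ P C.t = α) ∧ F.card = C.d)
    (m : ℕ) (γ₁ γ₂ : MConst)
    (h1 : ∀ (v : Pl) (α α' : Qb), α ≠ α' → ∀ F F' : Finset (Pt A),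
      (∀ P, P ∈ F ↔ P C.t = α) → (∀ P, P ∈ F' ↔ P C.t = α') → F.card = C.d → F'.card = C.d →
      C.d * Real.log (𝔳.av v (α - α')) +
        ((C.d : ℝ) * ((m : ℝ) - 1)) * (Real.log (mx 𝔳 v α) + Real.log (mx 𝔳 v α')) ≤
      ∑ P ∈ F, ∑ Q ∈ F', Real.log (C.w2 𝔳 m v P Q) + γ₁.c v)
    (h2 : ∀ (v : Pl) (α : Qb), Polynomial.aeval α Δ ≠ 0 → ∀ F : Finset (Pt A),
      (∀ P, P ∈ F ↔ P C.t = α) →
      Real.log (𝔳.av v (Polynomial.aeval α Δ)) +
        2 * (((C.d : ℝ) - 1) * ((m : ℝ) - 1) - C.g) * Real.log (mx 𝔳 v α) ≤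
      ∑ x ∈ F.offDiag, Real.log (C.w2 𝔳 m v x.1 x.2) + γ₂.c v)
    {Z : Finset (Pt A)} (hZ : IsPullback C Δ Z) (v : Pl) :
    (C.d : ℝ) * ∑ y ∈ (Z.image (fun P : Pt A => P C.t)).offDiag, Real.log (𝔳.av v (y.1 - y.2)) +
        ∑ a ∈ Z.image (fun P : Pt A => P C.t), Real.log (𝔳.av v (Polynomial.aeval a Δ)) -
        2 * ((Z.card : ℝ) + C.g - 1) * ∑ P ∈ Z, C.lam 𝔳 v P ≤
      ∑ x ∈ Z.offDiag, C.gl 𝔳 m v x.1 x.2 +
        (((Z.image (fun P : Pt A => P C.t)).offDiag.card : ℝ) * γ₁.c v +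
          ((Z.image (fun P : Pt A => P C.t)).card : ℝ) * γ₂.c v) := by
  have hW := sum_offDiag_fiberwise Z (fun P : Pt A => P C.t)
    (fun x => Real.log (C.w2 𝔳 m v x.1 x.2))
  have hΛ := i2p_sum_lam 𝔳 hfib hZ v
  have hcard : (Z.card : ℝ) = C.d * ((Z.image (fun P : Pt A => P C.t)).card : ℝ) := by
    rw [i2p_card hfib hZ]
    push_cast
    ring
  rw [i2p_sum_gl, hW, hΛ, hcard]
  generalize hS : Z.image (fun P : Pt A => P C.t) = S at *
  have hcross : ∑ y ∈ S.offDiag, (C.d * Real.log (𝔳.av v (y.1 - y.2)) +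
        ((C.d : ℝ) * ((m : ℝ) - 1)) * (Real.log (mx 𝔳 v y.1) + Real.log (mx 𝔳 v y.2)) - γ₁.c v) ≤
      ∑ y ∈ S.offDiag, ∑ P ∈ Z.filter (fun P : Pt A => P C.t = y.1),
        ∑ Q ∈ Z.filter (fun Q : Pt A => Q C.t = y.2), Real.log (C.w2 𝔳 m v P Q) := by
    refine Finset.sum_le_sum fun y hy => ?_
    rw [Finset.mem_offDiag] at hy
    have hy1 : y.1 ∈ Z.image (fun P : Pt A => P C.t) := hS ▸ hy.1
    have hy2 : y.2 ∈ Z.image (fun P : Pt A => P C.t) := hS ▸ hy.2.1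
    have := h1 v y.1 y.2 hy.2.2 _ _ (i2p_mem_fibre_iff hZ hy1) (i2p_mem_fibre_iff hZ hy2)
      (i2p_card_fibre hfib hZ hy1) (i2p_card_fibre hfib hZ hy2)
    linarith
  have hsame : ∑ a ∈ S, (Real.log (𝔳.av v (Polynomial.aeval a Δ)) +
        2 * (((C.d : ℝ) - 1) * ((m : ℝ) - 1) - C.g) * Real.log (mx 𝔳 v a) - γ₂.c v) ≤
      ∑ a ∈ S, ∑ x ∈ (Z.filter (fun P : Pt A => P C.t = a)).offDiag,
        Real.log (C.w2 𝔳 m v x.1 x.2) := by
    refine Finset.sum_le_sum fun a ha => ?_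
    have ha1 : a ∈ Z.image (fun P : Pt A => P C.t) := hS ▸ ha
    have := h2 v a (i2p_aeval_ne hZ ha1) _ (i2p_mem_fibre_iff hZ ha1)
    linarith
  rw [Finset.sum_sub_distrib, Finset.sum_add_distrib, ← Finset.mul_sum, ← Finset.mul_sum,
    Finset.sum_add_distrib, sum_offDiag_fst_eq S (fun a => Real.log (mx 𝔳 v a)),
    sum_offDiag_snd_eq S (fun a => Real.log (mx 𝔳 v a)), Finset.sum_const, nsmul_eq_mul] at hcross
  rw [Finset.sum_sub_distrib, Finset.sum_add_distrib, ← Finset.mul_sum, Finset.sum_const,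
    nsmul_eq_mul] at hsame
  linarith

/-! ### Finite supports -/

theorem i2p_fs_log_w2 (m : ℕ) (P Q : Pt A) :
    (fun v => Real.log (C.w2 𝔳 m v P Q)).HasFiniteSupport :=
  finite_support_log_iSup_av 𝔳 fun kl : Fin (C.dim m) × Fin (C.dim m) =>
    P (C.b kl.1) * Q (C.b kl.2) - P (C.b kl.2) * Q (C.b kl.1)

theorem i2p_fs_lam (P : Pt A) : (fun v => C.lam 𝔳 v P).HasFiniteSupport := by
  have h : (fun v => Real.log (mx 𝔳 v (P C.t))).HasFiniteSupport := finite_support_log_mx 𝔳 _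
  unfold WCurve.lam
  simp only [div_eq_mul_inv]
  fun_prop

theorem i2p_fs_gl (m : ℕ) (P Q : Pt A) : (fun v => C.gl 𝔳 m v P Q).HasFiniteSupport := by
  have h1 := i2p_fs_log_w2 𝔳 C m P Q
  have h2 := i2p_fs_lam 𝔳 C P
  have h3 := i2p_fs_lam 𝔳 C Q
  unfold WCurve.gl
  fun_prop

/-! ### The theorem -/

/-- (T2), from the two diagonal estimates X1 and X2 (in the exact shape of the blueprint). -/
theorem I2_pullback_le_of
    (h_cross : ∃ m₀ : ℕ, ∀ m : ℕ, m₀ ≤ m →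
      ∃ γ : MConst, ∀ (v : Pl) (α α' : Qb), α ≠ α' → ∀ F F' : Finset (Pt A),
      (∀ P, P ∈ F ↔ P C.t = α) → (∀ P, P ∈ F' ↔ P C.t = α') → F.card = C.d → F'.card = C.d →
      C.d * Real.log (𝔳.av v (α - α')) +
        ((C.d : ℝ) * ((m : ℝ) - 1)) * (Real.log (mx 𝔳 v α) + Real.log (mx 𝔳 v α')) ≤
      ∑ P ∈ F, ∑ Q ∈ F', Real.log (C.w2 𝔳 m v P Q) + γ.c v)
    (h_same : ∃ Δ : Polynomial ℚ, Δ ≠ 0 ∧
      (∀ α : Qb, Polynomial.aeval α Δ ≠ 0 →
        ∃ F : Finset (Pt A), (∀ P, P ∈ F ↔ P C.t = α) ∧ F.card = C.d) ∧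
      ∃ m₀ : ℕ, ∀ m : ℕ, m₀ ≤ m → ∃ γ : MConst, ∀ (v : Pl) (α : Qb),
        Polynomial.aeval α Δ ≠ 0 → ∀ F : Finset (Pt A),
        (∀ P, P ∈ F ↔ P C.t = α) →
        Real.log (𝔳.av v (Polynomial.aeval α Δ)) +
          2 * (((C.d : ℝ) - 1) * ((m : ℝ) - 1) - C.g) * Real.log (mx 𝔳 v α) ≤
        ∑ x ∈ F.offDiag, Real.log (C.w2 𝔳 m v x.1 x.2) + γ.c v) :
    ∃ Δ : Polynomial ℚ, Δ ≠ 0 ∧
    ∃ m₀, ∀ m, m₀ ≤ m → ∀ z : ℕ, ∃ Cst : ℝ, ∀ Z : Finset (Pt A), IsPullback C Δ Z → Z.card ≤ z →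
      C.I2 𝔳 m Z ≤ ((Z.card : ℝ) + C.g - 1) * C.hE 𝔳 Z + Cst := by
  obtain ⟨m₁, h1⟩ := h_cross
  obtain ⟨Δ, hΔ, hfib, m₂, h2⟩ := h_same
  refine ⟨Δ, hΔ, max m₁ m₂, fun m hm z => ?_⟩
  obtain ⟨γ₁, hγ₁⟩ := h1 m (le_of_max_le_left hm)
  obtain ⟨γ₂, hγ₂⟩ := h2 m (le_of_max_le_right hm)
  refine ⟨((z * z) • γ₁ + z • γ₂).tot / 2, fun Z hZ hcard => ?_⟩
  have hloc := i2p_local 𝔳 hfib m γ₁ γ₂ hγ₁ hγ₂ hZ
  have hgal := i2p_galStable_image hZ.1
  have hD1 := sum_log_av_offDiag_sub 𝔳 _ hgal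
  have hD2 := sum_log_av_aeval 𝔳 _ hgal Δ fun a ha => i2p_aeval_ne hZ ha
  have hScard : (Z.image (fun P : Pt A => P C.t)).card ≤ z := Finset.card_image_le.trans hcard
  generalize Z.image (fun P : Pt A => P C.t) = S at *
  have hf1 : (fun v => ∑ y ∈ S.offDiag, Real.log (𝔳.av v (y.1 - y.2))).HasFiniteSupport :=
    Function.HasFiniteSupport.sum (fun y : Qb × Qb => finite_support_log_av 𝔳 (y.1 - y.2)) _
  have hf2 : (fun v => ∑ a ∈ S, Real.log (𝔳.av v (Polynomial.aeval a Δ))).HasFiniteSupport :=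
    Function.HasFiniteSupport.sum (fun a : Qb => finite_support_log_av 𝔳 (Polynomial.aeval a Δ)) _
  have hf3 : (fun v => ∑ P ∈ Z, C.lam 𝔳 v P).HasFiniteSupport :=
    Function.HasFiniteSupport.sum (fun P : Pt A => i2p_fs_lam 𝔳 C P) _
  have hf4 : (fun v => ∑ x ∈ Z.offDiag, C.gl 𝔳 m v x.1 x.2).HasFiniteSupport :=
    Function.HasFiniteSupport.sum (fun x : Pt A × Pt A => i2p_fs_gl 𝔳 C m x.1 x.2) _
  have hf1' : (fun v => (C.d : ℝ) *
      ∑ y ∈ S.offDiag, Real.log (𝔳.av v (y.1 - y.2))).HasFiniteSupport := by fun_prop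
  have hf3' : (fun v => 2 * ((Z.card : ℝ) + C.g - 1) *
      ∑ P ∈ Z, C.lam 𝔳 v P).HasFiniteSupport := by fun_prop
  have hf12 : (fun v => (C.d : ℝ) * ∑ y ∈ S.offDiag, Real.log (𝔳.av v (y.1 - y.2)) +
      ∑ a ∈ S, Real.log (𝔳.av v (Polynomial.aeval a Δ))).HasFiniteSupport := by fun_prop
  have hf : (fun v => (C.d : ℝ) * ∑ y ∈ S.offDiag, Real.log (𝔳.av v (y.1 - y.2)) +
      ∑ a ∈ S, Real.log (𝔳.av v (Polynomial.aeval a Δ)) -
      2 * ((Z.card : ℝ) + C.g - 1) * ∑ P ∈ Z, C.lam 𝔳 v P).HasFiniteSupport := by fun_prop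
  have key := finsum_le_of_le_add _ _ hf hf4 ((z * z) • γ₁ + z • γ₂) fun v => by
    refine (hloc v).trans (add_le_add le_rfl ?_)
    rw [MConst.add_c, MConst.nsmul_c, MConst.nsmul_c]
    refine add_le_add (mul_le_mul_of_nonneg_right ?_ (γ₁.nonneg v))
      (mul_le_mul_of_nonneg_right ?_ (γ₂.nonneg v))
    · have : S.offDiag.card ≤ z * z := by
        rw [Finset.offDiag_card]
        exact (Nat.sub_le _ _).trans (Nat.mul_le_mul hScard hScard)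
      exact_mod_cast this
    · exact_mod_cast hScard
  rw [finsum_sub_distrib hf12 hf3', finsum_add_distrib hf1' hf2, ← mul_finsum, ← mul_finsum,
    hD1, hD2] at key
  unfold WCurve.I2
  have hE : C.hE 𝔳 Z = ∑ᶠ v, ∑ P ∈ Z, C.lam 𝔳 v P := rfl
  rw [hE]
  linarith

end main

end Fermat.Agent.S17.H
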