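import Mathlib

/-!
# S17 / H, block NP3 (abstract layer, Mathlib only; owner helper247)

`A` a commutative algebra over a field `k`, free over `k[t]` on a finite family `y`.
An ideal `I` is *spanned* by a square matrix `V` over `k[X]` if the columns of `V` (read in the basis
`y`) generate `I` as a `k[t]`-module.  `det V` is then determined by `I` up to a unit ("index").

* `Spans.det_dvd` : monotonicity of the index;
* `Spans.mul` : the index of `s I` is `Nm s` times the index of `I`;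
* `exists_spans_points` : the index of the ideal of a finite set of points `E` is `∏ (X - t(P))`;
* `norm_mul_chi_of_equiv`, `exists_residual_abs` : the two statements of the block.
-/

set_option autoImplicit false

noncomputable section

open Polynomial Matrix

namespace Fermat.Agent.S17.H.NormQuot

variable {k A ι : Type*} [Field k] [CommRing A] [Algebra k A] [Fintype ι] [DecidableEq ι]
variable (t : A) (y : ι → A)

/-- `∑ p_j(t) y_j` -/
def comb (p : ι → k[X]) : A := ∑ j, aeval t (p j) * y j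

omit [DecidableEq ι] in
theorem comb_mulVec (V : Matrix ι ι k[X]) (p : ι → k[X]) :
    comb t y (V *ᵥ p) = ∑ j, aeval t (p j) * comb t y (fun i => V i j) := by
  unfold comb
  simp only [mulVec, dotProduct, map_sum, map_mul, Finset.sum_mul, Finset.mul_sum]
  rw [Finset.sum_comm]
  exact Finset.sum_congr rfl fun j _ => Finset.sum_congr rfl fun i _ => by ring

/-- the columns of `V` generate the ideal `I` as a `k[t]`-module -/
def Spans (V : Matrix ι ι k[X]) (I : Ideal A) : Prop :=
  ∀ z, z ∈ I ↔ ∃ p : ι → k[X], z = comb t y (V *ᵥ p)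

variable {t y}

omit [DecidableEq ι] in
theorem comb_injective (hy : ∀ f : A, ∃! p : ι → k[X], f = comb t y p) :
    Function.Injective (comb (k := k) t y) := fun p _ h => (hy (comb t y p)).unique rfl h

theorem spans_one (hy : ∀ f : A, ∃! p : ι → k[X], f = comb t y p) :
    Spans (k := k) t y 1 ⊤ := by
  intro z
  simp only [Submodule.mem_top, one_mulVec, true_iff]
  exact (hy z).exists

theorem Spans.det_dvd (hy : ∀ f : A, ∃! p : ι → k[X], f = comb t y p)
    {V W : Matrix ι ι k[X]} {I J : Ideal A} (hV : Spans t y V I) (hW : Spans t y W J)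
    (h : J ≤ I) : V.det ∣ W.det := by
  have h1 : ∀ j : ι, ∃ p : ι → k[X], W *ᵥ (Pi.single j 1) = V *ᵥ p := by
    intro j
    obtain ⟨p, hp⟩ := (hV _).mp (h ((hW _).mpr ⟨Pi.single j 1, rfl⟩))
    exact ⟨p, comb_injective hy hp⟩
  choose P hP using h1
  have h2 : W = V * Matrix.of (fun i j => P j i) := by
    refine Matrix.ext fun i j => ?_
    have := congrFun (hP j) i
    rw [mulVec_single_one] at this
    rw [Matrix.mul_apply]
    exact this
  rw [h2, det_mul]
  exact Dvd.intro _ rfl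

omit [DecidableEq ι] in
theorem mul_comb {M : A → Matrix ι ι k[X]}
    (hM : ∀ f j, f * y j = comb t y (fun i => M f i j)) (f : A) (p : ι → k[X]) :
    f * comb t y p = comb t y (M f *ᵥ p) := by
  rw [comb_mulVec]
  unfold comb at *
  rw [Finset.mul_sum]
  refine Finset.sum_congr rfl fun j _ => ?_
  rw [← hM]
  ring

omit [DecidableEq ι] in
theorem Spans.mul {M : A → Matrix ι ι k[X]}
    (hM : ∀ f j, f * y j = comb t y (fun i => M f i j)) {V : Matrix ι ι k[X]} {I : Ideal A}
    (hV : Spans t y V I) (s : A) : Spans t y (M s * V) (Ideal.span {s} * I) := by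
  intro z
  rw [Ideal.mem_span_singleton_mul]
  constructor
  · rintro ⟨x, hx, rfl⟩
    obtain ⟨p, rfl⟩ := (hV x).mp hx
    exact ⟨p, by rw [mul_comb hM, mulVec_mulVec]⟩
  · rintro ⟨p, rfl⟩
    exact ⟨comb t y (V *ᵥ p), (hV _).mpr ⟨p, rfl⟩, by rw [mul_comb hM, mulVec_mulVec]⟩

omit [DecidableEq ι] in
theorem eval_comb_mulVec (P : A →ₐ[k] k) (V : Matrix ι ι k[X]) (p : ι → k[X]) :
    P (comb t y (V *ᵥ p)) = ∑ j, (p j).eval (P t) * P (comb t y (fun i => V i j)) := by
  rw [comb_mulVec, map_sum]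
  refine Finset.sum_congr rfl fun j _ => ?_
  rw [map_mul, ← Polynomial.aeval_algHom_apply, Polynomial.coe_aeval_eq_eval]

/-- adding one point multiplies the index by `X - t(P)` -/
theorem Spans.step {V : Matrix ι ι k[X]} {I : Ideal A} (hV : Spans t y V I) (P : A →ₐ[k] k)
    (hP : ∃ g ∈ I, P g ≠ 0) :
    ∃ W : Matrix ι ι k[X], Spans t y W (RingHom.ker (P : A →+* k) ⊓ I) ∧
      W.det = (X - C (P t)) * V.det := by
  set α : k := P t with hα
  set c : ι → k := fun j => P (comb t y (fun i => V i j)) with hc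
  have hev : ∀ p : ι → k[X], P (comb t y (V *ᵥ p)) = ∑ j, (p j).eval α * c j :=
    fun p => eval_comb_mulVec P V p
  obtain ⟨j₀, hj₀⟩ : ∃ j₀, c j₀ ≠ 0 := by
    by_contra hcon
    push Not at hcon
    obtain ⟨g, hg, hPg⟩ := hP
    obtain ⟨p, rfl⟩ := (hV g).mp hg
    apply hPg
    rw [hev]
    exact Finset.sum_eq_zero fun j _ => by rw [hcon j, mul_zero]
  set a : ι → k[X] := fun l => C (c l / c j₀) with ha
  have haj₀ : a j₀ = 1 := by simp [ha, div_self hj₀]
  set e : ι → k[X] := Pi.single j₀ 1 with he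
  set u : ι → k[X] := -a + (X - C α) • e with hu
  set U : Matrix ι ι k[X] := 1 + replicateCol Unit e * replicateRow Unit u with hU
  have hUmul : ∀ p : ι → k[X], U *ᵥ p = p + (u ⬝ᵥ p) • e := by
    intro p
    rw [hU, add_mulVec, one_mulVec, ← vecMulVec_eq, vecMulVec_mulVec, op_smul_eq_smul]
  have hup : ∀ p : ι → k[X], u ⬝ᵥ p = -(a ⬝ᵥ p) + (X - C α) * p j₀ := by
    intro p
    rw [hu, add_dotProduct, neg_dotProduct, smul_dotProduct, he, single_dotProduct, one_mul,
      smul_eq_mul]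
  have hUdet : U.det = X - C α := by
    rw [hU, det_one_add_replicateCol_mul_replicateRow, hup, he, dotProduct_single, mul_one, haj₀,
      Pi.single_eq_same]
    ring
  have hadot : ∀ p : ι → k[X], (a ⬝ᵥ p).eval α * c j₀ = ∑ j, (p j).eval α * c j := by
    intro p
    simp only [dotProduct, ha, eval_finsetSum, eval_mul, eval_C, Finset.sum_mul]
    refine Finset.sum_congr rfl fun j _ => ?_
    field_simp
  refine ⟨V * U, fun z => ?_, by rw [det_mul, hUdet, mul_comm]⟩
  rw [Ideal.mem_inf, RingHom.mem_ker]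
  constructor
  · rintro ⟨hz0, hzI⟩
    obtain ⟨p, rfl⟩ := (hV z).mp hzI
    have h1 : (a ⬝ᵥ p).eval α = 0 := by
      have h2 : P (comb t y (V *ᵥ p)) = 0 := hz0
      rw [hev, ← hadot] at h2
      exact (mul_eq_zero.mp h2).resolve_right hj₀
    obtain ⟨q, hq⟩ := dvd_iff_isRoot.mpr h1
    refine ⟨p + (q - p j₀) • e, ?_⟩
    rw [← mulVec_mulVec, hUmul, hup]
    congr 2
    have h3 : a ⬝ᵥ (p + (q - p j₀) • e) = a ⬝ᵥ p + (q - p j₀) := by
      rw [dotProduct_add, dotProduct_smul, he, dotProduct_single, haj₀]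
      simp
    have h4 : (p + (q - p j₀) • e) j₀ = q := by
      simp [he]
    rw [h3, h4, hq]
    funext i
    simp only [Pi.add_apply, Pi.smul_apply, smul_eq_mul]
    ring
  · rintro ⟨p, rfl⟩
    rw [← mulVec_mulVec]
    refine ⟨?_, (hV _).mpr ⟨_, rfl⟩⟩
    show P (comb t y (V *ᵥ U *ᵥ p)) = 0
    rw [hev, ← hadot, hUmul, dotProduct_add, dotProduct_smul, he, dotProduct_single, haj₀, hup]
    simp

/-- the norm of a nonzero element of a domain is nonzero -/
theorem det_ne_zero [IsDomain A] (hy : ∀ f : A, ∃! p : ι → k[X], f = comb t y p)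
    {M : A → Matrix ι ι k[X]} (hM : ∀ f j, f * y j = comb t y (fun i => M f i j)) {f : A}
    (hf : f ≠ 0) : (M f).det ≠ 0 := by
  intro h0
  obtain ⟨v, hv, hMv⟩ := Matrix.exists_mulVec_eq_zero_iff.mpr h0
  have hc0 : comb (k := k) t y 0 = 0 := by simp [comb]
  have h1 : f * comb t y v = 0 := by rw [mul_comb hM, hMv, hc0]
  have h2 : comb t y v = comb (k := k) t y 0 := by
    rw [hc0]
    exact (mul_eq_zero.mp h1).resolve_left hf
  exact hv (comb_injective hy h2)

/-- distinct points are separated by a function vanishing on a given finite set -/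
theorem exists_separating (E : Finset (A →ₐ[k] k)) (P : A →ₐ[k] k) (hP : P ∉ E) :
    ∃ g : A, (∀ Q ∈ E, Q g = 0) ∧ P g ≠ 0 := by
  classical
  have h1 : ∀ Q : A →ₐ[k] k, ∃ a : A, Q ∈ E → Q a ≠ P a := by
    intro Q
    by_cases hQ : Q ∈ E
    · have hne : Q ≠ P := fun h => hP (h ▸ hQ)
      obtain ⟨a, ha⟩ := DFunLike.ne_iff.mp hne
      exact ⟨a, fun _ => ha⟩
    · exact ⟨0, fun h => absurd h hQ⟩
  choose a ha using h1
  refine ⟨∏ Q ∈ E, (a Q - algebraMap k A (Q (a Q))), fun Q hQ => ?_, ?_⟩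
  · rw [map_prod]
    refine Finset.prod_eq_zero hQ ?_
    rw [map_sub, AlgHom.commutes]
    simp
  · rw [map_prod, Finset.prod_ne_zero_iff]
    intro Q hQ
    rw [map_sub, AlgHom.commutes, sub_ne_zero]
    exact fun h => ha Q hQ h.symm

/-- **the index of the ideal of a finite set of points.** -/
theorem exists_spans_points (hy : ∀ f : A, ∃! p : ι → k[X], f = comb t y p)
    (E : Finset (A →ₐ[k] k)) :
    ∃ V : Matrix ι ι k[X], Spans t y V (⨅ P ∈ E, RingHom.ker (P : A →+* k)) ∧
      V.det = ∏ P ∈ E, (X - C (P t)) := by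
  classical
  induction E using Finset.induction_on with
  | empty => exact ⟨1, by simpa using spans_one hy, by simp⟩
  | insert P E hP ih =>
    obtain ⟨V, hV, hdet⟩ := ih
    obtain ⟨g, hg, hPg⟩ := exists_separating E P hP
    obtain ⟨W, hW, hWdet⟩ := hV.step P ⟨g, by
      simp only [Ideal.mem_iInf]
      exact fun Q hQ => hg Q hQ, hPg⟩
    refine ⟨W, ?_, by rw [hWdet, hdet, Finset.prod_insert hP]⟩
    rw [Finset.iInf_insert]
    exact hW

/-- **linear equivalence and norms (abstract form).** -/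
theorem norm_mul_chi_of_equiv (hy : ∀ f : A, ∃! p : ι → k[X], f = comb t y p)
    {M : A → Matrix ι ι k[X]} (hM : ∀ f j, f * y j = comb t y (fun i => M f i j))
    (E E' : Finset (A →ₐ[k] k)) {s s' : A}
    (h : Ideal.span {s'} * (⨅ P ∈ E, RingHom.ker (P : A →+* k)) =
      Ideal.span {s} * (⨅ P ∈ E', RingHom.ker (P : A →+* k))) :
    ∃ c : k, c ≠ 0 ∧ (M s').det * ∏ P ∈ E, (X - C (P t)) =
      C c * ((M s).det * ∏ P ∈ E', (X - C (P t))) := by
  obtain ⟨V, hV, hdet⟩ := exists_spans_points hy E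
  obtain ⟨V', hV', hdet'⟩ := exists_spans_points hy E'
  have h1 := hV.mul hM s'
  have h2 := hV'.mul hM s
  have hd1 := h1.det_dvd hy h2 h.ge
  have hd2 := h2.det_dvd hy h1 h.le
  rw [det_mul, det_mul, hdet, hdet'] at hd1 hd2
  obtain ⟨u, hu⟩ := associated_of_dvd_dvd hd2 hd1
  obtain ⟨c, hc, hcu⟩ := Polynomial.isUnit_iff.mp u.isUnit
  exact ⟨c, hc.ne_zero, by rw [← hu, ← hcu]; ring⟩

/-- **the residual polynomial (abstract form).** -/
theorem exists_residual_abs (hy : ∀ f : A, ∃! p : ι → k[X], f = comb t y p)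
    {M : A → Matrix ι ι k[X]} (hM : ∀ f j, f * y j = comb t y (fun i => M f i j))
    (E : Finset (A →ₐ[k] k)) {f : A} (hf : (M f).det ≠ 0)
    (hE : f ∈ ⨅ P ∈ E, RingHom.ker (P : A →+* k)) :
    ∃ R : k[X], R.Monic ∧
      (M f).det = C (M f).det.leadingCoeff * ((∏ P ∈ E, (X - C (P t))) * R) ∧
      ∀ z ∈ ⨅ P ∈ E, RingHom.ker (P : A →+* k), f ∣ aeval t R * z := by
  obtain ⟨V, hV, hdet⟩ := exists_spans_points hy E
  -- `M f = V * Q`
  have h1 : ∀ j : ι, ∃ p : ι → k[X], (M f) *ᵥ (Pi.single j 1) = V *ᵥ p := by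
    intro j
    have hmem : comb t y ((M f) *ᵥ (Pi.single j 1)) ∈ ⨅ P ∈ E, RingHom.ker (P : A →+* k) := by
      rw [← mul_comb hM]
      exact Ideal.mul_mem_right _ _ hE
    obtain ⟨p, hp⟩ := (hV _).mp hmem
    exact ⟨p, comb_injective hy hp⟩
  choose Q' hQ' using h1
  set Q : Matrix ι ι k[X] := Matrix.of (fun i j => Q' j i) with hQ
  have h2 : M f = V * Q := by
    refine Matrix.ext fun i j => ?_
    have := congrFun (hQ' j) i
    rw [mulVec_single_one] at this
    rw [Matrix.mul_apply]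
    exact this
  have hdetf : (M f).det = (∏ P ∈ E, (X - C (P t))) * Q.det := by rw [h2, det_mul, hdet]
  have hQ0 : Q.det ≠ 0 := fun h0 => hf (by rw [hdetf, h0, mul_zero])
  have hmonic : (∏ P ∈ E, (X - C (P t)) : k[X]).Monic := monic_prod_of_monic _ _ fun P _ =>
    monic_X_sub_C _
  have hlc : (M f).det.leadingCoeff = Q.det.leadingCoeff := by
    rw [hdetf, leadingCoeff_mul, hmonic.leadingCoeff, one_mul]
  have hlc0 : Q.det.leadingCoeff ≠ 0 := leadingCoeff_ne_zero.mpr hQ0
  refine ⟨C Q.det.leadingCoeff⁻¹ * Q.det, ?_, ?_, ?_⟩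
  · rw [mul_comm]
    exact monic_mul_leadingCoeff_inv hQ0
  · rw [hlc, hdetf]
    have : (C Q.det.leadingCoeff * C Q.det.leadingCoeff⁻¹ : k[X]) = 1 := by
      rw [← C_mul, mul_inv_cancel₀ hlc0, C_1]
    linear_combination (-(∏ P ∈ E, (X - C (P t))) * Q.det) * this
  · intro z hz
    obtain ⟨p, rfl⟩ := (hV z).mp hz
    -- `det Q • V p = V Q adj(Q) p = M f (adj(Q) p)`
    have h3 : aeval t Q.det * comb t y (V *ᵥ p) = f * comb t y (Q.adjugate *ᵥ p) := by
      rw [mul_comb hM f, h2, mulVec_mulVec, Matrix.mul_assoc, mul_adjugate, ← mulVec_mulVec,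
        smul_mulVec, one_mulVec, mulVec_smul]
      unfold comb
      rw [Finset.mul_sum]
      refine Finset.sum_congr rfl fun j _ => ?_
      rw [Pi.smul_apply, smul_eq_mul, map_mul, mul_assoc]
    rw [map_mul, mul_assoc, h3]
    exact ⟨aeval t (C Q.det.leadingCoeff⁻¹) * comb t y (Q.adjugate *ᵥ p), by ring⟩

end Fermat.Agent.S17.H.NormQuot
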