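import Fermat.Agent.S17.H.AbsBasic
import Fermat.Agent.S17.H.SubHt
import Fermat.Agent.S17.H.DualDescent
import Fermat.Agent.S17.H.Dual
import Fermat.Agent.S17.H.SubHtMap
import Fermat.Agent.S17.H.PolyLocal
import Fermat.Agent.S17.H.Weight
import Fermat.Agent.S17.H.Semigroup
import Fermat.Agent.S17.H.Indep
import Fermat.Agent.S17.H.PullbackDefs

/-!
# S17, part H, node (T1): `Φ_n(t^* S) ≤ (n - |Z| + 1 - g) h(Z) + C`   (owner: helper125)

Main results: `Phi_pullback_le_of` (for ANY `Δ` such that the fibres of `t` over the non-zeros of `Δ`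
have exactly `d` points) and `Phi_pullback_le_of_fibre` (the `∃ Δ` form, from the first half of X2).
-/

set_option autoImplicit false

noncomputable section

open scoped Classical

namespace Fermat.Agent.S17.H

open Polynomial

variable (𝔳 : AbsFam) {A : Type} [CommRing A] [Algebra Qb A] (C : WCurve A)

/-! ### indices -/

theorem pb_le_rho (i : ℕ) : i ≤ C.ρ i := C.ρ_strictMono.le_apply

theorem pb_lt_dim_iff (n i : ℕ) : i < C.dim n ↔ C.ρ i ≤ n := by
  unfold WCurve.dim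
  set s := (Finset.range (n + 1)).filter fun i => C.ρ i ≤ n with hs
  have hmem : ∀ j, j ∈ s ↔ C.ρ j ≤ n := by
    intro j
    rw [hs, Finset.mem_filter, Finset.mem_range]
    exact ⟨fun h => h.2, fun h => ⟨by have := pb_le_rho C j; omega, h⟩⟩
  constructor
  · intro h
    by_contra hcon
    have hsub : s ⊆ Finset.range i := by
      intro j hj
      rw [Finset.mem_range]
      by_contra hji
      exact hcon ((C.ρ_strictMono.monotone (not_lt.mp hji)).trans ((hmem j).mp hj))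
    have := Finset.card_le_card hsub
    rw [Finset.card_range] at this
    omega
  · intro h
    have hsub : Finset.range (i + 1) ⊆ s := by
      intro j hj
      rw [Finset.mem_range] at hj
      exact (hmem j).mpr ((C.ρ_strictMono.monotone (Nat.lt_succ_iff.mp hj)).trans h)
    have := Finset.card_le_card hsub
    rw [Finset.card_range] at this
    omega

/-! ### coordinates -/

theorem pb_repr_eq_zero_of_wt_lt {f : A} {l : ℕ} (h : C.wt f < C.ρ l) : C.b.repr f l = 0 := by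
  by_contra hne
  have hl : l ∈ (C.b.repr f).support := Finsupp.mem_support_iff.mpr hne
  have := Finset.le_sup (f := C.ρ) hl
  unfold WCurve.wt at h
  omega

/-- the element of `V_n` with given coordinates. -/
def pbEl (n : ℕ) (y : Fin (C.dim n) → Qb) : A := ∑ i, y i • C.b i

theorem pbEl_repr {n : ℕ} {f : A} (hf : C.wt f ≤ n) : pbEl C n (fun i => C.b.repr f i) = f := by
  unfold pbEl
  conv_rhs => rw [← C.b.linearCombination_repr f, Finsupp.linearCombination_apply]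
  rw [Finsupp.sum_of_support_subset (s := Finset.range (C.dim n)) _ _ _ (by simp),
    ← Fin.sum_univ_eq_sum_range (fun i => C.b.repr f i • C.b i)]
  intro l hl
  rw [Finset.mem_range, pb_lt_dim_iff]
  by_contra hcon
  exact (Finsupp.mem_support_iff.mp hl) (pb_repr_eq_zero_of_wt_lt C (by omega))

theorem pbEl_injective (n : ℕ) : Function.Injective (pbEl C n) := by
  intro x y hxy
  have hli : LinearIndependent Qb (fun i : Fin (C.dim n) => C.b i) :=
    C.b.linearIndependent.comp _ Fin.val_injective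
  have := Fintype.linearIndependent_iff.mp hli (x - y) (by
    simp only [Pi.sub_apply, sub_smul, Finset.sum_sub_distrib]
    exact sub_eq_zero.mpr hxy)
  funext i
  exact sub_eq_zero.mp (this i)

theorem pbEl_zero (n : ℕ) : pbEl C n 0 = 0 := by simp [pbEl]

theorem apply_pbEl (n : ℕ) (y : Fin (C.dim n) → Qb) (P : Pt A) :
    P (pbEl C n y) = ∑ i : Fin (C.dim n), P (C.b i) * y i := by
  simp [pbEl, map_sum, mul_comm]

/-! ### rationality -/

theorem pb_isRat_b (i : ℕ) : C.IsRat (C.b i) := by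
  intro l
  rw [C.b.repr_self, Finsupp.single_apply]
  split_ifs
  · exact ⟨1, map_one _⟩
  · exact ⟨0, map_zero _⟩

theorem pb_isRat_one : C.IsRat (1 : A) := C.b_zero ▸ pb_isRat_b C 0

theorem pb_isRat_zero : C.IsRat (0 : A) := fun l => ⟨0, by simp⟩

theorem pb_isRat_smul (r : ℚ) {f : A} (hf : C.IsRat f) : C.IsRat (algebraMap ℚ Qb r • f) := by
  intro l
  obtain ⟨q, hq⟩ := hf l
  exact ⟨r * q, by rw [map_mul, hq, map_smul]; rfl⟩

theorem pb_isRat_sum {ι : Type*} (s : Finset ι) (f : ι → A) (h : ∀ i ∈ s, C.IsRat (f i)) :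
    C.IsRat (∑ i ∈ s, f i) := by
  induction s using Finset.induction_on with
  | empty => simpa using pb_isRat_zero C
  | insert a s ha ih =>
    rw [Finset.sum_insert ha]
    exact isRat_add C (h a (Finset.mem_insert_self a s))
      (ih fun i hi => h i (Finset.mem_insert_of_mem hi))

theorem pb_isRat_pow {f : A} (hf : C.IsRat f) (k : ℕ) : C.IsRat (f ^ k) := by
  induction k with
  | zero => simpa using pb_isRat_one C
  | succ k ih => rw [pow_succ]; exact isRat_mul C ih hf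

/-- the structure constants. -/
def pbSc (i j l : ℕ) : ℚ :=
  if h : ∃ q : ℚ, algebraMap ℚ Qb q = C.b.repr (C.b i * C.b j) l then h.choose else 0

theorem pbSc_spec (i j l : ℕ) : algebraMap ℚ Qb (pbSc C i j l) = C.b.repr (C.b i * C.b j) l := by
  have h : ∃ q : ℚ, algebraMap ℚ Qb q = C.b.repr (C.b i * C.b j) l :=
    isRat_mul C (pb_isRat_b C i) (pb_isRat_b C j) l
  rw [pbSc, dif_pos h]
  exact h.choose_spec

theorem pb_wt_b_mul_b (i j : ℕ) : C.wt (C.b i * C.b j) = C.ρ i + C.ρ j := by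
  have : IsDomain A := isDomain C
  rw [wt_mul C (C.b.ne_zero i) (C.b.ne_zero j), wt_b, wt_b]

/-- multiplication `V_e × V_m → V_n` in coordinates. -/
theorem pbEl_mul {e m n : ℕ} (h : e + m ≤ n) (x : Fin (C.dim e) → Qb) (y : Fin (C.dim m) → Qb) :
    pbEl C e x * pbEl C m y =
      pbEl C n fun k' => ∑ a : Fin (C.dim e), ∑ k : Fin (C.dim m),
        algebraMap ℚ Qb (pbSc C a k k') * x a * y k := by
  have hb : ∀ (a : Fin (C.dim e)) (k : Fin (C.dim m)), C.b a * C.b k =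
      ∑ k' : Fin (C.dim n), algebraMap ℚ Qb (pbSc C a k k') • C.b k' := by
    intro a k
    have h1 : C.wt (C.b a * C.b k) ≤ n := by
      rw [pb_wt_b_mul_b]
      have h2 := (pb_lt_dim_iff C e a).mp a.2
      have h3 := (pb_lt_dim_iff C m k).mp k.2
      omega
    conv_lhs => rw [← pbEl_repr C h1]
    unfold pbEl
    simp only [pbSc_spec]
  unfold pbEl
  rw [Finset.sum_mul_sum]
  simp only [smul_mul_smul_comm, hb, Finset.smul_sum, Finset.sum_smul, smul_smul]
  rw [Finset.sum_comm]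
  conv_lhs => enter [2, k]; rw [Finset.sum_comm]
  rw [Finset.sum_comm]
  refine Finset.sum_congr rfl fun k' _ => ?_
  rw [Finset.sum_comm]
  refine Finset.sum_congr rfl fun a _ => Finset.sum_congr rfl fun k _ => ?_
  congr 1
  ring

/-! ### the function `a_S(t)` -/

/-- the set of values of `t` on `Z`. -/
def pbS (Z : Finset (Pt A)) : Finset Qb := Z.image fun P => P C.t

/-- `a_S = ∏_{α ∈ S} (T - α)`. -/
def pbPoly (Z : Finset (Pt A)) : Qb[X] := ∏ α ∈ pbS C Z, (X - Polynomial.C α)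

/-- `a_S(t)`. -/
def pbF (Z : Finset (Pt A)) : A := aeval C.t (pbPoly C Z)

theorem pbS_stable {Z : Finset (Pt A)} (hZ : C.GalStable Z) (σ : Qb ≃ₐ[ℚ] Qb) :
    ∀ x ∈ pbS C Z, σ x ∈ pbS C Z := by
  intro x hx
  obtain ⟨P, hP, rfl⟩ := Finset.mem_image.mp hx
  obtain ⟨P', hP', h⟩ := hZ σ P hP
  exact Finset.mem_image.mpr ⟨P', hP', h 1⟩

theorem pbPoly_coeff_rat {Z : Finset (Pt A)} (hZ : C.GalStable Z) (k : ℕ) :
    (pbPoly C Z).coeff k ∈ Set.range (algebraMap ℚ Qb) := by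
  apply mem_range_algebraMap_of_fixed
  intro σ
  have himg : (pbS C Z).image σ = pbS C Z := by
    apply Finset.eq_of_subset_of_card_le
    · intro y hy
      obtain ⟨x, hx, rfl⟩ := Finset.mem_image.1 hy
      exact pbS_stable C hZ σ x hx
    · rw [Finset.card_image_of_injective _ σ.injective]
  have hmap : (pbPoly C Z).map (σ : Qb →+* Qb) = pbPoly C Z := by
    unfold pbPoly
    rw [Polynomial.map_prod]
    conv_rhs => rw [← himg]
    rw [Finset.prod_image (fun x _ y _ h => σ.injective h)]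
    refine Finset.prod_congr rfl fun x _ => ?_
    simp
  conv_rhs => rw [← hmap]
  rw [Polynomial.coeff_map]
  rfl

theorem pbPoly_natDegree (Z : Finset (Pt A)) : (pbPoly C Z).natDegree = (pbS C Z).card := by
  unfold pbPoly
  rw [Polynomial.natDegree_prod_of_monic _ _ fun i _ => monic_X_sub_C i]
  simp

theorem pbF_eq_prod (Z : Finset (Pt A)) :
    pbF C Z = ∏ α ∈ pbS C Z, (C.t - algebraMap Qb A α) := by
  simp [pbF, pbPoly, map_prod]

theorem pbF_isRat {Z : Finset (Pt A)} (hZ : C.GalStable Z) : C.IsRat (pbF C Z) := by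
  unfold pbF
  rw [Polynomial.aeval_eq_sum_range]
  refine pb_isRat_sum C _ _ fun k _ => ?_
  obtain ⟨r, hr⟩ := pbPoly_coeff_rat C hZ k
  rw [← hr]
  exact pb_isRat_smul C r (pb_isRat_pow C (pb_isRat_b C 1) k)

theorem pb_wt_zero : C.wt (0 : A) = 0 := by simp [WCurve.wt]

theorem pb_wt_smul_le (c : Qb) (f : A) : C.wt (c • f) ≤ C.wt f := by
  unfold WCurve.wt
  rw [map_smul]
  exact Finset.sup_mono Finsupp.support_smul

theorem pb_wt_mul_le (f h : A) : C.wt (f * h) ≤ C.wt f + C.wt h := by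
  rcases eq_or_ne f 0 with rfl | hf
  · simp [pb_wt_zero]
  rcases eq_or_ne h 0 with rfl | hh
  · simp [pb_wt_zero]
  exact (wt_mul C hf hh).le

theorem pb_wt_t_sub (α : Qb) : C.wt (C.t - algebraMap Qb A α) ≤ C.d := by
  have h1 : C.t - algebraMap Qb A α = C.b 1 + (-α) • C.b 0 := by
    rw [C.b_zero, Algebra.algebraMap_eq_smul_one, neg_smul, sub_eq_add_neg]
    rfl
  rw [h1]
  refine (wt_add_le C _ _).trans (max_le ?_ ?_)
  · rw [wt_b]; rfl
  · refine (pb_wt_smul_le C _ _).trans ?_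
    rw [wt_b, C.ρ_zero]
    exact Nat.zero_le _

theorem pb_wt_one : C.wt (1 : A) = 0 := by
  rw [← C.b_zero, wt_b, C.ρ_zero]

theorem pbF_wt_le (Z : Finset (Pt A)) : C.wt (pbF C Z) ≤ C.d * (pbS C Z).card := by
  rw [pbF_eq_prod]
  induction pbS C Z using Finset.induction_on with
  | empty => simp [pb_wt_one]
  | insert a s ha ih =>
    rw [Finset.prod_insert ha, Finset.card_insert_of_notMem ha]
    refine (pb_wt_mul_le C _ _).trans ?_
    have := pb_wt_t_sub C a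
    rw [Nat.mul_succ]
    omega

theorem pb_t_sub_ne_zero (α : Qb) : C.t - algebraMap Qb A α ≠ 0 := by
  intro h
  have h1 : C.b 1 = α • C.b 0 := by
    rw [C.b_zero, ← Algebra.algebraMap_eq_smul_one]
    exact sub_eq_zero.mp h
  have h2 := congrArg (fun x => C.b.repr x 1) h1
  simp at h2

theorem pbF_ne_zero (Z : Finset (Pt A)) : pbF C Z ≠ 0 := by
  have : IsDomain A := isDomain C
  rw [pbF_eq_prod]
  exact Finset.prod_ne_zero_iff.mpr fun α _ => pb_t_sub_ne_zero C α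

theorem apply_pbF {Z : Finset (Pt A)} {P : Pt A} (hP : P ∈ Z) : P (pbF C Z) = 0 := by
  rw [pbF_eq_prod, map_prod]
  refine Finset.prod_eq_zero (Finset.mem_image_of_mem (fun P : Pt A => P C.t) hP) ?_
  simp

/-! ### fibres -/

section fibres

variable {C} {Δ : ℚ[X]}
  (hΔ : ∀ α : Qb, aeval α Δ ≠ 0 → ∃ F : Finset (Pt A), (∀ P, P ∈ F ↔ P C.t = α) ∧ F.card = C.d)
  {Z : Finset (Pt A)} (hZ : IsPullback C Δ Z)

include hΔ hZ

theorem pb_card_fibre {α : Qb} (hα : α ∈ pbS C Z) :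
    (Z.filter fun P => P C.t = α).card = C.d := by
  obtain ⟨P₀, hP₀, rfl⟩ := Finset.mem_image.mp hα
  obtain ⟨F, hF, hcard⟩ := hΔ _ (hZ.2.1 P₀ hP₀)
  rw [← hcard]
  congr 1
  ext P
  rw [Finset.mem_filter, hF]
  exact ⟨fun h => h.2, fun h => ⟨hZ.2.2 P₀ hP₀ P h, h⟩⟩

theorem pb_card_eq : Z.card = C.d * (pbS C Z).card := by
  rw [Finset.card_eq_sum_card_image (fun P : Pt A => P C.t) Z]
  change ∑ α ∈ pbS C Z, (Z.filter fun P => P C.t = α).card = _
  rw [Finset.sum_congr rfl fun α hα => pb_card_fibre hΔ hZ hα]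
  simp [mul_comm]

theorem pb_sum_comp (g : Qb → ℝ) :
    ∑ P ∈ Z, g (P C.t) = C.d * ∑ α ∈ pbS C Z, g α := by
  rw [Finset.sum_comp g (fun P : Pt A => P C.t), Finset.mul_sum]
  refine Finset.sum_congr rfl fun α hα => ?_
  rw [pb_card_fibre hΔ hZ hα, nsmul_eq_mul]

end fibres

/-! ### linear algebra -/

/-- the structure constants of `V_e × V_m → V_n`. -/
def pbC (e m n : ℕ) : Fin (C.dim e) → Fin (C.dim m) → Fin (C.dim n) → ℚ :=
  fun a k k' => pbSc C a k k'

theorem pb_hnzd {e m n : ℕ} (h : e + m ≤ n) (x : Fin (C.dim e) → Qb) (y : Fin (C.dim m) → Qb)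
    (h0 : ∀ k', ∑ a, ∑ k, algebraMap ℚ Qb (pbC C e m n a k k') * x a * y k = 0) :
    x = 0 ∨ y = 0 := by
  have : IsDomain A := isDomain C
  have h1 : pbEl C e x * pbEl C m y = 0 := by
    rw [pbEl_mul C h]
    have : (fun k' : Fin (C.dim n) => ∑ a : Fin (C.dim e), ∑ k : Fin (C.dim m),
        algebraMap ℚ Qb (pbSc C a k k') * x a * y k) = 0 := funext h0
    rw [this, pbEl_zero]
  rcases mul_eq_zero.mp h1 with h2 | h2
  · left
    exact pbEl_injective C e (h2.trans (pbEl_zero C e).symm)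
  · right
    exact pbEl_injective C m (h2.trans (pbEl_zero C m).symm)

theorem pbEl_ratVec_mulMap {e m n : ℕ} (h : e + m ≤ n) (s : Fin (C.dim e) → ℚ)
    (y : Fin (C.dim m) → ℚ) :
    pbEl C n (ratVec (mulMap (pbC C e m n) s y)) = pbEl C e (ratVec s) * pbEl C m (ratVec y) := by
  rw [pbEl_mul C h]
  congr 1
  funext k'
  simp [ratVec, mulMap, pbC, map_sum, map_mul]

/-- the rational coordinates of `a_S(t)`. -/
def pbCoord (e : ℕ) (Z : Finset (Pt A)) : Fin (C.dim e) → ℚ := fun a =>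
  if h : ∃ q : ℚ, algebraMap ℚ Qb q = C.b.repr (pbF C Z) a then h.choose else 0

theorem ratVec_pbCoord (e : ℕ) {Z : Finset (Pt A)} (hZ : C.GalStable Z) :
    ratVec (pbCoord C e Z) = fun a : Fin (C.dim e) => C.b.repr (pbF C Z) a := by
  funext a
  have h : ∃ q : ℚ, algebraMap ℚ Qb q = C.b.repr (pbF C Z) a := pbF_isRat C hZ a
  rw [ratVec, pbCoord, dif_pos h]
  exact h.choose_spec

theorem pbEl_pbCoord {e : ℕ} {Z : Finset (Pt A)} (hZ : C.GalStable Z)
    (he : C.wt (pbF C Z) ≤ e) : pbEl C e (ratVec (pbCoord C e Z)) = pbF C Z := by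
  rw [ratVec_pbCoord C e hZ, pbEl_repr C he]

theorem pb_ratVec_injective {κ : Type*} : Function.Injective (ratVec (κ := κ)) := by
  intro a b h
  funext k
  exact (algebraMap ℚ Qb).injective (congrFun h k)

theorem pbCoord_ne_zero {e : ℕ} {Z : Finset (Pt A)} (hZ : C.GalStable Z)
    (he : C.wt (pbF C Z) ≤ e) : pbCoord C e Z ≠ 0 := by
  intro h
  apply pbF_ne_zero C Z
  rw [← pbEl_pbCoord C hZ he, h]
  have : ratVec (0 : Fin (C.dim e) → ℚ) = 0 := by funext k; simp [ratVec]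
  rw [this, pbEl_zero]

/-- the space of rational solutions of the system `evMat n Z`. -/
def pbW (n : ℕ) (Z : Finset (Pt A)) : Submodule ℚ (Fin (C.dim n) → ℚ) :=
  LinearMap.ker (((C.evMat n Z).mulVecLin.restrictScalars ℚ).comp (ratVecₗ (Fin (C.dim n))))

theorem mem_pbW (n : ℕ) (Z : Finset (Pt A)) (c : Fin (C.dim n) → ℚ) :
    c ∈ pbW C n Z ↔ ∀ i, ∑ k, C.evMat n Z i k * algebraMap ℚ Qb (c k) = 0 := by
  rw [pbW, LinearMap.mem_ker]
  simp only [LinearMap.comp_apply, LinearMap.restrictScalars_apply, ratVecₗ_apply,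
    Matrix.mulVecLin_apply]
  rw [funext_iff]
  rfl

theorem pb_hgal {Z : Finset (Pt A)} (hZ : C.GalStable Z) (n : ℕ) (σ : Qb ≃ₐ[ℚ] Qb) :
    ∃ π : Equiv.Perm Z, ∀ i k, σ (C.evMat n Z i k) = C.evMat n Z (π i) k := by
  let g : Z → Z := fun P => ⟨(hZ σ P.1 P.2).choose, (hZ σ P.1 P.2).choose_spec.1⟩
  have hg : ∀ (P : Z) (i : ℕ), (g P).1 (C.b i) = σ (P.1 (C.b i)) :=
    fun P => (hZ σ P.1 P.2).choose_spec.2
  have hinj : Function.Injective g := by
    intro P Q hPQ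
    apply Subtype.ext
    apply AlgHom.toLinearMap_injective
    apply C.b.ext
    intro i
    apply σ.injective
    change σ (P.1 (C.b i)) = σ (Q.1 (C.b i))
    rw [← hg, ← hg, hPQ]
  refine ⟨Equiv.ofBijective g (Finite.injective_iff_bijective.mp hinj), fun i k => ?_⟩
  exact (hg i k).symm

theorem pb_mulMap_injective {e m n : ℕ} (h : e + m ≤ n) {s : Fin (C.dim e) → ℚ} (hs : s ≠ 0) :
    Function.Injective (mulMap (pbC C e m n) s) := by
  rw [← LinearMap.ker_eq_bot, LinearMap.ker_eq_bot']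
  intro y hy
  have h1 : ∀ k', ∑ a, ∑ k, algebraMap ℚ Qb (pbC C e m n a k k') * ratVec s a * ratVec y k = 0 := by
    intro k'
    have h2 := congrArg (algebraMap ℚ Qb) (congrFun hy k')
    simpa [mulMap, ratVec, map_sum, map_mul] using h2
  have hz : ∀ {κ : Type} (u : κ → ℚ), ratVec u = 0 → u = 0 := by
    intro κ u hu
    apply pb_ratVec_injective
    rw [hu]
    funext k
    simp [ratVec]
  rcases pb_hnzd C h _ _ h1 with h3 | h3
  · exact absurd (hz s h3) hs
  · exact hz y h3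

theorem pbW_eq_map {e m n : ℕ} (h : e + m = n) (hm : 2 * C.g ≤ m + 1) {Z : Finset (Pt A)}
    (hZ : C.GalStable Z) (hcard : Z.card = e) (he : C.wt (pbF C Z) ≤ e) :
    (⊤ : Submodule ℚ (Fin (C.dim m) → ℚ)).map (mulMap (pbC C e m n) (pbCoord C e Z)) = pbW C n Z ∧
      subHt 𝔳 (pbW C n Z) = C.Phi 𝔳 n Z := by
  have hd := subHt_dual 𝔳 (C.evMat n Z) (pb_hgal C hZ n)
    (linearIndependent_evMat C Z (by omega)) (pbW C n Z) (mem_pbW C n Z)
  refine ⟨?_, ?_⟩
  · have hle : (⊤ : Submodule ℚ (Fin (C.dim m) → ℚ)).map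
        (mulMap (pbC C e m n) (pbCoord C e Z)) ≤ pbW C n Z := by
      rintro _ ⟨y, -, rfl⟩
      rw [mem_pbW]
      intro P
      have h1 := apply_pbEl C n (ratVec (mulMap (pbC C e m n) (pbCoord C e Z) y)) P.1
      rw [pbEl_ratVec_mulMap C h.le, map_mul, pbEl_pbCoord C hZ he, apply_pbF C P.2,
        zero_mul] at h1
      exact h1.symm
    apply Submodule.eq_of_le_of_finrank_eq hle
    rw [Submodule.map_top, LinearMap.finrank_range_of_inj
      (pb_mulMap_injective C h.le (pbCoord_ne_zero C hZ he))]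
    have h1 := hd.1
    have h2 := dim_add_g C hm
    have h3 := dim_add_g C (n := n) (by omega)
    simp only [Fintype.card_coe, Fintype.card_fin, Module.finrank_fintype_fun_eq_card] at h1 ⊢
    omega
  · rw [hd.2]
    unfold WCurve.Phi
    congr!

/-! ### heights -/

theorem pb_finite_support_sum_log_mx (S : Finset Qb) :
    (Function.support fun v => ∑ α ∈ S, Real.log (mx 𝔳 v α)).Finite :=
  (S.finite_toSet.biUnion fun α _ => finite_support_log_mx 𝔳 α).subset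
    (S.support_sum fun α v => Real.log (mx 𝔳 v α))

theorem pb_ht_le (e : ℕ) : ∃ Cst : ℝ, ∀ Z : Finset (Pt A), C.GalStable Z → (pbS C Z).card ≤ e →
    C.wt (pbF C Z) ≤ e →
    ht 𝔳 (ratVec (pbCoord C e Z)) ≤ ∑ᶠ v, ∑ α ∈ pbS C Z, Real.log (mx 𝔳 v α) + Cst := by
  obtain ⟨γ₁, hγ₁⟩ := log_vnorm_prod_X_sub_C 𝔳 e
  obtain ⟨γ₂, hγ₂⟩ := exists_mconst_av_family 𝔳
    (fun x : Fin (e + 1) × Fin (C.dim e) => C.b.repr (C.t ^ (x.1 : ℕ)) x.2)
  obtain ⟨γ₃, hγ₃⟩ := exists_mconst_ac_le (e + 1)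
  refine ⟨(γ₁ + γ₂ + γ₃).tot, fun Z hZ hS he => ?_⟩
  unfold ht
  refine finsum_le_of_le_add _ _ (finite_support_log_vnorm 𝔳 _)
    (pb_finite_support_sum_log_mx 𝔳 _) _ fun v => ?_
  have hdeg : (pbPoly C Z).natDegree ≤ e := by rw [pbPoly_natDegree]; exact hS
  have hp0 : pbPoly C Z ≠ 0 := by
    intro h
    apply pbF_ne_zero C Z
    rw [pbF, h, map_zero]
  have hcv0 : cvec e (pbPoly C Z) ≠ 0 := by
    intro h
    apply hp0
    ext k
    rcases Nat.lt_or_ge k (e + 1) with hk | hk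
    · exact congrFun h ⟨k, hk⟩
    · rw [Polynomial.coeff_eq_zero_of_natDegree_lt (by omega), Polynomial.coeff_zero]
  have hcvpos : 0 < vnorm 𝔳 v (cvec e (pbPoly C Z)) := vnorm_pos 𝔳 v hcv0
  have hs0 : ratVec (pbCoord C e Z) ≠ 0 := by
    intro h
    apply pbCoord_ne_zero C hZ he
    apply pb_ratVec_injective
    rw [h]
    funext k
    simp [ratVec]
  have hspos : 0 < vnorm 𝔳 v (ratVec (pbCoord C e Z)) := vnorm_pos 𝔳 v hs0
  -- the local upper bound
  have hup : vnorm 𝔳 v (ratVec (pbCoord C e Z)) ≤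
      Real.exp (γ₃.c v) * (vnorm 𝔳 v (cvec e (pbPoly C Z)) * Real.exp (γ₂.c v)) := by
    apply vnorm_le 𝔳 v (by positivity)
    intro a
    have h1 : ratVec (pbCoord C e Z) a =
        ∑ k ∈ Finset.range (e + 1), (pbPoly C Z).coeff k * C.b.repr (C.t ^ k) a := by
      rw [ratVec_pbCoord C e hZ, pbF, Polynomial.aeval_eq_sum_range' (n := e + 1) (by omega)]
      simp [map_sum]
    rw [h1]
    have h2 := av_sum_le 𝔳 v (Finset.range (e + 1))
      (fun k => (pbPoly C Z).coeff k * C.b.repr (C.t ^ k) a)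
      (c := vnorm 𝔳 v (cvec e (pbPoly C Z)) * Real.exp (γ₂.c v)) (by positivity) (by
        intro k hk
        rw [map_mul]
        have hk' : k < e + 1 := Finset.mem_range.mp hk
        exact mul_le_mul (le_vnorm 𝔳 v (cvec e (pbPoly C Z)) ⟨k, hk'⟩) (hγ₂ v (⟨k, hk'⟩, a)).1
          ((𝔳.av v).nonneg _) hcvpos.le)
    rw [Finset.card_range] at h2
    exact h2.trans (mul_le_mul_of_nonneg_right (hγ₃ v) (by positivity))
  have hlog := Real.log_le_log hspos hup
  rw [Real.log_mul (Real.exp_pos _).ne' (by positivity), Real.log_mul hcvpos.ne'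
    (Real.exp_pos _).ne', Real.log_exp, Real.log_exp] at hlog
  have h3 := (abs_le.mp (hγ₁ v (pbS C Z).val hS)).2
  have h4 : ((pbS C Z).val.map fun a => Polynomial.X - Polynomial.C a).prod = pbPoly C Z := rfl
  have h5 : ((pbS C Z).val.map fun a => Real.log (mx 𝔳 v a)).sum =
      ∑ α ∈ pbS C Z, Real.log (mx 𝔳 v α) := rfl
  rw [h4, h5] at h3
  have h6 : (γ₁ + γ₂ + γ₃).c v = γ₁.c v + γ₂.c v + γ₃.c v := rfl
  rw [h6]
  linarith

section main

variable {C} {Δ : ℚ[X]}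
  (hΔ : ∀ α : Qb, aeval α Δ ≠ 0 → ∃ F : Finset (Pt A), (∀ P, P ∈ F ↔ P C.t = α) ∧ F.card = C.d)

include hΔ

/-- `h(Z) = ∑_v ∑_{α ∈ S} log max(1, |α|_v)`. -/
theorem pb_hE_eq {Z : Finset (Pt A)} (hZ : IsPullback C Δ Z) :
    C.hE 𝔳 Z = ∑ᶠ v, ∑ α ∈ pbS C Z, Real.log (mx 𝔳 v α) := by
  unfold WCurve.hE
  refine finsum_congr fun v => ?_
  have hd : (C.d : ℝ) ≠ 0 := Nat.cast_ne_zero.mpr (d_pos C).ne'
  have h1 := pb_sum_comp hΔ hZ (fun α => Real.log (mx 𝔳 v α) / C.d)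
  unfold WCurve.lam
  rw [h1, Finset.mul_sum]
  refine Finset.sum_congr rfl fun α _ => ?_
  field_simp

/-- (T1) for a fixed cardinality. -/
theorem Phi_pullback_le_card (n e : ℕ) (h : e + 2 * C.g ≤ n) :
    ∃ Cst : ℝ, ∀ Z : Finset (Pt A), IsPullback C Δ Z → Z.card = e →
      C.Phi 𝔳 n Z ≤ ((n : ℝ) - Z.card + 1 - C.g) * C.hE 𝔳 Z + Cst := by
  obtain ⟨m, hm⟩ : ∃ m, e + m = n := ⟨n - e, by omega⟩
  obtain ⟨Cst₁, h₁⟩ := subHt_map 𝔳 (pbC C e m n) (pb_hnzd C hm.le)
  obtain ⟨Cst₂, h₂⟩ := pb_ht_le 𝔳 C e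
  refine ⟨C.dim m * Cst₂ + Cst₁, fun Z hZ hcard => ?_⟩
  have hcard' := pb_card_eq hΔ hZ
  have hdpos := d_pos C
  have hwt : C.wt (pbF C Z) ≤ e := by
    rw [← hcard, hcard']
    exact pbF_wt_le C Z
  have hS : (pbS C Z).card ≤ e := by
    rw [← hcard, hcard']
    exact Nat.le_mul_of_pos_left _ hdpos
  obtain ⟨hW, hPhi⟩ := pbW_eq_map 𝔳 C hm (by omega) hZ.1 hcard hwt
  have h3 := (abs_le.mp (h₁ (pbCoord C e Z) (pbCoord_ne_zero C hZ.1 hwt) ⊤)).2
  rw [hW, hPhi, subHt_top, finrank_top, Module.finrank_fintype_fun_eq_card, Fintype.card_fin] at h3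
  have h4 := h₂ Z hZ.1 hS hwt
  rw [← pb_hE_eq 𝔳 hΔ hZ] at h4
  have h5 : ((n : ℝ) - Z.card + 1 - C.g) = C.dim m := by
    have := dim_add_g C (n := m) (by omega)
    have h6 : (C.dim m : ℝ) + C.g = m + 1 := by exact_mod_cast this
    have h7 : (e : ℝ) + m = n := by exact_mod_cast hm
    rw [hcard]
    linarith
  rw [h5]
  have h8 : (C.dim m : ℝ) * ht 𝔳 (ratVec (pbCoord C e Z)) ≤ C.dim m * (C.hE 𝔳 Z + Cst₂) :=
    mul_le_mul_of_nonneg_left h4 (Nat.cast_nonneg _)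
  linarith

/-- (T1) for any `Δ` controlling the ramification. -/
theorem Phi_pullback_le_of (n z : ℕ) (h : z + 2 * C.g ≤ n) :
    ∃ Cst : ℝ, ∀ Z : Finset (Pt A), IsPullback C Δ Z → Z.card ≤ z →
      C.Phi 𝔳 n Z ≤ ((n : ℝ) - Z.card + 1 - C.g) * C.hE 𝔳 Z + Cst := by
  have hall : ∀ e : ℕ, ∃ Cst : ℝ, e ≤ z → ∀ Z : Finset (Pt A), IsPullback C Δ Z → Z.card = e →
      C.Phi 𝔳 n Z ≤ ((n : ℝ) - Z.card + 1 - C.g) * C.hE 𝔳 Z + Cst := by
    intro e
    by_cases he : e ≤ z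
    · obtain ⟨Cst, hC⟩ := Phi_pullback_le_card 𝔳 hΔ n e (by omega)
      exact ⟨Cst, fun _ => hC⟩
    · exact ⟨0, fun h => absurd h he⟩
  choose Cst hCst using hall
  refine ⟨∑ e ∈ Finset.range (z + 1), |Cst e|, fun Z hZ hcard => ?_⟩
  have h1 := hCst Z.card hcard Z hZ rfl
  have h2 : Cst Z.card ≤ ∑ e ∈ Finset.range (z + 1), |Cst e| :=
    (le_abs_self _).trans (Finset.single_le_sum (f := fun e => |Cst e|) (fun _ _ => abs_nonneg _)
      (Finset.mem_range.mpr (by omega)))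
  linarith

end main

/-- (T1), from the part of (X2) `same_fibre_lower` which says that the fibres of `t` outside the
zeros of a nonzero rational polynomial `Δ` have exactly `d` points. -/
theorem Phi_pullback_le_of_fibre
    (hX2 : ∃ Δ : ℚ[X], Δ ≠ 0 ∧
      ∀ α : Qb, aeval α Δ ≠ 0 → ∃ F : Finset (Pt A), (∀ P, P ∈ F ↔ P C.t = α) ∧ F.card = C.d) :
    ∃ Δ : Polynomial ℚ, Δ ≠ 0 ∧
    ∀ (n z : ℕ), z + 2 * C.g ≤ n → ∃ Cst : ℝ, ∀ Z : Finset (Pt A), IsPullback C Δ Z → Z.card ≤ z →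
      C.Phi 𝔳 n Z ≤ ((n : ℝ) - Z.card + 1 - C.g) * C.hE 𝔳 Z + Cst := by
  obtain ⟨Δ, hΔ0, hΔ⟩ := hX2
  exact ⟨Δ, hΔ0, fun n z h => Phi_pullback_le_of 𝔳 hΔ n z h⟩

end Fermat.Agent.S17.H
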