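import Mathlib

/-!
# S17 / H / LA5 (Siegel's lemma), part 2: a primitive integral basis of a rational subspace

`exists_primitive_basis` : every subspace `W` of `ℚ^κ` has a basis consisting of integral vectors
such that for every prime `p` some maximal minor of the matrix of the basis is prime to `p`.
-/

set_option autoImplicit false

namespace Fermat.Agent.S17.H

open Matrix

namespace SiegelBasis

/-- first step of Cauchy-Binet. -/
theorem det_mul_eq_sum_fun {R : Type*} [CommRing R] {ι κ : Type*} [Fintype ι] [DecidableEq ι]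
    [Fintype κ] [DecidableEq κ] (A : Matrix ι κ R) (B : Matrix κ ι R) :
    (A * B).det = ∑ p : ι → κ, (A.submatrix id p).det * ∏ i, B (p i) i := by
  calc (A * B).det
      = ∑ p : ι → κ, ∑ σ : Equiv.Perm ι,
          ((Equiv.Perm.sign σ : ℤ) : R) * ∏ i, A (σ i) (p i) * B (p i) i := by
        simp only [Matrix.det_apply', Matrix.mul_apply, Finset.prod_univ_sum, Finset.mul_sum,
          Fintype.piFinset_univ]
        rw [Finset.sum_comm]
    _ = ∑ p : ι → κ, (A.submatrix id p).det * ∏ i, B (p i) i := by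
        refine Finset.sum_congr rfl fun p _ => ?_
        rw [Matrix.det_apply', Finset.sum_mul]
        refine Finset.sum_congr rfl fun σ _ => ?_
        rw [Finset.prod_mul_distrib]
        simp [mul_assoc]

/-- A matrix over a field with independent rows has a nonzero maximal minor. -/
theorem exists_det_submatrix_ne_zero {F : Type*} [Field F] {ι κ : Type*} [Fintype ι]
    [DecidableEq ι] [Fintype κ] (A : Matrix ι κ F) (hA : LinearIndependent F A.row) :
    ∃ K : ι → κ, (A.submatrix id K).det ≠ 0 := by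
  classical
  obtain ⟨B, hB⟩ : ∃ B : Matrix κ ι F, A * B = 1 := by
    rw [← Matrix.mulVec_surjective_iff_exists_right_inverse]
    have hr : A.rank = Fintype.card ι := hA.rank_matrix
    have htop : LinearMap.range A.mulVecLin = ⊤ := by
      apply Submodule.eq_top_of_finrank_eq
      rw [Module.finrank_fintype_fun_eq_card]
      exact hr
    intro y
    have : y ∈ LinearMap.range A.mulVecLin := htop ▸ Submodule.mem_top
    obtain ⟨x, hx⟩ := this
    exact ⟨x, hx⟩
  by_contra hcon
  push Not at hcon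
  have h1 := det_mul_eq_sum_fun A B
  rw [hB, Matrix.det_one] at h1
  rw [Finset.sum_eq_zero (fun p _ => by rw [hcon p, zero_mul])] at h1
  exact one_ne_zero h1

/-- the inclusion `ℤ^κ → ℚ^κ`. -/
def castLin (κ : Type*) : (κ → ℤ) →ₗ[ℤ] (κ → ℚ) where
  toFun x := fun k => (x k : ℚ)
  map_add' x y := by funext k; simp
  map_smul' r x := by funext k; simp

@[simp] theorem castLin_apply {κ : Type*} (x : κ → ℤ) (k : κ) : castLin κ x k = (x k : ℚ) := rfl

theorem castLin_injective (κ : Type*) : Function.Injective (castLin κ) := by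
  intro x y h
  funext k
  have := congrFun h k
  simpa using this

/-- the lattice `W ∩ ℤ^κ`. -/
def lat {κ : Type*} (W : Submodule ℚ (κ → ℚ)) : Submodule ℤ (κ → ℤ) :=
  (W.restrictScalars ℤ).comap (castLin κ)

theorem mem_lat {κ : Type*} (W : Submodule ℚ (κ → ℚ)) (x : κ → ℤ) :
    x ∈ lat W ↔ castLin κ x ∈ W := Iff.rfl

theorem exists_int_multiple {κ : Type*} [Finite κ] (x : κ → ℚ) :
    ∃ (n : ℤ) (y : κ → ℤ), n ≠ 0 ∧ castLin κ y = n • x := by
  obtain ⟨b, hb⟩ := IsLocalization.exist_integer_multiples_of_finite (nonZeroDivisors ℤ) x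
  choose y hy using hb
  refine ⟨b, y, nonZeroDivisors.coe_ne_zero b, ?_⟩
  funext k
  have := hy k
  simpa using this

end SiegelBasis

open SiegelBasis

theorem exists_primitive_basis {κ : Type*} [Fintype κ] (W : Submodule ℚ (κ → ℚ)) :
    ∃ (r : ℕ) (a : Module.Basis (Fin r) ℚ W) (A : Matrix (Fin r) κ ℤ),
      (∀ i k, ((a i : W) : κ → ℚ) k = (A i k : ℚ)) ∧
      ∀ p : ℕ, p.Prime → ∃ K : Fin r → κ, ¬ (p : ℤ) ∣ (A.submatrix id K).det := by
  classical
  set Λ := lat W with hΛ
  set r := Module.finrank ℤ Λ with hr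
  set b : Module.Basis (Fin r) ℤ Λ := Module.finBasis ℤ Λ with hb
  set A : Matrix (Fin r) κ ℤ := fun i k => (b i : κ → ℤ) k with hA
  have hmem : ∀ i, castLin κ (b i : κ → ℤ) ∈ W := fun i => (b i).2
  set v : Fin r → W := fun i => ⟨castLin κ (b i : κ → ℤ), hmem i⟩ with hv
  have hliZ : LinearIndependent ℤ (fun i => castLin κ (b i : κ → ℤ)) := by
    have h1 : LinearIndependent ℤ (fun i => (b i : κ → ℤ)) :=
      b.linearIndependent.map' Λ.subtype (Submodule.ker_subtype Λ)
    exact h1.map' (castLin κ) (LinearMap.ker_eq_bot.2 (castLin_injective κ))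
  have hliQ : LinearIndependent ℚ (fun i => castLin κ (b i : κ → ℤ)) :=
    (LinearIndependent.iff_fractionRing ℤ ℚ).1 hliZ
  have hli : LinearIndependent ℚ v := by
    apply LinearIndependent.of_comp W.subtype
    exact hliQ
  have hsp : ⊤ ≤ Submodule.span ℚ (Set.range v) := by
    rintro ⟨x, hx⟩ -
    obtain ⟨n, y, hn, hy⟩ := exists_int_multiple x
    have hyΛ : y ∈ Λ := by
      rw [hΛ, mem_lat, hy]
      have : n • x = (n : ℚ) • x := by
        funext k; simp
      rw [this]
      exact W.smul_mem _ hx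
    obtain ⟨c, hrepr⟩ : ∃ c : Fin r → ℤ, (⟨y, hyΛ⟩ : Λ) = ∑ i, c i • b i :=
      ⟨fun i => b.repr ⟨y, hyΛ⟩ i, (b.sum_repr _).symm⟩
    have hx' : (⟨x, hx⟩ : W) = ∑ i, ((c i : ℚ) / n) • v i := by
      apply Subtype.ext
      have h1 : y = ∑ i, c i • (b i : κ → ℤ) := by
        have := congrArg Subtype.val hrepr
        rw [AddSubmonoidClass.coe_finsetSum] at this
        exact this
      have hnQ : (n : ℚ) ≠ 0 := by exact_mod_cast hn
      funext k
      have h1k : y k = ∑ i, c i * (b i : κ → ℤ) k := by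
        have := congrFun h1 k
        rw [Finset.sum_apply] at this
        exact this
      have h2k : (y k : ℚ) = ∑ i, (c i : ℚ) * ((b i : κ → ℤ) k : ℚ) := by
        rw [h1k]; push_cast; rfl
      have h3k : (y k : ℚ) = n * x k := by
        have := congrFun hy k
        simpa using this
      have h4 : ((∑ i, ((c i : ℚ) / n) • v i : W) : κ → ℚ) k =
          ∑ i, ((c i : ℚ) / n) * ((b i : κ → ℤ) k : ℚ) := by
        rw [AddSubmonoidClass.coe_finsetSum, Finset.sum_apply]
        rfl
      rw [h4]
      have h5 : ∑ i, ((c i : ℚ) / n) * ((b i : κ → ℤ) k : ℚ) =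
          (∑ i, (c i : ℚ) * ((b i : κ → ℤ) k : ℚ)) / n := by
        rw [Finset.sum_div]
        exact Finset.sum_congr rfl fun i _ => by ring
      rw [h5, ← h2k, h3k]
      field_simp
    rw [hx']
    exact Submodule.sum_mem _ fun i _ => Submodule.smul_mem _ _ (Submodule.subset_span ⟨i, rfl⟩)
  refine ⟨r, Module.Basis.mk hli hsp, A, ?_, ?_⟩
  · intro i k
    rw [Module.Basis.mk_apply]
    rfl
  · intro p hp
    by_contra hcon
    push Not at hcon
    have : Fact p.Prime := ⟨hp⟩
    set Ab : Matrix (Fin r) κ (ZMod p) := A.map (Int.castRingHom (ZMod p)) with hAb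
    have hdet : ∀ K : Fin r → κ, (Ab.submatrix id K).det = 0 := by
      intro K
      have h1 : Ab.submatrix id K = (Int.castRingHom (ZMod p)).mapMatrix (A.submatrix id K) := rfl
      rw [h1, ← RingHom.map_det]
      exact (ZMod.intCast_zmod_eq_zero_iff_dvd _ p).2 (hcon K)
    have hdep : ¬ LinearIndependent (ZMod p) Ab.row := fun h => by
      obtain ⟨K, hK⟩ := exists_det_submatrix_ne_zero Ab h
      exact hK (hdet K)
    rw [Fintype.not_linearIndependent_iff] at hdep
    obtain ⟨g, hg, i0, hi0⟩ := hdep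
    choose x hx using fun i => ZMod.intCast_surjective (g i)
    have hdiv : ∀ k, (p : ℤ) ∣ ∑ i, x i * A i k := by
      intro k
      rw [← ZMod.intCast_zmod_eq_zero_iff_dvd]
      have h1 := congrFun hg k
      rw [Finset.sum_apply, Pi.zero_apply] at h1
      push_cast
      refine Eq.trans (Finset.sum_congr rfl fun i _ => ?_) h1
      rw [hx i]
      rfl
    choose y hy using hdiv
    have hpQ : (p : ℚ) ≠ 0 := by exact_mod_cast hp.ne_zero
    have hyΛ : y ∈ Λ := by
      rw [hΛ, mem_lat]
      have h1 : castLin κ y = (1 / (p : ℚ)) • ∑ i, (x i : ℚ) • castLin κ (b i : κ → ℤ) := by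
        funext k
        have h2 : ((∑ i, x i * A i k : ℤ) : ℚ) = ((p : ℤ) * y k : ℤ) := by rw [hy k]
        push_cast at h2
        rw [Pi.smul_apply, Finset.sum_apply, castLin_apply, smul_eq_mul]
        have h3 : ∑ i, ((x i : ℚ) • castLin κ (b i : κ → ℤ)) k = ∑ i, (x i : ℚ) * (A i k : ℚ) :=
          rfl
        rw [h3, h2]
        field_simp
      rw [h1]
      exact W.smul_mem _ (W.sum_mem fun i _ => W.smul_mem _ (hmem i))
    have h1 : (p : ℤ) • (⟨y, hyΛ⟩ : Λ) = ∑ i, x i • b i := by
      apply Subtype.ext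
      rw [AddSubmonoidClass.coe_finsetSum]
      funext k
      rw [Finset.sum_apply]
      exact (hy k).symm
    have h2 : (p : ℤ) * b.repr ⟨y, hyΛ⟩ i0 = x i0 := by
      have h3 := congrArg (fun t => b.repr t i0) h1
      simp only [map_smul, Finsupp.smul_apply, smul_eq_mul] at h3
      rw [h3, b.repr_sum_self]
    apply hi0
    rw [← hx i0, ← h2]
    simp

end Fermat.Agent.S17.H
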