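import Mathlib

/-!
# S17 / H / LA5 (Siegel's lemma), part 1: the pigeonhole argument for integer matrices

`exists_small_vecMul` : let `A` be an integer matrix with rows indexed by `ι`, `K0` a choice of
columns with maximal `|det A_{K0}| ≠ 0`, and `|det A_{K0}| < (B+1)^w`, `w = card ι`.  Then there is an
integer combination `y ᵥ* A ≠ 0` of the rows all of whose entries are `≤ w B` in absolute value.
-/

set_option autoImplicit false

namespace Fermat.Agent.S17.H

open Matrix

namespace SiegelInt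

/-- the index of the row lattice of a square integer matrix. -/
theorem card_quotient_range_toLin' {ι : Type*} [Fintype ι] [DecidableEq ι] (M : Matrix ι ι ℤ)
    (hM : M.det ≠ 0) :
    Nat.card ((ι → ℤ) ⧸ LinearMap.range (Matrix.toLin' M)) = M.det.natAbs := by
  have hinj : Function.Injective (Matrix.toLin' M) := by
    rw [← LinearMap.ker_eq_bot, LinearMap.ker_eq_bot']
    intro v hv
    exact Matrix.eq_zero_of_mulVec_eq_zero hM (by simpa using hv)
  have h := Submodule.natAbs_det_equiv (LinearMap.range (Matrix.toLin' M))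
    (LinearEquiv.ofInjective (Matrix.toLin' M) hinj)
  rw [← h]
  congr 1
  rw [← LinearMap.det_toLin' M]
  congr 1

/-- Cramer's rule for the rows of a rectangular matrix. -/
theorem det_mul_vecMul_apply {ι κ : Type*} [Fintype ι] [DecidableEq ι] (A : Matrix ι κ ℤ)
    (K0 : ι → κ) (y : ι → ℤ) (k : κ) :
    (A.submatrix id K0).det * (y ᵥ* A) k =
      ∑ j, (y ᵥ* A) (K0 j) * (A.submatrix id (Function.update K0 j k)).det := by
  set M := A.submatrix id K0 with hM
  set b : ι → ℤ := fun i => A i k with hb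
  have h1 : M *ᵥ cramer M b = M.det • b := Matrix.mulVec_cramer M b
  have h2 : y ⬝ᵥ (M *ᵥ cramer M b) = (y ᵥ* M) ⬝ᵥ cramer M b := Matrix.dotProduct_mulVec _ _ _
  rw [h1, dotProduct_smul, smul_eq_mul] at h2
  have h3 : y ⬝ᵥ b = (y ᵥ* A) k := rfl
  rw [h3] at h2
  rw [h2, dotProduct]
  refine Finset.sum_congr rfl fun j _ => ?_
  have h4 : (y ᵥ* M) j = (y ᵥ* A) (K0 j) := rfl
  rw [h4, Matrix.cramer_apply]
  congr 2
  ext i j'
  by_cases hj : j' = j
  · subst hj
    simp [hM, hb]
  · simp [hM, hj]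

end SiegelInt

open SiegelInt

theorem exists_small_vecMul {ι κ : Type*} [Fintype ι] [DecidableEq ι] (A : Matrix ι κ ℤ)
    (K0 : ι → κ) (h0 : (A.submatrix id K0).det ≠ 0)
    (hmax : ∀ K : ι → κ, |(A.submatrix id K).det| ≤ |(A.submatrix id K0).det|)
    (B : ℕ) (hB : (A.submatrix id K0).det.natAbs < (B + 1) ^ Fintype.card ι) :
    ∃ y : ι → ℤ, y ᵥ* A ≠ 0 ∧ ∀ k, |(y ᵥ* A) k| ≤ Fintype.card ι * B := by
  classical
  set M := A.submatrix id K0 with hM
  set N := LinearMap.range (Matrix.toLin' Mᵀ) with hN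
  have hcard : Nat.card ((ι → ℤ) ⧸ N) = M.det.natAbs := by
    rw [hN, card_quotient_range_toLin' Mᵀ (by rwa [Matrix.det_transpose]), Matrix.det_transpose]
  have hfin : Finite ((ι → ℤ) ⧸ N) := by
    apply Nat.finite_of_card_ne_zero
    rw [hcard]
    exact Int.natAbs_ne_zero.2 h0
  have := Fintype.ofFinite ((ι → ℤ) ⧸ N)
  obtain ⟨z₁, z₂, hne, heq⟩ := Fintype.exists_ne_map_eq_of_card_lt
    (fun z : ι → Fin (B + 1) => (Submodule.Quotient.mk (fun i => ((z i : ℕ) : ℤ)) : (ι → ℤ) ⧸ N))
    (by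
      rw [← Nat.card_eq_fintype_card, hcard]
      simpa using hB)
  rw [Submodule.Quotient.eq] at heq
  obtain ⟨y, hy⟩ := heq
  have hyM : y ᵥ* M = fun i => ((z₁ i : ℕ) : ℤ) - ((z₂ i : ℕ) : ℤ) := by
    rw [← Matrix.mulVec_transpose, ← Matrix.toLin'_apply, hy]
    rfl
  have hyA : ∀ j, (y ᵥ* A) (K0 j) = ((z₁ j : ℕ) : ℤ) - ((z₂ j : ℕ) : ℤ) := fun j =>
    congrFun hyM j
  refine ⟨y, ?_, ?_⟩
  · intro hzero
    apply hne
    funext j
    have := hyA j
    rw [hzero, Pi.zero_apply] at this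
    apply Fin.ext
    omega
  · intro k
    have hsmall : ∀ j, |(y ᵥ* A) (K0 j)| ≤ B := by
      intro j
      rw [hyA j, abs_le]
      have h1 := (z₁ j).2
      have h2 := (z₂ j).2
      constructor <;> omega
    have hpos : 0 < |M.det| := abs_pos.2 h0
    have h1 : |M.det| * |(y ᵥ* A) k| ≤ |M.det| * (Fintype.card ι * B) := by
      rw [← abs_mul, det_mul_vecMul_apply]
      calc |∑ j, (y ᵥ* A) (K0 j) * (A.submatrix id (Function.update K0 j k)).det|
          ≤ ∑ j, |(y ᵥ* A) (K0 j) * (A.submatrix id (Function.update K0 j k)).det| :=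
            Finset.abs_sum_le_sum_abs _ _
        _ ≤ ∑ _j : ι, (B : ℤ) * |M.det| := by
            refine Finset.sum_le_sum fun j _ => ?_
            rw [abs_mul]
            exact mul_le_mul (hsmall j) (hmax _) (abs_nonneg _) (by positivity)
        _ = |M.det| * (Fintype.card ι * B) := by
            rw [Finset.sum_const, Finset.card_univ, nsmul_eq_mul]
            ring
    exact le_of_mul_le_mul_left h1 hpos

end Fermat.Agent.S17.H
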