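import Fermat.Agent.S17.H.Abs
import Fermat.Agent.S17.H.SiegelInt
import Fermat.Agent.S17.H.SiegelBasis

/-!
# S17 / H / LA5 : Siegel's lemma with the Schmidt height

`siegel_of` : Siegel's lemma, from the independence of `subHt` of the basis (node LA2, taken as a
hypothesis here; the final wrapper is in `H/Siegel.lean`).
-/

set_option autoImplicit false

noncomputable section

open scoped Classical

namespace Fermat.Agent.S17.H

open Matrix

namespace SiegelHt

variable (𝔳 : AbsFam)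

theorem av_some_intCast_le_one (p : Nat.Primes) (d : ℤ) :
    𝔳.av (some p) (algebraMap ℚ Qb (d : ℚ)) ≤ 1 := by
  have : Fact (p : ℕ).Prime := ⟨p.2⟩
  rw [𝔳.av_fin]
  exact_mod_cast padicNorm.of_int d

theorem av_some_intCast_eq_one (p : Nat.Primes) (d : ℤ) (h : ¬ ((p : ℕ) : ℤ) ∣ d) :
    𝔳.av (some p) (algebraMap ℚ Qb (d : ℚ)) = 1 := by
  have : Fact (p : ℕ).Prime := ⟨p.2⟩
  rw [𝔳.av_fin]
  exact_mod_cast (padicNorm.int_eq_one_iff d).2 h

theorem av_none_intCast (d : ℤ) : 𝔳.av none (algebraMap ℚ Qb (d : ℚ)) = |(d : ℝ)| := by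
  rw [𝔳.av_inf]
  push_cast
  rfl

theorem det_ratMat_submatrix {ι κ : Type*} [Fintype ι] [DecidableEq ι] (A : Matrix ι κ ℤ)
    (K : ι → κ) :
    Matrix.det ((ratMat fun i k => (A i k : ℚ)).submatrix id K) =
      algebraMap ℚ Qb (((A.submatrix id K).det : ℤ) : ℚ) := by
  have h1 : (ratMat fun i k => (A i k : ℚ)).submatrix id K =
      ((algebraMap ℚ Qb).comp (Int.castRingHom ℚ)).mapMatrix (A.submatrix id K) := rfl
  rw [h1, ← RingHom.map_det]
  rfl

theorem wnorm_some_eq_one {ι κ : Type*} [Fintype ι] [DecidableEq ι] [Finite κ] (A : Matrix ι κ ℤ)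
    (p : Nat.Primes) (h : ∃ K : ι → κ, ¬ ((p : ℕ) : ℤ) ∣ (A.submatrix id K).det) :
    wnorm 𝔳 (some p) (ratMat fun i k => (A i k : ℚ)) = 1 := by
  obtain ⟨K, hK⟩ := h
  have : Nonempty (ι → κ) := ⟨K⟩
  apply le_antisymm
  · refine ciSup_le fun K' => ?_
    rw [det_ratMat_submatrix]
    exact av_some_intCast_le_one 𝔳 p _
  · have h1 := le_ciSup (f := fun K : ι → κ =>
      𝔳.av (some p) (Matrix.det ((ratMat fun i k => (A i k : ℚ)).submatrix id K)))
      (Set.finite_range _).bddAbove K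
    simp only [det_ratMat_submatrix, av_some_intCast_eq_one 𝔳 p _ hK] at h1
    simpa only [wnorm, det_ratMat_submatrix] using h1

theorem wnorm_none_eq {ι κ : Type*} [Fintype ι] [DecidableEq ι] [Finite κ] (A : Matrix ι κ ℤ)
    (K0 : ι → κ) (hmax : ∀ K : ι → κ, |(A.submatrix id K).det| ≤ |(A.submatrix id K0).det|) :
    wnorm 𝔳 none (ratMat fun i k => (A i k : ℚ)) = |((A.submatrix id K0).det : ℝ)| := by
  have : Nonempty (ι → κ) := ⟨K0⟩
  apply le_antisymm
  · refine ciSup_le fun K' => ?_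
    rw [det_ratMat_submatrix, av_none_intCast]
    exact_mod_cast hmax K'
  · have h1 := le_ciSup (f := fun K : ι → κ =>
      𝔳.av none (Matrix.det ((ratMat fun i k => (A i k : ℚ)).submatrix id K)))
      (Set.finite_range _).bddAbove K0
    simp only [det_ratMat_submatrix, av_none_intCast] at h1
    simpa only [wnorm, det_ratMat_submatrix, av_none_intCast] using h1

theorem wht_eq_log {ι κ : Type*} [Fintype ι] [DecidableEq ι] [Finite κ] (A : Matrix ι κ ℤ)
    (hprim : ∀ p : ℕ, p.Prime → ∃ K : ι → κ, ¬ (p : ℤ) ∣ (A.submatrix id K).det)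
    (K0 : ι → κ) (hmax : ∀ K : ι → κ, |(A.submatrix id K).det| ≤ |(A.submatrix id K0).det|) :
    wht 𝔳 (ratMat fun i k => (A i k : ℚ)) = Real.log |((A.submatrix id K0).det : ℝ)| := by
  rw [wht, finsum_eq_single _ none, wnorm_none_eq 𝔳 A K0 hmax]
  intro v hv
  cases v with
  | none => exact absurd rfl hv
  | some p => rw [wnorm_some_eq_one 𝔳 A p (hprim p p.2), Real.log_one]

theorem finsum_le_none {α : Type*} (f : Option α → ℝ) (h : ∀ a, f (some a) ≤ 0)
    (h0 : 0 ≤ f none) : ∑ᶠ v, f v ≤ f none := by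
  by_cases hfin : (Function.support f).Finite
  · rw [finsum_eq_sum_of_support_subset f (s := insert none hfin.toFinset)
      (by intro x hx; simp [hx]),
      ← Finset.add_sum_erase _ f (Finset.mem_insert_self none _)]
    have : ∑ x ∈ (insert none hfin.toFinset).erase none, f x ≤ 0 := by
      refine Finset.sum_nonpos fun x hx => ?_
      cases x with
      | none => simp at hx
      | some a => exact h a
    linarith
  · rw [finsum_of_infinite_support hfin]
    exact h0

theorem ht_ratVec_int_le {κ : Type*} [Finite κ] (c : κ → ℤ) (hc : c ≠ 0) (Bd : ℝ)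
    (hBd : ∀ k, |(c k : ℝ)| ≤ Bd) : ht 𝔳 (ratVec fun k => (c k : ℚ)) ≤ Real.log Bd := by
  obtain ⟨k0, hk0⟩ : ∃ k0, c k0 ≠ 0 := by
    by_contra hcon
    push Not at hcon
    exact hc (funext hcon)
  have : Nonempty κ := ⟨k0⟩
  have hone : (1 : ℝ) ≤ vnorm 𝔳 none (ratVec fun k => (c k : ℚ)) := by
    have h1 := le_ciSup (f := fun k : κ => 𝔳.av none (ratVec (fun k => (c k : ℚ)) k))
      (Set.finite_range _).bddAbove k0
    have h2 : (1 : ℝ) ≤ 𝔳.av none (ratVec (fun k => (c k : ℚ)) k0) := by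
      rw [ratVec, av_none_intCast]
      exact_mod_cast Int.one_le_abs hk0
    exact h2.trans h1
  have hle : vnorm 𝔳 none (ratVec fun k => (c k : ℚ)) ≤ Bd := by
    refine ciSup_le fun k => ?_
    rw [ratVec, av_none_intCast]
    exact hBd k
  refine (finsum_le_none _ (fun p => ?_) (Real.log_nonneg hone)).trans
    (Real.log_le_log (by linarith) hle)
  refine Real.log_nonpos (Real.iSup_nonneg fun k => (𝔳.av (some p)).nonneg _) ?_
  refine ciSup_le fun k => ?_
  rw [ratVec]
  exact av_some_intCast_le_one 𝔳 p _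

/-- the integer `B` with `B ^ w ≤ Δ < (B + 1) ^ w`. -/
theorem exists_root (Δ w : ℕ) (hΔ : 1 ≤ Δ) (hw : 1 ≤ w) :
    ∃ B : ℕ, 1 ≤ B ∧ B ^ w ≤ Δ ∧ Δ < (B + 1) ^ w := by
  have hex : ∃ B : ℕ, Δ < (B + 1) ^ w := ⟨Δ, by
    calc Δ < Δ + 1 := Nat.lt_succ_self _
      _ = (Δ + 1) ^ 1 := (pow_one _).symm
      _ ≤ (Δ + 1) ^ w := Nat.pow_le_pow_right (Nat.succ_pos _) hw⟩
  have hB0 : Nat.find hex ≠ 0 := by
    intro h0
    have := Nat.find_spec hex
    rw [h0] at this
    simp at this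
    omega
  obtain ⟨B', hB'⟩ := Nat.exists_eq_succ_of_ne_zero hB0
  refine ⟨Nat.find hex, Nat.one_le_iff_ne_zero.2 hB0, ?_, Nat.find_spec hex⟩
  have := Nat.find_min hex (m := B') (by omega)
  rw [hB']
  exact not_lt.1 this

end SiegelHt

open SiegelHt

variable (𝔳 : AbsFam)

/-- Siegel's lemma (weak Bombieri-Vaaler), from the independence of `subHt` of the basis. -/
theorem siegel_of
    (hbasis : ∀ {ι κ : Type} [Fintype ι] [Fintype κ] (W : Submodule ℚ (κ → ℚ))
      (a : Module.Basis ι ℚ W), subHt 𝔳 W = wht 𝔳 (ratMat fun i => ((a i : W) : κ → ℚ)))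
    {κ : Type} [Fintype κ] :
    ∃ Cst : ℝ, ∀ W : Submodule ℚ (κ → ℚ), W ≠ ⊥ → ∃ c ∈ W, c ≠ 0 ∧
      Module.finrank ℚ W * ht 𝔳 (ratVec c) ≤ subHt 𝔳 W + Cst := by
  refine ⟨Fintype.card κ * Real.log (Fintype.card κ), fun W hW => ?_⟩
  obtain ⟨r, a, A, haA, hprim⟩ := exists_primitive_basis W
  have hr : Module.finrank ℚ W = r := by
    rw [Module.finrank_eq_card_basis a, Fintype.card_fin]
  have hr1 : 1 ≤ r := by
    rw [← hr]
    exact Submodule.one_le_finrank_iff.2 hW
  have hrn : r ≤ Fintype.card κ := by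
    rw [← hr, ← Module.finrank_fintype_fun_eq_card ℚ]
    exact Submodule.finrank_le W
  obtain ⟨K1, hK1⟩ := hprim 2 Nat.prime_two
  have : Nonempty (Fin r → κ) := ⟨K1⟩
  obtain ⟨K0, hmax⟩ := Finite.exists_max fun K : Fin r → κ => |(A.submatrix id K).det|
  have h0 : (A.submatrix id K0).det ≠ 0 := by
    intro h
    have h1 := hmax K1
    rw [h, abs_zero] at h1
    have h2 : (A.submatrix id K1).det = 0 := abs_eq_zero.1 (le_antisymm h1 (abs_nonneg _))
    exact hK1 (h2 ▸ dvd_zero _)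
  set Δ : ℕ := (A.submatrix id K0).det.natAbs with hΔ
  have hΔ1 : 1 ≤ Δ := Nat.one_le_iff_ne_zero.2 (Int.natAbs_ne_zero.2 h0)
  obtain ⟨B, hB1, hBle, hBlt⟩ := exists_root Δ r hΔ1 hr1
  obtain ⟨y, hy0, hysmall⟩ := exists_small_vecMul A K0 h0 hmax B (by simpa using hBlt)
  have hsub : subHt 𝔳 W = Real.log (Δ : ℝ) := by
    rw [hbasis W a]
    have h1 : (fun i => ((a i : W) : κ → ℚ)) = fun i k => (A i k : ℚ) := by
      funext i k
      exact haA i k
    rw [h1]
    have h2 := wht_eq_log 𝔳 A hprim K0 hmax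
    have h3 : |((A.submatrix id K0).det : ℝ)| = (Δ : ℝ) := by
      rw [hΔ, Nat.cast_natAbs]
      push_cast
      rfl
    rw [h3] at h2
    convert h2
  refine ⟨fun k => ((y ᵥ* A) k : ℚ), ?_, ?_, ?_⟩
  · have h1 : (fun k => ((y ᵥ* A) k : ℚ)) = ∑ i, (y i : ℚ) • ((a i : W) : κ → ℚ) := by
      funext k
      rw [Finset.sum_apply]
      simp only [Pi.smul_apply, smul_eq_mul, haA, Matrix.vecMul, dotProduct]
      push_cast
      rfl
    rw [h1]
    exact W.sum_mem fun i _ => W.smul_mem _ (a i).2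
  · intro h
    apply hy0
    funext k
    have := congrFun h k
    simpa using this
  · have hht := ht_ratVec_int_le 𝔳 (y ᵥ* A) hy0 ((r : ℝ) * B) (by
      intro k
      have := hysmall k
      rw [Fintype.card_fin] at this
      exact_mod_cast this)
    have hrpos : (0 : ℝ) < r := by exact_mod_cast hr1
    have hBpos : (0 : ℝ) < B := by exact_mod_cast hB1
    have hnpos : (0 : ℝ) < Fintype.card κ := lt_of_lt_of_le hrpos (by exact_mod_cast hrn)
    rw [hr, hsub]
    calc (r : ℝ) * ht 𝔳 (ratVec fun k => ((y ᵥ* A) k : ℚ))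
        ≤ r * Real.log ((r : ℝ) * B) := mul_le_mul_of_nonneg_left hht hrpos.le
      _ = r * Real.log r + Real.log ((B : ℝ) ^ r) := by
          rw [Real.log_mul hrpos.ne' hBpos.ne', Real.log_pow]
          ring
      _ ≤ Fintype.card κ * Real.log (Fintype.card κ) + Real.log (Δ : ℝ) := by
          refine add_le_add ?_ ?_
          · refine mul_le_mul (by exact_mod_cast hrn)
              (Real.log_le_log hrpos (by exact_mod_cast hrn))
              (Real.log_nonneg (by exact_mod_cast hr1)) hnpos.le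
          · exact Real.log_le_log (by positivity) (by exact_mod_cast hBle)
      _ = Real.log (Δ : ℝ) + Fintype.card κ * Real.log (Fintype.card κ) := add_comm _ _

end Fermat.Agent.S17.H
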